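import Fermat.Agent.Frob.Exists

/-!
# Input of the abstract Eisenstein descent (Mazur)

`EisInput hq N P T J` collects everything the abstract descent needs about the Jacobian `J`.
-/

set_option autoImplicit false

namespace Fermat.Agent.Mazur

open Fermat.Agent.Frob

/-- The `P`-primary part of the `q`-power torsion of `J`. -/
def PPrim (q : ℕ) {R : Type*} [CommRing R] (P : Ideal R) (J : Type*) [AddCommGroup J]
    [Module R J] : AddSubgroup J where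
  carrier := {x | (∃ n : ℕ, q ^ n • x = 0) ∧ ∃ k : ℕ, ∀ r ∈ P ^ k, r • x = 0}
  zero_mem' := ⟨⟨0, smul_zero _⟩, ⟨0, fun _ _ => smul_zero _⟩⟩
  add_mem' := by
    rintro x y ⟨⟨n, hn⟩, ⟨k, hk⟩⟩ ⟨⟨m, hm⟩, ⟨l, hl⟩⟩
    refine ⟨⟨n + m, ?_⟩, ⟨k + l, fun r hr => ?_⟩⟩
    · rw [smul_add, pow_add, mul_comm, mul_smul, hn, smul_zero, mul_comm, mul_smul, hm, smul_zero,
        add_zero]
    · rw [smul_add, hk r (Ideal.pow_le_pow_right (Nat.le_add_right k l) hr),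
        hl r (Ideal.pow_le_pow_right (Nat.le_add_left l k) hr), add_zero]
  neg_mem' := by
    rintro x ⟨⟨n, hn⟩, ⟨k, hk⟩⟩
    exact ⟨⟨n, by rw [smul_neg, hn, neg_zero]⟩, ⟨k, fun r hr => by rw [smul_neg, hk r hr, neg_zero]⟩⟩

/-- the endomorphism of `J` given by a Galois automorphism -/
noncomputable def gEnd (J : Type*) [AddCommGroup J] [DistribMulAction GQ J] (g : GQ) :
    AddMonoid.End J :=
  DistribMulAction.toAddMonoidEnd GQ J g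

@[simp] lemma gEnd_apply {J : Type*} [AddCommGroup J] [DistribMulAction GQ J] (g : GQ) (x : J) :
    gEnd J g x = g • x := rfl

/-- The input of the abstract Eisenstein descent at the maximal ideal `P` (of residue
characteristic `q`) of the Hecke ring `R` acting on the Jacobian `J` of prime level `N`. -/
structure EisInput {q : ℕ} (hq : q.Prime) (N : ℕ) {R : Type*} [CommRing R] (P : Ideal R)
    (T : Nat.Primes → R) (J : Type*) [AddCommGroup J] [Module R J] [DistribMulAction GQ J]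
    [SMulCommClass GQ R J] : Prop where
  prime_N : N.Prime
  ne : q ≠ N
  isMaximal : P.IsMaximal
  q_mem : (q : R) ∈ P
  /-- `P` is Eisenstein -/
  eis : ∀ ℓ : Nat.Primes, (ℓ : ℕ) ≠ q → (ℓ : ℕ) ≠ N → T ℓ - (1 + ((ℓ : ℕ) : R)) ∈ P
  divisible : ∀ x : J, ∃ y : J, q • y = x
  /-- all torsion is finite -/
  finite : ∀ n : ℕ, n ≠ 0 → Finite {x : J // n • x = 0}
  smooth : ∀ x : J, ∃ U : Subgroup GQ, IsOpen (U : Set GQ) ∧ ∀ σ ∈ U, σ • x = x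
  /-- good reduction outside `N`, prime-to-residue-characteristic torsion injects -/
  unram : ∀ ℓ : Nat.Primes, (ℓ : ℕ) ≠ q → (ℓ : ℕ) ≠ N →
    ∀ A : ValuationSubring (AlgebraicClosure ℚ), A.LiesOverPrime ℓ →
      ∀ σ ∈ A.inertiaSubgroupIn ℚ, ∀ x : J, (∃ n : ℕ, q ^ n • (σ • x - x) = 0) → σ • x = x
  /-- Eichler--Shimura -/
  frob : ∀ ℓ : Nat.Primes, (ℓ : ℕ) ≠ q → (ℓ : ℕ) ≠ N →
    ∀ A : ValuationSubring (AlgebraicClosure ℚ), A.LiesOverPrime ℓ →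
      ∀ φ : GQ, A.IsFrobeniusAt φ ℓ → ∀ x ∈ PPrim q P J,
        φ • φ • x - T ℓ • φ • x + (ℓ : ℕ) • x = 0
  /-- a weight bound at one prime `ℓ ≠ q, N` -/
  weight : ∃ ℓ : Nat.Primes, (ℓ : ℕ) ≠ q ∧ (ℓ : ℕ) ≠ N ∧ ∃ (u : R) (n : ℕ), n ≠ 0 ∧
    ∀ x ∈ PPrim q P J, (u * (T ℓ - (1 + ((ℓ : ℕ) : R)))) • x = n • x
  /-- the weight bounds at `q` -/
  weight_q : ∃ (u : R) (n : ℕ), n ≠ 0 ∧
    ∀ x ∈ PPrim q P J, (u * ((T ⟨q, hq⟩) ^ 2 - (1 + (q : R)) ^ 2)) • x = n • x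
  /-- multiplicative reduction at `N` -/
  atN : ∃ B : ValuationSubring (AlgebraicClosure ℚ), B.LiesOverPrime N ∧
    (∀ τ ∈ B.inertiaSubgroupIn ℚ, ∀ τ' ∈ B.inertiaSubgroupIn ℚ, ∀ x ∈ PPrim q P J,
      τ • (τ' • x - x) - (τ' • x - x) = 0) ∧
    ∃ φ : GQ, B.IsFrobeniusAt φ N ∧ ∃ a : ℕ, ∀ x ∈ PPrim q P J,
      (((gEnd J φ) ^ 2 - 1) ^ a * ((gEnd J φ) ^ 2 - ((N ^ 2 : ℕ) : AddMonoid.End J)) ^ a :
        AddMonoid.End J) x = 0
  /-- good reduction at `q` with multiplicative connected part; `J₀` is the kernel of reduction -/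
  atq : ∃ (A : ValuationSubring (AlgebraicClosure ℚ)) (J₀ : AddSubgroup J), A.LiesOverPrime q ∧
    (∀ σ ∈ A.inertiaSubgroupIn ℚ, ∀ x : J, σ • x - x ∈ J₀) ∧
    (∀ φ : GQ, A.IsFrobeniusAt φ q → ∀ x : J, x ∈ J₀ → φ • x ∈ J₀) ∧
    (∀ (r : R) (x : J), x ∈ J₀ → r • x ∈ J₀) ∧
    (∀ φ : GQ, A.IsFrobeniusAt φ q → ∀ x ∈ PPrim q P J,
      φ • φ • x - T ⟨q, hq⟩ • φ • x + q • x ∈ J₀) ∧
    ∀ x ∈ PPrim q P J, x ∈ J₀ → ∀ σ ∈ A.inertiaSubgroupIn ℚ, ∀ n k : ℕ, q ^ n • x = 0 →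
      (∀ ζ : AlgebraicClosure ℚ, ζ ^ (q ^ n) = 1 → σ ζ = ζ ^ k) → σ • x = k • x

end Fermat.Agent.Mazur
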