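import Fermat.Agent.Frob.Exists
import Mathlib.RepresentationTheory.Homological.GroupCohomology.Hilbert90

/-!
# Hilbert 90 for the absolute Galois group of `ℚ`
-/

set_option autoImplicit false

namespace Fermat.Agent.Mazur

open Fermat.Agent.Frob

/-- Hilbert's Theorem 90 for `ℚ̄ˣ`: a locally constant cocycle is a coboundary. -/
theorem hilbert90 (c : GQ → (AlgebraicClosure ℚ)ˣ)
    (hc : ∀ σ τ : GQ, c (σ * τ) = c σ * σ • c τ)
    (U : Subgroup GQ) (hU : IsOpen (U : Set GQ)) (hcU : ∀ σ ∈ U, c σ = 1) :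
    ∃ x : (AlgebraicClosure ℚ)ˣ, ∀ σ : GQ, c σ = σ • x / x := by
  obtain ⟨L, hfd', hnor', hLU⟩ := (krullTopology_mem_nhds_one_iff_of_normal ℚ (AlgebraicClosure ℚ)
    (U : Set GQ)).mp (hU.mem_nhds U.one_mem)
  have hfd : FiniteDimensional ℚ L := by
    convert hfd'
  have hnor : Normal ℚ L := by
    convert hnor'
    exact Subsingleton.elim _ _
  have hsm : ∀ (g : GQ) (x : (AlgebraicClosure ℚ)ˣ), ((g • x : (AlgebraicClosure ℚ)ˣ) :
      AlgebraicClosure ℚ) = g (x : AlgebraicClosure ℚ) := fun g x => rfl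
  have hcL : ∀ u ∈ L.fixingSubgroup, c u = 1 := fun u hu => hcU u (hLU hu)
  -- right invariance
  have h1 : ∀ σ : GQ, ∀ u ∈ L.fixingSubgroup, c (σ * u) = c σ := by
    intro σ u hu
    rw [hc, hcL u hu, smul_one, mul_one]
  have hres : ∀ (σ : GQ) (x : L), σ (x : AlgebraicClosure ℚ) =
      ((AlgEquiv.restrictNormalHom L σ x : L) : AlgebraicClosure ℚ) := by
    intro σ x
    exact (AlgEquiv.restrictNormal_commutes σ L x).symm
  have hconj : ∀ σ : GQ, ∀ u ∈ L.fixingSubgroup, σ⁻¹ * u * σ ∈ L.fixingSubgroup := by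
    intro σ u hu
    rw [IntermediateField.mem_fixingSubgroup_iff] at hu ⊢
    intro x hx
    change σ⁻¹ (u (σ x)) = x
    rw [hu (σ x) (by rw [hres σ ⟨x, hx⟩]; exact Subtype.prop _)]
    exact σ.symm_apply_apply x
  have h2 : ∀ σ : GQ, (c σ : AlgebraicClosure ℚ) ∈ L := by
    intro σ
    rw [← InfiniteGalois.fixedField_fixingSubgroup L, IntermediateField.mem_fixedField_iff]
    intro u hu
    have e1 : c (u * σ) = u • c σ := by rw [hc, hcL u hu, one_mul]
    have e2 : c (u * σ) = c σ := by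
      have : u * σ = σ * (σ⁻¹ * u * σ) := by group
      rw [this]
      exact h1 σ _ (hconj σ u hu)
    rw [← hsm, ← e1, e2]
  have hsurj := AlgEquiv.restrictNormalHom_surjective (F := ℚ) (K₁ := L) (AlgebraicClosure ℚ)
  choose lift hlift using hsurj
  have hlift' : ∀ (τ : L ≃ₐ[ℚ] L) (x : L), lift τ (x : AlgebraicClosure ℚ) = τ x := by
    intro τ x
    have := AlgEquiv.restrictNormal_commutes (lift τ) L x
    conv_rhs => rw [← hlift τ]
    exact this.symm
  -- `c` depends only on the restriction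
  have h3 : ∀ σ τ : GQ, AlgEquiv.restrictNormalHom L σ = AlgEquiv.restrictNormalHom L τ →
      c σ = c τ := by
    intro σ τ h
    have hmem : τ⁻¹ * σ ∈ L.fixingSubgroup := by
      rw [IntermediateField.mem_fixingSubgroup_iff]
      intro x hx
      change τ⁻¹ (σ x) = x
      rw [hres σ ⟨x, hx⟩, h, ← hres τ ⟨x, hx⟩]
      exact τ.symm_apply_apply x
    have := h1 τ _ hmem
    rwa [mul_inv_cancel_left] at this
  let f : (L ≃ₐ[ℚ] L) → Lˣ := fun τ =>
    Units.mk0 ⟨(c (lift τ) : AlgebraicClosure ℚ), h2 _⟩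
      (fun h => (c (lift τ)).ne_zero (congrArg Subtype.val h))
  have hf : groupCohomology.IsMulCocycle₁ f := by
    intro g h
    apply Units.ext
    apply Subtype.ext
    change (c (lift (g * h)) : AlgebraicClosure ℚ) =
      ((g (f h : L) : L) : AlgebraicClosure ℚ) * (c (lift g) : AlgebraicClosure ℚ)
    rw [h3 (lift (g * h)) (lift g * lift h) (by rw [map_mul, hlift, hlift, hlift]), hc,
      Units.val_mul, hsm, mul_comm]
    congr 1
    exact hlift' g ⟨(c (lift h) : AlgebraicClosure ℚ), h2 _⟩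
  obtain ⟨β, hβ⟩ := groupCohomology.isMulCoboundary₁_of_isMulCocycle₁_of_aut_to_units f hf
  refine ⟨Units.map (algebraMap L (AlgebraicClosure ℚ)).toMonoidHom β, fun σ => ?_⟩
  rw [eq_div_iff_mul_eq']
  apply Units.ext
  rw [Units.val_mul, hsm]
  have h4 := hβ (AlgEquiv.restrictNormalHom L σ)
  rw [div_eq_iff_eq_mul'] at h4
  have h5 := congrArg (fun z : Lˣ => ((z : L) : AlgebraicClosure ℚ)) h4
  have h6 : ((f (AlgEquiv.restrictNormalHom L σ) : L) : AlgebraicClosure ℚ) = c σ := by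
    change (c (lift _) : AlgebraicClosure ℚ) = _
    rw [h3 _ σ (hlift _)]
  have h7 : (((AlgEquiv.restrictNormalHom L σ • β : Lˣ) : L) : AlgebraicClosure ℚ) =
      σ ((β : L) : AlgebraicClosure ℚ) := AlgEquiv.restrictNormal_commutes σ L (β : L)
  change (((AlgEquiv.restrictNormalHom L σ • β : Lˣ) : L) : AlgebraicClosure ℚ) =
    ((β : L) : AlgebraicClosure ℚ) * ((f (AlgEquiv.restrictNormalHom L σ) : L) :
      AlgebraicClosure ℚ) at h5
  rw [h6, h7, mul_comm] at h5
  exact h5.symm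

end Fermat.Agent.Mazur
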