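import Fermat.Agent.Mazur.Val
import Fermat.Agent.Mazur.Hilbert90
import Mathlib.RingTheory.RootsOfUnity.PrimitiveRoots
import Mathlib.RingTheory.RootsOfUnity.Lemmas
import Mathlib.NumberTheory.Padics.PadicVal.Basic

/-!
# Radicals of rational numbers and inertia
-/

set_option autoImplicit false

namespace Fermat.Agent.Mazur

open scoped Pointwise
open Fermat.Agent.Frob Fermat.Agent.Minkowski

section units

variable {A : ValuationSubring (AlgebraicClosure ℚ)} {ℓ : ℕ}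

lemma valuation_natCast_lt_one (hA : A.LiesOverPrime ℓ) :
    A.valuation (ℓ : AlgebraicClosure ℚ) < 1 := by
  rw [← ValuationSubring.mem_nonunits_iff]
  exact hA

lemma valuation_natCast_ne_zero (hℓ : ℓ.Prime) :
    A.valuation (ℓ : AlgebraicClosure ℚ) ≠ 0 := by
  rw [Ne, map_eq_zero]
  exact_mod_cast hℓ.ne_zero

lemma valuation_eq_one_of_mem {w : AlgebraicClosure ℚ} (h1 : w ∈ A) (h2 : w⁻¹ ∈ A) (h0 : w ≠ 0) :
    A.valuation w = 1 := by
  rw [← ValuationSubring.valuation_le_one_iff] at h1 h2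
  rw [map_inv₀] at h2
  apply le_antisymm h1
  exact (inv_le_one₀ (by
    rw [zero_lt_iff, Ne, map_eq_zero]
    exact h0)).mp h2

lemma valuation_int_eq_one (hℓ : ℓ.Prime) (hA : A.LiesOverPrime ℓ) {a : ℤ}
    (ha : ¬ (ℓ : ℤ) ∣ a) : A.valuation (a : AlgebraicClosure ℚ) = 1 := by
  have h1 : (algebraMap ℤ Zbar a) ∉ centre A := by
    intro h
    have h2 : a ∈ (centre A).under ℤ := h
    rw [under_centre hℓ hA, Ideal.mem_span_singleton] at h2
    exact ha h2
  have h3 := isUnit_of_notMem_centre h1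
  have h4 : ((algebraMap ℤ Zbar a : Zbar) : AlgebraicClosure ℚ) = (a : AlgebraicClosure ℚ) := by
    simp
  rw [h4] at h3
  refine valuation_eq_one_of_mem ?_ h3.1 h3.2
  rw [← h4]
  exact mem_of_mem_Zbar A _

/-- The valuation of a rational number at a place above `ℓ`. -/
lemma valuation_ratCast (hℓ : ℓ.Prime) (hA : A.LiesOverPrime ℓ) {r : ℚ} (hr : r ≠ 0) :
    A.valuation (r : AlgebraicClosure ℚ) =
      A.valuation (ℓ : AlgebraicClosure ℚ) ^ (padicValRat ℓ r) := by
  have : Fact ℓ.Prime := ⟨hℓ⟩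
  have hnum : ∀ a : ℤ, a ≠ 0 → A.valuation (a : AlgebraicClosure ℚ) =
      A.valuation (ℓ : AlgebraicClosure ℚ) ^ (padicValInt ℓ a) := by
    intro a ha
    obtain ⟨b, hb, hnd⟩ := (Int.finiteMultiplicity_iff.mpr
      ⟨by simpa using hℓ.one_lt.ne', ha⟩ :
        FiniteMultiplicity (ℓ : ℤ) a).exists_eq_pow_mul_and_not_dvd
    have hv : padicValInt ℓ a = multiplicity (ℓ : ℤ) a := by
      rw [padicValInt.of_ne_one_ne_zero hℓ.one_lt.ne' ha]
    conv_lhs => rw [hb]
    push_cast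
    rw [map_mul, map_pow, valuation_int_eq_one hℓ hA hnd, mul_one, hv]
  have h2 : (r : AlgebraicClosure ℚ) = (r.num : AlgebraicClosure ℚ) / (r.den : ℤ) := by
    conv_lhs => rw [← Rat.num_div_den r]
    push_cast
    rfl
  rw [h2, map_div₀, hnum _ (Rat.num_ne_zero.mpr hr), hnum _ (by exact_mod_cast r.den_ne_zero),
    padicValRat, padicValInt.of_nat, zpow_sub₀ (valuation_natCast_ne_zero hℓ), zpow_natCast,
    zpow_natCast]

lemma zpow_valuation_inj (hℓ : ℓ.Prime) (hA : A.LiesOverPrime ℓ) {a b : ℤ}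
    (h : A.valuation (ℓ : AlgebraicClosure ℚ) ^ a = A.valuation (ℓ : AlgebraicClosure ℚ) ^ b) :
    a = b := by
  have h0 : 0 < A.valuation (ℓ : AlgebraicClosure ℚ) := by
    rw [zero_lt_iff]; exact valuation_natCast_ne_zero hℓ
  by_contra hne
  rcases lt_or_gt_of_ne hne with hlt | hlt
  · exact absurd h (zpow_lt_zpow_right_of_lt_one₀ h0 (valuation_natCast_lt_one hA) hlt).ne'
  · exact absurd h (zpow_lt_zpow_right_of_lt_one₀ h0 (valuation_natCast_lt_one hA) hlt).ne

/-- If a radical `x` of a rational number `u` has the valuation of a rational number,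
the valuation of `u` is divisible by `n`. -/
lemma dvd_padicValRat_of_pow (hℓ : ℓ.Prime) (hA : A.LiesOverPrime ℓ) {x : AlgebraicClosure ℚ}
    {n : ℕ} {u : ℚ} (hu : u ≠ 0) (hx : x ^ n = (u : AlgebraicClosure ℚ)) {k : ℤ}
    (hk : A.valuation x = A.valuation (ℓ : AlgebraicClosure ℚ) ^ k) :
    (n : ℤ) ∣ padicValRat ℓ u := by
  have h1 := valuation_ratCast hℓ hA hu
  rw [← hx, map_pow, hk, ← zpow_natCast, ← zpow_mul] at h1
  exact ⟨k, by rw [← zpow_valuation_inj hℓ hA h1, mul_comm]⟩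

lemma exists_valuation_of_inertia_fixed (hℓ : ℓ.Prime) (hA : A.LiesOverPrime ℓ)
    {x : AlgebraicClosure ℚ} (hx0 : x ≠ 0) (hx : ∀ σ ∈ A.inertiaSubgroupIn ℚ, σ x = x) :
    ∃ k : ℤ, A.valuation x = A.valuation (ℓ : AlgebraicClosure ℚ) ^ k := by
  obtain ⟨k, w, h1, h2, h3, h4⟩ := exists_zpow_of_inertia_fixed hℓ hA hx0 hx
  refine ⟨k, ?_⟩
  rw [h4, map_mul, map_zpow₀, valuation_eq_one_of_mem h1 h2 h3, mul_one]

end units

/-- A natural number all of whose valuations are divisible by `q` is a `q`-th power. -/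
lemma exists_nat_pow_of_dvd {q : ℕ} {n : ℕ} (hn : n ≠ 0)
    (h : ∀ ℓ : ℕ, ℓ.Prime → q ∣ n.factorization ℓ) : ∃ m : ℕ, n = m ^ q := by
  refine ⟨n.factorization.prod fun p k => p ^ (k / q), ?_⟩
  conv_lhs => rw [← Nat.prod_factorization_pow_eq_self hn]
  rw [Finsupp.prod, Finsupp.prod, ← Finset.prod_pow]
  apply Finset.prod_congr rfl
  intro p hp
  rw [← pow_mul, Nat.div_mul_cancel]
  exact h p (Nat.prime_of_mem_primeFactors (by simpa using hp))

/-- A rational number all of whose valuations are divisible by `q` is, up to sign,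
a `q`-th power. -/
lemma exists_rat_pow_of_dvd {q : ℕ} (hq : q ≠ 0) {u : ℚ} (hu : u ≠ 0)
    (h : ∀ ℓ : ℕ, ℓ.Prime → (q : ℤ) ∣ padicValRat ℓ u) :
    ∃ w : ℚ, w ≠ 0 ∧ (u = w ^ q ∨ u = - w ^ q) := by
  have hcop := u.reduced
  have h1 : ∀ ℓ : ℕ, ℓ.Prime → q ∣ u.num.natAbs.factorization ℓ ∧ q ∣ u.den.factorization ℓ := by
    intro ℓ hℓ
    have : Fact ℓ.Prime := ⟨hℓ⟩
    have h2 := h ℓ hℓ
    rw [padicValRat, padicValInt, ← Nat.factorization_def _ hℓ, ← Nat.factorization_def _ hℓ] at h2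
    by_cases hd : ℓ ∣ u.den
    · have hn : ¬ ℓ ∣ u.num.natAbs := by
        intro hn
        have := Nat.dvd_gcd hn hd
        rw [Nat.Coprime] at hcop
        rw [hcop] at this
        exact hℓ.one_lt.ne' (Nat.dvd_one.mp this)
      have h3 : u.num.natAbs.factorization ℓ = 0 := Nat.factorization_eq_zero_of_not_dvd hn
      rw [h3] at h2 ⊢
      refine ⟨dvd_zero _, ?_⟩
      have : (q : ℤ) ∣ (u.den.factorization ℓ : ℤ) := by simpa using h2
      exact_mod_cast this
    · have h3 : u.den.factorization ℓ = 0 := Nat.factorization_eq_zero_of_not_dvd hd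
      rw [h3] at h2 ⊢
      refine ⟨?_, dvd_zero _⟩
      have : (q : ℤ) ∣ (u.num.natAbs.factorization ℓ : ℤ) := by simpa using h2
      exact_mod_cast this
  obtain ⟨a, ha⟩ := exists_nat_pow_of_dvd (Int.natAbs_ne_zero.mpr (Rat.num_ne_zero.mpr hu))
    (fun ℓ hℓ => (h1 ℓ hℓ).1)
  obtain ⟨b, hb⟩ := exists_nat_pow_of_dvd u.den_ne_zero (fun ℓ hℓ => (h1 ℓ hℓ).2)
  have hcases : u = (a / b : ℚ) ^ q ∨ u = - (a / b : ℚ) ^ q := by
    have hu' : u = (u.num : ℚ) / (u.den : ℚ) := (Rat.num_div_den u).symm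
    have hb' : (u.den : ℚ) = (b : ℚ) ^ q := by exact_mod_cast hb
    rcases Int.natAbs_eq u.num with hs | hs
    · left
      rw [div_pow, ← hb']
      conv_lhs => rw [hu', hs, ha]
      push_cast
      rfl
    · right
      rw [div_pow, ← hb']
      conv_lhs => rw [hu', hs, ha]
      push_cast
      ring
  refine ⟨(a / b : ℚ), ?_, hcases⟩
  intro h0
  rw [h0, zero_pow hq, neg_zero, or_self] at hcases
  exact hu hcases

section conj

variable {A : ValuationSubring (AlgebraicClosure ℚ)}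

/-- Inertia groups of conjugate places are conjugate. -/
lemma mem_inertia_smul {g σ : GQ} (hσ : σ ∈ (g • A).inertiaSubgroupIn ℚ) :
    g⁻¹ * σ * g ∈ A.inertiaSubgroupIn ℚ := by
  have hmem : ∀ x : AlgebraicClosure ℚ, x ∈ A ↔ g x ∈ g • A := by
    intro x
    exact (ValuationSubring.smul_mem_pointwise_smul_iff (g := g) (S := A) (x := x)).symm
  have hnon : ∀ x : AlgebraicClosure ℚ, g x ∈ (g • A).nonunits → x ∈ A.nonunits := by
    intro x hx
    rw [ValuationSubring.mem_nonunits_iff] at hx ⊢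
    by_contra hcon
    rw [not_lt] at hcon
    have hx0 : x ≠ 0 := by
      rintro rfl
      rw [map_zero] at hcon
      exact not_le.mpr zero_lt_one hcon
    have h1 : x⁻¹ ∈ A := by
      rw [← ValuationSubring.valuation_le_one_iff, map_inv₀]
      exact inv_le_one_of_one_le₀ hcon
    have h2 : g x⁻¹ ∈ g • A := (hmem _).mp h1
    rw [← ValuationSubring.valuation_le_one_iff, map_inv₀, map_inv₀] at h2
    have h3 : 0 < (g • A).valuation (g x) := by
      rw [zero_lt_iff, Ne, map_eq_zero, map_eq_zero]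
      exact hx0
    have := (inv_le_one₀ h3).mp h2
    exact absurd hx (not_lt.mpr this)
  apply mem_inertiaSubgroupIn_of_forall
  · intro x hx
    apply hnon
    obtain ⟨h1, h2⟩ := sub_mem_nonunits_of_mem_inertia hσ ((hmem x).mp hx)
    have : g ((g⁻¹ * σ * g) x - x) = σ (g x) - g x := by
      rw [map_sub]
      congr 1
      change g (g⁻¹ (σ (g x))) = _
      exact g.apply_symm_apply _
    rw [this]
    exact h2
  · intro x hx
    have hσ' : σ⁻¹ ∈ (g • A).inertiaSubgroupIn ℚ := Subgroup.inv_mem _ hσ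
    obtain ⟨h1, h2⟩ := sub_mem_nonunits_of_mem_inertia hσ' ((hmem x).mp hx)
    rw [hmem]
    have : g ((g⁻¹ * σ * g).symm x) = σ⁻¹ (g x) := by
      change g ((g⁻¹ * σ * g)⁻¹ x) = _
      have e : (g⁻¹ * σ * g)⁻¹ = g⁻¹ * σ⁻¹ * g := by group
      rw [e]
      change g (g⁻¹ (σ⁻¹ (g x))) = _
      exact g.apply_symm_apply _
    rw [this]
    exact h1

end conj

section roots

variable {A : ValuationSubring (AlgebraicClosure ℚ)} {q : ℕ}

lemma valuation_sub_one_pow_le {ζ : AlgebraicClosure ℚ} {n : ℕ} (hn : n ≠ 0) (hζ : ζ ^ n = 1)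
    (j : ℕ) : A.valuation (ζ ^ j - 1) ≤ A.valuation (ζ - 1) := by
  have hint : ζ ∈ A := by
    have : IsIntegral ℤ ζ := ⟨Polynomial.X ^ n - 1, Polynomial.monic_X_pow_sub_C _ hn, by simp [hζ]⟩
    exact mem_of_mem_Zbar A ⟨ζ, this⟩
  obtain ⟨c, hc⟩ : ∃ c : A, ζ ^ j - 1 = (ζ - 1) * c := by
    refine ⟨∑ i ∈ Finset.range j, (⟨ζ, hint⟩ : A) ^ i, ?_⟩
    push_cast
    exact (mul_geom_sum ζ j).symm
  rw [hc, map_mul]
  exact mul_le_of_le_one_right' (A.valuation_le_one c)

/-- The primitive `q`-th roots of unity are ramified at `q` (`q` odd). -/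
lemma not_fixed_of_isPrimitiveRoot (hq : q.Prime) (hq2 : q ≠ 2) (hA : A.LiesOverPrime q)
    {ζ : AlgebraicClosure ℚ} (hζ : IsPrimitiveRoot ζ q) :
    ¬ ∀ σ ∈ A.inertiaSubgroupIn ℚ, σ ζ = ζ := by
  intro h
  have h10 : ζ - 1 ≠ 0 := sub_ne_zero.mpr (hζ.ne_one hq.one_lt)
  obtain ⟨k, hk⟩ := exists_valuation_of_inertia_fixed hq hA h10 (by
    intro σ hσ
    rw [map_sub, map_one, h σ hσ])
  have hq1 : q - 1 + 1 = q := Nat.sub_add_cancel hq.one_lt.le
  have hprod := IsPrimitiveRoot.prod_pow_sub_one_eq_order (n := q - 1) (μ := ζ) (by rw [hq1]; exact hζ)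
  have hval : ∀ j ∈ Finset.range (q - 1), A.valuation (ζ ^ (j + 1) - 1) = A.valuation (ζ - 1) := by
    intro j hj
    apply le_antisymm (valuation_sub_one_pow_le hq.ne_zero hζ.pow_eq_one _)
    have hcop : Nat.Coprime (j + 1) q := by
      rw [Nat.coprime_comm]
      apply (Nat.Prime.coprime_iff_not_dvd hq).mpr
      intro hd
      have := Nat.le_of_dvd (Nat.succ_pos _) hd
      rw [Finset.mem_range] at hj
      omega
    obtain ⟨m, -, hm⟩ := Nat.exists_mul_mod_eq_one_of_coprime hcop hq.one_lt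
    have h1 : (ζ ^ (j + 1)) ^ m = ζ := by
      rw [← pow_mul, ← pow_mod_orderOf, ← hζ.eq_orderOf, hm, pow_one]
    have h2 := valuation_sub_one_pow_le (A := A) (ζ := ζ ^ (j + 1)) hq.ne_zero
      (by rw [← pow_mul, mul_comm, pow_mul, hζ.pow_eq_one, one_pow]) m
    rwa [h1] at h2
  have h3 := congrArg A.valuation hprod
  rw [map_mul, map_pow, Valuation.map_neg, map_one, one_pow, one_mul, map_prod,
    Finset.prod_congr rfl hval, Finset.prod_const, Finset.card_range, hk] at h3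
  have h4 : (((q - 1 : ℕ) : AlgebraicClosure ℚ) + 1) = (q : AlgebraicClosure ℚ) := by
    exact_mod_cast congrArg (Nat.cast : ℕ → AlgebraicClosure ℚ) hq1
  rw [h4, ← zpow_natCast, ← zpow_mul] at h3
  have h5 : k * ((q - 1 : ℕ) : ℤ) = 1 := by
    apply zpow_valuation_inj hq hA
    rw [h3, zpow_one]
  have h6 := Int.eq_one_or_neg_one_of_mul_eq_one' h5
  have h7 := hq.two_le
  omega

/-- A square root of `-1` is ramified at `2`. -/
lemma not_fixed_of_sq_eq_neg_one (hA : A.LiesOverPrime 2)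
    {ζ : AlgebraicClosure ℚ} (hζ : ζ ^ 2 = -1) :
    ¬ ∀ σ ∈ A.inertiaSubgroupIn ℚ, σ ζ = ζ := by
  intro h
  have h1 : (1 + ζ) ^ 2 = 2 * ζ := by
    linear_combination hζ
  have hζ0 : ζ ≠ 0 := by
    rintro rfl
    norm_num at hζ
  have h10 : 1 + ζ ≠ 0 := by
    intro h0
    rw [h0] at h1
    have : (2 : AlgebraicClosure ℚ) * ζ ≠ 0 := mul_ne_zero two_ne_zero hζ0
    exact this (by rw [← h1]; ring)
  obtain ⟨k, hk⟩ := exists_valuation_of_inertia_fixed Nat.prime_two hA h10 (by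
    intro σ hσ
    rw [map_add, map_one, h σ hσ])
  have hζA : ζ ∈ A := by
    have : IsIntegral ℤ ζ := ⟨Polynomial.X ^ 2 + 1, by monicity!, by simp [hζ]⟩
    exact mem_of_mem_Zbar A ⟨ζ, this⟩
  have hζv : A.valuation ζ = 1 := by
    refine valuation_eq_one_of_mem hζA ?_ hζ0
    have : ζ⁻¹ = -ζ := by
      field_simp
      rw [hζ, neg_neg]
    rw [this]
    exact A.neg_mem _ hζA
  have h3 := congrArg A.valuation h1
  rw [map_pow, map_mul, hζv, mul_one, hk, ← zpow_natCast, ← zpow_mul] at h3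
  have h5 : k * ((2 : ℕ) : ℤ) = 1 := by
    apply zpow_valuation_inj Nat.prime_two hA
    rw [h3, zpow_one]
    norm_num
  omega

end roots

end Fermat.Agent.Mazur
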