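import Fermat.Agent.Mazur.PPart

/-!
# The Eisenstein descent (Mazur)
-/

set_option autoImplicit false

namespace Fermat.Agent.Mazur

open scoped Pointwise
open Fermat.Agent.Frob Fermat.Agent.Tate Fermat.Agent.Minkowski

variable {q : ℕ} [hqf : Fact q.Prime] {N : ℕ} {R : Type*} [CommRing R] {P : Ideal R}
    {T : Nat.Primes → R} {J : Type*} [AddCommGroup J] [Module R J] [DistribMulAction GQ J]
    [SMulCommClass GQ R J]

/-- properties of the idempotent at level `m` -/
structure IdemAt (q : ℕ) (P : Ideal R) (J : Type*) [AddCommGroup J] [Module R J] (m : ℕ) (e : R) :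
    Prop where
  sub_mem : 1 - e ∈ P
  mem : ∀ x : J, q ^ m • x = 0 → e • x ∈ PPrim q P J
  id : ∀ x ∈ PPrim q P J, q ^ m • x = 0 → e • x = x

/-- the points whose multiple by `q ^ m` is fixed -/
noncomputable def ZZ (q : ℕ) (J : Type*) [AddCommGroup J] [DistribMulAction GQ J] (m : ℕ) :
    AddSubgroup J where
  carrier := {y | ∀ g : GQ, q ^ m • (g • y - y) = 0}
  zero_mem' := fun g => by rw [smul_zero, sub_zero, smul_zero]
  add_mem' := fun {a b} ha hb g => by
    have h1 : g • (a + b) - (a + b) = (g • a - a) + (g • b - b) := by rw [smul_add]; abel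
    rw [h1, smul_add, ha g, hb g, add_zero]
  neg_mem' := fun {a} ha g => by
    have h1 : g • (-a) - (-a) = -(g • a - a) := by rw [smul_neg]; abel
    rw [h1, smul_neg, ha g, neg_zero]

omit hqf in
/-- the cocycle of a point -/
noncomputable def kum {m : ℕ} {e : R} (he : IdemAt q P J m e) :
    ZZ q J m →+ (GQ → Mtor q (PPS q P J) m) where
  toFun y g := ⟨⟨e • (g • (y : J) - y), he.mem _ (y.2 g)⟩, Subtype.ext (by
    change q ^ m • e • (g • (y : J) - y) = 0
    rw [smul_comm, y.2 g, smul_zero])⟩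
  map_zero' := by
    funext g
    apply Subtype.ext
    apply Subtype.ext
    change e • (g • (0 : J) - 0) = 0
    rw [smul_zero, sub_zero, smul_zero]
  map_add' a b := by
    funext g
    apply Subtype.ext
    apply Subtype.ext
    change e • (g • ((a : J) + b) - ((a : J) + b)) = e • (g • (a : J) - a) + e • (g • (b : J) - b)
    rw [smul_add g, ← smul_add e]
    congr 1
    abel

omit hqf [SMulCommClass GQ R J] in
lemma coe_kum {m : ℕ} {e : R} (he : IdemAt q P J m e) (y : ZZ q J m) (g : GQ) :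
    ((kum he y g : PPS q P J) : J) = e • (g • (y : J) - y) := rfl

lemma EisInput.isGood_kum (h : EisInput hqf.out N P T J)
    {A : ValuationSubring (AlgebraicClosure ℚ)} {M₀ : AddSubgroup (PPS q P J)}
    (hA : ∀ σ ∈ A.inertiaSubgroupIn ℚ, ∀ y : J, ∀ x : PPS q P J,
        (x : J) = σ • y - y → x ∈ M₀) {m : ℕ} {e : R} (he : IdemAt q P J m e) (y : ZZ q J m) :
    IsGood q N A M₀ (kum he y) := by
  have hval : ∀ g : GQ, e • (g • (y : J) - y) = g • (e • (y : J)) - e • (y : J) := by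
    intro g
    rw [smul_sub, smul_comm g e]
  refine ⟨?_, ?_, ?_, ?_⟩
  · intro σ τ
    apply Subtype.ext
    apply Subtype.ext
    change e • ((σ * τ) • (y : J) - y) = e • (σ • (y : J) - y) + σ • (e • (τ • (y : J) - y))
    rw [smul_comm σ e, ← smul_add e, mul_smul, smul_sub σ]
    congr 1
    abel
  · obtain ⟨U, hU, hUx⟩ := h.smooth (y : J)
    refine ⟨U, hU, fun σ hσ => ?_⟩
    apply Subtype.ext
    apply Subtype.ext
    change e • (σ • (y : J) - y) = 0
    rw [hUx σ hσ, sub_self, smul_zero]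
  · intro ℓ hℓ hℓq hℓN A' hA' σ hσ
    apply Subtype.ext
    apply Subtype.ext
    change e • (σ • (y : J) - y) = 0
    rw [h.unram ⟨ℓ, hℓ⟩ hℓq hℓN A' hA' σ hσ (y : J) ⟨m, y.2 σ⟩, sub_self, smul_zero]
  · intro σ hσ
    apply hA σ hσ (e • (y : J))
    rw [coe_kum, hval]

omit [DistribMulAction GQ J] in
omit [Module R J] in
/-- the torsion of a finitely generated subgroup is finite -/
lemma finite_torsion_fg (F : AddSubgroup J) (hfg : AddGroup.FG F) :
    {x : J | x ∈ F ∧ ∃ n : ℕ, n ≠ 0 ∧ n • x = 0}.Finite := by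
  have hF : Module.Finite ℤ F := Module.Finite.iff_addGroup_fg.mpr hfg
  have hfin : Finite (Submodule.torsion ℤ F) :=
    Module.finite_of_fg_torsion _ (Submodule.torsion_isTorsion)
  apply (Set.finite_range (fun x : Submodule.torsion ℤ F => ((x : F) : J))).subset
  rintro x ⟨hx, n, hn, hnx⟩
  refine ⟨⟨⟨x, hx⟩, ?_⟩, rfl⟩
  rw [Submodule.mem_torsion_iff]
  refine ⟨⟨(n : ℤ), mem_nonZeroDivisors_of_ne_zero (by exact_mod_cast hn)⟩, Subtype.ext ?_⟩
  change (n : ℤ) • x = 0
  rw [natCast_zsmul, hnx]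

omit [SMulCommClass GQ R J] in
/-- the kernel estimate -/
lemma card_ker_le {C₀ : ℕ} (m : ℕ) (F : AddSubgroup J)
    (hF : ∀ x : J, x ∈ F ↔ ∀ g : GQ, g • x = x)
    (hfin : Finite {x : J // C₀ • x = 0})
    (htor : {x : J | x ∈ F ∧ ∃ n : ℕ, n ≠ 0 ∧ n • x = 0}.Finite)
    (θ : Mtor q (PPS q P J) m →+ (GQ → Mtor q (PPS q P J) m))
    (hθ : ∀ x, θ x = 0 → ∀ g : GQ, C₀ • (g • ((x : PPS q P J) : J) - ((x : PPS q P J) : J)) = 0) :
    Nat.card θ.ker ≤ Nat.card {x : J // C₀ • x = 0} *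
      {x : J | x ∈ F ∧ ∃ n : ℕ, n ≠ 0 ∧ n • x = 0}.ncard := by
  let incl : Mtor q (PPS q P J) m →+ J :=
    (PPS q P J).subtype.toAddMonoidHom.comp (Mtor q (PPS q P J) m).subtype
  have hincl : Function.Injective incl := fun x y hxy => Subtype.ext (Subtype.ext hxy)
  have h1 : Nat.card θ.ker = Nat.card (θ.ker.map incl) :=
    Nat.card_congr (θ.ker.equivMapOfInjective incl hincl).toEquiv
  rw [h1]
  let mul : (θ.ker.map incl) →+ J := (nsmulAddMonoidHom C₀).comp (θ.ker.map incl).subtype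
  have hS : Finite (torSub ℤ J C₀).toAddSubgroup := hfin
  refine (card_le_of_hom (torSub ℤ J C₀).toAddSubgroup (θ.ker.map incl) mul (fun s hs => hs)
    {x : J | x ∈ F ∧ ∃ n : ℕ, n ≠ 0 ∧ n • x = 0} htor ?_ hS).2
  rintro ⟨_, x, hx, rfl⟩
  refine ⟨?_, q ^ m, pow_ne_zero _ hqf.out.ne_zero, ?_⟩
  · rw [hF]
    intro g
    change g • C₀ • ((x : PPS q P J) : J) = C₀ • ((x : PPS q P J) : J)
    have h2 := hθ x hx g
    rw [smul_sub, sub_eq_zero] at h2
    rw [smul_comm, h2]
  · change q ^ m • C₀ • ((x : PPS q P J) : J) = 0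
    have h3 : q ^ m • ((x : PPS q P J) : J) = 0 := congrArg Subtype.val x.2
    rw [smul_comm, h3, smul_zero]

/-- The main estimate. -/
theorem EisInput.exists_pow_kill (h : EisInput hqf.out N P T J) (F : AddSubgroup J)
    (hF : ∀ x : J, x ∈ F ↔ ∀ g : GQ, g • x = x) (hfg : AddGroup.FG F) :
    ∃ C₀ C₁ : ℕ, C₀ ≠ 0 ∧ ∀ (m : ℕ) (e : R), IdemAt q P J m e → ∀ a ∈ F, ∃ b ∈ F,
      q ^ C₁ • C₀ • e • a = q ^ m • b := by
  obtain ⟨B, φN, aN, hB⟩ := h.exists_atN
  obtain ⟨A, M₀, hA, hA'⟩ := h.exists_atQ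
  obtain ⟨C₀, hC₀, hC⟩ := h.mInput.exists_bound h.weightAt hB hA h.exists_weight_q
  have hfin := h.finite C₀ hC₀
  have htor := finite_torsion_fg F hfg
  set C₁ : ℕ := Nat.card {x : J // C₀ • x = 0} *
      {x : J | x ∈ F ∧ ∃ n : ℕ, n ≠ 0 ∧ n • x = 0}.ncard with hC₁
  refine ⟨C₀, C₁, hC₀, fun m e he a ha => ?_⟩
  obtain ⟨Y, hYfin, hYcard, hY⟩ := hC m
  have hMfin := h.mInput.finite_Mtor m
  -- divisibility
  have hdiv' : ∀ (m : ℕ) (x : J), ∃ y : J, q ^ m • y = x := by
    intro m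
    induction m with
    | zero => exact fun x => ⟨x, by rw [pow_zero, one_smul]⟩
    | succ m ih =>
      intro x
      obtain ⟨y, hy⟩ := h.divisible x
      obtain ⟨z, hz⟩ := ih y
      exact ⟨z, by rw [pow_succ', mul_smul, hz, hy]⟩
  have hdiv : ∀ x : J, ∃ y : J, q ^ m • y = x := hdiv' m
  have heF : ∀ x ∈ F, e • x ∈ F := by
    intro x hx
    rw [hF] at hx ⊢
    intro g
    rw [smul_comm, hx g]
  have hZF : ∀ y : ZZ q J m, q ^ m • (y : J) ∈ F := by
    intro y
    rw [hF]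
    intro g
    have := y.2 g
    rw [smul_sub, sub_eq_zero] at this
    rw [smul_comm, this]
  -- the maps
  let θ : ZZ q J m →+ (GQ → Mtor q (PPS q P J) m) := (nsmulAddMonoidHom C₀).comp (kum he)
  have hθ : ∀ y, θ y = C₀ • kum he y := fun y => rfl
  have hθY : ∀ y, θ y ∈ Y := fun y => hY _ (h.isGood_kum hA' he y)
  let W : AddSubgroup J := powSub q F m
  let ρ : ZZ q J m →+ J ⧸ W := {
    toFun := fun y => ((C₀ • e • q ^ m • (y : J) : J) : J ⧸ W)
    map_zero' := by
      change ((C₀ • e • q ^ m • (0 : J) : J) : J ⧸ W) = 0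
      rw [smul_zero, smul_zero, smul_zero]
      rfl
    map_add' := by
      intro x y
      change ((C₀ • e • q ^ m • ((x : J) + (y : J)) : J) : J ⧸ W) = _
      rw [smul_add, smul_add, smul_add]
      rfl }
  have hρ : ∀ y, ρ y = ((C₀ • e • q ^ m • (y : J) : J) : J ⧸ W) := fun y => rfl
  have hker : ∀ y, θ y = 0 → ρ y = 0 := by
    intro y hy
    have h1 : C₀ • e • (y : J) ∈ F := by
      rw [hF]
      intro g
      have h2 := congrArg (fun f : GQ → Mtor q (PPS q P J) m => ((f g : PPS q P J) : J)) hy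
      change C₀ • e • (g • (y : J) - y) = 0 at h2
      rw [smul_sub, smul_sub, sub_eq_zero] at h2
      rw [smul_comm g C₀, smul_comm g e, h2]
    rw [hρ, QuotientAddGroup.eq_zero_iff]
    refine ⟨_, h1, ?_⟩
    rw [smul_comm (q ^ m) C₀, smul_comm (q ^ m) e]
  let incl : Mtor q (PPS q P J) m →+ ZZ q J m := {
    toFun := fun x => ⟨((x : PPS q P J) : J), fun g => by
      have h3 : q ^ m • ((x : PPS q P J) : J) = 0 := congrArg Subtype.val x.2
      rw [smul_sub, smul_comm, h3, smul_zero, sub_zero]⟩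
    map_zero' := rfl
    map_add' := fun _ _ => rfl }
  have hρincl : ∀ x, ρ (incl x) = 0 := by
    intro x
    have h3 : q ^ m • ((x : PPS q P J) : J) = 0 := congrArg Subtype.val x.2
    rw [hρ]
    change ((C₀ • e • q ^ m • ((x : PPS q P J) : J) : J) : J ⧸ W) = 0
    rw [h3, smul_zero, smul_zero]
    rfl
  let θM : Mtor q (PPS q P J) m →+ (GQ → Mtor q (PPS q P J) m) := θ.comp incl
  -- the kernel bound
  have hkerM : Nat.card θM.ker ≤ C₁ := by
    apply card_ker_le m F hF hfin htor θM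
    intro x hx g
    have h2 := congrArg (fun f : GQ → Mtor q (PPS q P J) m => ((f g : PPS q P J) : J)) hx
    change C₀ • e • (g • ((x : PPS q P J) : J) - ((x : PPS q P J) : J)) = 0 at h2
    have h3 : q ^ m • ((x : PPS q P J) : J) = 0 := congrArg Subtype.val x.2
    rwa [he.id (g • ((x : PPS q P J) : J) - ((x : PPS q P J) : J))
      ((PPS q P J).sub_mem (galois_mem_PPS g (x : PPS q P J).2) (x : PPS q P J).2)
      (by rw [smul_sub, smul_comm, h3, smul_zero, sub_zero])] at h2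
  -- the image bound
  have hsec : ∀ i : ρ.range, ∃ y, ρ y = i := fun i => i.2
  choose sec hsec using hsec
  have hinj : Function.Injective (fun z : ρ.range × θM.range =>
      (⟨θ (sec z.1) + z.2, Y.add_mem (hθY _) (by
        obtain ⟨x, hx⟩ := z.2.2
        rw [← hx]
        exact hθY _)⟩ : Y)) := by
    rintro ⟨i, w, x, rfl⟩ ⟨j, w', x', rfl⟩ heq
    have h1 : θ (sec i) + θ (incl x) = θ (sec j) + θ (incl x') := congrArg Subtype.val heq
    have h2 : θ (sec i + incl x - (sec j + incl x')) = 0 := by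
      rw [map_sub, map_add, map_add, h1, sub_self]
    have h3 := hker _ h2
    rw [map_sub, map_add, map_add, hρincl, hρincl, hsec, hsec, add_zero, add_zero, sub_eq_zero] at h3
    have hij : i = j := Subtype.ext h3
    subst hij
    have h4 := add_left_cancel h1
    exact Prod.ext rfl (Subtype.ext h4)
  have hfinprod : Finite (ρ.range × θM.range) := Finite.of_injective _ hinj
  have hfinI : Finite ρ.range := by
    have : Nonempty θM.range := ⟨0⟩
    exact Finite.of_surjective (Prod.fst : ρ.range × θM.range → ρ.range) Prod.fst_surjective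
  have hfinR : Finite θM.range := by
    have : Nonempty ρ.range := ⟨0⟩
    exact Finite.of_surjective (Prod.snd : ρ.range × θM.range → θM.range) Prod.snd_surjective
  have hcard1 : Nat.card ρ.range * Nat.card θM.range ≤ Nat.card (Mtor q (PPS q P J) m) := by
    rw [← Nat.card_prod]
    exact (Nat.card_le_card_of_injective _ hinj).trans hYcard
  have hcard2 : Nat.card (Mtor q (PPS q P J) m) = Nat.card θM.range * Nat.card θM.ker := by
    rw [AddSubgroup.card_eq_card_quotient_mul_card_addSubgroup θM.ker]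
    congr 1
    exact Nat.card_congr (QuotientAddGroup.quotientKerEquivRange θM).toEquiv
  have hcard : Nat.card ρ.range ≤ C₁ := by
    have hpos : 0 < Nat.card θM.range := Nat.card_pos
    rw [hcard2, mul_comm] at hcard1
    exact (Nat.le_of_mul_le_mul_left hcard1 hpos).trans hkerM
  -- conclusion
  obtain ⟨y, hy⟩ := hdiv a
  have hyZ : y ∈ ZZ q J m := by
    intro g
    rw [smul_sub, smul_comm, hy, (hF a).mp ha g, sub_self]
  have hρy : ρ ⟨y, hyZ⟩ = ((C₀ • e • a : J) : J ⧸ W) := by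
    rw [hρ, hy]
  have hord1 : addOrderOf (ρ ⟨y, hyZ⟩) ∣ Nat.card ρ.range := by
    have h1 := addOrderOf_dvd_natCard (⟨ρ ⟨y, hyZ⟩, ⟨_, rfl⟩⟩ : ρ.range)
    rwa [← AddSubgroup.addOrderOf_coe] at h1
  have hord2 : addOrderOf (ρ ⟨y, hyZ⟩) ∣ q ^ m := by
    apply addOrderOf_dvd_of_nsmul_eq_zero
    rw [hρy, ← QuotientAddGroup.mk_nsmul, QuotientAddGroup.eq_zero_iff]
    exact ⟨_, F.nsmul_mem (heF a ha) _, rfl⟩
  obtain ⟨r, -, hr⟩ := (Nat.dvd_prime_pow hqf.out).mp hord2
  have hrle : r ≤ C₁ := by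
    have h1 : q ^ r ≤ Nat.card ρ.range := by
      rw [← hr]
      exact Nat.le_of_dvd Nat.card_pos hord1
    exact (Nat.lt_pow_self hqf.out.one_lt).le.trans (h1.trans hcard)
  have h1 : q ^ C₁ • ρ ⟨y, hyZ⟩ = 0 := by
    rw [← addOrderOf_dvd_iff_nsmul_eq_zero, hr]
    exact pow_dvd_pow q hrle
  rw [hρy, ← QuotientAddGroup.mk_nsmul, QuotientAddGroup.eq_zero_iff] at h1
  obtain ⟨b, hb, hbe⟩ := h1
  exact ⟨b, hb, hbe.symm⟩

omit hqf in
omit [DistribMulAction GQ J] [Module R J] [SMulCommClass GQ R J] in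
lemma exists_torsion_exponent (F : AddSubgroup J) (hfg : AddGroup.FG F) :
    ∃ t : ℕ, t ≠ 0 ∧ ∀ x ∈ F, (∃ n : ℕ, n ≠ 0 ∧ n • x = 0) → t • x = 0 := by
  have hF : Module.Finite ℤ F := Module.Finite.iff_addGroup_fg.mpr hfg
  have hfin : Finite (Submodule.torsion ℤ F) :=
    Module.finite_of_fg_torsion _ (Submodule.torsion_isTorsion)
  refine ⟨Nat.card (Submodule.torsion ℤ F), Nat.card_pos.ne', ?_⟩
  rintro x hx ⟨n, hn, hnx⟩
  have hmem : (⟨x, hx⟩ : F) ∈ Submodule.torsion ℤ F := by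
    rw [Submodule.mem_torsion_iff]
    refine ⟨⟨(n : ℤ), mem_nonZeroDivisors_of_ne_zero (by exact_mod_cast hn)⟩, Subtype.ext ?_⟩
    change (n : ℤ) • x = 0
    rw [natCast_zsmul, hnx]
  have h1 : Nat.card (Submodule.torsion ℤ F) • (⟨⟨x, hx⟩, hmem⟩ : Submodule.torsion ℤ F) = 0 :=
    card_nsmul_eq_zero'
  exact congrArg (fun z : Submodule.torsion ℤ F => ((z : F) : J)) h1

omit hqf in
omit [DistribMulAction GQ J] [SMulCommClass GQ R J] in
/-- **Determinant trick.** -/
lemma exists_of_smul_le (F : AddSubgroup J) (hfg : AddGroup.FG F) (t : ℕ) (e : R)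
    (hq : (q : R) ∈ P) (hP : P ≠ ⊤) (he : 1 - e ∈ P)
    (h : ∀ a ∈ F, ∃ b ∈ F, e • t • a = q • t • b) :
    ∃ s : R, s ∉ P ∧ ∀ x ∈ F, t • s • x = 0 := by
  have hF : Module.Finite ℤ F := Module.Finite.iff_addGroup_fg.mpr hfg
  let F' : Submodule ℤ J := AddSubgroup.toIntSubmodule F
  have hF' : F'.FG := Module.Finite.iff_fg.mp hF
  let mt : J →ₗ[ℤ] J := (nsmulAddMonoidHom t : J →+ J).toIntLinearMap
  let B : Submodule ℤ J := F'.map mt
  have hB : Module.Finite ℤ B := Module.Finite.iff_fg.mpr (hF'.map mt)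
  let L : J →ₗ[ℤ] J := (DistribSMul.toAddMonoidHom J e).toIntLinearMap
  have hL : ∀ x ∈ B, L x ∈ B := by
    rintro _ ⟨a, ha, rfl⟩
    obtain ⟨b, hb, hab⟩ := h a ha
    refine ⟨q • b, F.nsmul_mem hb q, ?_⟩
    change t • q • b = e • t • a
    rw [hab, smul_comm]
  let f : Module.End ℤ B := L.restrict hL
  have hf : ∀ b : B, (f b : J) = e • (b : J) := fun b => rfl
  have hrange : LinearMap.range f ≤ (Ideal.span {(q : ℤ)}) • (⊤ : Submodule ℤ B) := by
    rintro _ ⟨⟨_, a, ha, rfl⟩, rfl⟩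
    obtain ⟨b, hb, hab⟩ := h a ha
    have h1 : f ⟨mt a, ⟨a, ha, rfl⟩⟩ = (q : ℤ) • (⟨mt b, ⟨b, hb, rfl⟩⟩ : B) := by
      apply Subtype.ext
      rw [hf]
      change e • t • a = (q : ℤ) • t • b
      rw [hab, natCast_zsmul]
    rw [h1]
    exact Submodule.smul_mem_smul (Ideal.mem_span_singleton_self _) trivial
  obtain ⟨p, hpm, -, hpc, hp⟩ :=
    LinearMap.exists_monic_and_natDegree_eq_and_coeff_mem_pow_and_aeval_eq_zero ℤ f
      (Ideal.span {(q : ℤ)}) hrange
  have hpow : ∀ (n : ℕ) (b : B), ((f ^ n) b : J) = e ^ n • (b : J) := by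
    intro n
    induction n with
    | zero => intro b; rw [pow_zero, pow_zero, one_smul]; rfl
    | succ n ih =>
      intro b
      rw [pow_succ, pow_succ, mul_smul]
      change ((f ^ n) (f b) : J) = _
      rw [ih, hf]
  have haeval : ∀ (p : Polynomial ℤ) (b : B), (Polynomial.aeval f p b : J) =
      Polynomial.aeval e p • (b : J) := by
    intro p b
    induction p using Polynomial.induction_on' with
    | add p r hp hr =>
      rw [map_add, map_add, add_smul, ← hp, ← hr]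
      rfl
    | monomial n c =>
      rw [Polynomial.aeval_monomial, Polynomial.aeval_monomial, mul_smul, ← hpow]
      change ((c • (f ^ n) b : B) : J) = _
      rw [algebraMap_int_eq, eq_intCast, Int.cast_smul_eq_zsmul]
      rfl
  refine ⟨Polynomial.aeval e p, ?_, ?_⟩
  · intro hs
    have h1 : Ideal.Quotient.mk P e = 1 := by
      rw [← sub_eq_zero, ← neg_eq_zero, neg_sub, ← map_one (Ideal.Quotient.mk P), ← map_sub,
        Ideal.Quotient.eq_zero_iff_mem]
      exact he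
    have h2 : Ideal.Quotient.mk P (Polynomial.aeval e p) = ((p.eval 1 : ℤ) : R ⧸ P) := by
      rw [Polynomial.aeval_def, Polynomial.hom_eval₂, h1, algebraMap_int_eq]
      have h3 := Polynomial.eval₂_at_apply (p := p) (Int.castRingHom (R ⧸ P)) (1 : ℤ)
      rw [map_one, eq_intCast] at h3
      rw [← h3]
      congr 1
    have h4 : (q : ℤ) ∣ p.eval 1 - 1 := by
      rw [Polynomial.eval_eq_sum_range, Finset.sum_range_succ]
      have h5 : p.coeff p.natDegree * (1 : ℤ) ^ p.natDegree = 1 := by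
        rw [one_pow, mul_one]
        exact hpm
      rw [h5, add_sub_cancel_right]
      apply Finset.dvd_sum
      intro i hi
      rw [one_pow, mul_one, ← Ideal.mem_span_singleton]
      exact Ideal.pow_le_self (Nat.sub_ne_zero_of_lt (Finset.mem_range.mp hi)) (hpc i)
    obtain ⟨w, hw⟩ := h4
    have h5 : ((p.eval 1 : ℤ) : R ⧸ P) = 1 := by
      rw [sub_eq_iff_eq_add.mp hw, Int.cast_add, Int.cast_mul, Int.cast_one, Int.cast_natCast]
      have h6 : ((q : ℕ) : R ⧸ P) = 0 := by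
        have := Ideal.Quotient.eq_zero_iff_mem.mpr hq
        rwa [map_natCast] at this
      rw [h6, zero_mul, zero_add]
    have h7 := Ideal.Quotient.eq_zero_iff_mem.mpr hs
    rw [h2, h5, ← map_one (Ideal.Quotient.mk P), Ideal.Quotient.eq_zero_iff_mem] at h7
    exact hP ((Ideal.eq_top_iff_one P).mpr h7)
  · intro x hx
    have h1 := haeval p ⟨mt x, ⟨x, hx, rfl⟩⟩
    rw [hp] at h1
    change (0 : J) = Polynomial.aeval e p • t • x at h1
    rw [smul_comm, ← h1]

/-- **The Eisenstein descent (Mazur).** -/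
theorem EisInput.descent (h : EisInput hqf.out N P T J) (F : AddSubgroup J)
    (hF : ∀ x : J, x ∈ F ↔ ∀ g : GQ, g • x = x) (hfg : AddGroup.FG F) :
    ∃ s : R, s ∉ P ∧ ∀ x ∈ F, ∃ n : ℕ, n ≠ 0 ∧ n • s • x = 0 := by
  obtain ⟨C₀, C₁, hC₀, key⟩ := h.exists_pow_kill F hF hfg
  obtain ⟨v, C', hC', rfl⟩ := Nat.exists_eq_pow_mul_and_not_dvd hC₀ q hqf.out.ne_one
  obtain ⟨e, he1, he2, he3⟩ := exists_idem q P (C₁ + v + 1) (h.pow_finite (J := J) (C₁ + v + 1))
  obtain ⟨t, ht, htF⟩ := exists_torsion_exponent F hfg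
  have hcop : IsCoprime (C' : ℤ) (q : ℤ) :=
    (Nat.isCoprime_iff_coprime.mpr ((Nat.Prime.coprime_iff_not_dvd hqf.out).mpr hC')).symm
  obtain ⟨u, w, huw⟩ := hcop
  have heF : ∀ x ∈ F, e • x ∈ F := by
    intro x hx
    rw [hF] at hx ⊢
    intro g
    rw [smul_comm, hx g]
  have hstep : ∀ a ∈ F, ∃ b ∈ F, e • t • a = q • t • b := by
    intro a ha
    obtain ⟨b, hb, hab⟩ := key (C₁ + v + 1) e ⟨he1, he2, he3⟩ a ha
    have h1 : q ^ (C₁ + v) • (C' • e • a - q • b) = 0 := by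
      rw [smul_sub, ← mul_smul _ q, ← pow_succ, ← hab, pow_add, mul_smul, mul_smul, sub_self]
    have h2 : C' • e • a - q • b ∈ F := F.sub_mem (F.nsmul_mem (heF a ha) _) (F.nsmul_mem hb _)
    have h3 := htF _ h2 ⟨_, pow_ne_zero _ hqf.out.ne_zero, h1⟩
    rw [smul_sub, sub_eq_zero] at h3
    refine ⟨u • b + w • e • a, F.add_mem (F.zsmul_mem hb u) (F.zsmul_mem (heF a ha) w), ?_⟩
    calc e • t • a = (u * (C' : ℤ) + w * (q : ℤ)) • e • t • a := by rw [huw, one_smul]
      _ = u • t • C' • e • a + q • t • w • e • a := by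
        rw [add_smul, mul_smul, mul_smul, natCast_zsmul, natCast_zsmul, smul_comm e t,
          smul_comm C' t, smul_comm w q, smul_comm w t]
      _ = _ := by
        rw [h3, smul_add, smul_add, smul_comm u t, smul_comm u q, smul_comm t q]
  obtain ⟨s, hs, hs2⟩ := exists_of_smul_le F hfg t e h.q_mem h.isMaximal.ne_top he1 hstep
  exact ⟨s, hs, fun x hx => ⟨t, ht, hs2 x hx⟩⟩

end Fermat.Agent.Mazur
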