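import Mathlib
import Fermat.Prelude.Def_ModularForm_HeckeOperatorForms

set_option autoImplicit false

/-!
Trivial (maximum principle) bounds for Hecke eigenvalues in weight two.
-/

open UpperHalfPlane Filter Topology CongruenceSubgroup
open scoped MatrixGroups ModularForm Modular

noncomputable section

namespace Fermat.Agent.MZ

/-- Abstract maximum principle: a continuous function invariant under a finite index subgroup,
tending to zero at all cusps, attains its (positive) maximum. -/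
theorem exists_max {Γ : Subgroup SL(2, ℤ)} [Γ.FiniteIndex] {φ : ℍ → ℝ} (hc : Continuous φ)
    (hinv : ∀ γ ∈ Γ, ∀ τ, φ (γ • τ) = φ τ)
    (h0 : ∀ δ : SL(2, ℤ), IsZeroAtImInfty (fun τ ↦ φ (δ • τ))) {τ₁ : ℍ} (h1 : 0 < φ τ₁) :
    ∃ τ₀, 0 < φ τ₀ ∧ ∀ τ, φ τ ≤ φ τ₀ := by
  classical
  have : Finite (SL(2, ℤ) ⧸ Γ) := Subgroup.finite_quotient_of_finiteIndex
  have : Fintype (SL(2, ℤ) ⧸ Γ) := Fintype.ofFinite _
  have hY : ∀ q : SL(2, ℤ) ⧸ Γ, ∃ Y : ℝ, ∀ τ : ℍ, Y ≤ τ.im → φ (q.out⁻¹ • τ) < φ τ₁ := by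
    intro q
    have h := (h0 q.out⁻¹).eventually (gt_mem_nhds h1)
    rw [Filter.Eventually, UpperHalfPlane.atImInfty_mem] at h
    obtain ⟨A, hA⟩ := h
    exact ⟨A, fun τ hτ ↦ hA τ hτ⟩
  choose Y hY using hY
  set Y' : ℝ := 1 + ∑ q, |Y q| with hY'
  have hYle : ∀ q, Y q ≤ Y' := fun q ↦ by
    have h2 : |Y q| ≤ ∑ q, |Y q| :=
      Finset.single_le_sum (f := fun q ↦ |Y q|) (fun i _ ↦ abs_nonneg _) (Finset.mem_univ q)
    linarith [le_abs_self (Y q)]
  have hY1 : 1 ≤ Y' := by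
    have : 0 ≤ ∑ q, |Y q| := Finset.sum_nonneg fun i _ ↦ abs_nonneg _
    linarith
  have hK := ModularGroup.isCompact_truncatedFundamentalDomain Y'
  have hKne : (ModularGroup.truncatedFundamentalDomain Y').Nonempty := by
    refine ⟨UpperHalfPlane.I, ⟨?_, ?_⟩⟩
    · constructor
      · simp [UpperHalfPlane.I]
      · simp [UpperHalfPlane.I, UpperHalfPlane.re]
    · simpa using hY1
  have hmax : ∀ q : SL(2, ℤ) ⧸ Γ, ∃ w ∈ ModularGroup.truncatedFundamentalDomain Y',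
      ∀ w' ∈ ModularGroup.truncatedFundamentalDomain Y', φ (q.out⁻¹ • w') ≤ φ (q.out⁻¹ • w) := by
    intro q
    have hcq : Continuous fun τ : ℍ ↦ φ (q.out⁻¹ • τ) := by
      simp only [ModularGroup.sl_moeb]
      fun_prop
    obtain ⟨w, hw, hw'⟩ := hK.exists_isMaxOn hKne hcq.continuousOn
    exact ⟨w, hw, fun w' h' ↦ hw' h'⟩
  choose w hwK hw using hmax
  obtain ⟨q₀, hq₀⟩ := Finite.exists_max fun q ↦ φ (q.out⁻¹ • w q)
  have key : ∀ τ, φ τ < φ τ₁ ∨ φ τ ≤ φ (q₀.out⁻¹ • w q₀) := by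
    intro τ
    obtain ⟨g, hg⟩ := ModularGroup.exists_smul_mem_fd τ
    set q : SL(2, ℤ) ⧸ Γ := (g : SL(2, ℤ) ⧸ Γ) with hq
    have hφ : φ (q.out⁻¹ • (g • τ)) = φ τ := by
      obtain ⟨γ, hγ⟩ := QuotientGroup.mk_out_eq_mul Γ g
      rw [hq, hγ, mul_inv_rev, mul_smul, inv_smul_smul]
      exact hinv _ (inv_mem γ.2) _
    rcases lt_or_ge (g • τ).im Y' with h | h
    · right
      rw [← hφ]
      exact (hw q _ ⟨hg, h.le⟩).trans (hq₀ q)
    · left
      rw [← hφ]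
      exact hY q _ ((hYle q).trans h)
  have h2 : φ τ₁ ≤ φ (q₀.out⁻¹ • w q₀) := (key τ₁).resolve_left (lt_irrefl _)
  exact ⟨_, h1.trans_le h2, fun τ ↦ (key τ).elim (fun h ↦ h.le.trans h2) id⟩

/-- The `U_q` bound. -/
theorem lt_of_U {Γ : Subgroup SL(2, ℤ)} [Γ.FiniteIndex] {φ : ℍ → ℝ} (hc : Continuous φ)
    (hinv : ∀ γ ∈ Γ, ∀ τ, φ (γ • τ) = φ τ)
    (h0 : ∀ δ : SL(2, ℤ), IsZeroAtImInfty (fun τ ↦ φ (δ • τ))) {τ₁ : ℍ} (h1 : 0 < φ τ₁)
    {q : ℕ} (hq : 2 ≤ q) {b : ℝ}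
    (hU : ∀ τ, b * φ τ ≤ ∑ j ∈ Finset.range q, φ (ModularForm.heckeMatrix q j • τ)) :
    b < q := by
  by_contra hb
  push Not at hb
  obtain ⟨τ₀, hpos, hmax⟩ := exists_max hc hinv h0 h1
  have hq0 : q ≠ 0 := by omega
  have hqR : (1 : ℝ) < q := by exact_mod_cast (by omega : 1 < q)
  -- the maximum propagates
  have step : ∀ τ, φ τ = φ τ₀ → φ (ModularForm.heckeMatrix q 0 • τ) = φ τ₀ := by
    intro τ hτ
    refine le_antisymm (hmax _) ?_
    have h2 := hU τ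
    rw [hτ, ← Finset.sum_erase_add _ _ (Finset.mem_range.mpr (by omega : 0 < q))] at h2
    have h3 : ∑ j ∈ (Finset.range q).erase 0, φ (ModularForm.heckeMatrix q j • τ) ≤
        ((q : ℝ) - 1) * φ τ₀ := by
      refine (Finset.sum_le_card_nsmul _ _ (φ τ₀) fun j _ ↦ hmax _).trans ?_
      rw [Finset.card_erase_of_mem (Finset.mem_range.mpr (by omega : 0 < q)), Finset.card_range,
        nsmul_eq_mul, Nat.cast_sub (by omega), Nat.cast_one]
    nlinarith
  have hiter : ∀ n : ℕ, ∃ τ : ℍ, (τ : ℂ) = (τ₀ : ℂ) / (q : ℂ) ^ n ∧ φ τ = φ τ₀ := by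
    intro n
    induction n with
    | zero => exact ⟨τ₀, by simp, rfl⟩
    | succ n ih =>
      obtain ⟨τ, h1, h2⟩ := ih
      refine ⟨ModularForm.heckeMatrix q 0 • τ, ?_, step τ h2⟩
      rw [ModularForm.coe_heckeMatrix_smul hq0, h1, pow_succ]
      simp [div_div]
  -- decay at the cusp zero
  have h := (h0 ModularGroup.S⁻¹).eventually (gt_mem_nhds hpos)
  rw [Filter.Eventually, UpperHalfPlane.atImInfty_mem] at h
  obtain ⟨A, hA⟩ := h
  have hnorm : 0 < Complex.normSq (τ₀ : ℂ) := UpperHalfPlane.normSq_pos τ₀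
  obtain ⟨n, hn⟩ := pow_unbounded_of_one_lt (A * Complex.normSq (τ₀ : ℂ) / τ₀.im) hqR
  obtain ⟨τ, h2, h3⟩ := hiter n
  have him : A ≤ (ModularGroup.S • τ).im := by
    rw [ModularGroup.im_smul_eq_div_normSq, ModularGroup.denom_S, h2]
    have h4 : τ.im = τ₀.im / (q : ℝ) ^ n := by
      have := congrArg Complex.im h2
      rw [show ((q : ℂ) ^ n) = (((q : ℝ) ^ n : ℝ) : ℂ) by push_cast; rfl,
        Complex.div_ofReal_im] at this
      exact this
    rw [h4, show ((q : ℂ) ^ n) = (((q : ℝ) ^ n : ℝ) : ℂ) by push_cast; rfl, map_div₀,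
      Complex.normSq_ofReal]
    have hqn : (0 : ℝ) < (q : ℝ) ^ n := by positivity
    have him0 := τ₀.im_pos
    rw [div_lt_iff₀ him0] at hn
    rw [le_div_iff₀ (by positivity), ← mul_div_assoc, div_le_div_iff₀ (by positivity) hqn]
    nlinarith
  have h5 := hA _ him
  simp only [Set.mem_ofPred_eq, inv_smul_smul] at h5
  exact absurd h3 h5.ne


/-- Decay of `‖h‖ y` at infinity. -/
def Dec (h : ℍ → ℂ) : Prop := Tendsto (fun τ : ℍ ↦ ‖h τ‖ * τ.im) atImInfty (𝓝 0)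

lemma Dec.add {h₁ h₂ : ℍ → ℂ} (H₁ : Dec h₁) (H₂ : Dec h₂) : Dec (h₁ + h₂) := by
  have h := Tendsto.add H₁ H₂
  rw [add_zero] at h
  refine squeeze_zero (fun τ ↦ by positivity) (fun τ ↦ ?_) h
  rw [← add_mul]
  exact mul_le_mul_of_nonneg_right (norm_add_le _ _) τ.im_pos.le

lemma Dec.smul {h : ℍ → ℂ} (H : Dec h) (c : ℂ) : Dec (c • h) := by
  have h := Tendsto.const_mul ‖c‖ H
  rw [mul_zero] at h
  refine h.congr fun τ ↦ ?_
  simp [mul_assoc]

open ConjAct Pointwise in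
lemma dec_slash_rat {Γ : Subgroup (GL (Fin 2) ℝ)} [Γ.IsArithmetic] (f : CuspForm Γ 2)
    (g : GL (Fin 2) ℚ) :
    Dec (⇑f ∣[(2 : ℤ)] (g.map (Rat.castHom ℝ) : GL (Fin 2) ℝ)) := by
  have harith : (toConjAct ((g.map (Rat.castHom ℝ) : GL (Fin 2) ℝ))⁻¹ • Γ).IsArithmetic := by
    simpa [map_inv] using! Subgroup.IsArithmetic.conj Γ g⁻¹
  have h := (CuspFormClass.zero_at_infty
    (CuspForm.translate f (g.map (Rat.castHom ℝ) : GL (Fin 2) ℝ))).petersson_isZeroAtImInfty_left 2 _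
    (CuspForm.translate f (g.map (Rat.castHom ℝ) : GL (Fin 2) ℝ))
  have h2 := (tendsto_zero_iff_norm_tendsto_zero.mp h).sqrt
  rw [Real.sqrt_zero] at h2
  refine h2.congr fun τ ↦ ?_
  rw [Real.sqrt_eq_iff_mul_self_eq (norm_nonneg _) (mul_nonneg (norm_nonneg _) τ.im_pos.le)]
  simp only [petersson, norm_mul, Complex.norm_conj, norm_zpow, Complex.norm_real,
    Real.norm_of_nonneg τ.im_pos.le]
  change ‖(⇑f ∣[(2 : ℤ)] (g.map (Rat.castHom ℝ) : GL (Fin 2) ℝ)) τ‖ *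
    ‖(⇑f ∣[(2 : ℤ)] (g.map (Rat.castHom ℝ) : GL (Fin 2) ℝ)) τ‖ * τ.im ^ (2 : ℤ) = _
  rw [zpow_ofNat]
  ring

/-- `‖g τ‖ Im τ` is computed by slashing. -/
lemma norm_slash_mul_im (g : ℍ → ℂ) (δ : SL(2, ℤ)) (τ : ℍ) :
    ‖(g ∣[(2 : ℤ)] δ) τ‖ * τ.im = ‖g (δ • τ)‖ * (δ • τ).im := by
  have h := congrArg norm (petersson_slash_SL 2 g g δ τ)
  simp only [petersson, norm_mul, Complex.norm_conj, norm_zpow, Complex.norm_real,
    Real.norm_of_nonneg τ.im_pos.le, Real.norm_of_nonneg (δ • τ).im_pos.le] at h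
  rw [zpow_ofNat, zpow_ofNat] at h
  have h1 : (‖(g ∣[(2 : ℤ)] δ) τ‖ * τ.im) ^ 2 = (‖g (δ • τ)‖ * (δ • τ).im) ^ 2 := by
    rw [mul_pow, mul_pow, pow_two ‖_‖, pow_two ‖g _‖]
    exact h
  exact (pow_left_inj₀ (mul_nonneg (norm_nonneg _) τ.im_pos.le)
    (mul_nonneg (norm_nonneg _) (δ • τ).im_pos.le) two_ne_zero).mp h1

/-- Abstract `U_q` bound for functions. -/
theorem norm_lt_of_U {Γ : Subgroup SL(2, ℤ)} [Γ.FiniteIndex] {g : ℍ → ℂ} (hc : Continuous g)
    (hinv : ∀ γ ∈ Γ, g ∣[(2 : ℤ)] γ = g)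
    (h0 : ∀ δ : SL(2, ℤ), Dec (g ∣[(2 : ℤ)] δ)) (hg : g ≠ 0)
    {q : ℕ} (hq : 2 ≤ q) {β : ℂ} (hU : ∀ τ, ModularForm.heckeU 2 q g τ = β * g τ) :
    ‖β‖ < q := by
  have hq0 : q ≠ 0 := by omega
  obtain ⟨τ₁, hτ₁⟩ : ∃ τ, g τ ≠ 0 := by
    by_contra h
    push Not at h
    exact hg (funext h)
  refine lt_of_U (Γ := Γ) (φ := fun τ ↦ ‖g τ‖ * τ.im) (by fun_prop) ?_ ?_ (τ₁ := τ₁)
    (mul_pos (norm_pos_iff.mpr hτ₁) τ₁.im_pos) hq ?_
  · intro γ hγ τ
    have h := norm_slash_mul_im g γ τ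
    rw [hinv γ hγ] at h
    exact h.symm
  · intro δ
    refine (h0 δ).congr fun τ ↦ norm_slash_mul_im g δ τ
  · intro τ
    have h := congrArg norm (hU τ)
    rw [ModularForm.heckeU_apply 2 hq0, norm_mul, norm_mul, norm_inv, Complex.norm_natCast] at h
    have hqpos : (0 : ℝ) < q := by exact_mod_cast Nat.pos_of_ne_zero hq0
    have him : ∀ j, (ModularForm.heckeMatrix q j • τ).im = τ.im / q := by
      intro j
      have := congrArg Complex.im (ModularForm.coe_heckeMatrix_smul hq0 j τ)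
      rw [show (q : ℂ) = ((q : ℝ) : ℂ) by push_cast; rfl, Complex.div_ofReal_im] at this
      simpa using this
    simp only [him]
    rw [← mul_assoc, ← h, ← Finset.sum_mul]
    calc (q : ℝ)⁻¹ * ‖∑ j ∈ Finset.range q, g (ModularForm.heckeMatrix q j • τ)‖ * τ.im
        = ‖∑ j ∈ Finset.range q, g (ModularForm.heckeMatrix q j • τ)‖ * (τ.im / q) := by ring
      _ ≤ _ := mul_le_mul_of_nonneg_right (norm_sum_le _ _) (by
          have := τ.im_pos; positivity)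

lemma continuous_cuspForm {Γ : Subgroup (GL (Fin 2) ℝ)} (f : CuspForm Γ 2) : Continuous f :=
  (CuspFormClass.holo f).continuous

lemma dec_slash_SL {N : ℕ} [NeZero N] (f : CuspForm (Gamma0 N) 2) (δ : SL(2, ℤ)) :
    Dec (⇑f ∣[(2 : ℤ)] δ) := by
  have h := dec_slash_rat f (Matrix.SpecialLinearGroup.mapGL ℚ δ)
  have e : (((Matrix.SpecialLinearGroup.mapGL ℚ δ).map (Rat.castHom ℝ) : GL (Fin 2) ℝ)) =
      Matrix.SpecialLinearGroup.mapGL ℝ δ := by
    ext i j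
    simp
  rw [e] at h
  exact h

/-- `U_q f = β f` on `S_2(Γ₀(N))`, `f ≠ 0` implies `|β| < q`. -/
theorem norm_lt_of_heckeU {N : ℕ} [NeZero N] {q : ℕ} (hq : 2 ≤ q)
    (f : CuspForm (Gamma0 N) 2) (hf : f ≠ 0) (β : ℂ)
    (hU : ∀ τ, ModularForm.heckeU 2 q f τ = β * f τ) : ‖β‖ < q := by
  refine norm_lt_of_U (Γ := Gamma0 N) (continuous_cuspForm f) (fun γ hγ ↦ ?_)
    (fun δ ↦ dec_slash_SL f δ) (fun h ↦ hf (DFunLike.coe_injective h)) hq hU
  exact SlashInvariantFormClass.slash_action_eq f _ (Subgroup.mem_map_of_mem _ hγ)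

theorem norm_lt_of_heckeULin {N : ℕ} [NeZero N] {q : ℕ} (hq : q.Prime) (hqN : q ∣ N)
    (f : CuspForm (Gamma0 N) 2) (hf : f ≠ 0) (β : ℂ)
    (hU : CuspForm.heckeULin 2 hqN f = β • f) : ‖β‖ < q := by
  refine norm_lt_of_heckeU hq.two_le f hf β fun τ ↦ ?_
  rw [← CuspForm.heckeULin_apply_apply 2 hqN f τ, hU]
  rfl

/-- the matrix relation `diag(q,1) γ = γ' diag(q,1)` for `γ ∈ Γ₀(Nq)` -/
lemma diag_conj {N q : ℕ} (hq : q ≠ 0) (γ : SL(2, ℤ)) (hγ : γ ∈ Gamma0 (N * q)) :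
    ∃ γ' ∈ Gamma0 N, ModularForm.heckeDiagMatrix q * (γ : GL (Fin 2) ℝ) =
      (γ' : GL (Fin 2) ℝ) * ModularForm.heckeDiagMatrix q := by
  rw [Gamma0_mem, ZMod.intCast_zmod_eq_zero_iff_dvd] at hγ
  obtain ⟨c, hc⟩ := hγ
  obtain ⟨γ', h1, h2⟩ :=
    P2MW.S_ModularForm_heckeT_slash_eq_self_of_mem_Gamma0.ModularForm.HeckeSlashInvariance.heckeDiagMatrix_mul_of_eq'
      hq γ (N * c) (by rw [hc]; push_cast; ring)
  refine ⟨γ', ?_, h2⟩
  rw [Gamma0_mem, h1]
  simp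

lemma exists_rat_diag {q : ℕ} (hq : q ≠ 0) :
    ∃ g : GL (Fin 2) ℚ, ModularForm.heckeDiagMatrix q = (g.map (Rat.castHom ℝ) : GL (Fin 2) ℝ) := by
  refine ⟨Matrix.GeneralLinearGroup.mkOfDetNeZero !![(q : ℚ), 0; 0, 1] ?_, ?_⟩
  · rw [Matrix.det_fin_two_of]
    simpa using hq
  · ext i j
    fin_cases i <;> fin_cases j <;>
      simp [ModularForm.heckeDiagMatrix, hq, ModularForm.upperTriangularGL,
        Matrix.GeneralLinearGroup.mkOfDetNeZero]

/-- Roots of the Hecke polynomial at a good prime have absolute value `< q`. -/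
theorem root_norm_lt {N : ℕ} [NeZero N] {q : ℕ} (hq : 2 ≤ q)
    (f : CuspForm (Gamma0 N) 2) (hf : f ≠ 0) (a : ℂ)
    (hT : ∀ τ, ModularForm.heckeT 2 q f τ = a * f τ) (β : ℂ) (hβ : β ^ 2 - a * β + q = 0) :
    ‖β‖ < q := by
  have hq0 : q ≠ 0 := by omega
  have : NeZero q := ⟨hq0⟩
  by_contra hlt
  push Not at hlt
  have hqR : (2 : ℝ) ≤ q := by exact_mod_cast hq
  have hβ0 : β ≠ 0 := by
    rintro rfl
    rw [norm_zero] at hlt
    linarith
  set D : GL (Fin 2) ℝ := ModularForm.heckeDiagMatrix q with hD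
  set h : ℍ → ℂ := ⇑f ∣[(2 : ℤ)] D with hh
  have hhapp : ∀ τ, h τ = q * f (D • τ) := by
    intro τ
    rw [hh, hD, ModularForm.slash_heckeDiagMatrix_apply 2 hq0]
    norm_num
  set g : ℍ → ℂ := ⇑f + (-β⁻¹) • h with hg
  have hhc : Continuous h := ((CuspFormClass.holo f).slash 2 D).continuous
  have hgc : Continuous g := (continuous_cuspForm f).add (hhc.const_smul _)
  have hfN : ∀ γ ∈ Gamma0 N, ⇑f ∣[(2 : ℤ)] (γ : GL (Fin 2) ℝ) = ⇑f := fun γ hγ ↦
    SlashInvariantFormClass.slash_action_eq f _ (Subgroup.mem_map_of_mem _ hγ)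
  obtain ⟨r, hr⟩ := exists_rat_diag hq0
  have hφ0 : g ≠ 0 := by
    intro h0
    have hfe : ∀ τ, f τ = β⁻¹ * (q * f (D • τ)) := by
      intro τ
      have := congrFun h0 τ
      simp only [hg, Pi.add_apply, Pi.smul_apply, smul_eq_mul, hhapp, Pi.zero_apply] at this
      linear_combination this
    obtain ⟨τ₁, hτ₁⟩ : ∃ τ, f τ ≠ 0 := by
      by_contra h
      push Not at h
      exact hf (DFunLike.coe_injective (funext h))
    have him : ∀ τ : ℍ, (D • τ).im = q * τ.im := by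
      intro τ
      have := congrArg Complex.im (ModularForm.coe_heckeDiagMatrix_smul hq0 τ)
      rw [show (q : ℂ) = ((q : ℝ) : ℂ) by push_cast; rfl, Complex.im_ofReal_mul] at this
      simpa using this
    have hstep : ∀ τ : ℍ, ‖f τ‖ * τ.im ≤ ‖f (D • τ)‖ * (D • τ).im := by
      intro τ
      have h1 : ‖β‖ * ‖f τ‖ = q * ‖f (D • τ)‖ := by
        rw [hfe τ, norm_mul, norm_mul, norm_inv, Complex.norm_natCast]
        have := norm_ne_zero_iff.mpr hβ0
        field_simp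
      rw [him]
      have h2 : 0 ≤ ‖f τ‖ := norm_nonneg _
      have h3 := τ.im_pos
      have h4 : ‖f (D • τ)‖ * (q * τ.im) = ‖β‖ * ‖f τ‖ * τ.im := by rw [h1]; ring
      rw [h4]
      have : ‖f τ‖ ≤ ‖β‖ * ‖f τ‖ := le_mul_of_one_le_left h2 (by linarith)
      exact mul_le_mul_of_nonneg_right this h3.le
    have hiter : ∀ n : ℕ, ∃ τ : ℍ, τ.im = (q : ℝ) ^ n * τ₁.im ∧ ‖f τ₁‖ * τ₁.im ≤ ‖f τ‖ * τ.im := by
      intro n
      induction n with
      | zero => exact ⟨τ₁, by simp, le_rfl⟩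
      | succ n ih =>
        obtain ⟨τ, h1, h2⟩ := ih
        exact ⟨D • τ, by rw [him, h1]; ring, h2.trans (hstep τ)⟩
    have hdec : Dec f := by
      have := dec_slash_SL f 1
      rwa [SlashAction.slash_one] at this
    have hpos : 0 < ‖f τ₁‖ * τ₁.im := mul_pos (norm_pos_iff.mpr hτ₁) τ₁.im_pos
    have h := hdec.eventually (gt_mem_nhds hpos)
    rw [Filter.Eventually, UpperHalfPlane.atImInfty_mem] at h
    obtain ⟨A, hA⟩ := h
    obtain ⟨n, hn⟩ := pow_unbounded_of_one_lt (A / τ₁.im) (by linarith : (1 : ℝ) < q)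
    obtain ⟨τ, h1, h2⟩ := hiter n
    rw [div_lt_iff₀ τ₁.im_pos] at hn
    exact absurd h2 (not_le.mpr (hA τ (by rw [h1]; exact hn.le)))
  refine absurd (norm_lt_of_U (Γ := Gamma0 (N * q)) hgc ?_ ?_ hφ0 hq (β := β) ?_) (not_lt.mpr hlt)
  · intro γ hγ
    obtain ⟨γ', hγ', e⟩ := diag_conj hq0 γ hγ
    have hγN : γ ∈ Gamma0 N := by
      rw [Gamma0_mem, ZMod.intCast_zmod_eq_zero_iff_dvd] at hγ ⊢
      exact (by push_cast; exact dvd_mul_right _ _ : (N : ℤ) ∣ ((N * q : ℕ) : ℤ)).trans hγ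
    rw [ModularForm.SL_slash, hg, SlashAction.add_slash, hfN γ hγN]
    congr 1
    rw [← ModularForm.SL_slash, ModularForm.SL_smul_slash, ModularForm.SL_slash]
    congr 1
    rw [hh, ← SlashAction.slash_mul, hD, e, SlashAction.slash_mul, hfN γ' hγ']
  · intro δ
    rw [hg, SlashAction.add_slash, ModularForm.SL_smul_slash]
    refine (dec_slash_SL f δ).add (Dec.smul ?_ _)
    rw [hh, ModularForm.SL_slash, ← SlashAction.slash_mul, hD, hr]
    have h := dec_slash_rat f (r * Matrix.SpecialLinearGroup.mapGL ℚ δ)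
    have e : (((r * Matrix.SpecialLinearGroup.mapGL ℚ δ).map (Rat.castHom ℝ) : GL (Fin 2) ℝ)) =
        (r.map (Rat.castHom ℝ) : GL (Fin 2) ℝ) * Matrix.SpecialLinearGroup.mapGL ℝ δ := by
      rw [map_mul]
      congr 1
      ext i j
      simp
    rw [e] at h
    exact h
  · intro τ
    rw [hg, ModularForm.heckeU_add, ModularForm.heckeU_smul]
    simp only [Pi.add_apply, Pi.smul_apply, smul_eq_mul]
    have h1 : ModularForm.heckeU 2 q (⇑f) τ = a * f τ - h τ := by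
      have := hT τ
      rw [ModularForm.heckeT_eq_heckeU_add, Pi.add_apply] at this
      rw [hh]
      linear_combination this
    have h2 : ModularForm.heckeU 2 q h τ = q * f τ := by
      rw [ModularForm.heckeU_apply 2 hq0]
      have : ∀ j ∈ Finset.range q, h (ModularForm.heckeMatrix q j • τ) = q * f τ := by
        intro j _
        rw [hhapp]
        congr 1
        have e1 : D • ModularForm.heckeMatrix q j • τ = (((ModularGroup.T ^ (j : ℤ) : SL(2, ℤ))) • τ) := by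
          apply UpperHalfPlane.ext
          rw [hD, ModularForm.coe_heckeDiagMatrix_smul hq0, ModularForm.coe_heckeMatrix_smul hq0,
            ModularGroup.coe_T_zpow_smul_eq]
          have : (q : ℂ) ≠ 0 := by exact_mod_cast hq0
          push_cast
          field_simp
        rw [e1]
        have e2 := congrFun (hfN (ModularGroup.T ^ (j : ℤ)) (by
          rw [Gamma0_mem, ModularGroup.coe_T_zpow]; simp)) τ
        rw [← ModularForm.SL_slash, ModularForm.SL_slash_apply] at e2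
        have e3 : UpperHalfPlane.denom (((ModularGroup.T ^ (j : ℤ) : SL(2, ℤ))) : GL (Fin 2) ℝ) τ
            = 1 := by
          rw [ModularGroup.denom_apply, ModularGroup.coe_T_zpow]
          simp
        rw [e3, one_zpow, mul_one] at e2
        exact e2
      rw [Finset.sum_congr rfl this, Finset.sum_const, Finset.card_range, nsmul_eq_mul]
      have : (q : ℂ) ≠ 0 := by exact_mod_cast hq0
      field_simp
    rw [h1, h2]
    field_simp
    linear_combination (-(f τ)) * hβ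

/-- All roots of the Hecke polynomial at a good prime satisfy `1 < |β| < q`. -/
theorem one_lt_norm_root {N : ℕ} [NeZero N] {q : ℕ} (hq : 2 ≤ q)
    (f : CuspForm (Gamma0 N) 2) (hf : f ≠ 0) (a : ℂ)
    (hT : ∀ τ, ModularForm.heckeT 2 q f τ = a * f τ) (β : ℂ) (hβ : β ^ 2 - a * β + q = 0) :
    1 < ‖β‖ := by
  have hqC : (q : ℂ) ≠ 0 := by exact_mod_cast (by omega : q ≠ 0)
  have hqR : (0 : ℝ) < q := by exact_mod_cast (by omega : 0 < q)
  have hβ0 : β ≠ 0 := by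
    rintro rfl
    apply hqC
    linear_combination hβ
  have h := root_norm_lt hq f hf a hT (q / β) (by
    field_simp
    linear_combination (q : ℂ) * hβ)
  rw [norm_div, Complex.norm_natCast, div_lt_iff₀ (norm_pos_iff.mpr hβ0)] at h
  nlinarith [norm_pos_iff.mpr hβ0]

/-- The trivial bound `|a_q| < q + 1`. -/
theorem norm_lt_succ {N : ℕ} [NeZero N] {q : ℕ} (hq : 2 ≤ q)
    (f : CuspForm (Gamma0 N) 2) (hf : f ≠ 0) (a : ℂ)
    (hT : ∀ τ, ModularForm.heckeT 2 q f τ = a * f τ) : ‖a‖ < q + 1 := by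
  obtain ⟨β, hβ⟩ := IsAlgClosed.exists_root (Polynomial.X ^ 2 - Polynomial.C a * Polynomial.X +
    Polynomial.C (q : ℂ)) (by
      have : (Polynomial.X ^ 2 - Polynomial.C a * Polynomial.X +
        Polynomial.C (q : ℂ)).degree = 2 := by compute_degree!
      rw [this]; decide)
  simp only [Polynomial.IsRoot.def, Polynomial.eval_add, Polynomial.eval_sub, Polynomial.eval_pow,
    Polynomial.eval_X, Polynomial.eval_mul, Polynomial.eval_C] at hβ
  have h1 := root_norm_lt hq f hf a hT β hβ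
  have h2 := one_lt_norm_root hq f hf a hT β hβ
  have hβ0 : β ≠ 0 := by
    rintro rfl
    rw [norm_zero] at h2
    linarith
  have ha : a = β + q / β := by
    field_simp
    linear_combination -hβ
  have h3 : ‖a‖ ≤ ‖β‖ + q / ‖β‖ := by
    rw [ha]
    refine (norm_add_le _ _).trans ?_
    rw [norm_div, Complex.norm_natCast]
  refine h3.trans_lt ?_
  have h4 : 0 < ‖β‖ := by linarith
  rw [← sub_pos]
  have : (q : ℝ) + 1 - (‖β‖ + q / ‖β‖) = (‖β‖ - 1) * (q - ‖β‖) / ‖β‖ := by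
    field_simp
    ring
  rw [this]
  exact div_pos (mul_pos (by linarith) (by linarith)) h4

end Fermat.Agent.MZ
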