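import Fermat.Agent.Mazur.EisGen
import Fermat.Agent.Cofaith.Weight
import Fermat.Agent.Cofaith.ES
import Fermat.Agent.S37aux.Final

/-!
# The Eisenstein input for `J₀(N)`, `N` prime
-/

set_option autoImplicit false
set_option linter.style.haveILetI false

noncomputable section

open Fermat.Agent.GalRep ModularCurve AlgebraicCurve Fermat.Agent.Mazur
open Fermat.Agent.MazurCyc Fermat.Agent.S37aux

namespace Fermat.Agent.MazurEisJ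

/-- the Hecke ring prime to `N`: polynomials in the `T_ℓ`, `ℓ ≠ N`. -/
abbrev RS (N : ℕ) : Type := HeckeAlgS ({N} : Set ℕ)

/-- `J₀(N)` as a module over the Hecke ring prime to `N`. -/
@[implicit_reducible] def modS (N : ℕ) [NeZero N] : Module (RS N) (JZero N) :=
  letI := heckeModuleBar N
  Module.compHom (JZero N) (inclS ({N} : Set ℕ)).toRingHom

/-- the operators `T_ℓ` (zero for `ℓ = N`) -/
def TS (N : ℕ) (ℓ : Nat.Primes) : RS N := by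
  classical
  exact if h : (ℓ : ℕ) ∉ ({N} : Set ℕ) then MvPolynomial.X ⟨ℓ, h⟩ else 0

theorem TS_of_ne {N : ℕ} {ℓ : Nat.Primes} (h : (ℓ : ℕ) ≠ N) :
    TS N ℓ = MvPolynomial.X ⟨ℓ, h⟩ := by
  classical
  exact dif_pos h

/-- the Eisenstein character modulo `q` -/
def chiE (N q : ℕ) : RS N →ₐ[ℤ] ZMod q :=
  MvPolynomial.aeval fun ℓ => 1 + ((ℓ.1 : ℕ) : ZMod q)

/-- the Eisenstein maximal ideal -/
def PE (N q : ℕ) : Ideal (RS N) := RingHom.ker (chiE N q)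

theorem mem_PE {N q : ℕ} {r : RS N} : r ∈ PE N q ↔ chiE N q r = 0 := Iff.rfl

theorem chiE_TS {N q : ℕ} {ℓ : Nat.Primes} (h : (ℓ : ℕ) ≠ N) :
    chiE N q (TS N ℓ) = 1 + ((ℓ : ℕ) : ZMod q) := by
  rw [TS_of_ne h]
  exact MvPolynomial.aeval_X _ _

theorem chiE_surjective (N q : ℕ) : Function.Surjective (chiE N q) := by
  intro x
  obtain ⟨n, rfl⟩ := ZMod.intCast_surjective x
  exact ⟨n, map_intCast _ _⟩

theorem isMaximal_PE (N : ℕ) {q : ℕ} (hq : q.Prime) : (PE N q).IsMaximal := by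
  have := Fact.mk hq
  exact RingHom.ker_isMaximal_of_surjective _ (chiE_surjective N q)

theorem int_PE (N : ℕ) {q : ℕ} (r : RS N) : ∃ n : ℤ, r - n ∈ PE N q := by
  obtain ⟨n, hn⟩ := ZMod.intCast_surjective (chiE N q r)
  refine ⟨n, ?_⟩
  rw [mem_PE, map_sub, map_intCast, hn, sub_self]

theorem q_mem_PE (N q : ℕ) : (q : RS N) ∈ PE N q := by
  rw [mem_PE, map_natCast, ZMod.natCast_self]

theorem eis_PE {N q : ℕ} {ℓ : Nat.Primes} (h : (ℓ : ℕ) ≠ N) :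
    TS N ℓ - (1 + ((ℓ : ℕ) : RS N)) ∈ PE N q := by
  rw [mem_PE, map_sub, chiE_TS h, map_add, map_one, map_natCast, sub_self]

section

variable (N : ℕ) [NeZero N]

theorem smul_def' (r : RS N) (x : JZero N) :
    (letI := modS N; r • x) = (letI := heckeModuleBar N; inclS ({N} : Set ℕ) r • x) := rfl

theorem TS_smul {ℓ : Nat.Primes} (h : (ℓ : ℕ) ≠ N) (x : JZero N) :
    (letI := modS N; TS N ℓ • x) = heckeOperatorBar N ℓ x := by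
  rw [smul_def', TS_of_ne h]
  have h1 : inclS ({N} : Set ℕ) (MvPolynomial.X ⟨ℓ, h⟩) = heckeGen ℓ := by
    rw [inclS, MvPolynomial.rename_X]
    rfl
  rw [h1]
  exact heckeModuleBar_heckeGen_smul (HeckeComm.heckeOperatorsCommuteBar N) ℓ x

theorem comm' (g : GQ) (r : RS N) (x : JZero N) :
    (letI := modS N; g • r • x = r • g • x) :=
  (Cofaith.heckeAlg_smul_comm N (inclS ({N} : Set ℕ) r) g x).symm

theorem commClass : (letI := modS N; SMulCommClass GQ (RS N) (JZero N)) :=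
  letI := modS N
  ⟨fun g r x => comm' N g r x⟩

end

/-- **A reduction map with finite flat models**: at `A` over `q`, an additive map out of `J₀(N)`
with the Galois and Eichler–Shimura properties, whose kernel consists of elements reducing to zero
in a finite flat model of `J₀(N)[q^n]`. -/
def ModelRed (N : ℕ) [NeZero N] (q : ℕ) (hq : q.Prime)
    (A : ValuationSubring (AlgebraicClosure ℚ)) : Prop :=
  ∃ (B : Type) (_ : AddCommGroup B) (red : JZero N →+ B) (Fr : B →+ B),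
    (∀ σ ∈ A.inertiaSubgroupIn ℚ, ∀ x : JZero N, red (σ • x) = red x) ∧
    (∀ σ : AlgebraicClosure ℚ ≃ₐ[ℚ] AlgebraicClosure ℚ, A.IsFrobeniusAt σ q →
      ∀ x : JZero N, red (σ • x) = Fr (red x)) ∧
    (∀ x : JZero N, Fr (Fr (red x)) - Fr (red (heckeOperatorBar N ⟨q, hq⟩ x)) + q • red x = 0) ∧
    (∀ n : ℕ, HasModel q (JZero N) ((q : ℤ) ^ n) A red.ker)

/-- multiplicative reduction at `N` (the field `atN`) -/
def AtN (N : ℕ) [NeZero N] (q : ℕ) : Prop :=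
  letI := modS N
  ∃ B : ValuationSubring (AlgebraicClosure ℚ), B.LiesOverPrime N ∧
    (∀ τ ∈ B.inertiaSubgroupIn ℚ, ∀ τ' ∈ B.inertiaSubgroupIn ℚ, ∀ x ∈ PPrim q (PE N q) (JZero N),
      τ • (τ' • x - x) - (τ' • x - x) = 0) ∧
    ∃ φ : GQ, B.IsFrobeniusAt φ N ∧ ∃ a : ℕ, ∀ x ∈ PPrim q (PE N q) (JZero N),
      (((gEnd (JZero N) φ) ^ 2 - 1) ^ a *
        ((gEnd (JZero N) φ) ^ 2 - ((N ^ 2 : ℕ) : AddMonoid.End (JZero N))) ^ a :
        AddMonoid.End (JZero N)) x = 0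

theorem bare (N : ℕ) [NeZero N] {ℓ : Nat.Primes} (hℓN : (ℓ : ℕ) ≠ N)
    {A : ValuationSubring (AlgebraicClosure ℚ)} (h : BareRed N ℓ ℓ.2 A) :
    (letI := modS N; MazurEisGen.Bare (TS N) (JZero N) ℓ A) := by
  let _ := modS N
  obtain ⟨B, i, red, Fr, h1, h2, h3, h4⟩ := h
  refine ⟨B, i, red, Fr, h1, h2, fun x => ?_, h4⟩
  have h5 := TS_smul N hℓN x
  exact (congrArg (fun z => Fr (Fr (red x)) - Fr (red z) + (ℓ : ℕ) • red x) h5).trans (h3 x)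

theorem model (N : ℕ) [NeZero N] {q : ℕ} (hq : q.Prime) (hqN : q ≠ N)
    {A : ValuationSubring (AlgebraicClosure ℚ)} (h : ModelRed N q hq A) :
    (letI := modS N; MazurEisGen.Model (TS N) (JZero N) ⟨q, hq⟩ A) := by
  let _ := modS N
  obtain ⟨B, i, red, Fr, h1, h2, h3, h4⟩ := h
  refine ⟨B, i, red, Fr, h1, h2, fun x => ?_, h4⟩
  have h5 := TS_smul N (ℓ := ⟨q, hq⟩) hqN x
  exact (congrArg (fun z => Fr (Fr (red x)) - Fr (red z) + q • red x) h5).trans (h3 x)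

theorem weight (N : ℕ) [NeZero N] (hN : N.Prime) {q : ℕ} (hq : q.Prime) :
    letI := modS N
    ∃ ℓ : Nat.Primes, (ℓ : ℕ) ≠ q ∧ (ℓ : ℕ) ≠ N ∧ ∃ (u : RS N) (n : ℕ), n ≠ 0 ∧
      ∀ x ∈ PPrim q (PE N q) (JZero N), (u * (TS N ℓ - (1 + ((ℓ : ℕ) : RS N)))) • x = n • x := by
  letI := modS N
  have hNmem : ∀ ℓ : ℕ, ℓ.Prime → ℓ ∣ N → ℓ ∈ ({N} : Set ℕ) := fun ℓ hℓ h =>
    (Nat.prime_dvd_prime_iff_eq hℓ hN).mp h
  obtain ⟨ℓ, hℓlt, hℓ⟩ := Nat.exists_infinite_primes (q + N + 1)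
  have hℓN : ℓ ≠ N := by omega
  obtain ⟨u, n, hn, h⟩ := Cofaith.exists_weight N ({N} : Set ℕ) hNmem ⟨⟨ℓ, hℓ⟩, hℓN⟩
    (m := ((1 + ℓ : ℕ) : ℤ)) (by rw [Nat.abs_cast]; push_cast; change (ℓ : ℤ) + 1 ≤ 1 + ℓ; omega)
  refine ⟨⟨ℓ, hℓ⟩, (by change ℓ ≠ q; omega), hℓN, u, n, hn, fun x hx => ?_⟩
  obtain ⟨⟨k, hk⟩, -⟩ := hx
  have h1 := h (q ^ k) (pow_ne_zero _ hq.ne_zero) x hk
  rw [← h1]
  have h2 : u * (TS N ⟨ℓ, hℓ⟩ - (1 + (((⟨ℓ, hℓ⟩ : Nat.Primes) : ℕ) : RS N))) =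
      u * (MvPolynomial.X ⟨⟨ℓ, hℓ⟩, hℓN⟩ - (((1 + ℓ : ℕ) : ℤ) : RS N)) := by
    have h3 : TS N ⟨ℓ, hℓ⟩ = MvPolynomial.X ⟨⟨ℓ, hℓ⟩, hℓN⟩ := TS_of_ne (ℓ := ⟨ℓ, hℓ⟩) hℓN
    have h4 : (((1 + ℓ : ℕ) : ℤ) : RS N) = 1 + (ℓ : RS N) := by push_cast; rfl
    rw [h3, h4]
  rw [h2]
  rfl

theorem weight_q (N : ℕ) [NeZero N] (hN : N.Prime) {q : ℕ} (hq : q.Prime) (hqN : q ≠ N) :
    letI := modS N
    ∃ (u : RS N) (n : ℕ), n ≠ 0 ∧
      ∀ x ∈ PPrim q (PE N q) (JZero N),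
        (u * ((TS N ⟨q, hq⟩) ^ 2 - (1 + (q : RS N)) ^ 2)) • x = n • x := by
  letI := modS N
  have hNmem : ∀ ℓ : ℕ, ℓ.Prime → ℓ ∣ N → ℓ ∈ ({N} : Set ℕ) := fun ℓ hℓ h =>
    (Nat.prime_dvd_prime_iff_eq hℓ hN).mp h
  obtain ⟨u, n, hn, h⟩ := Cofaith.exists_weight_sq N ({N} : Set ℕ) hNmem ⟨⟨q, hq⟩, hqN⟩
    (m := ((1 + q : ℕ) : ℤ)) (by rw [Nat.abs_cast]; push_cast; change (q : ℤ) + 1 ≤ 1 + q; omega)
  refine ⟨u, n, hn, fun x hx => ?_⟩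
  obtain ⟨⟨k, hk⟩, -⟩ := hx
  have h1 := h (q ^ k) (pow_ne_zero _ hq.ne_zero) x hk
  rw [← h1]
  have h2 : u * ((TS N ⟨q, hq⟩) ^ 2 - (1 + (q : RS N)) ^ 2) =
      u * (MvPolynomial.X ⟨⟨q, hq⟩, hqN⟩ ^ 2 - (((1 + q : ℕ) : ℤ) : RS N) ^ 2) := by
    have h3 : TS N ⟨q, hq⟩ = MvPolynomial.X ⟨⟨q, hq⟩, hqN⟩ := TS_of_ne (ℓ := ⟨q, hq⟩) hqN
    have h4 : (((1 + q : ℕ) : ℤ) : RS N) = 1 + (q : RS N) := by push_cast; rfl
    rw [h3, h4]
  rw [h2]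
  rfl

/-- **The Eisenstein input for `J₀(N)`.** -/
theorem eisInput (N : ℕ) [NeZero N] (hN : N.Prime) {q : ℕ} (hq : q.Prime) (hqN : q ≠ N)
    (hdiv : ∀ x : JZero N, ∃ y : JZero N, q • y = x)
    (hbare : ∀ (ℓ : ℕ) (hℓ : ℓ.Prime), ℓ ≠ q → ℓ ≠ N → ∀ A : ValuationSubring (AlgebraicClosure ℚ),
      A.LiesOverPrime ℓ → BareRed N ℓ hℓ A)
    (hmodel : ∃ A : ValuationSubring (AlgebraicClosure ℚ), A.LiesOverPrime q ∧ ModelRed N q hq A)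
    (hatN : AtN N q) :
    letI := modS N
    haveI := commClass N
    EisInput hq N (PE N q) (TS N) (JZero N) := by
  letI := modS N
  haveI := commClass N
  obtain ⟨A, hA, hmod⟩ := hmodel
  exact MazurEisGen.eisInput hN hq hqN (isMaximal_PE N hq) (int_PE N) (q_mem_PE N q)
    (fun ℓ _ hℓN => eis_PE hℓN) hdiv (fun n hn => Cofaith.finite_torsion N hn)
    (Cofaith.exists_open N)
    (fun ℓ hℓq hℓN A hA => bare N hℓN (hbare ℓ ℓ.2 hℓq hℓN A hA))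
    ⟨A, hA, model N hq hqN hmod⟩ (weight N hN hq) (weight_q N hN hq hqN) hatN

end Fermat.Agent.MazurEisJ
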