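import Fermat.Agent.Minkowski.Trivial
import Mathlib.NumberTheory.RamificationInertia.HilbertTheory

set_option autoImplicit false

namespace Fermat.Agent.Mazur

open scoped Pointwise NumberField
open Fermat.Agent.Frob Fermat.Agent.Minkowski

section field

variable (F : Type*) [Field F] [NumberField F] [IsGalois ℚ F]

attribute [local instance] Ideal.Quotient.field

/-- The inertia field is unramified. -/
theorem ramificationIdx_inertiaField (P : Ideal (𝓞 F)) [P.IsMaximal]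
    (hP0 : P ≠ ⊥) :
    ((P.under (𝓞 (FixedPoints.intermediateField (P.inertia (F ≃ₐ[ℚ] F)) :
      IntermediateField ℚ F)))).ramificationIdx ℤ = 1 := by
  let I := P.inertia (F ≃ₐ[ℚ] F)
  let E : IntermediateField ℚ F := FixedPoints.intermediateField I
  let PE : Ideal (𝓞 E) := P.under (𝓞 E)
  change PE.ramificationIdx ℤ = 1
  have hgal : IsGaloisGroup I E F := IsGaloisGroup.subgroup (F ≃ₐ[ℚ] F) ℚ F I
  have hgal2 : IsGaloisGroup I (𝓞 E) (𝓞 F) := IsGaloisGroup.of_isFractionRing I (𝓞 E) (𝓞 F) E F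
  have hPE : PE.IsPrime := inferInstance
  have hPE0 : PE ≠ ⊥ := fun h => hP0 (Ideal.eq_bot_of_comap_eq_bot h)
  have hPEm : PE.IsMaximal := hPE.isMaximal hPE0
  let p : Ideal ℤ := P.under ℤ
  have hp0 : p ≠ ⊥ := fun h => hP0 (Ideal.eq_bot_of_comap_eq_bot h)
  have hpp : p.IsPrime := inferInstance
  have hpm : p.IsMaximal := hpp.isMaximal hp0
  have hfin : Finite (ℤ ⧸ p) := Ring.HasFiniteQuotients.finiteQuotient hp0
  have hfin' : Finite (𝓞 E ⧸ PE) := Ring.HasFiniteQuotients.finiteQuotient hPE0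
  have hlo : P.LiesOver PE := ⟨rfl⟩
  have hlo2 : P.LiesOver p := ⟨rfl⟩
  have hlo3 : PE.LiesOver p := by
    constructor
    change P.under ℤ = (P.under (𝓞 E)).under ℤ
    rw [Ideal.under_under]
  have h1 := Ideal.card_inertia_eq_ramificationIdxIn (G := F ≃ₐ[ℚ] F) p P
  have h2 := Ideal.card_inertia_eq_ramificationIdxIn (G := I) PE P
  have h3 : Nat.card (P.inertia I) = Nat.card (P.inertia (F ≃ₐ[ℚ] F)) := by
    have : P.inertia I = ⊤ := by
      rw [eq_top_iff]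
      rintro ⟨g, hg⟩ -
      exact hg
    rw [this]
    exact Nat.card_congr (Subgroup.topEquiv.toEquiv)
  rw [Ideal.ramificationIdxIn_eq_ramificationIdx p P (F ≃ₐ[ℚ] F)] at h1
  rw [Ideal.ramificationIdxIn_eq_ramificationIdx PE P I] at h2
  have h4 := Ideal.ramificationIdx_tower (R := ℤ) PE P
  have h5 : P.ramificationIdx ℤ ≠ 0 := by
    rw [← h1]
    exact Nat.card_pos.ne'
  rw [← h1, ← h3, h2] at h4
  rw [← h1, ← h3, h2] at h5
  exact (Nat.eq_of_mul_eq_mul_right (Nat.pos_of_ne_zero h5) (by rw [one_mul]; exact h4)).symm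

/-- In the inertia field, the rational prime is a uniformizer. -/
theorem exists_pow_mul_of_inertia_fixed (P : Ideal (𝓞 F)) [P.IsMaximal]
    (ℓ : ℕ) (hℓ : ℓ.Prime) (hP : (ℓ : 𝓞 F) ∈ P) (x : F) (hx0 : x ≠ 0)
    (hx : ∀ τ ∈ P.inertia (F ≃ₐ[ℚ] F), τ x = x) :
    ∃ (k : ℤ) (s t : 𝓞 F), s ∉ P ∧ t ∉ P ∧ (s : F) * x = (ℓ : F) ^ k * t := by
  have hP0 : P ≠ ⊥ := by
    intro h
    rw [h, Ideal.mem_bot] at hP
    exact hℓ.ne_zero (by exact_mod_cast hP)
  let I := P.inertia (F ≃ₐ[ℚ] F)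
  let E : IntermediateField ℚ F := FixedPoints.intermediateField I
  let PE : Ideal (𝓞 E) := P.under (𝓞 E)
  have hram : PE.ramificationIdx ℤ = 1 := ramificationIdx_inertiaField F P hP0
  have hPE : PE.IsPrime := inferInstance
  have hPE0 : PE ≠ ⊥ := fun h => hP0 (Ideal.eq_bot_of_comap_eq_bot h)
  have hPEm : PE.IsMaximal := hPE.isMaximal hPE0
  let p : Ideal ℤ := PE.under ℤ
  have hp0 : p ≠ ⊥ := fun h => hPE0 (Ideal.eq_bot_of_comap_eq_bot h)
  have hpspan : p = Ideal.span {(ℓ : ℤ)} := by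
    have hpm : (Ideal.span {(ℓ : ℤ)}).IsMaximal := by
      have h1 : (Ideal.span {(ℓ : ℤ)}).IsPrime :=
        (Ideal.span_singleton_prime (by exact_mod_cast hℓ.ne_zero)).mpr
          (Nat.prime_iff_prime_int.mp hℓ)
      exact h1.isMaximal (by simpa using hℓ.ne_zero)
    refine (hpm.eq_of_le (Ideal.IsPrime.ne_top inferInstance) ?_).symm
    rw [Ideal.span_singleton_le_iff_mem]
    change algebraMap ℤ (𝓞 E) ℓ ∈ PE
    rw [map_natCast]
    change algebraMap (𝓞 E) (𝓞 F) ℓ ∈ P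
    rw [map_natCast]
    exact hP
  have hℓE : (ℓ : 𝓞 E) ∈ PE := by
    change algebraMap (𝓞 E) (𝓞 F) ℓ ∈ P
    rw [map_natCast]
    exact hP
  -- ℓ is not in `PE ^ 2`
  have hspan0 : Ideal.span {(ℓ : 𝓞 E)} ≠ 0 := by
    rw [Ne, Ideal.zero_eq_bot, Ideal.span_singleton_eq_bot]
    exact_mod_cast hℓ.ne_zero
  have hmap : p.map (algebraMap ℤ (𝓞 E)) = Ideal.span {(ℓ : 𝓞 E)} := by
    rw [hpspan, Ideal.map_span, Set.image_singleton, map_natCast]
  have hlo : PE.LiesOver p := ⟨rfl⟩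
  have hnu : ¬ IsUnit PE := by
    rw [Ideal.isUnit_iff]
    exact hPE.ne_top
  have hℓ2 : ¬ PE ^ 2 ∣ Ideal.span {(ℓ : 𝓞 E)} := by
    apply FiniteMultiplicity.not_pow_dvd_of_multiplicity_lt
      (FiniteMultiplicity.of_not_isUnit hnu hspan0)
    have h1 := Ideal.IsDedekindDomain.ramificationIdx_eq_multiplicity p PE
      (by rw [hmap]; exact hspan0)
    rw [hram, hmap] at h1
    omega
  obtain ⟨J, hJ⟩ := (Ideal.dvd_span_singleton).mpr hℓE
  have hJP : ¬ J ≤ PE := by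
    intro h
    apply hℓ2
    rw [hJ, sq]
    exact mul_dvd_mul_left _ (Ideal.dvd_iff_le.mpr h)
  obtain ⟨s, hsJ, hsP⟩ := SetLike.not_le_iff_exists.mp hJP
  -- key claim
  have key : ∀ a : 𝓞 E, a ≠ 0 → ∃ (k : ℕ) (u t : 𝓞 E), u ∉ PE ∧ t ∉ PE ∧ u * a = ℓ ^ k * t := by
    intro a ha
    have ha0 : Ideal.span {a} ≠ 0 := by
      rw [Ne, Ideal.zero_eq_bot, Ideal.span_singleton_eq_bot]
      exact ha
    have hfm := FiniteMultiplicity.of_not_isUnit hnu ha0
    let n := multiplicity PE (Ideal.span {a})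
    have h1 : a ∈ PE ^ n := by
      rw [← Ideal.dvd_span_singleton]
      exact pow_multiplicity_dvd _ _
    have h2 : a ∉ PE ^ (n + 1) := by
      rw [← Ideal.dvd_span_singleton]
      exact FiniteMultiplicity.not_pow_dvd_of_multiplicity_lt hfm (Nat.lt_succ_self _)
    have h3 : s ^ n * a ∈ Ideal.span {(ℓ : 𝓞 E) ^ n} := by
      rw [← Ideal.span_singleton_pow, hJ, mul_pow, mul_comm (PE ^ n)]
      exact Ideal.mul_mem_mul (Ideal.pow_mem_pow hsJ n) h1
    obtain ⟨t, ht⟩ := Ideal.mem_span_singleton'.mp h3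
    refine ⟨n, s ^ n, t, fun h => hsP (hPE.mem_of_pow_mem n h), ?_, by rw [← ht, mul_comm]⟩
    intro h
    apply h2
    have h4 : s ^ n * a ∈ PE ^ (n + 1) := by
      rw [← ht, mul_comm, pow_succ]
      exact Ideal.mul_mem_mul (Ideal.pow_mem_pow hℓE n) h
    rcases Ideal.IsPrime.mul_mem_pow PE h4 with h5 | h5
    · exact absurd (hPE.mem_of_pow_mem n h5) hsP
    · exact h5
  have hxE : x ∈ E := by
    intro ⟨τ, hτ⟩
    exact hx τ hτ
  obtain ⟨a, b, hb, hab⟩ := IsFractionRing.div_surjective (A := 𝓞 E) (⟨x, hxE⟩ : E)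
  have hb0 : b ≠ 0 := nonZeroDivisors.ne_zero hb
  have ha0 : a ≠ 0 := by
    rintro rfl
    rw [map_zero, zero_div] at hab
    exact hx0 (congrArg Subtype.val hab.symm)
  obtain ⟨k, u, t, hu, ht, hut⟩ := key a ha0
  obtain ⟨k', u', t', hu', ht', hut'⟩ := key b hb0
  have hx' : x = algebraMap (𝓞 E) F a / algebraMap (𝓞 E) F b := by
    have := congrArg (algebraMap E F) hab
    rw [map_div₀, ← IsScalarTower.algebraMap_apply, ← IsScalarTower.algebraMap_apply] at this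
    exact this.symm
  have hinj : Function.Injective (algebraMap (𝓞 E) F) := by
    rw [IsScalarTower.algebraMap_eq (𝓞 E) E F]
    exact (algebraMap E F).injective.comp (IsFractionRing.injective (𝓞 E) E)
  have hbF : algebraMap (𝓞 E) F b ≠ 0 := by
    rw [Ne, ← map_zero (algebraMap (𝓞 E) F)]
    exact fun h => hb0 (hinj h)
  have hℓF : (ℓ : F) ≠ 0 := by exact_mod_cast hℓ.ne_zero
  have e1 : algebraMap (𝓞 E) F u * algebraMap (𝓞 E) F a = (ℓ : F) ^ k * algebraMap (𝓞 E) F t := by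
    rw [← map_mul, hut, map_mul, map_pow, map_natCast]
  have e2 : algebraMap (𝓞 E) F u' * algebraMap (𝓞 E) F b =
      (ℓ : F) ^ k' * algebraMap (𝓞 E) F t' := by
    rw [← map_mul, hut', map_mul, map_pow, map_natCast]
  refine ⟨(k : ℤ) - k', algebraMap (𝓞 E) (𝓞 F) (u * t'), algebraMap (𝓞 E) (𝓞 F) (t * u'), ?_, ?_, ?_⟩
  · intro h
    have h' : u * t' ∈ PE := h
    rcases hPE.mem_or_mem h' with h | h
    · exact hu h
    · exact ht' h
  · intro h
    have h' : t * u' ∈ PE := h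
    rcases hPE.mem_or_mem h' with h | h
    · exact ht h
    · exact hu' h
  · have c1 : ((algebraMap (𝓞 E) (𝓞 F) (u * t') : 𝓞 F) : F) =
        algebraMap (𝓞 E) F u * algebraMap (𝓞 E) F t' := by
      rw [← map_mul]; rfl
    have c2 : ((algebraMap (𝓞 E) (𝓞 F) (t * u') : 𝓞 F) : F) =
        algebraMap (𝓞 E) F t * algebraMap (𝓞 E) F u' := by
      rw [← map_mul]; rfl
    rw [c1, c2, hx', zpow_sub₀ hℓF, zpow_natCast, zpow_natCast]
    field_simp
    calc algebraMap (𝓞 E) F u * algebraMap (𝓞 E) F t' * algebraMap (𝓞 E) F a * (ℓ : F) ^ k' =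
        (algebraMap (𝓞 E) F u * algebraMap (𝓞 E) F a) *
          ((ℓ : F) ^ k' * algebraMap (𝓞 E) F t') := by ring
      _ = _ := by rw [e1, ← e2]; ring

end field

/-- An element of `ℚ̄` fixed by the inertia group at `A` has the valuation of a rational number. -/
theorem exists_zpow_of_inertia_fixed {ℓ : ℕ} (hℓ : ℓ.Prime)
    {A : ValuationSubring (AlgebraicClosure ℚ)} (hA : A.LiesOverPrime ℓ)
    {x : AlgebraicClosure ℚ} (hx0 : x ≠ 0) (hx : ∀ σ ∈ A.inertiaSubgroupIn ℚ, σ x = x) :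
    ∃ (k : ℤ) (w : AlgebraicClosure ℚ), w ∈ A ∧ w⁻¹ ∈ A ∧ w ≠ 0 ∧
      x = (ℓ : AlgebraicClosure ℚ) ^ k * w := by
  let F₀ : IntermediateField ℚ (AlgebraicClosure ℚ) := IntermediateField.adjoin ℚ {x}
  have hfd : FiniteDimensional ℚ F₀ :=
    IntermediateField.adjoin.finiteDimensional (Algebra.IsIntegral.isIntegral x)
  let F : IntermediateField ℚ (AlgebraicClosure ℚ) := IntermediateField.normalClosure ℚ F₀ _
  have hxF : x ∈ F := by
    have h1 : F₀ ≤ F := IntermediateField.le_normalClosure F₀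
    exact h1 (IntermediateField.mem_adjoin_simple_self ℚ x)
  have hfd' : FiniteDimensional ℚ F := normalClosure.is_finiteDimensional ℚ F₀ _
  have hnor : Normal ℚ F := normalClosure.normal ℚ F₀ _
  have hgal : IsGalois ℚ F := ⟨⟩
  have hNF : NumberField F := ⟨⟩
  let P : Ideal (𝓞 F) := (centre A).comap (incl F)
  have hP : P.IsPrime := Ideal.comap_isPrime _ _
  have hPp : (ℓ : 𝓞 F) ∈ P := by
    change incl F (ℓ : 𝓞 F) ∈ centre A
    rw [map_natCast]
    exact natCast_mem_centre hA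
  have hP0 : P ≠ ⊥ := by
    intro h
    rw [h, Ideal.mem_bot] at hPp
    exact hℓ.ne_zero (by exact_mod_cast hPp)
  have hPmax : P.IsMaximal := hP.isMaximal hP0
  obtain ⟨k, s, t, hs, ht, hst⟩ := exists_pow_mul_of_inertia_fixed F P ℓ hℓ hPp ⟨x, hxF⟩
    (fun h => hx0 (congrArg Subtype.val h)) (by
      intro τ hτ
      obtain ⟨σ, hσ, hσF⟩ := exists_lift_inertia F hℓ hA τ (by
        intro y
        exact ⟨τ • y - y, rfl, hτ y⟩)
      apply Subtype.ext
      rw [← hσF ⟨x, hxF⟩]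
      exact hx σ hσ)
  obtain ⟨hs1, hs0⟩ := isUnit_of_notMem_centre (s := incl F s) hs
  obtain ⟨ht1, ht0⟩ := isUnit_of_notMem_centre (s := incl F t) ht
  have hst' : (incl F s : AlgebraicClosure ℚ) * x = (ℓ : AlgebraicClosure ℚ) ^ k * incl F t := by
    have := congrArg (algebraMap F (AlgebraicClosure ℚ)) hst
    rw [map_mul, map_mul, map_zpow₀, map_natCast] at this
    exact this
  refine ⟨k, (incl F t : AlgebraicClosure ℚ) * (incl F s : AlgebraicClosure ℚ)⁻¹, ?_, ?_, ?_, ?_⟩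
  · exact A.mul_mem _ _ (mem_of_mem_Zbar A _) hs1
  · rw [mul_inv, inv_inv]
    exact A.mul_mem _ _ ht1 (mem_of_mem_Zbar A _)
  · exact mul_ne_zero ht0 (inv_ne_zero hs0)
  · rw [← mul_assoc, ← hst']
    field_simp

end Fermat.Agent.Mazur
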