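import Fermat.Agent.Mazur.Radical
import Mathlib.Algebra.Module.Injective
import Mathlib.Algebra.Category.Grp.Injective
import Mathlib.RingTheory.RootsOfUnity.AlgebraicallyClosed

/-!
# Mazur's counting argument, in cocycle form
-/

set_option autoImplicit false

namespace Fermat.Agent.Mazur

open scoped Pointwise
open Fermat.Agent.Frob Fermat.Agent.Minkowski

/-- the unit group of `ℚ̄` -/
abbrev Qbx := (AlgebraicClosure ℚ)ˣ

lemma coe_smul_unit (g : GQ) (x : Qbx) : ((g • x : Qbx) : AlgebraicClosure ℚ) =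
    g (x : AlgebraicClosure ℚ) := rfl

lemma exists_rat_of_fixed {x : AlgebraicClosure ℚ} (hx : ∀ σ : GQ, σ x = x) :
    ∃ u : ℚ, (u : AlgebraicClosure ℚ) = x := by
  have h1 : x ∈ (⊥ : IntermediateField ℚ (AlgebraicClosure ℚ)) := by
    rw [InfiniteGalois.mem_bot_iff_fixed]
    exact hx
  obtain ⟨u, hu⟩ := IntermediateField.mem_bot.mp h1
  exact ⟨u, by rw [← hu]; rfl⟩

/-- A `μ_q`-valued cocycle with small ramification is a coboundary of a root of `±1`. -/
theorem radical_of_cocycle {q : ℕ} (hq : q.Prime) {A : ValuationSubring (AlgebraicClosure ℚ)}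
    (hA : A.LiesOverPrime q) (c : GQ → Qbx)
    (hc : ∀ σ τ : GQ, c (σ * τ) = c σ * σ • c τ)
    (hcont : ∃ U : Subgroup GQ, IsOpen (U : Set GQ) ∧ ∀ σ ∈ U, c σ = 1)
    (hcq : ∀ σ, c σ ^ q = 1)
    (hunr : ∀ ℓ : ℕ, ℓ.Prime → ℓ ≠ q → ∃ A' : ValuationSubring (AlgebraicClosure ℚ),
      A'.LiesOverPrime ℓ ∧ ∀ σ ∈ A'.inertiaSubgroupIn ℚ, c σ = 1)
    (hflat : ∃ x : Qbx, A.valuation (x : AlgebraicClosure ℚ) = 1 ∧
      ∀ σ ∈ A.inertiaSubgroupIn ℚ, c σ = σ • x / x) :
    ∃ ζ : Qbx, (ζ ^ q = 1 ∨ ζ ^ q = -1) ∧ ∀ σ : GQ, c σ = σ • ζ / ζ := by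
  obtain ⟨U, hU, hcU⟩ := hcont
  obtain ⟨x, hx⟩ := hilbert90 c hc U hU hcU
  have hxfix : ∀ σ : GQ, c σ = 1 → σ (x : AlgebraicClosure ℚ) = x := by
    intro σ h
    rw [hx σ, div_eq_one] at h
    exact congrArg Units.val h
  obtain ⟨u, hu⟩ := exists_rat_of_fixed (x := (x : AlgebraicClosure ℚ) ^ q) (by
    intro σ
    have h1 := hcq σ
    rw [hx σ, div_pow, div_eq_one] at h1
    have h2 := congrArg Units.val h1
    rw [map_pow]
    exact h2)
  have hu0 : u ≠ 0 := by
    rintro rfl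
    rw [Rat.cast_zero] at hu
    exact (pow_ne_zero q x.ne_zero) hu.symm
  have hdvd : ∀ ℓ : ℕ, ℓ.Prime → (q : ℤ) ∣ padicValRat ℓ u := by
    intro ℓ hℓ
    by_cases hℓq : ℓ = q
    · subst hℓq
      obtain ⟨x', hx'1, hx'⟩ := hflat
      obtain ⟨k, hk⟩ := exists_valuation_of_inertia_fixed hℓ hA
        (x := (x : AlgebraicClosure ℚ) / x') (div_ne_zero x.ne_zero x'.ne_zero) (by
          intro σ hσ
          have h1 := hx' σ hσ
          rw [hx σ, div_eq_div_iff_div_eq_div] at h1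
          have h2 := congrArg Units.val h1
          rw [Units.val_div_eq_div_val, Units.val_div_eq_div_val] at h2
          rw [map_div₀]
          exact h2)
      rw [map_div₀, hx'1, div_one] at hk
      exact dvd_padicValRat_of_pow hℓ hA hu0 hu.symm hk
    · obtain ⟨A', hA', hcA'⟩ := hunr ℓ hℓ hℓq
      obtain ⟨k, hk⟩ := exists_valuation_of_inertia_fixed hℓ hA' x.ne_zero
        (fun σ hσ => hxfix σ (hcA' σ hσ))
      exact dvd_padicValRat_of_pow hℓ hA' hu0 hu.symm hk
  obtain ⟨w, hw0, hw⟩ := exists_rat_pow_of_dvd hq.ne_zero hu0 hdvd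
  have hwQ : (w : AlgebraicClosure ℚ) ≠ 0 := by exact_mod_cast hw0
  let w' : Qbx := Units.mk0 (w : AlgebraicClosure ℚ) hwQ
  refine ⟨x / w', ?_, ?_⟩
  · rcases hw with hw | hw
    · left
      apply Units.ext
      rw [div_pow, Units.val_div_eq_div_val, Units.val_pow_eq_pow_val, Units.val_pow_eq_pow_val,
        ← hu, hw, Units.val_mk0]
      push_cast
      rw [div_self (pow_ne_zero q hwQ)]
    · right
      apply Units.ext
      rw [div_pow, Units.val_div_eq_div_val, Units.val_pow_eq_pow_val, Units.val_pow_eq_pow_val,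
        ← hu, hw, Units.val_mk0]
      push_cast
      rw [neg_div, div_self (pow_ne_zero q hwQ)]
  · intro σ
    rw [hx σ]
    have hσw : σ • w' = w' := by
      apply Units.ext
      rw [coe_smul_unit]
      change σ (w : AlgebraicClosure ℚ) = w
      exact map_ratCast σ w
    rw [smul_div', hσw, div_div_div_cancel_right]

lemma coe_sq_eq_one {ζ : Qbx} (h : ζ ^ 2 = 1) : (ζ : AlgebraicClosure ℚ) ^ 2 = 1 := by
  rw [← Units.val_pow_eq_pow_val, h, Units.val_one]

lemma coe_sq_eq_neg_one {ζ : Qbx} (h : ζ ^ 2 = -1) : (ζ : AlgebraicClosure ℚ) ^ 2 = -1 := by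
  rw [← Units.val_pow_eq_pow_val, h, Units.val_neg, Units.val_one]

/-- the coboundary of a unit -/
noncomputable def bdry (x : Qbx) : GQ → Qbx := fun σ => σ • x / x

lemma bdry_neg (x : Qbx) : bdry (-x) = bdry x := by
  funext σ
  unfold bdry
  apply Units.ext
  rw [Units.val_div_eq_div_val, Units.val_div_eq_div_val, coe_smul_unit, coe_smul_unit,
    Units.val_neg, map_neg, neg_div_neg_eq]

/-- the set of coboundaries of `q`-th roots of `±1` -/
def rootSet (q : ℕ) : Set (GQ → Qbx) := {c | ∃ ζ : Qbx, (ζ ^ q = 1 ∨ ζ ^ q = -1) ∧ c = bdry ζ}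

lemma finite_rootSet_and_card_le {q : ℕ} (hq : q.Prime) :
    (rootSet q).Finite ∧ (rootSet q).ncard ≤ q := by
  have hne : NeZero q := ⟨hq.ne_zero⟩
  by_cases hq2 : q = 2
  · subst hq2
    obtain ⟨i, hi⟩ := IsAlgClosed.exists_pow_nat_eq (-1 : AlgebraicClosure ℚ) (n := 2) two_pos
    have hi0 : i ≠ 0 := by
      rintro rfl
      norm_num at hi
    have hsub : rootSet 2 ⊆ {bdry 1, bdry (Units.mk0 i hi0)} := by
      rintro c ⟨ζ, hζ | hζ, rfl⟩
      · left
        have h1 : (ζ : AlgebraicClosure ℚ) ^ 2 = 1 := coe_sq_eq_one hζ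
        rcases mul_self_eq_one_iff.mp ((sq _).symm.trans h1) with h2 | h2
        · have : ζ = 1 := Units.ext h2
          rw [this]
        · have : ζ = -1 := Units.ext h2
          rw [this, bdry_neg]
      · right
        have h1 : (ζ : AlgebraicClosure ℚ) ^ 2 = -1 := coe_sq_eq_neg_one hζ
        rw [← hi] at h1
        rcases sq_eq_sq_iff_eq_or_eq_neg.mp h1 with h2 | h2
        · have : ζ = Units.mk0 i hi0 := Units.ext h2
          rw [this]; rfl
        · have : ζ = -Units.mk0 i hi0 := Units.ext h2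
          rw [this, bdry_neg]; rfl
    refine ⟨(Set.toFinite _).subset hsub, (Set.ncard_le_ncard hsub).trans ?_⟩
    exact Set.ncard_insert_le _ _ |>.trans (by rw [Set.ncard_singleton])
  · have hodd : Odd q := hq.odd_of_ne_two hq2
    have hsub : rootSet q ⊆ (fun ζ : rootsOfUnity q (AlgebraicClosure ℚ) => bdry ζ.1) ''
        Set.univ := by
      rintro c ⟨ζ, hζ | hζ, rfl⟩
      · exact ⟨⟨ζ, hζ⟩, trivial, rfl⟩
      · refine ⟨⟨-ζ, ?_⟩, trivial, bdry_neg ζ⟩
        rw [mem_rootsOfUnity, hodd.neg_pow, hζ, neg_neg]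
    have hfin : Finite (rootsOfUnity q (AlgebraicClosure ℚ)) := inferInstance
    refine ⟨((Set.toFinite _).image _).subset hsub, (Set.ncard_le_ncard hsub
      ((Set.toFinite _).image _)).trans ?_⟩
    refine (Set.ncard_image_le (Set.toFinite _)).trans ?_
    rw [Set.ncard_univ]
    have : NeZero (q : AlgebraicClosure ℚ) := ⟨by exact_mod_cast hq.ne_zero⟩
    rw [HasEnoughRootsOfUnity.natCard_rootsOfUnity]

/-- If the coboundary of a root of `±1` is trivial on inertia at `q`, it is trivial. -/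
lemma eq_one_of_mem_rootSet {q : ℕ} (hq : q.Prime) {A : ValuationSubring (AlgebraicClosure ℚ)}
    (hA : A.LiesOverPrime q) {c : GQ → Qbx} (hc : c ∈ rootSet q)
    (h : ∀ σ ∈ A.inertiaSubgroupIn ℚ, c σ = 1) : c = 1 := by
  obtain ⟨ζ, hζ, rfl⟩ := hc
  have hfix : ∀ σ ∈ A.inertiaSubgroupIn ℚ, σ (ζ : AlgebraicClosure ℚ) = ζ := by
    intro σ hσ
    have h1 := h σ hσ
    unfold bdry at h1
    rw [div_eq_one] at h1
    exact congrArg Units.val h1
  have hone : bdry 1 = 1 := by
    funext σ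
    unfold bdry
    rw [smul_one, div_one]
    rfl
  by_cases hq2 : q = 2
  · subst hq2
    rcases hζ with hζ | hζ
    · have h1 : (ζ : AlgebraicClosure ℚ) ^ 2 = 1 := coe_sq_eq_one hζ
      rcases mul_self_eq_one_iff.mp ((sq _).symm.trans h1) with h2 | h2
      · have : ζ = 1 := Units.ext h2
        rw [this, hone]
      · have : ζ = -1 := Units.ext h2
        rw [this, bdry_neg, hone]
    · have h1 : (ζ : AlgebraicClosure ℚ) ^ 2 = -1 := coe_sq_eq_neg_one hζ
      exact absurd hfix (not_fixed_of_sq_eq_neg_one hA h1)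
  · have hodd : Odd q := hq.odd_of_ne_two hq2
    have key : ∀ ξ : Qbx, ξ ^ q = 1 → (∀ σ ∈ A.inertiaSubgroupIn ℚ,
        σ (ξ : AlgebraicClosure ℚ) = ξ) → bdry ξ = 1 := by
      intro ξ hξ hξf
      by_cases h1 : ξ = 1
      · rw [h1, hone]
      · have h2 : IsPrimitiveRoot (ξ : AlgebraicClosure ℚ) q := by
          have hfact : Fact q.Prime := ⟨hq⟩
          have h3 : orderOf ξ = q := orderOf_eq_prime hξ h1
          have h4 := IsPrimitiveRoot.orderOf ξ
          rw [h3] at h4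
          exact IsPrimitiveRoot.coe_units_iff.mpr h4
        exact absurd hξf (not_fixed_of_isPrimitiveRoot hq hq2 hA h2)
    rcases hζ with hζ | hζ
    · exact key ζ hζ hfix
    · rw [← bdry_neg]
      apply key
      · rw [hodd.neg_pow, hζ, neg_neg]
      · intro σ hσ
        rw [Units.val_neg, map_neg, hfix σ hσ]

end Fermat.Agent.Mazur
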