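import Fermat.Agent.Mazur.CuspSeries
import Fermat.Agent.Moduli.Cusp
import Fermat.Agent.ModFun.SecProd
import Fermat.Agent.TEll.HeckeDiv
import Fermat.Agent.TwoGauss.ModPoly
import Fermat.Agent.TwoGauss.Cusp

/-!
# The Hecke operators on the cuspidal divisor of `X₀(p)`

`T_r(∞) = (1 + r)·∞`, `T_r(0) = (1 + r)·0`, hence `T_r c = (1 + r) c` for the class `c` of
`(0) − (∞)`; moreover `(p − 1) c = 0`, `σ c = c` and `c ≠ 0` unless `p ∈ {2, 3, 5, 7, 13}`.
-/

set_option autoImplicit false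

noncomputable section

open ModularCurve AlgebraicCurve HahnSeries Fermat.Agent.TEll Fermat.Agent.X0Emb
  Fermat.Agent.Moduli

namespace Fermat.Agent.MazurCusp

section Order

variable {K : Type*} [Field K]

theorem order_prod {ι : Type*} (s : Finset ι) (f : ι → LaurentSeries K)
    (h : ∀ i ∈ s, f i ≠ 0) : (∏ i ∈ s, f i).order = ∑ i ∈ s, (f i).order := by
  classical
  induction s using Finset.induction_on with
  | empty => simp
  | insert a s ha ih =>
    rw [Finset.prod_insert ha, Finset.sum_insert ha, HahnSeries.order_mul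
      (h a (Finset.mem_insert_self a s))
      (Finset.prod_ne_zero_iff.mpr fun i hi => h i (Finset.mem_insert_of_mem hi)),
      ih fun i hi => h i (Finset.mem_insert_of_mem hi)]

theorem twist_ne_zero (c : Kˣ) {y : LaurentSeries K} (hy : y ≠ 0) : twist c y ≠ 0 := fun h =>
  hy (twist_coe_injective c (by rw [h, map_zero]))

theorem secNorm_ne_zero {ℓ : ℕ} [NeZero ℓ] {c : Kˣ} (hc : IsPrimitiveRoot (c : K) ℓ)
    {y : LaurentSeries K} (hy : y ≠ 0) : secNorm K ℓ y ≠ 0 := by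
  intro h
  have h1 := Fermat.Agent.ModFun.qExpand_secNorm ℓ c hc y
  rw [h, map_zero, eq_comm, Finset.prod_eq_zero_iff] at h1
  obtain ⟨b, -, hb⟩ := h1
  exact twist_ne_zero _ hy hb

theorem order_secNorm {ℓ : ℕ} [NeZero ℓ] {c : Kˣ} (hc : IsPrimitiveRoot (c : K) ℓ)
    {y : LaurentSeries K} (hy : y ≠ 0) : (secNorm K ℓ y).order = y.order := by
  have h1 := congrArg HahnSeries.order (Fermat.Agent.ModFun.qExpand_secNorm ℓ c hc y)
  rw [X0Emb.order_qExpand, order_prod _ _ fun b _ => twist_ne_zero _ hy] at h1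
  simp only [X0Emb.order_twist, Finset.sum_const, Finset.card_univ, Fintype.card_fin,
    nsmul_eq_mul] at h1
  exact mul_left_cancel₀ (by exact_mod_cast NeZero.ne ℓ) h1

theorem order_TSer {ℓ : ℕ} [NeZero ℓ] {c : Kˣ} (hc : IsPrimitiveRoot (c : K) ℓ)
    {y : LaurentSeries K} (hy : y ≠ 0) : (TSer K ℓ y).order = (ℓ + 1) * y.order := by
  rw [TSer_apply, HahnSeries.order_mul
    (fun h => hy (qExpand_injective ℓ (by rw [h, map_zero]))) (secNorm_ne_zero hc hy),
    X0Emb.order_qExpand, order_secNorm hc hy]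
  ring

end Order

local notation "𝕂" => AlgebraicClosure ℚ

section Corr

variable {K F F' : Type*} [Field K] [Field F] [Field F'] [Algebra K F] [Algebra K F']
  [HasPrincipalDivisors K F']

theorem correspondence_single_apply_eq_zero (φ ψ : F →ₐ[K] F') (hφ : φ.toRingHom.IsIntegral)
    (hψ : ψ.toRingHom.IsIntegral) {x v : Place K F}
    (h : ∀ W : Place K F', W.restrictAlong φ hφ = x → W.restrictAlong ψ hψ ≠ v) :
    Divisor.correspondence φ ψ hφ hψ (Finsupp.single x 1) v = 0 := by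
  rw [Divisor.correspondence_apply, Divisor.pullbackAlong_single, map_sum,
    Finsupp.finsetSum_apply]
  refine Finset.sum_eq_zero fun W hW => ?_
  rw [Place.mem_fiberAlong] at hW
  rw [Divisor.pushforwardAlong_single]
  exact Finsupp.single_eq_of_ne (h W hW).symm

end Corr

section Beta

variable (N ℓ : ℕ) [NeZero N] [NeZero ℓ]

theorem finrankAlong_beta (hℓ : ℓ.Prime) (h : ¬ ℓ ∣ N) :
    finrankAlong 𝕂 (heckeBetaBar 𝕂 N ℓ) = ℓ + 1 := by
  have hc : Nat.Coprime ℓ N := (Nat.Prime.coprime_iff_not_dvd hℓ).mpr h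
  have e : heckeBetaBar 𝕂 N ℓ =
      ((swapEquiv iota hc : FF0 𝕂 (N * ℓ) ≃ₐ[𝕂] FF0 𝕂 (N * ℓ)) :
        FF0 𝕂 (N * ℓ) →ₐ[𝕂] FF0 𝕂 (N * ℓ)).comp (heckeAlphaBar 𝕂 N ℓ) := by
    ext f : 1
    exact (swapHom_alpha iota hc f).symm
  rw [e, finrankAlong_comp, finrankAlong_alpha N ℓ hℓ h]

theorem isPrimitiveRoot_zetaK' : IsPrimitiveRoot ((zetaK ℓ : 𝕂ˣ) : 𝕂) ℓ :=
  isPrimitiveRoot_zetaK ℓ

theorem order_TEll (hℓ : ℓ.Prime) (h : ¬ ℓ ∣ N) {f : modularFunctionFieldBar N} (hf : f ≠ 0) :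
    ((TEll 𝕂 N ℓ f : modularFunctionFieldBar N) : LaurentSeries 𝕂).order =
      (ℓ + 1) * (f : LaurentSeries 𝕂).order := by
  rw [coe_TEll_bar N ℓ hℓ h]
  exact order_TSer (isPrimitiveRoot_zetaK ℓ) (by simpa using hf)

end Beta

section Places

variable {p : ℕ} [hp : Fact p.Prime] {ℓ : ℕ} [NeZero ℓ]

theorem rel_alpha_beta : ∃ (n : ℕ) (P : ℕ → Polynomial 𝕂), P n = 1 ∧
    ∑ i ∈ Finset.range (n + 1), Polynomial.aeval (heckeAlphaBar 𝕂 p ℓ (X0Emb.jF p)) (P i) *
      (heckeBetaBar 𝕂 p ℓ (X0Emb.jF p)) ^ i = 0 := by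
  obtain ⟨n, P, hPn, -, hrel⟩ := TwoGauss.exists_modPoly X0Emb.iota ℓ
  refine ⟨n, P, hPn, ?_⟩
  apply (algebraMap (modularFunctionFieldBar (p * ℓ)) (LaurentSeries 𝕂)).injective
  rw [map_zero, ← hrel, map_sum]
  refine Finset.sum_congr rfl fun i _ => ?_
  rw [map_mul, map_pow]
  congr 1
  · rw [← Polynomial.aeval_algebraMap_apply]
    exact congrArg (fun y => Polynomial.aeval y (P i))
      ((coe_heckeAlphaBar p ℓ (X0Emb.jF p)).trans (coe_jF' p))
  · congr 1
    refine (coe_heckeBetaBar p ℓ (X0Emb.jF p)).trans ?_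
    rw [coe_jF']
    rfl

theorem ord_alpha_neg {w : Place 𝕂 (modularFunctionFieldBar (p * ℓ))}
    (h : w.ord (heckeBetaBar 𝕂 p ℓ (X0Emb.jF p)) < 0) :
    w.ord (heckeAlphaBar 𝕂 p ℓ (X0Emb.jF p)) < 0 := by
  obtain ⟨n, P, hPn, hrel⟩ := rel_alpha_beta (p := p) (ℓ := ℓ)
  by_contra hcon
  exact absurd ((TwoGauss.ord_neg_iff w).mp h) (not_lt.mpr
    (TwoGauss.val_le_one_of_rel w.adicValuation (TwoGauss.adicVal_algebraMap_le w) hPn hrel
      (not_lt.mp (mt (TwoGauss.ord_neg_iff w).mpr hcon))))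

/-- A place of `X₀(pℓ)` with cuspidal image under `β` has cuspidal image under `α`. -/
theorem alpha_cusp {w : Place 𝕂 (modularFunctionFieldBar (p * ℓ))}
    (h : (w.restrictAlong (heckeBetaBar 𝕂 p ℓ) (intBeta p ℓ)).ord (X0Emb.jF p) < 0) :
    (w.restrictAlong (heckeAlphaBar 𝕂 p ℓ) (intAlpha p ℓ)).ord (X0Emb.jF p) < 0 := by
  have h1 : w.ord (heckeBetaBar 𝕂 p ℓ (X0Emb.jF p)) < 0 := by
    rw [Place.ord_restrictAlong _ (intBeta p ℓ)]
    refine mul_neg_of_pos_of_neg ?_ h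
    let _ := algebraAlong (heckeBetaBar 𝕂 p ℓ)
    have := isScalarTower_along (heckeBetaBar 𝕂 p ℓ)
    have := isIntegral_along (heckeBetaBar 𝕂 p ℓ) (intBeta p ℓ)
    exact_mod_cast w.ramificationIndex_pos (F := modularFunctionFieldBar p)
  have h2 := ord_alpha_neg h1
  rw [Place.ord_restrictAlong _ (intAlpha p ℓ)] at h2
  by_contra hcon
  exact absurd h2 (not_lt.mpr (mul_nonneg (Int.natCast_nonneg _) (not_lt.mp hcon)))

theorem heckeDiv_single_apply_eq_zero {x v : Place 𝕂 (modularFunctionFieldBar p)}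
    (hx : x.ord (X0Emb.jF p) < 0) (hv : ¬ v.ord (X0Emb.jF p) < 0) :
    heckeDiv p ℓ (Finsupp.single x 1) v = 0 := by
  refine correspondence_single_apply_eq_zero (heckeBetaBar 𝕂 p ℓ) (heckeAlphaBar 𝕂 p ℓ)
    (intBeta p ℓ) (intAlpha p ℓ) fun W hW hW' => ?_
  subst hW hW'
  exact hv (alpha_cusp hx)

end Places

section Cusps

variable (p : ℕ) [hp : Fact p.Prime]

/-- A divisor supported on the cusps. -/
theorem eq_of_support {D : Divisor 𝕂 (modularFunctionFieldBar p)}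
    (h : ∀ v : Place 𝕂 (modularFunctionFieldBar p), ¬ v.ord (X0Emb.jF p) < 0 → D v = 0) :
    D = Finsupp.single (MW.cuspInf p) (D (MW.cuspInf p)) +
      Finsupp.single (cuspZero p) (D (cuspZero p)) := by
  classical
  ext v
  rw [Finsupp.add_apply]
  by_cases h1 : v = MW.cuspInf p
  · subst h1
    rw [Finsupp.single_eq_same, Finsupp.single_eq_of_ne (cuspZero_ne p).symm, add_zero]
  by_cases h2 : v = cuspZero p
  · subst h2
    rw [Finsupp.single_eq_same, Finsupp.single_eq_of_ne h1, zero_add]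
  rw [Finsupp.single_eq_of_ne h2, Finsupp.single_eq_of_ne h1, add_zero]
  exact h v (not_lt.mpr (ord_j_nonneg p h1 h2))

theorem div_uF : (RR.div (uF p) : Divisor 𝕂 (modularFunctionFieldBar p)) =
    (p - 1 : ℤ) • (Finsupp.single (cuspZero p) 1 - Finsupp.single (MW.cuspInf p) 1) := by
  classical
  have h := eq_of_support p (D := RR.div (uF p)) (fun v hv => by
    rw [RR.div_apply]
    exact ord_u_eq_zero p (by rintro rfl; exact hv (by rw [ord_inf_j]; norm_num))
      (by rintro rfl; exact hv (by rw [ord_zero_j]; have := hp.out.pos; omega)))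
  rw [h, RR.div_apply, RR.div_apply, ord_inf_u, ord_zero_u, smul_sub, Finsupp.smul_single,
    Finsupp.smul_single, sub_eq_add_neg (Finsupp.single _ _), ← Finsupp.single_neg, add_comm]
  simp

variable {ℓ : ℕ} [NeZero ℓ]

theorem degree_eq {D : Divisor 𝕂 (modularFunctionFieldBar p)}
    (h : ∀ v : Place 𝕂 (modularFunctionFieldBar p), ¬ v.ord (X0Emb.jF p) < 0 → D v = 0) :
    Divisor.degree D = D (MW.cuspInf p) + D (cuspZero p) := by
  conv_lhs => rw [eq_of_support p h]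
  rw [map_add, Divisor.degree_single, Divisor.degree_single, FF.deg_eq_one, FF.deg_eq_one]
  simp

theorem heckeDiv_cusps (hℓ : ℓ.Prime) (hℓp : ℓ ≠ p) :
    heckeDiv p ℓ (Finsupp.single (MW.cuspInf p) 1) =
        Finsupp.single (MW.cuspInf p) ((ℓ : ℤ) + 1) ∧
      heckeDiv p ℓ (Finsupp.single (cuspZero p) 1) =
        Finsupp.single (cuspZero p) ((ℓ : ℤ) + 1) := by
  have hdvd : ¬ ℓ ∣ p := fun h => hℓp ((Nat.prime_dvd_prime_iff_eq hℓ hp.out).mp h)
  have hi : (MW.cuspInf p).ord (X0Emb.jF p) < 0 := by rw [ord_inf_j]; norm_num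
  have hz : (cuspZero p).ord (X0Emb.jF p) < 0 := by
    rw [ord_zero_j]; have := hp.out.pos; omega
  have s1 : ∀ v : Place 𝕂 (modularFunctionFieldBar p), ¬ v.ord (X0Emb.jF p) < 0 →
      heckeDiv p ℓ (Finsupp.single (MW.cuspInf p) 1) v = 0 := fun v hv =>
    heckeDiv_single_apply_eq_zero hi hv
  have s2 : ∀ v : Place 𝕂 (modularFunctionFieldBar p), ¬ v.ord (X0Emb.jF p) < 0 →
      heckeDiv p ℓ (Finsupp.single (cuspZero p) 1) v = 0 := fun v hv =>
    heckeDiv_single_apply_eq_zero hz hv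
  have n1 := heckeDiv_nonneg (N := p) (ℓ := ℓ) (Deuring.single_nonneg (MW.cuspInf p))
  have n2 := heckeDiv_nonneg (N := p) (ℓ := ℓ) (Deuring.single_nonneg (cuspZero p))
  have d1 := degree_heckeDiv (N := p) (ℓ := ℓ) (Finsupp.single (MW.cuspInf p) 1)
  have d2 := degree_heckeDiv (N := p) (ℓ := ℓ) (Finsupp.single (cuspZero p) 1)
  rw [finrankAlong_beta p ℓ hℓ hdvd, Divisor.degree_single, FF.deg_eq_one, degree_eq p s1] at d1
  rw [finrankAlong_beta p ℓ hℓ hdvd, Divisor.degree_single, FF.deg_eq_one, degree_eq p s2] at d2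
  have e1 := congrArg (fun D : Divisor 𝕂 (modularFunctionFieldBar p) => D (MW.cuspInf p))
    (heckeDiv_div (N := p) (ℓ := ℓ) (uF_ne_zero p))
  have e2 : (MW.cuspInf p).ord (TEll 𝕂 p ℓ (uF p)) = (ℓ + 1) * (1 - p) := by
    rw [ord_cuspInf, order_TEll p ℓ hℓ hdvd (uF_ne_zero p), ← ord_cuspInf, ord_inf_u]
  simp only [div_uF, map_zsmul, map_sub] at e1
  rw [RR.div_apply, e2] at e1
  rw [eq_of_support p s1, eq_of_support p s2]
  have g1 := n1 (cuspZero p)
  have g2 := n2 (MW.cuspInf p)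
  simp only [Finsupp.coe_zero, Pi.zero_apply, Finsupp.coe_smul, Finsupp.coe_sub, Pi.smul_apply,
    Pi.sub_apply, smul_eq_mul] at e1 g1 g2
  generalize (heckeDiv p ℓ (Finsupp.single (MW.cuspInf p) 1)) (MW.cuspInf p) = a at *
  generalize (heckeDiv p ℓ (Finsupp.single (MW.cuspInf p) 1)) (cuspZero p) = b at *
  generalize (heckeDiv p ℓ (Finsupp.single (cuspZero p) 1)) (MW.cuspInf p) = c at *
  generalize (heckeDiv p ℓ (Finsupp.single (cuspZero p) 1)) (cuspZero p) = d at *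
  have hp1 : (p : ℤ) - 1 ≠ 0 := by have := hp.out.one_lt; omega
  have e3 : c - a = -(ℓ + 1) := mul_left_cancel₀ hp1 (by rw [e1]; ring)
  push_cast at d1 d2
  have a1 : a = ℓ + 1 := by linarith
  have a2 : b = 0 := by linarith
  have a3 : c = 0 := by linarith
  have a4 : d = ℓ + 1 := by linarith
  subst a1 a2 a3 a4
  simp

end Cusps

end Fermat.Agent.MazurCusp
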