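import Fermat.Agent.Moduli.Unit
import Fermat.Agent.IntStruct.BddDenom
import Fermat.Agent.TEll.SecNorm

/-!
# Roots of the modular unit `Δ(q)/Δ(q^p)`
-/

set_option autoImplicit false

open ModularCurve HahnSeries

noncomputable section

namespace Fermat.Agent.MazurCusp

open Fermat.Agent.S28aux Fermat.Agent.TEll Fermat.Agent.Moduli Fermat.Agent.IntStruct
open Fermat.Agent.X0Emb (KK FF iota Dset FF_eq)

/-! ### coefficients -/

theorem coeff_one_etaProd : PowerSeries.coeff 1 etaProd = -1 := by
  rw [Igusa.etaProd_eq]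
  have h := PowerSeries.coeff_pentagonalSeries_pentagonal ℤ 1
  have h1 : pentagonal 1 = 1 := by simp [pentagonal]
  rw [h1] at h
  rw [h]
  simp

theorem coeff_one_dedekindEtaUnit : PowerSeries.coeff 1 dedekindEtaUnit = -24 := by
  rw [dedekindEtaUnit, PowerSeries.coeff_one_pow, coeff_one_etaProd, constantCoeff_etaProd]
  norm_num

variable (p : ℕ) [NeZero p]

/-- the power series `u q^(p-1)`. -/
def uPS : PowerSeries ℤ :=
  dedekindEtaUnit * PowerSeries.expand p (NeZero.ne p) dedekindEtaUnitInv

theorem constantCoeff_uPS : PowerSeries.constantCoeff (uPS p) = 1 := by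
  rw [uPS, map_mul, constantCoeff_dedekindEtaUnit, PowerSeries.constantCoeff_expand,
    constantCoeff_dedekindEtaUnitInv, one_mul]

theorem coeff_one_uPS (hp : 2 ≤ p) : PowerSeries.coeff 1 (uPS p) = -24 := by
  rw [uPS, PowerSeries.coeff_one_mul, coeff_one_dedekindEtaUnit,
    PowerSeries.constantCoeff_expand, constantCoeff_dedekindEtaUnitInv,
    PowerSeries.coeff_expand_of_not_dvd]
  · ring
  · intro h; exact absurd (Nat.le_of_dvd one_pos h) (by omega)

theorem uSer_eq (R : Type*) [CommRing R] : uSer p R = single (1 - (p : ℤ)) 1 *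
    ofPowerSeries ℤ R ((uPS p).map (Int.castRingHom R)) := by
  rw [uSer, deltaC, deltaInvC, map_mul, qExpand_single, qExpand_ofPowerSeries, uPS, map_mul,
    map_mul, ← PowerSeries.map_expand]
  have : (single (1 - (p : ℤ)) (1 : R)) = single (1 : ℤ) 1 * single ((p : ℤ) * (-1)) 1 := by
    rw [single_mul_single, mul_one]
    congr 2
    omega
  rw [this]
  ring

theorem uSer_ne_zero (R : Type*) [CommRing R] [Nontrivial R] : uSer p R ≠ 0 := by
  intro h
  have h1 := congrArg (fun y => y.coeff (1 - (p : ℤ))) h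
  simp only [uSer_eq] at h1
  rw [HahnSeries.coeff_single_mul, sub_self, one_mul, show (0 : ℤ) = ((0 : ℕ) : ℤ) from rfl,
    HahnSeries.ofPowerSeries_apply_coeff, PowerSeries.coeff_zero_eq_constantCoeff,
    ← PowerSeries.coeff_zero_eq_constantCoeff, PowerSeries.coeff_map,
    PowerSeries.coeff_zero_eq_constantCoeff, constantCoeff_uPS] at h1
  simp at h1

variable {p}

/-! ### uniqueness of roots -/

theorem exists_rat_of_fixed' {x : KK} (hx : ∀ σ : KK ≃ₐ[ℚ] KK, σ x = x) :
    ∃ q : ℚ, algebraMap ℚ KK q = x := by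
  have : Algebra.IsAlgebraic ℚ (AlgebraicClosure ℚ) := AlgebraicClosure.isAlgebraic ℚ
  have : IsAlgClosure ℚ (AlgebraicClosure ℚ) := ⟨AlgebraicClosure.isAlgClosed ℚ, this⟩
  have : IsGalois ℚ (AlgebraicClosure ℚ) := IsAlgClosure.isGalois ℚ _
  have h := (InfiniteGalois.mem_bot_iff_fixed (k := ℚ) (K := AlgebraicClosure ℚ) x).mpr hx
  rw [IntermediateField.mem_bot] at h
  exact h

theorem pow_root_unique {K : Type*} [Field K] [CharZero K] {n : ℕ} (hn : n ≠ 0)
    {g h : PowerSeries K} (hg : PowerSeries.constantCoeff g = 1)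
    (hh : PowerSeries.constantCoeff h = 1) (hgh : g ^ n = h ^ n) : g = h := by
  have h1 := (Commute.all g h).mul_geom_sum₂ n
  rw [hgh, sub_self, mul_eq_zero] at h1
  rcases h1 with h1 | h1
  · exact sub_eq_zero.mp h1
  · exfalso
    have h2 := congrArg PowerSeries.constantCoeff h1
    simp only [map_sum, map_mul, map_pow, hg, hh, one_pow, mul_one, map_zero, Finset.sum_const,
      Finset.card_range, nsmul_eq_mul] at h2
    exact hn (by exact_mod_cast h2)

/-- the ring of series that become combinations of integral power series after multiplication by a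
power of `q`. -/
theorem exists_intSpan {N : ℕ} {y : LaurentSeries KK} (hy : y ∈ Algebra.adjoin KK (Dset N)) :
    ∃ (M : ℕ) (h : PowerSeries ℂ), h ∈ intSpan ∧
      ofPowerSeries ℤ ℂ h = single (M : ℤ) 1 * coeffMap iota y := by
  induction hy using Algebra.adjoin_induction with
  | mem y hy =>
    obtain ⟨d, hd, -, rfl⟩ := hy
    -- integral series
    set Y : LaurentSeries ℤ := qExpand ℤ d (jqModC ℤ) with hY
    refine ⟨(-Y.order).toNat, intMap ℂ (PowerSeries.X ^ ((-Y.order).toNat + Y.order).toNat *
      Y.powerSeriesPart), intMap_mem_intSpan _, ?_⟩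
    have h1 : coeffMap iota (qExpand KK d (jqModC KK)) = coeffMap (Int.castRingHom ℂ) Y := by
      rw [hY, coeffMap_qExpand, coeffMap_qExpand, coeffMap_jqModC, coeffMap_jqModC]
    have h2 : ofPowerSeries ℤ ℂ (intMap ℂ (PowerSeries.X ^ ((-Y.order).toNat + Y.order).toNat *
        Y.powerSeriesPart)) = coeffMap (Int.castRingHom ℂ) (single (((-Y.order).toNat : ℕ) : ℤ) 1 *
          Y) := by
      rw [intMap, ← coeffMap_ofPowerSeries', map_mul, map_pow, HahnSeries.ofPowerSeries_X,
        HahnSeries.single_pow, one_pow, nsmul_eq_mul, mul_one,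
        LaurentSeries.ofPowerSeries_powerSeriesPart, ← mul_assoc, single_mul_single, mul_one]
      have h3 := Int.self_le_toNat (-Y.order)
      have h4 : (((((-Y.order).toNat : ℕ) : ℤ) + Y.order).toNat : ℤ) + -Y.order =
          ((-Y.order).toNat : ℕ) := by
        rw [Int.toNat_of_nonneg (by omega)]
        omega
      rw [h4]
    rw [h2, h1, map_mul, coeffMap_single, map_one]
  | algebraMap c =>
    refine ⟨0, PowerSeries.C (iota c), intSpan.algebraMap_mem _, ?_⟩
    rw [algebraMap_laurentSeries_eq_single, coeffMap_single]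
    simp [HahnSeries.ofPowerSeries_C]
  | add x y hx hy ihx ihy =>
    obtain ⟨M, h, hh, e⟩ := ihx
    obtain ⟨M', h', hh', e'⟩ := ihy
    have hX : ∀ k : ℕ, (PowerSeries.X : PowerSeries ℂ) ^ k ∈ intSpan := fun k => by
      have := intMap_mem_intSpan (PowerSeries.X ^ k)
      rwa [intMap, map_pow, PowerSeries.map_X] at this
    refine ⟨M + M', PowerSeries.X ^ M' * h + PowerSeries.X ^ M * h',
      intSpan.add_mem (intSpan.mul_mem (hX _) hh) (intSpan.mul_mem (hX _) hh'), ?_⟩
    rw [map_add, map_mul, map_mul, map_pow, map_pow, HahnSeries.ofPowerSeries_X,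
      HahnSeries.single_pow, HahnSeries.single_pow, one_pow, one_pow, e, e', map_add,
      nsmul_eq_mul, nsmul_eq_mul, mul_one, mul_one, ← mul_assoc, ← mul_assoc, single_mul_single,
      single_mul_single, mul_one, mul_add]
    push_cast
    rw [add_comm (M' : ℤ)]
  | mul x y hx hy ihx ihy =>
    obtain ⟨M, h, hh, e⟩ := ihx
    obtain ⟨M', h', hh', e'⟩ := ihy
    refine ⟨M + M', h * h', intSpan.mul_mem hh hh', ?_⟩
    rw [map_mul, e, e', map_mul]
    have : (single ((M + M' : ℕ) : ℤ) (1 : ℂ)) = single (M : ℤ) 1 * single (M' : ℤ) 1 := by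
      rw [single_mul_single, mul_one]; push_cast; rfl
    rw [this]
    ring

/-- A root of an integral series which is a quotient of elements of `intSpan` is integral. -/
theorem int_of_pow_eq {n : ℕ} (hn : n ≠ 0) {B : PowerSeries ℚ} {U : PowerSeries ℤ}
    (hB : B ^ n = intMap ℚ U) (c : PowerSeries ℂ) (hc : c ∈ intSpan) (hc0 : c ≠ 0)
    (hcB : c * B.map (algebraMap ℚ ℂ) ∈ intSpan) : B ∈ (intMap ℚ).range := by
  classical
  have hBC : (B.map (algebraMap ℚ ℂ)) ^ n = intMap ℂ U := by
    rw [← map_pow, hB]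
    ext k
    simp
  obtain ⟨D, hD, G, hG⟩ := exists_int_mul_mem_range B n
    (fun i => if i = 0 then -(intMap ℂ U) else 0)
    (fun i _ => by
      split_ifs
      · exact intSpan.neg_mem (intMap_mem_intSpan _)
      · exact intSpan.zero_mem)
    (by
      rw [Finset.sum_eq_single 0]
      · rw [if_pos rfl, pow_zero, mul_one, hBC, add_neg_cancel]
      · intro i _ hi
        rw [if_neg hi, zero_mul]
      · intro h
        exact absurd (Finset.mem_range.mpr (Nat.pos_of_ne_zero hn)) h) c hc hc0 hcB
  have hint : IsIntegral (PowerSeries ℤ) B := by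
    refine ⟨Polynomial.X ^ n - Polynomial.C U, Polynomial.monic_X_pow_sub_C U hn, ?_⟩
    rw [Polynomial.eval₂_sub, Polynomial.eval₂_X_pow, Polynomial.eval₂_C, hB]
    exact sub_self _
  refine mem_range_of_isAlmostIntegral _ (hint.isAlmostIntegral_of_exists_smul_mem_range
    ⟨PowerSeries.C D, mem_nonZeroDivisors_of_ne_zero ?_, G, ?_⟩)
  · intro h
    have := congrArg (PowerSeries.constantCoeff) h
    rw [PowerSeries.constantCoeff_C, map_zero] at this
    exact hD this
  · rw [Algebra.smul_def]
    have h3 : (algebraMap (PowerSeries ℤ) (PowerSeries ℚ)) (PowerSeries.C D) =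
      PowerSeries.C (D : ℚ) := intMap_C _
    rw [h3]
    exact hG

/-- **No root of the modular unit.** If `f ^ (p - 1) = κ Δ(q)/Δ(q^p)` in the function field of
`X₀(p)`, then `p - 1` divides `24`. -/
theorem dvd_of_pow_eq [hp : Fact p.Prime] {f : LaurentSeries KK} (hf : f ∈ FF p) {κ : KK}
    (hκ : κ ≠ 0) (h : f ^ (p - 1) = algebraMap KK (LaurentSeries KK) κ * uSer p KK) :
    p - 1 ∣ 24 := by
  have hp2 := hp.out.two_le
  set n := p - 1 with hn
  have hn0 : n ≠ 0 := by omega
  have hf0 : f ≠ 0 := by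
    rintro rfl
    rw [zero_pow hn0] at h
    exact mul_ne_zero ((map_ne_zero _).mpr hκ) (uSer_ne_zero p KK) h.symm
  -- the power series of `u`
  set U : PowerSeries KK := (uPS p).map (Int.castRingHom KK) with hU
  have hUc : PowerSeries.constantCoeff U = 1 := by
    rw [← PowerSeries.coeff_zero_eq_constantCoeff, hU, PowerSeries.coeff_map,
      PowerSeries.coeff_zero_eq_constantCoeff, constantCoeff_uPS, map_one]
  -- the power series of `f`
  set G := f.powerSeriesPart with hG
  have hfG : f = single f.order 1 * ofPowerSeries ℤ KK G :=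
    (LaurentSeries.single_order_mul_powerSeriesPart f).symm
  have hGc : PowerSeries.constantCoeff G ≠ 0 := by
    rw [← PowerSeries.coeff_zero_eq_constantCoeff, hG, LaurentSeries.powerSeriesPart_coeff]
    simpa using HahnSeries.coeff_order_eq_zero.not.mpr hf0
  -- orders
  have hord : (n : ℤ) * f.order = 1 - p := by
    have h1 := congrArg HahnSeries.order h
    rw [HahnSeries.order_pow, uSer_eq, algebraMap_laurentSeries_eq_single, ← mul_assoc,
      single_mul_single, mul_one, zero_add, HahnSeries.order_mul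
        (HahnSeries.single_ne_zero hκ) (by
          intro h0
          have h2 : (ofPowerSeries ℤ KK U).coeff 0 = (0 : LaurentSeries KK).coeff 0 := by
            rw [← hU] at h0
            rw [h0]
          rw [show (0 : ℤ) = ((0 : ℕ) : ℤ) from rfl, HahnSeries.ofPowerSeries_apply_coeff,
            PowerSeries.coeff_zero_eq_constantCoeff, hUc] at h2
          exact one_ne_zero h2), HahnSeries.order_single hκ, ← hU] at h1
    have h3 : (ofPowerSeries ℤ KK U).order = 0 := by
      apply le_antisymm
      · apply HahnSeries.order_le_of_coeff_ne_zero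
        rw [show (0 : ℤ) = ((0 : ℕ) : ℤ) from rfl, HahnSeries.ofPowerSeries_apply_coeff,
          PowerSeries.coeff_zero_eq_constantCoeff, hUc]
        exact one_ne_zero
      · by_contra hlt
        rw [not_le] at hlt
        have h4 := ofPowerSeries_coeff_of_neg U hlt
        have h5 : (ofPowerSeries ℤ KK U) ≠ 0 := by
          intro h0
          have h2 : (ofPowerSeries ℤ KK U).coeff 0 = (0 : LaurentSeries KK).coeff 0 := by
            rw [h0]
          rw [show (0 : ℤ) = ((0 : ℕ) : ℤ) from rfl, HahnSeries.ofPowerSeries_apply_coeff,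
            PowerSeries.coeff_zero_eq_constantCoeff, hUc] at h2
          exact one_ne_zero h2
        exact h5 (HahnSeries.coeff_order_eq_zero.mp h4)
    rw [h3, add_zero, nsmul_eq_mul] at h1
    exact h1
  have hfo : f.order = -1 := by
    have h1 : ((n : ℕ) : ℤ) = p - 1 := by rw [hn]; push_cast [Nat.cast_sub hp.out.one_le]; ring
    have h2 : (n : ℤ) * (f.order + 1) = 0 := by rw [mul_add, hord, h1]; ring
    have h3 : (n : ℤ) ≠ 0 := by exact_mod_cast hn0
    have := (mul_eq_zero.mp h2).resolve_left h3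
    omega
  rw [hfo] at hfG
  -- normalise
  have hGU : G ^ n = PowerSeries.C κ * U := by
    have h1 : ofPowerSeries ℤ KK (G ^ n) = ofPowerSeries ℤ KK (PowerSeries.C κ * U) := by
      have h2 : (single (-(n : ℤ)) (1 : KK)) * ofPowerSeries ℤ KK (G ^ n) =
          single (-(n : ℤ)) 1 * ofPowerSeries ℤ KK (PowerSeries.C κ * U) := by
        rw [hfG, mul_pow, HahnSeries.single_pow, one_pow, nsmul_eq_mul, mul_neg, mul_one,
          ← map_pow, uSer_eq, ← hU, algebraMap_laurentSeries_eq_single] at h
        rw [h, map_mul, HahnSeries.ofPowerSeries_C]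
        have h3 : (1 - (p : ℤ)) = -(n : ℤ) := by
          rw [hn]; push_cast [Nat.cast_sub hp.out.one_le]; ring
        rw [h3]
        have h4 : (single (0 : ℤ) κ) = HahnSeries.C κ := rfl
        rw [h4]
        ring
      exact mul_left_cancel₀ (HahnSeries.single_ne_zero one_ne_zero) h2
    exact HahnSeries.ofPowerSeries_injective h1
  set a := PowerSeries.constantCoeff G with ha
  have haκ : a ^ n = κ := by
    have h1 := congrArg PowerSeries.constantCoeff hGU
    rw [map_pow, map_mul, PowerSeries.constantCoeff_C, hUc, mul_one] at h1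
    exact h1
  set g : PowerSeries KK := PowerSeries.C a⁻¹ * G with hg
  have hgc : PowerSeries.constantCoeff g = 1 := by
    rw [hg, map_mul, PowerSeries.constantCoeff_C, ← ha, inv_mul_cancel₀ hGc]
  have hgU : g ^ n = U := by
    rw [hg, mul_pow, hGU, ← map_pow, ← mul_assoc, ← map_mul, inv_pow, haκ, inv_mul_cancel₀ hκ,
      map_one, one_mul]
  -- rationality
  have hrat : ∀ k, ∃ q : ℚ, algebraMap ℚ KK q = PowerSeries.coeff k g := by
    intro k
    apply exists_rat_of_fixed'
    intro σ
    have h1 : g.map (σ : KK →+* KK) = g := by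
      refine pow_root_unique hn0 ?_ hgc ?_
      · rw [← PowerSeries.coeff_zero_eq_constantCoeff, PowerSeries.coeff_map,
          PowerSeries.coeff_zero_eq_constantCoeff, hgc, map_one]
      · rw [← map_pow, hgU, hU]
        ext k
        simp
    have h2 := congrArg (PowerSeries.coeff k) h1
    rw [PowerSeries.coeff_map] at h2
    exact h2
  choose b hb using hrat
  set B : PowerSeries ℚ := PowerSeries.mk b with hB
  have hBg : B.map (algebraMap ℚ KK) = g := by
    ext k
    rw [PowerSeries.coeff_map, hB, PowerSeries.coeff_mk, hb]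
  have hBU : B ^ n = intMap ℚ (uPS p) := by
    have h1 : (B ^ n).map (algebraMap ℚ KK) = (intMap ℚ (uPS p)).map (algebraMap ℚ KK) := by
      rw [map_pow, hBg, hgU, hU]
      ext k
      simp
    exact PowerSeries.map_injective _ (algebraMap ℚ KK).injective h1
  -- bounded denominators
  obtain ⟨y₁, hy₁, y₂, hy₂, hy₂0, hy⟩ : ∃ y₁ ∈ Algebra.adjoin KK (Dset p),
      ∃ y₂ ∈ Algebra.adjoin KK (Dset p), y₂ ≠ 0 ∧ f * y₂ = y₁ := by
    have hf' := hf
    rw [FF_eq, IntermediateField.mem_adjoin_iff_div] at hf'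
    obtain ⟨x, hx, y, hy, hxy⟩ := hf'
    refine ⟨x, hx, y, hy, ?_, ?_⟩
    · rintro rfl
      rw [div_zero] at hxy
      exact hf0 hxy
    · rw [hxy, div_mul_cancel₀]
      rintro rfl
      rw [div_zero] at hxy
      exact hf0 hxy
  obtain ⟨M₁, h₁, hh₁, e₁⟩ := exists_intSpan hy₁
  obtain ⟨M₂, h₂, hh₂, e₂⟩ := exists_intSpan hy₂
  have hX : ∀ k : ℕ, (PowerSeries.X : PowerSeries ℂ) ^ k ∈ intSpan := fun k => by
    have := intMap_mem_intSpan (PowerSeries.X ^ k)
    rwa [intMap, map_pow, PowerSeries.map_X] at this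
  have hι : ∀ y : LaurentSeries KK, y ≠ 0 → coeffMap iota y ≠ 0 := fun y hy h0 => hy
    (Fermat.Agent.X0Emb.coeffMap_injective iota.injective (by rw [h0, map_zero]))
  have hc0 : PowerSeries.X ^ M₁ * h₂ ≠ 0 := by
    refine mul_ne_zero (pow_ne_zero _ PowerSeries.X_ne_zero) ?_
    rintro rfl
    rw [map_zero] at e₂
    exact mul_ne_zero (HahnSeries.single_ne_zero one_ne_zero) (hι _ hy₂0) e₂.symm
  have hcB : (PowerSeries.X ^ M₁ * h₂) * B.map (algebraMap ℚ ℂ) ∈ intSpan := by
    have h1 : (PowerSeries.X ^ M₁ * h₂) * B.map (algebraMap ℚ ℂ) =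
        PowerSeries.C (iota a⁻¹) * (PowerSeries.X ^ (M₂ + 1) * h₁) := by
      apply HahnSeries.ofPowerSeries_injective (Γ := ℤ)
      have h2 : ofPowerSeries ℤ ℂ (B.map (algebraMap ℚ ℂ)) =
          HahnSeries.C (iota a⁻¹) * (single (1 : ℤ) 1 * coeffMap iota f) := by
        have h3 : B.map (algebraMap ℚ ℂ) = g.map iota := by
          rw [← hBg]
          ext k
          simp
        rw [h3, ← coeffMap_ofPowerSeries', hg, map_mul, HahnSeries.ofPowerSeries_C, map_mul]
        have h4 : ofPowerSeries ℤ KK G = single (1 : ℤ) 1 * f := by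
          rw [hfG, ← mul_assoc, single_mul_single]
          simp
        rw [h4, map_mul, coeffMap_single, map_one]
        have h5 : coeffMap iota (HahnSeries.C a⁻¹) = HahnSeries.C (iota a⁻¹) :=
          coeffMap_single _ _ _
        rw [h5]
      rw [map_mul, map_mul, map_mul, map_mul, map_pow, map_pow, HahnSeries.ofPowerSeries_X,
        HahnSeries.single_pow, HahnSeries.single_pow, one_pow, one_pow, e₁, e₂, h2,
        HahnSeries.ofPowerSeries_C, ← hy, map_mul, nsmul_eq_mul, nsmul_eq_mul, mul_one, mul_one]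
      push_cast
      have h6 : (single ((M₂ : ℤ) + 1) (1 : ℂ)) = single (M₂ : ℤ) 1 * single (1 : ℤ) 1 := by
        rw [single_mul_single, mul_one]
      rw [h6]
      ring
    rw [h1]
    exact intSpan.mul_mem (intSpan.algebraMap_mem _) (intSpan.mul_mem (hX _) hh₁)
  obtain ⟨B', hB'⟩ := int_of_pow_eq hn0 hBU _ (intSpan.mul_mem (hX _) hh₂) hc0 hcB
  -- the first coefficient
  have hBc : PowerSeries.constantCoeff B = 1 := by
    have h1 := congrArg PowerSeries.constantCoeff hBg
    rw [hgc, ← PowerSeries.coeff_zero_eq_constantCoeff_apply, PowerSeries.coeff_map,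
      PowerSeries.coeff_zero_eq_constantCoeff_apply] at h1
    exact (algebraMap ℚ KK).injective (by rw [h1, map_one])
  have h1 := congrArg (PowerSeries.coeff 1) hBU
  rw [PowerSeries.coeff_one_pow, hBc, one_pow, mul_one, intMap, PowerSeries.coeff_map,
    coeff_one_uPS p hp2, ← hB', intMap, PowerSeries.coeff_map] at h1
  simp only [eq_intCast] at h1
  have h2 : (n : ℤ) * PowerSeries.coeff 1 B' = -24 := by exact_mod_cast h1
  have h3 : (n : ℤ) ∣ 24 := ⟨-PowerSeries.coeff 1 B', by rw [mul_neg, h2]; ring⟩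
  exact_mod_cast h3

end Fermat.Agent.MazurCusp
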