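import Fermat.Agent.FlatGS.Quotient
import Fermat.Agent.Minkowski.Trivial

/-!
# Inertia acts on the connected part of an ordinary finite flat module by the cyclotomic character

`M` is a finite abelian group with an action of `G_ℚ` and a model `B` over `ℤ_(q)`
(`FlatGS.IsModel`), `A` is a valuation subring of `ℚ̄` over `q`. If `M` has a `G_ℚ`-stable
filtration with graded pieces of order `q`, then the inertia group at `A` acts through the
cyclotomic character on the connected part of `M` at `A`.
-/

set_option autoImplicit false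

open scoped TensorProduct
open Fermat.Agent.FlatGS

namespace Fermat.Agent.MazurMult

variable {q : ℕ} {M : Type} [AddCommGroup M] {act : GQ → M → M}
  {B : Subalgebra (Rp q) (M → Om)} {A : ValuationSubring Om}

section Rat

lemma natCast_valuation_le (A : ValuationSubring Om) (n : ℕ) : A.valuation (n : Om) ≤ 1 := by
  rw [A.valuation_le_one_iff]
  exact natCast_mem A n

lemma intCast_valuation_le (A : ValuationSubring Om) (n : ℤ) : A.valuation (n : Om) ≤ 1 := by
  rw [A.valuation_le_one_iff]
  exact intCast_mem A n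

/-- an integer prime to `q` is a unit at `A`. -/
lemma valuation_eq_one_of_coprime (hA : A.LiesOverPrime q) {n : ℤ} (hn : IsCoprime n (q : ℤ)) :
    A.valuation (n : Om) = 1 := by
  obtain ⟨a, b, hab⟩ := hn
  apply le_antisymm (intCast_valuation_le A n)
  by_contra hlt
  rw [not_le] at hlt
  have hq : A.valuation (q : Om) < 1 := hA
  have h1 : A.valuation ((a : Om) * n + b * q) < 1 := by
    apply A.valuation.map_add_lt
    · rw [map_mul]
      exact lt_of_le_of_lt (mul_le_of_le_one_left' (intCast_valuation_le A a)) hlt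
    · rw [map_mul]
      exact lt_of_le_of_lt (mul_le_of_le_one_left' (intCast_valuation_le A b)) hq
  have h2 : ((a : Om) * n + b * q) = 1 := by exact_mod_cast congrArg (Int.cast : ℤ → Om) hab
  rw [h2, map_one] at h1
  exact lt_irrefl _ h1

lemma Rp_mem (hA : A.LiesOverPrime q) (r : Rp q) : algebraMap (Rp q) Om r ∈ A := by
  have hr := r.2
  rw [mem_Rp_iff] at hr
  rw [← A.valuation_le_one_iff, Rp_algebraMap_Om]
  have h1 : algebraMap ℚ Om (r : ℚ) = ((r : ℚ).num : Om) / (((r : ℚ).den : ℤ) : Om) := by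
    conv_lhs => rw [← Rat.num_div_den (r : ℚ)]
    simp
  have h2 : A.valuation ((((r : ℚ).den : ℤ)) : Om) = 1 :=
    valuation_eq_one_of_coprime hA (Int.isCoprime_iff_gcd_eq_one.mpr hr)
  rw [h1, map_div₀, h2, div_one]
  exact intCast_valuation_le A _

/-- rational numbers which are integral at `A` lie in `ℤ_(q)`. -/
lemma exists_Rp_of_mem (hq : q.Prime) (hA : A.LiesOverPrime q) {r : ℚ}
    (hr : algebraMap ℚ Om r ∈ A) : r ∈ Rp q := by
  rw [mem_Rp_iff]
  by_contra hcop
  have hdvd : q ∣ r.den := by
    have := (Nat.Prime.coprime_iff_not_dvd hq).not.mp (fun h => hcop h.symm)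
    simpa using this
  have hnum : IsCoprime r.num (q : ℤ) := by
    have h1 := r.reduced
    have h2 : Nat.Coprime r.num.natAbs q := Nat.Coprime.coprime_dvd_right hdvd h1
    exact Int.isCoprime_iff_gcd_eq_one.mpr h2
  have h3 : A.valuation ((r.num : Om)) = 1 := valuation_eq_one_of_coprime hA hnum
  have h4 : A.valuation ((r.den : Om)) < 1 := by
    obtain ⟨c, hc⟩ := hdvd
    rw [hc]
    push_cast
    rw [map_mul]
    exact lt_of_le_of_lt (mul_le_of_le_one_right' (natCast_valuation_le A c)) hA
  have h5 : algebraMap ℚ Om r * (r.den : Om) = (r.num : Om) := by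
    have : algebraMap ℚ Om (r * (r.den : ℚ)) = algebraMap ℚ Om r.num := by
      rw [Rat.mul_den_eq_num]
    rwa [map_mul, map_natCast, map_intCast] at this
  have h6 : A.valuation (algebraMap ℚ Om r) * A.valuation (r.den : Om) = 1 := by
    rw [← map_mul, h5, h3]
  rw [← A.valuation_le_one_iff] at hr
  have : A.valuation (algebraMap ℚ Om r) * A.valuation (r.den : Om) < 1 :=
    lt_of_le_of_lt (mul_le_of_le_one_left' hr) h4
  exact absurd h6 this.ne

lemma exists_mul_of_lt (hq : q.Prime) (hA : A.LiesOverPrime q) {r : ℚ}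
    (hr : A.valuation (algebraMap ℚ Om r) < 1) : ∃ s : Rp q, r = q * (s : ℚ) := by
  have h0 : r ∈ Rp q := exists_Rp_of_mem hq hA ((A.valuation_le_one_iff _).mp hr.le)
  rw [mem_Rp_iff] at h0
  have hdvd : (q : ℤ) ∣ r.num := by
    by_contra hnd
    have hcop : IsCoprime r.num (q : ℤ) := by
      rw [isCoprime_comm]
      exact (Nat.prime_iff_prime_int.mp hq).coprime_iff_not_dvd.mpr hnd
    have h5 : algebraMap ℚ Om r * (r.den : Om) = (r.num : Om) := by
      have : algebraMap ℚ Om (r * (r.den : ℚ)) = algebraMap ℚ Om r.num := by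
        rw [Rat.mul_den_eq_num]
      rwa [map_mul, map_natCast, map_intCast] at this
    have h6 := congrArg A.valuation h5
    rw [map_mul, valuation_eq_one_of_coprime hA hcop] at h6
    have : A.valuation (algebraMap ℚ Om r) * A.valuation (r.den : Om) < 1 :=
      lt_of_le_of_lt (mul_le_of_le_one_right' (natCast_valuation_le A _)) hr
    exact absurd h6 this.ne
  obtain ⟨c, hc⟩ := hdvd
  have hmem : ((c : ℚ) * ((r.den : ℚ))⁻¹) ∈ Rp q :=
    (Rp q).mul_mem (intCast_mem_Rp c) (inv_den_mem_Rp (by rw [mem_Rp_iff]; exact h0))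
  refine ⟨⟨_, hmem⟩, ?_⟩
  change r = q * ((c : ℚ) * ((r.den : ℚ))⁻¹)
  conv_lhs => rw [← Rat.num_div_den r, hc]
  push_cast
  ring

end Rat

section Nonunits

lemma mem_nonunits {x : Om} : x ∈ A.nonunits ↔ A.valuation x < 1 :=
  A.mem_nonunits_iff

lemma nonunits_le {x : Om} (hx : x ∈ A.nonunits) : x ∈ A :=
  (A.valuation_le_one_iff x).mp (mem_nonunits.mp hx).le

lemma nonunits_add {x y : Om} (hx : x ∈ A.nonunits) (hy : y ∈ A.nonunits) :
    x + y ∈ A.nonunits :=
  mem_nonunits.mpr (A.valuation.map_add_lt (mem_nonunits.mp hx) (mem_nonunits.mp hy))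

lemma nonunits_mul {x y : Om} (hx : x ∈ A.nonunits) (hy : y ∈ A) :
    x * y ∈ A.nonunits := by
  rw [mem_nonunits, map_mul]
  exact lt_of_le_of_lt (mul_le_of_le_one_right' ((A.valuation_le_one_iff y).mpr hy))
    (mem_nonunits.mp hx)

lemma nonunits_neg {x : Om} (hx : x ∈ A.nonunits) : -x ∈ A.nonunits := by
  rw [mem_nonunits, Valuation.map_neg]
  exact mem_nonunits.mp hx

lemma nonunits_zero : (0 : Om) ∈ A.nonunits := by
  rw [mem_nonunits, map_zero]
  exact zero_lt_one

lemma nonunits_sum {ι : Type*} (s : Finset ι) {f : ι → Om} (h : ∀ i ∈ s, f i ∈ A.nonunits) :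
    ∑ i ∈ s, f i ∈ A.nonunits := by
  classical
  induction s using Finset.induction_on with
  | empty =>
    rw [Finset.sum_empty]
    exact nonunits_zero
  | insert a s ha ih =>
    rw [Finset.sum_insert ha]
    exact nonunits_add (h a (Finset.mem_insert_self _ _))
      (ih fun i hi => h i (Finset.mem_insert_of_mem hi))

end Nonunits

section Coaction

variable (h : IsModel q act B) (hA : A.LiesOverPrime q)
include h

include hA in
/-- the functions in the model take values in the integers. -/
lemma apply_mem {b : M → Om} (hb : b ∈ B) (x : M) : b x ∈ A := by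
  have := h.fin
  have h1 : IsIntegral (Rp q) (⟨b, hb⟩ : B) := Algebra.IsIntegral.isIntegral _
  have h2 : IsIntegral (Rp q) (b x) := h1.map (ev B x)
  let φ : Rp q →+* A := (algebraMap (Rp q) Om).codRestrict A (Rp_mem hA)
  obtain ⟨P, hP, hP0⟩ := h2
  have h3 : IsIntegral A (b x) := by
    refine ⟨P.map φ, hP.map φ, ?_⟩
    rw [Polynomial.eval₂_map]
    exact hP0
  obtain ⟨a, ha⟩ := IsIntegrallyClosed.algebraMap_eq_of_integral h3
  rw [← ha]
  exact a.2

/-- the coaction, in a basis. -/
lemma exists_coaction {ι : Type*} [Fintype ι] (e : Module.Basis ι (Rp q) B) {b : M → Om}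
    (hb : b ∈ B) : ∃ c : ι → M → Om, (∀ i, c i ∈ B) ∧
      ∀ x y, b (x + y) = ∑ i, (e i : M → Om) x * c i y := by
  obtain ⟨u, hu⟩ := h.delta_mem_range ⟨b, hb⟩
  have key : ∀ u : B ⊗[Rp q] B, ∃ c : ι → M → Om, (∀ i, c i ∈ B) ∧
      ∀ x y, mu B B u (x, y) = ∑ i, (e i : M → Om) x * c i y := by
    intro u
    induction u using TensorProduct.induction_on with
    | zero => exact ⟨fun _ => 0, fun _ => B.zero_mem, fun x y => by simp⟩
    | tmul a b =>
      refine ⟨fun i => e.repr a i • (b : M → Om), fun i => B.smul_mem b.2 _, fun x y => ?_⟩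
      have h1 := congrArg (ev B x) (e.sum_repr a)
      rw [map_sum] at h1
      rw [mu_tmul]
      change ev B x a * _ = _
      rw [← h1, Finset.sum_mul]
      refine Finset.sum_congr rfl fun i _ => ?_
      change ev B x (e.repr a i • e i) * (b : M → Om) y =
        (e i : M → Om) x * (e.repr a i • (b : M → Om) y)
      rw [map_smul, ev_apply, smul_mul_assoc, mul_smul_comm]
    | add a b ha hb =>
      obtain ⟨c, hc, hc'⟩ := ha
      obtain ⟨d, hd, hd'⟩ := hb
      refine ⟨fun i => c i + d i, fun i => B.add_mem (hc i) (hd i), fun x y => ?_⟩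
      rw [map_add, Pi.add_apply, hc', hd', ← Finset.sum_add_distrib]
      refine Finset.sum_congr rfl fun i _ => ?_
      exact (mul_add _ _ _).symm
  obtain ⟨c, hc, hc'⟩ := key u
  refine ⟨c, hc, fun x y => ?_⟩
  rw [← hc' x y]
  have : mu B B u = IsModel.delta B ⟨b, hb⟩ := hu
  rw [this]
  rfl

end Coaction

/-- two points reduce to the same point modulo the maximal ideal of `A`. -/
def Rel (B : Subalgebra (Rp q) (M → Om)) (A : ValuationSubring Om) (x y : M) : Prop :=
  ∀ b ∈ B, b x - b y ∈ A.nonunits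

namespace Rel

omit [AddCommGroup M] in
lemma refl (x : M) : Rel B A x x := fun b _ => by
  rw [sub_self]
  exact nonunits_zero

omit [AddCommGroup M] in
lemma symm {x y : M} (hxy : Rel B A x y) : Rel B A y x := fun b hb => by
  rw [← neg_sub]
  exact nonunits_neg (hxy b hb)

omit [AddCommGroup M] in
lemma trans {x y z : M} (hxy : Rel B A x y) (hyz : Rel B A y z) : Rel B A x z := fun b hb => by
  rw [← sub_add_sub_cancel _ (b y)]
  exact nonunits_add (hxy b hb) (hyz b hb)

lemma add_right (h : IsModel q act B) (hA : A.LiesOverPrime q) {x y : M} (hxy : Rel B A x y)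
    (z : M) : Rel B A (x + z) (y + z) := by
  intro b hb
  have := h.fin
  obtain ⟨c, hc, hc'⟩ := exists_coaction h (Module.Free.chooseBasis (Rp q) B) hb
  rw [hc', hc', ← Finset.sum_sub_distrib]
  refine nonunits_sum _ fun i _ => ?_
  rw [← sub_mul]
  exact nonunits_mul (hxy _ (Subtype.property _)) (apply_mem h hA (hc i) z)

end Rel

/-- the connected part of `M` at `A`. -/
def conn (h : IsModel q act B) (hA : A.LiesOverPrime q) : AddSubgroup M where
  carrier := {x | Rel B A x 0}
  zero_mem' := Rel.refl 0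
  add_mem' := by
    intro x y hx hy
    have h1 := Rel.add_right h hA hx y
    rw [zero_add] at h1
    exact h1.trans hy
  neg_mem' := by
    intro x hx
    have h1 := Rel.add_right h hA hx (-x)
    rw [add_neg_cancel, zero_add] at h1
    exact h1.symm

lemma mem_conn (h : IsModel q act B) (hA : A.LiesOverPrime q) {x : M} :
    x ∈ conn h hA ↔ Rel B A x 0 := Iff.rfl

lemma act_sub_mem_conn (h : IsModel q act B) (hA : A.LiesOverPrime q) {σ : GQ}
    (hσ : σ ∈ A.inertiaSubgroupIn ℚ) (x : M) : act σ x - x ∈ conn h hA := by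
  have h1 : Rel B A (act σ x) x := by
    intro b hb
    rw [h.equivariant b hb]
    exact (Fermat.Agent.Minkowski.sub_mem_nonunits_of_mem_inertia hσ (apply_mem h hA hb x)).2
  have h2 := Rel.add_right h hA h1 (-x)
  rw [add_neg_cancel, ← sub_eq_add_neg] at h2
  exact h2

section Haar

lemma nsmul_mem_of_relIndex {N N' : AddSubgroup M} (hrel : N.relIndex N' = q) {x : M}
    (hx : x ∈ N') : q • x ∈ N := by
  have h1 : q • (QuotientAddGroup.mk (s := N.addSubgroupOf N') (⟨x, hx⟩ : N')) = 0 := by
    have h2 := card_nsmul_eq_zero' (G := N' ⧸ N.addSubgroupOf N')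
      (x := QuotientAddGroup.mk (s := N.addSubgroupOf N') (⟨x, hx⟩ : N'))
    have h3 : Nat.card (N' ⧸ N.addSubgroupOf N') = q := hrel
    rwa [h3] at h2
  rw [← QuotientAddGroup.mk_nsmul, QuotientAddGroup.eq_zero_iff] at h1
  exact h1

/-- cosets of a subgroup of prime index. -/
lemma sum_coset [Finite M] (hq : q.Prime) {N N' : AddSubgroup M} (hNN' : N ≤ N')
    (hrel : N.relIndex N' = q) {x : M} (hx : x ∈ N') (hx' : x ∉ N) (f : M → Om) :
    ∑ᶠ z : N', f z = ∑ k ∈ Finset.range q, ∑ᶠ z : N, f (k • x + z) := by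
  classical
  cases nonempty_fintype M
  have : Fintype N := Fintype.ofFinite N
  have : Fintype N' := Fintype.ofFinite N'
  simp only [finsum_eq_sum_of_fintype]
  let φ : Fin q × N → N' := fun kz => ⟨(kz.1 : ℕ) • x + (kz.2 : M),
    N'.add_mem (N'.nsmul_mem hx _) (hNN' kz.2.2)⟩
  have hcard : Fintype.card (Fin q × N) = Fintype.card N' := by
    rw [Fintype.card_prod, Fintype.card_fin, ← Nat.card_eq_fintype_card,
      ← Nat.card_eq_fintype_card, ← hrel]
    have h1 := AddSubgroup.relIndex_mul_relIndex (⊥ : AddSubgroup M) N N' bot_le hNN'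
    rw [AddSubgroup.relIndex_bot_left, AddSubgroup.relIndex_bot_left] at h1
    rw [← h1, mul_comm]
  have hmul : ∀ k : ℤ, k • x ∈ N → (q : ℤ) ∣ k := by
    intro k hk
    by_contra hnd
    have hcop : IsCoprime k (q : ℤ) := by
      rw [isCoprime_comm]
      exact (Nat.prime_iff_prime_int.mp hq).coprime_iff_not_dvd.mpr hnd
    obtain ⟨a, b, hab⟩ := hcop
    have hqx : (q : ℤ) • x ∈ N := by
      exact_mod_cast nsmul_mem_of_relIndex hrel hx
    apply hx'
    have : x = a • (k • x) + b • ((q : ℤ) • x) := by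
      rw [← mul_smul, ← mul_smul, ← add_smul, hab, one_smul]
    rw [this]
    exact N.add_mem (N.zsmul_mem hk a) (N.zsmul_mem hqx b)
  have hinj : Function.Injective φ := by
    rintro ⟨k, z⟩ ⟨k', z'⟩ hkz
    have h1 : (k : ℕ) • x + (z : M) = (k' : ℕ) • x + (z' : M) := congrArg Subtype.val hkz
    have h2 : ((k : ℤ) - (k' : ℤ)) • x = z' - z := by
      rw [sub_smul, natCast_zsmul, natCast_zsmul]
      exact sub_eq_sub_iff_add_eq_add.mpr (by rw [h1, add_comm])
    have h3 := hmul _ (h2 ▸ N.sub_mem z'.2 z.2)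
    have h4 : k = k' := by
      apply Fin.ext
      have h6 : ((k : ℕ) : ℤ) ≡ ((k' : ℕ) : ℤ) [ZMOD q] := (Int.modEq_iff_dvd.mpr h3).symm
      have h7 := (Int.natCast_modEq_iff.mp h6)
      exact Nat.ModEq.eq_of_lt_of_lt h7 k.2 k'.2
    subst h4
    have h5 : (z : M) = z' := add_left_cancel h1
    rw [Subtype.ext h5]
  have hbij : Function.Bijective φ :=
    (Fintype.bijective_iff_injective_and_card φ).mpr ⟨hinj, hcard⟩
  rw [← (Equiv.ofBijective φ hbij).sum_comp, Fintype.sum_prod_type, ← Fin.sum_univ_eq_sum_range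
    (fun k => ∑ z : N, f (k • x + z)) q]
  rfl

/-- every element of `N'` is a multiple of `x` plus an element of `N` -/
lemma exists_coset [Finite M] (hq : q.Prime) {N N' : AddSubgroup M} (hNN' : N ≤ N')
    (hrel : N.relIndex N' = q) {x : M} (hx : x ∈ N') (hx' : x ∉ N) (u : M) (hu : u ∈ N') :
    ∃ k : ℕ, ∃ z ∈ N, u = k • x + z := by
  classical
  by_contra hcon
  push Not at hcon
  have h1 := sum_coset hq hNN' hrel hx hx' (fun z => if z = u then 1 else 0)
  have h2 : ∑ᶠ z : N', (if (z : M) = u then (1 : Om) else 0) = 1 := by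
    rw [finsum_eq_single _ (⟨u, hu⟩ : N')]
    · simp
    · intro z hz
      rw [if_neg]
      exact fun h => hz (Subtype.ext h)
  rw [h2] at h1
  have h3 : ∀ k ∈ Finset.range q, ∑ᶠ z : N, (if k • x + (z : M) = u then (1 : Om) else 0) = 0 := by
    intro k _
    refine finsum_eq_zero_of_forall_eq_zero fun z => ?_
    exact if_neg (fun h : k • x + (z : M) = u => hcon k z z.2 h.symm)
  rw [Finset.sum_eq_zero h3] at h1
  exact one_ne_zero h1

/-- the sum of a function in the model over a stable subgroup is rational. -/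
lemma exists_rat_sum [Finite M] (h : IsModel q act B) {N : AddSubgroup M}
    (hN : ∀ σ, ∀ x ∈ N, act σ x ∈ N) {b : M → Om} (hb : b ∈ B) :
    ∃ r : ℚ, algebraMap ℚ Om r = ∑ᶠ z : N, b z := by
  classical
  cases nonempty_fintype M
  have : Fintype N := Fintype.ofFinite N
  apply fixed_mem_range
  intro σ
  rw [finsum_eq_sum_of_fintype, map_sum]
  let φ : N → N := fun z => ⟨act σ z, hN σ z z.2⟩
  have hφ : Function.Bijective φ := by
    rw [← Finite.injective_iff_bijective]
    intro z z' hzz
    have h1 : act σ z = act σ z' := congrArg Subtype.val hzz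
    exact Subtype.ext (h.isSepAlg.act_injective σ h1)
  rw [← (Equiv.ofBijective φ hφ).sum_comp (fun z : N => b z)]
  refine Finset.sum_congr rfl fun z _ => ?_
  exact (h.equivariant b hb σ z).symm

variable (h : IsModel q act B) (hA : A.LiesOverPrime q)

/-- the divisibility of Haar sums over `N`. -/
def HaarP (N : AddSubgroup M) : Prop :=
  (∃ n, Nat.card N = q ^ n) ∧ ∃ d, Nat.card ↥(conn h hA ⊓ N) ≤ q ^ d ∧
    ∀ b ∈ B, ∃ r : Rp q, ∑ᶠ z : N, b z = (q : Om) ^ d * algebraMap (Rp q) Om r

lemma haarP_bot : HaarP h hA ⊥ := by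
  refine ⟨⟨0, ?_⟩, 0, ?_, ?_⟩
  · simp
  · rw [inf_bot_eq]
    simp
  · intro b hb
    obtain ⟨r, hr⟩ := h.apply_zero_mem hb
    refine ⟨r, ?_⟩
    rw [hr, pow_zero, one_mul]
    have : (fun z : (⊥ : AddSubgroup M) => b z) = fun _ => b 0 := by
      funext z
      rw [AddSubgroup.mem_bot.mp z.2]
    rw [this, finsum_eq_single _ (0 : (⊥ : AddSubgroup M))]
    intro z hz
    exact absurd (Subtype.ext (AddSubgroup.mem_bot.mp z.2)) hz

lemma haarP_step [Finite M] (hq : q.Prime) {N N' : AddSubgroup M}
    (hN' : ∀ σ, ∀ x ∈ N', act σ x ∈ N') (hNN' : N ≤ N')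
    (hrel : N.relIndex N' = q) (hP : HaarP h hA N) : HaarP h hA N' := by
  classical
  have := h.fin
  obtain ⟨⟨n, hn⟩, d, hd, hint⟩ := hP
  have hq0 : (q : Om) ≠ 0 := Nat.cast_ne_zero.mpr hq.ne_zero
  refine ⟨⟨n + 1, ?_⟩, ?_⟩
  · have h1 := AddSubgroup.relIndex_mul_relIndex (⊥ : AddSubgroup M) N N' bot_le hNN'
    rw [AddSubgroup.relIndex_bot_left, AddSubgroup.relIndex_bot_left] at h1
    rw [← h1, hn, hrel, pow_succ]
  -- descent of the sum
  have key : ∀ x ∈ N', x ∉ N → ∀ b ∈ B, ∃ g ∈ B, ∃ r : ℚ,
      ∑ k ∈ Finset.range q, g (k • x) = algebraMap ℚ Om r ∧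
      ∑ᶠ z : N', b z = (q : Om) ^ d * algebraMap ℚ Om r := by
    intro x hx hx' b hb
    let e := Module.Free.chooseBasis (Rp q) B
    obtain ⟨c, hc, hc'⟩ := exists_coaction h e hb
    choose r hr using fun i => hint (c i) (hc i)
    let g : M → Om := ∑ i, r i • (e i : M → Om)
    have hg : g ∈ B := B.sum_mem fun i _ => B.smul_mem (e i).2 _
    have hsum : ∀ y, ∑ᶠ z : N, b (y + z) = (q : Om) ^ d * g y := by
      intro y
      have : Fintype N := Fintype.ofFinite N
      simp only [finsum_eq_sum_of_fintype] at hr ⊢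
      simp only [hc']
      rw [Finset.sum_comm]
      simp only [← Finset.mul_sum, hr, g, Finset.sum_apply, Pi.smul_apply]
      rw [Finset.mul_sum]
      refine Finset.sum_congr rfl fun i _ => ?_
      rw [Algebra.smul_def]
      ring
    have hS : ∑ᶠ z : N', b z = (q : Om) ^ d * ∑ k ∈ Finset.range q, g (k • x) := by
      rw [sum_coset hq hNN' hrel hx hx', Finset.mul_sum]
      exact Finset.sum_congr rfl fun k _ => hsum _
    obtain ⟨r0, hr0⟩ := exists_rat_sum h hN' hb
    refine ⟨g, hg, r0 / (q : ℚ) ^ d, ?_, ?_⟩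
    · rw [map_div₀, hr0, hS, map_pow, map_natCast]
      field_simp
    · rw [map_div₀, hr0, map_pow, map_natCast]
      field_simp
  by_cases hcase : conn h hA ⊓ N' ≤ N
  · refine ⟨d, ?_, ?_⟩
    · have : conn h hA ⊓ N' = conn h hA ⊓ N :=
        le_antisymm (le_inf inf_le_left hcase) (inf_le_inf_left _ hNN')
      rw [this]
      exact hd
    · have hne : ∃ x ∈ N', x ∉ N := by
        by_contra hcon
        push Not at hcon
        have : N.relIndex N' = 1 := AddSubgroup.relIndex_eq_one.mpr hcon
        rw [hrel] at this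
        exact hq.one_lt.ne' this
      obtain ⟨x, hx, hx'⟩ := hne
      intro b hb
      obtain ⟨g, hg, r, hr, hr'⟩ := key x hx hx' b hb
      have hmem : algebraMap ℚ Om r ∈ A := by
        rw [← hr]
        exact A.toSubring.sum_mem fun k _ => apply_mem h hA hg _
      exact ⟨⟨r, exists_Rp_of_mem hq hA hmem⟩, hr'⟩
  · obtain ⟨x, hx, hx'⟩ := SetLike.not_le_iff_exists.mp hcase
    refine ⟨d + 1, ?_, ?_⟩
    · have h1 := AddSubgroup.relIndex_mul_relIndex (⊥ : AddSubgroup M) (conn h hA ⊓ N)
        (conn h hA ⊓ N') bot_le (inf_le_inf_left _ hNN')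
      rw [AddSubgroup.relIndex_bot_left, AddSubgroup.relIndex_bot_left] at h1
      rw [← h1, pow_succ]
      refine Nat.mul_le_mul hd ?_
      have h2 : (conn h hA ⊓ N).relIndex (conn h hA ⊓ N') = N.relIndex (conn h hA ⊓ N') := by
        have h3 : conn h hA ⊓ N = N ⊓ (conn h hA ⊓ N') := by
          rw [← inf_assoc, inf_comm N, inf_assoc, inf_eq_left.mpr hNN']
        rw [h3, AddSubgroup.inf_relIndex_right]
      rw [h2]
      refine le_trans (AddSubgroup.relIndex_le_of_le_right inf_le_right ?_) hrel.le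
      rw [hrel]
      exact hq.ne_zero
    · intro b hb
      obtain ⟨g, hg, r, hr, hr'⟩ := key x hx.2 hx' b hb
      have hlt : A.valuation (algebraMap ℚ Om r) < 1 := by
        rw [← mem_nonunits, ← hr]
        have h1 : ∑ k ∈ Finset.range q, g (k • x) =
            ∑ k ∈ Finset.range q, (g (k • x) - g 0) + (q : Om) * g 0 := by
          rw [Finset.sum_sub_distrib, Finset.sum_const, Finset.card_range, nsmul_eq_mul]
          ring
        rw [h1]
        refine nonunits_add (nonunits_sum _ fun k _ => ?_) ?_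
        · exact ((conn h hA).nsmul_mem hx.1 k) g hg
        · exact nonunits_mul (mem_nonunits.mpr hA) (apply_mem h hA hg 0)
      obtain ⟨s, hs⟩ := exists_mul_of_lt hq hA hlt
      refine ⟨s, ?_⟩
      rw [hr', hs, map_mul, map_natCast, pow_succ, mul_assoc, Rp_algebraMap_Om]

/-- the filtration hypothesis: every stable subgroup can be enlarged by a factor `q`. -/
def HasFil (q : ℕ) (act : GQ → M → M) : Prop :=
  ∀ N : AddSubgroup M, (∀ σ, ∀ x ∈ N, act σ x ∈ N) → N ≠ ⊤ →
    ∃ N' : AddSubgroup M, (∀ σ, ∀ x ∈ N', act σ x ∈ N') ∧ N ≤ N' ∧ N.relIndex N' = q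

lemma haarP_top [Finite M] (hq : q.Prime) (hfil : HasFil q act) : HaarP h hA ⊤ := by
  classical
  -- a maximal stable subgroup satisfying the property
  have hfin : Finite (AddSubgroup M) := inferInstance
  let S : Set (AddSubgroup M) := {N | (∀ σ, ∀ x ∈ N, act σ x ∈ N) ∧ HaarP h hA N}
  have hne : S.Nonempty := ⟨⊥, by
    intro σ x hx
    rw [AddSubgroup.mem_bot] at hx ⊢
    rw [hx, h.act_zero], haarP_bot h hA⟩
  obtain ⟨N, hN⟩ := S.toFinite.exists_maximal hne
  by_cases htop : N = ⊤
  · rw [← htop]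
    exact hN.prop.2
  · obtain ⟨N', hN', hle, hrel⟩ := hfil N hN.prop.1 htop
    have h1 : N' ∈ S := ⟨hN', haarP_step h hA hq hN' hle hrel hN.prop.2⟩
    have h2 : N' ≤ N := hN.2 h1 hle
    have h3 : N.relIndex N' = 1 := AddSubgroup.relIndex_eq_one.mpr h2
    rw [hrel] at h3
    exact absurd h3 hq.one_lt.ne'

end Haar

section Span

/-- the `A`-algebra generated by the model. -/
noncomputable def spanA (B : Subalgebra (Rp q) (M → Om)) (A : ValuationSubring Om) : Subalgebra A (M → Om) :=
  Algebra.adjoin A (B : Set (M → Om))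

omit [AddCommGroup M] in
lemma subset_spanA {b : M → Om} (hb : b ∈ B) : b ∈ spanA B A :=
  Algebra.subset_adjoin hb

omit [AddCommGroup M] in
lemma mem_span_of_mem {f : M → Om} (hf : f ∈ spanA B A) :
    f ∈ Submodule.span A (B : Set (M → Om)) := by
  have h1 : f ∈ Subalgebra.toSubmodule (Algebra.adjoin A (B : Set (M → Om))) := hf
  rw [Algebra.adjoin_eq_span] at h1
  have h2 : Submonoid.closure (B : Set (M → Om)) = B.toSubmonoid :=
    Submonoid.closure_eq B.toSubmonoid
  rw [h2] at h1
  exact h1

variable (h : IsModel q act B) (hA : A.LiesOverPrime q)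

open Classical in
/-- the indicator function of the connected part. -/
lemma indicator_mem [Finite M] :
    (fun x => if x ∈ conn h hA then (1 : Om) else 0) ∈ spanA B A := by
  cases nonempty_fintype M
  have h1 : ∀ y : M, y ∉ conn h hA → ∃ b ∈ B, b y - b 0 ∉ A.nonunits := by
    intro y hy
    rw [mem_conn, Rel] at hy
    push Not at hy
    exact hy
  choose! b hb hb' using h1
  let bA : M → A := fun y => if hy : y ∈ conn h hA then 0 else ⟨b y y, apply_mem h hA (hb y hy) y⟩
  let s : Finset M := Finset.univ.filter fun y => y ∉ conn h hA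
  let F : M → Om := ∏ y ∈ s, (b y - algebraMap A (M → Om) (bA y))
  have hF : F ∈ spanA B A := by
    refine Subalgebra.prod_mem _ fun y hy => ?_
    have hy' : y ∉ conn h hA := (Finset.mem_filter.mp hy).2
    exact (spanA B A).sub_mem (subset_spanA (hb y hy')) ((spanA B A).algebraMap_mem _)
  have hFapp : ∀ x, F x = ∏ y ∈ s, (b y x - b y y) := by
    intro x
    simp only [F, Finset.prod_apply, Pi.sub_apply]
    refine Finset.prod_congr rfl fun y hy => ?_
    have hy' : y ∉ conn h hA := (Finset.mem_filter.mp hy).2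
    congr 1
    change algebraMap A Om (bA y) = _
    simp only [bA, dif_neg hy']
    rfl
  have hF0 : ∀ x, x ∉ conn h hA → F x = 0 := by
    intro x hx
    rw [hFapp]
    apply Finset.prod_eq_zero (Finset.mem_filter.mpr ⟨Finset.mem_univ x, hx⟩)
    exact sub_self _
  have hF1 : ∀ x, x ∈ conn h hA → A.valuation (F x) = 1 := by
    intro x hx
    rw [hFapp, map_prod]
    refine Finset.prod_eq_one fun y hy => ?_
    have hy' : y ∉ conn h hA := (Finset.mem_filter.mp hy).2
    apply le_antisymm
    · rw [A.valuation_le_one_iff]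
      exact A.toSubring.sub_mem (apply_mem h hA (hb y hy') x) (apply_mem h hA (hb y hy') y)
    · by_contra hlt
      rw [not_le, ← mem_nonunits] at hlt
      apply hb' y hy'
      have h2 := nonunits_add (hx (b y) (hb y hy')) (nonunits_neg hlt)
      have h3 : b y x - b y 0 + -(b y x - b y y) = b y y - b y 0 := by ring
      rwa [h3] at h2
  have hFinv : ∀ x, x ∈ conn h hA → (F x)⁻¹ ∈ A := by
    intro x hx
    rw [← A.valuation_le_one_iff, map_inv₀, hF1 x hx, inv_one]
  let t : Finset M := Finset.univ.filter fun y => y ∈ conn h hA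
  let cA : M → A := fun y => if hy : y ∈ conn h hA then ⟨(F y)⁻¹, hFinv y hy⟩ else 0
  let E : M → Om := 1 - ∏ y ∈ t, (1 - algebraMap A (M → Om) (cA y) * F)
  have hE : E ∈ spanA B A := by
    refine (spanA B A).sub_mem (spanA B A).one_mem (Subalgebra.prod_mem _ fun y hy => ?_)
    exact (spanA B A).sub_mem (spanA B A).one_mem
      ((spanA B A).mul_mem ((spanA B A).algebraMap_mem _) hF)
  have hEapp : ∀ x, E x = 1 - ∏ y ∈ t, (1 - (F y)⁻¹ * F x) := by
    intro x
    simp only [E, Finset.prod_apply, Pi.sub_apply, Pi.one_apply, Pi.mul_apply]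
    congr 1
    refine Finset.prod_congr rfl fun y hy => ?_
    have hy' : y ∈ conn h hA := (Finset.mem_filter.mp hy).2
    congr 2
    change algebraMap A Om (cA y) = _
    simp only [cA, dif_pos hy']
    rfl
  convert hE using 1
  funext x
  rw [hEapp]
  by_cases hx : x ∈ conn h hA
  · rw [if_pos hx, Finset.prod_eq_zero (Finset.mem_filter.mpr ⟨Finset.mem_univ x, hx⟩), sub_zero]
    rw [inv_mul_cancel₀, sub_self]
    intro h0
    have := hF1 x hx
    rw [h0, map_zero] at this
    exact zero_ne_one this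
  · rw [if_neg hx, hF0 x hx]
    simp

/-- Haar sums of elements of the span. -/
lemma exists_avg [Finite M] (hq : q.Prime) (hfil : HasFil q act) {f : M → Om}
    (hf : f ∈ spanA B A) : ∑ᶠ z : conn h hA, f z / (Nat.card (conn h hA) : Om) ∈ A := by
  classical
  cases nonempty_fintype M
  obtain ⟨⟨n, hn⟩, d, hd, hint⟩ := haarP_top h hA hq hfil
  -- the cardinality of the connected part divides `q ^ d`
  obtain ⟨m, hm⟩ : ∃ m, Nat.card (conn h hA) = q ^ m := by
    have h1 : Nat.card (conn h hA) ∣ q ^ n := by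
      rw [← hn, AddSubgroup.card_top]
      exact AddSubgroup.card_addSubgroup_dvd_card _
    obtain ⟨m, -, hm⟩ := (Nat.dvd_prime_pow hq).mp h1
    exact ⟨m, hm⟩
  have hmd : m ≤ d := by
    rw [inf_top_eq, hm] at hd
    exact (Nat.pow_le_pow_iff_right hq.one_lt).mp hd
  have hq0 : (q : Om) ≠ 0 := Nat.cast_ne_zero.mpr hq.ne_zero
  -- the statement for sums over `M`
  have hM : ∀ g ∈ Submodule.span A (B : Set (M → Om)), ∑ z : M, g z / (q : Om) ^ m ∈ A := by
    intro g hg
    induction hg using Submodule.span_induction with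
    | mem g hg =>
      obtain ⟨r, hr⟩ := hint g hg
      have h2 : ∑ z : M, g z = ∑ᶠ z : (⊤ : AddSubgroup M), g z := by
        rw [← finsum_eq_sum_of_fintype]
        exact (finsum_comp_equiv (AddSubgroup.topEquiv (G := M)).toEquiv (f := g)).symm
      rw [← Finset.sum_div, h2, hr]
      have h3 : (q : Om) ^ d * algebraMap (Rp q) Om r / (q : Om) ^ m =
          (q : Om) ^ (d - m) * algebraMap (Rp q) Om r := by
        obtain ⟨k, rfl⟩ := Nat.exists_eq_add_of_le hmd
        rw [Nat.add_sub_cancel_left, pow_add]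
        field_simp
      rw [h3]
      exact A.mul_mem _ _ (A.toSubring.pow_mem (natCast_mem A q) _) (Rp_mem hA r)
    | zero => simp
    | add x y _ _ hx hy =>
      simp only [Pi.add_apply, add_div, Finset.sum_add_distrib]
      exact A.add_mem _ _ hx hy
    | smul a x _ hx =>
      have : ∑ z : M, (a • x) z / (q : Om) ^ m = (a : Om) * ∑ z : M, x z / (q : Om) ^ m := by
        rw [Finset.mul_sum]
        refine Finset.sum_congr rfl fun z _ => ?_
        rw [Pi.smul_apply, ← mul_div_assoc]
        rfl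
      rw [this]
      exact A.mul_mem _ _ a.2 hx
  have h4 := hM _ (mem_span_of_mem ((spanA B A).mul_mem hf (indicator_mem h hA)))
  convert h4 using 1
  have : Fintype (conn h hA) := Fintype.ofFinite _
  rw [finsum_eq_sum_of_fintype, hm]
  push_cast
  have h5 : ∀ z : M, (f * fun x => if x ∈ conn h hA then (1 : Om) else 0) z / (q : Om) ^ m =
      if z ∈ conn h hA then f z / (q : Om) ^ m else 0 := by
    intro z
    rw [Pi.mul_apply]
    split_ifs <;> simp
  simp only [h5]
  rw [← Finset.sum_filter]
  exact (Finset.sum_subtype (Finset.univ.filter fun a => a ∈ conn h hA) (fun x => by simp)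
    (fun a => f a / (q : Om) ^ m)).symm

end Span

section Char

variable (h : IsModel q act B) (hA : A.LiesOverPrime q)

/-- every character of the connected part is the restriction of an element of the span. -/
lemma exists_char [Finite M] (ψ : AddChar (conn h hA) Om) :
    ∃ f ∈ spanA B A, ∀ x : conn h hA, f x = ψ x := by
  classical
  cases nonempty_fintype M
  have := h.fin
  have : Fintype (conn h hA) := Fintype.ofFinite _
  let e := Module.Free.chooseBasis (Rp q) B
  let t : Module.Free.ChooseBasisIndex (Rp q) B → Om := fun i =>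
    ∑ x : conn h hA, ψ (-x) * (e i : M → Om) x
  have hne : ∃ i, t i ≠ 0 := by
    by_contra hcon
    push Not at hcon
    let c : M → Om := fun x => if hx : x ∈ conn h hA then ψ (-⟨x, hx⟩) else 0
    have hc : ∀ b ∈ B, ∑ x, c x * b x = 0 := by
      intro b hb
      have h1 : ∑ x, c x * b x = ∑ x : conn h hA, ψ (-x) * b x := by
        have h2 : ∀ x, c x * b x = if x ∈ conn h hA then c x * b x else 0 := by
          intro x
          split_ifs with hx
          · rfl
          · simp only [c, dif_neg hx, zero_mul]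
        rw [Finset.sum_congr rfl fun x _ => h2 x, ← Finset.sum_filter]
        rw [Finset.sum_subtype (p := fun x => x ∈ conn h hA)
          (Finset.univ.filter fun a => a ∈ conn h hA) (fun x => by simp)]
        refine Finset.sum_congr rfl fun x _ => ?_
        simp only [c, dif_pos x.2]
      rw [h1]
      have h5 : ∀ x, b x = ∑ i, algebraMap (Rp q) Om (e.repr ⟨b, hb⟩ i) * (e i : M → Om) x := by
        intro x
        have h4 := congrArg (ev B x) (e.sum_repr ⟨b, hb⟩)
        rw [map_sum] at h4
        change _ = b x at h4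
        rw [← h4]
        refine Finset.sum_congr rfl fun i _ => ?_
        rw [map_smul, Algebra.smul_def]
        rfl
      simp only [h5, Finset.mul_sum]
      rw [Finset.sum_comm]
      refine Finset.sum_eq_zero fun i _ => ?_
      have h6 := hcon i
      have h7 : ∑ x : conn h hA, ψ (-x) * (algebraMap (Rp q) Om (e.repr ⟨b, hb⟩ i) *
          (e i : M → Om) x) = algebraMap (Rp q) Om (e.repr ⟨b, hb⟩ i) * t i := by
        rw [Finset.mul_sum]
        refine Finset.sum_congr rfl fun x _ => ?_
        ring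
      rw [h7, h6, mul_zero]
    have h8 := h.isSepAlg.ev_li c hc 0
    simp only [c, dif_pos (conn h hA).zero_mem] at h8
    have h9 : ψ (-⟨0, (conn h hA).zero_mem⟩) = 1 := by
      have : (-⟨0, (conn h hA).zero_mem⟩ : conn h hA) = 0 := by
        apply Subtype.ext
        simp
      rw [this, AddChar.map_zero_eq_one]
    rw [h9] at h8
    exact one_ne_zero h8
  -- a coefficient of maximal absolute value
  obtain ⟨i0, hi0⟩ := hne
  have hnon : (Finset.univ : Finset (Module.Free.ChooseBasisIndex (Rp q) B)).Nonempty :=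
    ⟨i0, Finset.mem_univ _⟩
  obtain ⟨j, -, hj⟩ := Finset.exists_max_image Finset.univ (fun i => A.valuation (t i)) hnon
  have htj : t j ≠ 0 := by
    intro h0
    have := hj i0 (Finset.mem_univ _)
    rw [h0, map_zero, le_zero_iff, map_eq_zero] at this
    exact hi0 this
  have hdiv : ∀ i, t i / t j ∈ A := by
    intro i
    rw [← A.valuation_le_one_iff, map_div₀]
    exact div_le_one_of_le₀ (hj i (Finset.mem_univ _)) zero_le
  obtain ⟨c, hc, hc'⟩ := exists_coaction h e (e j).2
  refine ⟨∑ i, algebraMap A (M → Om) ⟨t i / t j, hdiv i⟩ * c i,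
    Subalgebra.sum_mem _ fun i _ => (spanA B A).mul_mem ((spanA B A).algebraMap_mem _)
      (subset_spanA (hc i)), fun y => ?_⟩
  have h1 : ψ y * t j = ∑ i, t i * c i y := by
    have h2 : ψ y * t j = ∑ x : conn h hA, ψ (-x) * (e j : M → Om) ((x : M) + y) := by
      rw [Finset.mul_sum, ← Equiv.sum_comp (Equiv.addRight y)]
      refine Finset.sum_congr rfl fun x _ => ?_
      rw [Equiv.coe_addRight, neg_add, AddChar.map_add_eq_mul, AddSubgroup.coe_add]
      have h3 : ψ y * ψ (-y) = 1 := by
        rw [← AddChar.map_add_eq_mul, add_neg_cancel, AddChar.map_zero_eq_one]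
      calc ψ y * (ψ (-x) * ψ (-y) * (e j : M → Om) ((x : M) + y))
          = (ψ y * ψ (-y)) * (ψ (-x) * (e j : M → Om) ((x : M) + y)) := by ring
        _ = _ := by rw [h3, one_mul]
    rw [h2]
    simp only [hc', Finset.mul_sum]
    rw [Finset.sum_comm]
    refine Finset.sum_congr rfl fun i _ => ?_
    simp only [t]
    rw [Finset.sum_mul]
    refine Finset.sum_congr rfl fun x _ => ?_
    ring
  have h4 : (∑ i, algebraMap A (M → Om) ⟨t i / t j, hdiv i⟩ * c i) (y : M) =
      ∑ i, t i / t j * c i y := by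
    rw [Finset.sum_apply]
    rfl
  rw [h4]
  have h5 : ψ y = (∑ i, t i * c i y) / t j := by
    rw [← h1]
    field_simp
  rw [h5, Finset.sum_div]
  refine Finset.sum_congr rfl fun i _ => ?_
  ring

/-- the action of inertia on the connected part. -/
def actConn {σ : GQ} (hσ : σ ∈ A.inertiaSubgroupIn ℚ) : conn h hA →+ conn h hA where
  toFun x := ⟨act σ x, by
    have h1 := (conn h hA).add_mem (act_sub_mem_conn h hA hσ x) x.2
    rwa [sub_add_cancel] at h1⟩
  map_zero' := Subtype.ext (h.act_zero σ)
  map_add' x y := Subtype.ext (h.act_add σ x y)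

@[simp] lemma coe_actConn {σ : GQ} (hσ : σ ∈ A.inertiaSubgroupIn ℚ) (x : conn h hA) :
    (actConn h hA hσ x : M) = act σ x := rfl

/-- **Theorem.** Inertia acts through the cyclotomic character on the connected part of `M`:
every character `ψ` of the connected part satisfies `ψ (σ x) = σ (ψ x)`. -/
theorem char_act [Finite M] (hq : q.Prime) (hfil : HasFil q act) {σ : GQ}
    (hσ : σ ∈ A.inertiaSubgroupIn ℚ) (ψ : AddChar (conn h hA) Om) (x : conn h hA) :
    ψ (actConn h hA hσ x) = σ (ψ x) := by
  classical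
  cases nonempty_fintype M
  have : Fintype (conn h hA) := Fintype.ofFinite _
  -- the twist of the character `ψ`
  have hbij : Function.Bijective (actConn h hA hσ) := by
    rw [← Finite.injective_iff_bijective]
    intro z z' hzz
    exact Subtype.ext (h.isSepAlg.act_injective σ (congrArg Subtype.val hzz))
  let ψ' : AddChar (conn h hA) Om :=
    { toFun := fun x => σ.symm (ψ (actConn h hA hσ x))
      map_zero_eq_one' := by
        rw [map_zero, AddChar.map_zero_eq_one, map_one]
      map_add_eq_mul' := fun x y => by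
        rw [map_add, AddChar.map_add_eq_mul, map_mul] }
  have hψ' : ∀ x, σ (ψ' x) = ψ (actConn h hA hσ x) := fun x => σ.apply_symm_apply _
  suffices hsuff : ψ' = ψ by
    rw [← hψ', hsuff]
  by_contra hne
  -- averages
  set N : Om := (Nat.card (conn h hA) : Om) with hN
  have hN0 : N ≠ 0 := by
    rw [hN]
    exact Nat.cast_ne_zero.mpr Nat.card_pos.ne'
  have havg : ∀ (φ : AddChar (conn h hA) Om), ∀ f ∈ spanA B A,
      ∑ z : conn h hA, f z * φ (-z) / N ∈ A := by
    intro φ f hf
    obtain ⟨g, hg, hg'⟩ := exists_char h hA φ⁻¹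
    have h1 := exists_avg h hA hq hfil ((spanA B A).mul_mem hf hg)
    rw [finsum_eq_sum_of_fintype] at h1
    convert h1 using 3 with z
    rw [Pi.mul_apply, hg', AddChar.inv_apply]
  have hcong : ∀ f ∈ spanA B A,
      ∑ z : conn h hA, f z * ψ (-z) / N - ∑ z : conn h hA, f z * ψ' (-z) / N ∈ A.nonunits := by
    intro f hf
    have h1 := mem_span_of_mem hf
    clear hf
    induction h1 using Submodule.span_induction with
    | mem b hb =>
      have h2 : σ (∑ z : conn h hA, b z * ψ' (-z) / N) = ∑ z : conn h hA, b z * ψ (-z) / N := by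
        rw [map_sum, ← Equiv.sum_comp (Equiv.ofBijective _ hbij)
          (fun z : conn h hA => b z * ψ (-z) / N)]
        refine Finset.sum_congr rfl fun z _ => ?_
        rw [map_div₀, map_mul, hψ', hN, map_natCast, ← h.equivariant b hb,
          Equiv.ofBijective_apply, coe_actConn, map_neg]
      rw [← h2]
      exact (Fermat.Agent.Minkowski.sub_mem_nonunits_of_mem_inertia hσ
        (havg ψ' b (subset_spanA hb))).2
    | zero =>
      simp only [Pi.zero_apply, zero_mul, zero_div, Finset.sum_const_zero, sub_self]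
      exact nonunits_zero
    | add f g _ _ hf' hg' =>
      have h2 := nonunits_add hf' hg'
      convert h2 using 1
      simp only [Pi.add_apply, add_mul, add_div, Finset.sum_add_distrib]
      ring
    | smul a f _ hf' =>
      have h2 := nonunits_mul hf' a.2
      convert h2 using 1
      have h3 : ∀ (φ : AddChar (conn h hA) Om), ∑ z : conn h hA, (a • f) z * φ (-z) / N =
          (a : Om) * ∑ z : conn h hA, f z * φ (-z) / N := by
        intro φ
        rw [Finset.mul_sum]
        refine Finset.sum_congr rfl fun z _ => ?_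
        have h4 : (a • f) (z : M) = (a : Om) * f z := rfl
        rw [h4]
        ring
      rw [h3, h3]
      ring
  obtain ⟨f, hf, hf'⟩ := exists_char h hA ψ
  have h1 := hcong f hf
  have h2 : ∑ z : conn h hA, f z * ψ (-z) / N = 1 := by
    have h3 : ∀ z : conn h hA, f z * ψ (-z) / N = 1 / N := by
      intro z
      rw [hf', ← AddChar.map_add_eq_mul, add_neg_cancel, AddChar.map_zero_eq_one]
    rw [Finset.sum_congr rfl fun z _ => h3 z, Finset.sum_const, Finset.card_univ, nsmul_eq_mul,
      ← Nat.card_eq_fintype_card, ← hN]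
    field_simp
  have h3 : ∑ z : conn h hA, f z * ψ' (-z) / N = 0 := by
    have h4 : ∀ z : conn h hA, f z * ψ' (-z) / N = (ψ * ψ'⁻¹) z / N := by
      intro z
      rw [hf', AddChar.mul_apply, AddChar.inv_apply]
    rw [Finset.sum_congr rfl fun z _ => h4 z, ← Finset.sum_div,
      (AddChar.sum_eq_zero_iff_ne_zero).mpr, zero_div]
    intro h5
    apply hne
    have h6 : ψ * ψ'⁻¹ = 1 := h5
    exact (mul_inv_eq_one.mp h6).symm
  rw [h2, h3, sub_zero, mem_nonunits, map_one] at h1
  exact lt_irrefl _ h1

/-- the additive characters with values in `ℚ̄` separate the points of a finite group. -/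
lemma exists_addChar_ne {G : Type*} [AddCommGroup G] [Finite G] {x y : G} (hxy : x ≠ y) :
    ∃ ψ : AddChar G Om, ψ x ≠ ψ y := by
  have h1 : Multiplicative.ofAdd (x - y) ≠ (1 : Multiplicative G) := by
    intro h2
    apply hxy
    exact sub_eq_zero.mp h2
  have : NeZero ((Monoid.exponent (Multiplicative G) : ℕ) : Om) :=
    ⟨Nat.cast_ne_zero.mpr Monoid.exponent_ne_zero_of_finite⟩
  obtain ⟨φ, hφ⟩ := CommGroup.exists_apply_ne_one_of_hasEnoughRootsOfUnity
    (Multiplicative G) Om h1
  refine ⟨AddChar.toMonoidHomEquiv.symm ((Units.coeHom Om).comp φ), fun h3 => hφ ?_⟩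
  have h4 : ∀ z : G, AddChar.toMonoidHomEquiv.symm ((Units.coeHom Om).comp φ) z =
      ((φ (Multiplicative.ofAdd z) : Omˣ) : Om) := fun z => rfl
  rw [h4, h4] at h3
  rw [ofAdd_sub, map_div, Units.ext h3, div_self']

/-- **Theorem.** Inertia acts on the connected part through the cyclotomic character. -/
theorem act_eq_nsmul [Finite M] (hq : q.Prime) (hfil : HasFil q act) {σ : GQ}
    (hσ : σ ∈ A.inertiaSubgroupIn ℚ) {n a : ℕ} (ha : ∀ ζ : Om, ζ ^ n = 1 → σ ζ = ζ ^ a)
    {x : M} (hx : x ∈ conn h hA) (hnx : n • x = 0) : act σ x = a • x := by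
  by_contra hne
  let y : conn h hA := ⟨x, hx⟩
  have h1 : actConn h hA hσ y ≠ a • y := fun h2 => hne (congrArg Subtype.val h2)
  obtain ⟨ψ, hψ⟩ := exists_addChar_ne h1
  apply hψ
  rw [char_act h hA hq hfil hσ, AddChar.map_nsmul_eq_pow]
  apply ha
  rw [← AddChar.map_nsmul_eq_pow]
  have : n • y = 0 := Subtype.ext hnx
  rw [this, AddChar.map_zero_eq_one]

end Char

end Fermat.Agent.MazurMult
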