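import Mathlib

/-!
# Filtrations of Eisenstein modules

Let `M` be a finite module over a commutative ring `R` with a commuting action of a group `G`,
killed by a power of an ideal `P` with `R = ℤ + P` and `q ∈ P`. If, modulo `P`, every `g ∈ G`
satisfies `(g - 1) (g - χ(g)) = 0` for a character `χ : G → (ZMod q)ˣ`, then every `G`-stable
subgroup `N ≠ M` is contained with index `q` in a `G`-stable subgroup.
-/

set_option autoImplicit false

namespace Fermat.Agent.MazurFil

/-- an element of a subgroup of a finite group is a natural power of a generator. -/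
lemma exists_generator {G H : Type*} [Group G] [CommGroup H] [Finite H] [IsCyclic H]
    (χ : G →* H) : ∃ g₀ : G, ∀ g : G, ∃ k : ℕ, χ g = χ g₀ ^ k := by
  obtain ⟨⟨_, g₀, rfl⟩, hg₀⟩ := IsCyclic.exists_generator (α := χ.range)
  refine ⟨g₀, fun g => ?_⟩
  have h1 := hg₀ ⟨χ g, g, rfl⟩
  rw [← mem_powers_iff_mem_zpowers] at h1
  obtain ⟨k, hk⟩ := h1
  exact ⟨k, (congrArg Subtype.val hk).symm⟩

section Line

variable {q : ℕ} [Fact q.Prime] {G Y : Type*} [Group G] [AddCommGroup Y] [DistribMulAction G Y]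
  [Finite Y]

omit [Finite Y] in
/-- `(1 + x)^n = 1 + n x` if `x² = 0`. -/
lemma pow_smul_eq {g : G} {y : Y} (h : g • (g • y - y) = g • y - y) (n : ℕ) :
    g ^ n • y = y + n • (g • y - y) := by
  induction n with
  | zero => simp
  | succ n ih =>
    rw [pow_succ', mul_smul, ih, smul_add, smul_comm g n, h, add_smul, one_smul]
    abel

theorem exists_line [Nontrivial Y] (hq : ∀ y : Y, q • y = 0) (χ : G →* (ZMod q)ˣ)
    (hχ : ∀ (g : G) (n : ℕ), (n : ZMod q) = (χ g : ZMod q) → ∀ y : Y,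
      g • (g • y - y) = n • (g • y - y)) :
    ∃ z : Y, z ≠ 0 ∧ ∀ g : G, ∃ n : ℕ, g • z = n • z := by
  classical
  -- the points fixed by the kernel of `χ`
  let Γ : Subgroup (Equiv.Perm Y) := (χ.ker).map (MulAction.toPermHom G Y)
  have hone : ∀ g ∈ χ.ker, ∀ y : Y, g • (g • y - y) = g • y - y := by
    intro g hg y
    have h1 := hχ g 1 (by rw [MonoidHom.mem_ker.mp hg, Nat.cast_one, Units.val_one]) y
    rwa [one_smul] at h1
  have hΓ : IsPGroup q Γ := by
    rintro ⟨_, g, hg, rfl⟩
    refine ⟨1, ?_⟩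
    apply Subtype.ext
    rw [pow_one]
    change (MulAction.toPermHom G Y g) ^ q = 1
    rw [← map_pow]
    ext y
    change g ^ q • y = y
    rw [pow_smul_eq (hone g hg y), hq, add_zero]
  have hcard : q ∣ Nat.card Y := by
    obtain ⟨y, hy⟩ := exists_ne (0 : Y)
    have h1 : addOrderOf y = q := addOrderOf_eq_prime (hq y) hy
    rw [← h1]
    exact addOrderOf_dvd_natCard y
  have hfix0 : (0 : Y) ∈ MulAction.fixedPoints Γ Y := by
    rintro ⟨_, g, hg, rfl⟩
    exact smul_zero g
  obtain ⟨y, hy, hy0⟩ := hΓ.exists_fixed_point_of_prime_dvd_card_of_fixed_point Y hcard hfix0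
  have hyfix : ∀ g ∈ χ.ker, g • y = y := fun g hg => hy ⟨_, g, hg, rfl⟩
  obtain ⟨g₀, hg₀⟩ := exists_generator χ
  -- all elements are powers of `g₀` times elements of the kernel
  have hdec : ∀ g : G, ∃ k : ℕ, ∃ h ∈ χ.ker, g = g₀ ^ k * h := by
    intro g
    obtain ⟨k, hk⟩ := hg₀ g
    refine ⟨k, (g₀ ^ k)⁻¹ * g, ?_, by group⟩
    rw [MonoidHom.mem_ker, map_mul, map_inv, map_pow, ← hk, inv_mul_cancel]
  by_cases h0 : g₀ • y = y
  · refine ⟨y, hy0.symm, fun g => ⟨1, ?_⟩⟩
    obtain ⟨k, h, hh, rfl⟩ := hdec g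
    rw [mul_smul, hyfix h hh, one_smul]
    induction k with
    | zero => simp
    | succ k ih => rw [pow_succ, mul_smul, h0, ih]
  · set c : ℕ := (χ g₀ : ZMod q).val with hc
    have hcc : (c : ZMod q) = (χ g₀ : ZMod q) := by rw [hc, ZMod.natCast_zmod_val]
    set z := g₀ • y - y with hz
    have hz1 : g₀ • z = c • z := hχ g₀ c hcc y
    have hzfix : ∀ g ∈ χ.ker, g • z = z := by
      intro g hg
      have h1 : g₀⁻¹ * g * g₀ ∈ χ.ker := by
        rw [MonoidHom.mem_ker, map_mul, map_mul, MonoidHom.mem_ker.mp hg, mul_one, map_inv,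
          inv_mul_cancel]
      rw [hz, smul_sub, hyfix g hg, ← mul_smul]
      have h2 : g * g₀ = g₀ * (g₀⁻¹ * g * g₀) := by group
      rw [h2, mul_smul, hyfix _ h1]
    refine ⟨z, sub_ne_zero.mpr h0, fun g => ?_⟩
    obtain ⟨k, h, hh, rfl⟩ := hdec g
    refine ⟨c ^ k, ?_⟩
    rw [mul_smul, hzfix h hh]
    induction k with
    | zero => simp
    | succ k ih => rw [pow_succ, mul_smul, hz1, smul_comm, ih, smul_smul, pow_succ, mul_comm]

omit [DistribMulAction G Y] in
theorem exists_line' [Nontrivial Y] (f : G →* AddMonoid.End Y) (hq : ∀ y : Y, q • y = 0)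
    (χ : G →* (ZMod q)ˣ)
    (hχ : ∀ (g : G) (n : ℕ), (n : ZMod q) = (χ g : ZMod q) → ∀ y : Y,
      f g (f g y - y) = n • (f g y - y)) :
    ∃ z : Y, z ≠ 0 ∧ ∀ g : G, ∃ n : ℕ, f g z = n • z := by
  let _ : DistribMulAction G Y := DistribMulAction.compHom Y f
  exact exists_line hq χ hχ

end Line

section Step

variable {q : ℕ} [Fact q.Prime] {G R M : Type*} [Group G] [CommRing R] [AddCommGroup M]
  [Module R M] [DistribMulAction G M] [Finite M]

/-- Data expressing that all elements of `G` act through Eisenstein Frobenius powers. -/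
structure EisAct (q : ℕ) (G : Type*) {R : Type*} (M : Type*) [Group G] [CommRing R]
    [AddCommGroup M] [Module R M] [DistribMulAction G M] (P : Ideal R) (χ : G →* (ZMod q)ˣ) :
    Prop where
  comm : ∀ (g : G) (r : R) (x : M), g • r • x = r • g • x
  int : ∀ r : R, ∃ n : ℤ, r - n ∈ P
  q_mem : (q : R) ∈ P
  pow : ∃ k : ℕ, ∀ r ∈ P ^ k, ∀ x : M, r • x = 0
  frob : ∀ g : G, ∃ (φ : G) (k ℓ : ℕ) (t : R), t - (1 + (ℓ : R)) ∈ P ∧
    (∀ x : M, φ • φ • x - t • φ • x + ℓ • x = 0) ∧ (∀ x : M, g • x = φ ^ k • x) ∧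
    (χ g : ZMod q) = (ℓ : ZMod q) ^ k

/-- the operation of `g` on the quotient by a stable submodule -/
noncomputable def quotAct (hcomm : ∀ (g : G) (r : R) (x : M), g • r • x = r • g • x)
    (L : Submodule R M) (hL : ∀ (g : G), ∀ x ∈ L, g • x ∈ L) :
    G →* Module.End R (M ⧸ L) where
  toFun g := L.mapQ L
    { toFun := fun x => g • x
      map_add' := smul_add g
      map_smul' := fun r x => hcomm g r x } (fun x hx => hL g x hx)
  map_one' := by
    apply LinearMap.ext
    intro x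
    obtain ⟨x, rfl⟩ := Submodule.Quotient.mk_surjective L x
    change Submodule.Quotient.mk ((1 : G) • x) = Submodule.Quotient.mk x
    rw [one_smul]
  map_mul' g h := by
    apply LinearMap.ext
    intro x
    obtain ⟨x, rfl⟩ := Submodule.Quotient.mk_surjective L x
    change Submodule.Quotient.mk ((g * h) • x) = Submodule.Quotient.mk (g • h • x)
    rw [mul_smul]

omit [Finite M] in
lemma quotAct_mk (hcomm : ∀ (g : G) (r : R) (x : M), g • r • x = r • g • x)
    (L : Submodule R M) (hL : ∀ (g : G), ∀ x ∈ L, g • x ∈ L) (g : G) (x : M) :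
    quotAct hcomm L hL g (Submodule.Quotient.mk x) = Submodule.Quotient.mk (g • x) := rfl

/-- the step of the filtration -/
theorem exists_step {P : Ideal R} {χ : G →* (ZMod q)ˣ} (h : EisAct q G M P χ)
    (L : Submodule R M) (hL : ∀ (g : G), ∀ x ∈ L, g • x ∈ L) (hne : L ≠ ⊤) :
    ∃ L' : Submodule R M, (∀ (g : G), ∀ x ∈ L', g • x ∈ L') ∧ L ≤ L' ∧
      L.toAddSubgroup.relIndex L'.toAddSubgroup = q := by
  classical
  have hqp : q.Prime := Fact.out
  let a := quotAct h.comm L hL
  -- the `P`-torsion of the quotient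
  let Y : Submodule R (M ⧸ L) :=
    { carrier := {y | ∀ r ∈ P, r • y = 0}
      zero_mem' := fun r _ => smul_zero r
      add_mem' := fun {x y} hx hy r hr => by rw [smul_add, hx r hr, hy r hr, add_zero]
      smul_mem' := fun c x hx r hr => by rw [smul_comm, hx r hr, smul_zero] }
  have hYmem : ∀ y : M ⧸ L, y ∈ Y ↔ ∀ r ∈ P, r • y = 0 := fun y => Iff.rfl
  have hYne : Nontrivial Y := by
    have hQ : Nontrivial (M ⧸ L) := Submodule.Quotient.nontrivial_iff.mpr hne
    obtain ⟨k, hk⟩ := h.pow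
    have hex : ∃ k : ℕ, ∀ r ∈ P ^ k, ∀ x : M ⧸ L, r • x = 0 := by
      refine ⟨k, fun r hr x => ?_⟩
      obtain ⟨x, rfl⟩ := Submodule.Quotient.mk_surjective L x
      rw [← Submodule.Quotient.mk_smul, hk r hr, Submodule.Quotient.mk_zero]
    have hmin := Nat.find_spec hex
    set m := Nat.find hex with hm
    have hm0 : m ≠ 0 := by
      intro h0
      rw [h0] at hmin
      obtain ⟨x, hx⟩ := exists_ne (0 : M ⧸ L)
      apply hx
      rw [← one_smul R x]
      exact hmin 1 (by rw [pow_zero, Ideal.one_eq_top]; exact Submodule.mem_top) x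
    obtain ⟨m', hm'⟩ := Nat.exists_eq_succ_of_ne_zero hm0
    have hnot := Nat.find_min hex (m := m') (by rw [← hm, hm']; exact Nat.lt_succ_self _)
    push Not at hnot
    obtain ⟨r, hr, x, hx⟩ := hnot
    refine ⟨⟨⟨r • x, fun s hs => ?_⟩, 0, fun h0 => hx (congrArg Subtype.val h0)⟩⟩
    rw [← mul_smul]
    apply hmin
    rw [hm', Nat.succ_eq_add_one, pow_succ']
    exact Ideal.mul_mem_mul hs hr
  -- the action on `Y`
  have haY : ∀ (g : G) (y : M ⧸ L), y ∈ Y → a g y ∈ Y := by
    intro g y hy r hr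
    rw [← map_smul, hy r hr, map_zero]
  let f : G →* AddMonoid.End Y :=
    { toFun := fun g => AddMonoidHom.mk' (fun y => ⟨a g y, haY g y y.2⟩) fun x y => by
        apply Subtype.ext
        exact map_add (a g) (x : M ⧸ L) y
      map_one' := by
        apply AddMonoidHom.ext
        intro y
        apply Subtype.ext
        change a 1 (y : M ⧸ L) = y
        rw [map_one]
        rfl
      map_mul' := fun g g' => by
        apply AddMonoidHom.ext
        intro y
        apply Subtype.ext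
        change a (g * g') (y : M ⧸ L) = a g (a g' y)
        rw [map_mul]
        rfl }
  have hfa : ∀ (g : G) (y : Y), ((f g y : Y) : M ⧸ L) = a g y := fun g y => rfl
  have hqY : ∀ y : Y, q • y = 0 := by
    intro y
    apply Subtype.ext
    have h1 := y.2 (q : R) h.q_mem
    rw [Nat.cast_smul_eq_nsmul] at h1
    exact h1
  have hcast : ∀ (m n : ℕ), (m : ZMod q) = (n : ZMod q) → ∀ y : Y, m • y = n • y := by
    intro m n hmn y
    have h1 : m ≡ n [MOD q] := (ZMod.natCast_eq_natCast_iff m n q).mp hmn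
    have h2 : addOrderOf y ∣ q := addOrderOf_dvd_of_nsmul_eq_zero (hqY y)
    exact (nsmul_eq_nsmul_iff_modEq).mpr (h1.of_dvd h2)
  have hχ : ∀ (g : G) (n : ℕ), (n : ZMod q) = (χ g : ZMod q) → ∀ y : Y,
      f g (f g y - y) = n • (f g y - y) := by
    intro g n hn
    obtain ⟨φ, k, ℓ, t, ht, hφ, hg, hχg⟩ := h.frob g
    -- the relation for `φ`
    have h1 : ∀ y : Y, f φ (f φ y) = f φ y + ℓ • (f φ y) - ℓ • y := by
      intro y
      apply Subtype.ext
      have h2 : a φ (a φ y) - t • a φ y + ℓ • (y : M ⧸ L) = 0 := by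
        obtain ⟨x, hx⟩ := Submodule.Quotient.mk_surjective L (y : M ⧸ L)
        rw [← hx, quotAct_mk, quotAct_mk, ← Submodule.Quotient.mk_smul]
        have h3 := congrArg (Submodule.Quotient.mk (p := L)) (hφ x)
        simpa using h3
      have h4 : t • a φ y = a φ y + ℓ • a φ (y : M ⧸ L) := by
        have h5 := haY φ y y.2 _ ht
        rw [sub_smul, sub_eq_zero, add_smul, one_smul, Nat.cast_smul_eq_nsmul] at h5
        exact h5
      rw [h4] at h2
      change a φ (a φ y) = a φ y + ℓ • a φ y - ℓ • (y : M ⧸ L)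
      rw [← sub_eq_zero, ← h2]
      abel
    -- the relation for powers: `φ^k y = y + c (φ y - y)`, `φ (φ y - y) = ℓ (φ y - y)`
    have h2 : ∀ y : Y, f φ (f φ y - y) = ℓ • (f φ y - y) := by
      intro y
      rw [map_sub, h1, smul_sub]
      abel
    have h3 : ∀ (j : ℕ) (y : Y), f (φ ^ j) (f φ y - y) = ℓ ^ j • (f φ y - y) := by
      intro j y
      induction j with
      | zero =>
        rw [pow_zero, map_one, pow_zero, one_smul]
        rfl
      | succ j ih =>
        rw [pow_succ, map_mul]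
        change f (φ ^ j) (f φ (f φ y - y)) = _
        rw [h2, map_nsmul, ih, smul_smul, pow_succ, mul_comm]
    have h4 : ∀ (j : ℕ) (y : Y), ∃ c : ℕ, f (φ ^ j) y = y + c • (f φ y - y) := by
      intro j y
      induction j with
      | zero =>
        refine ⟨0, ?_⟩
        rw [pow_zero, map_one, zero_smul, add_zero]
        rfl
      | succ j ih =>
        obtain ⟨c, hc⟩ := ih
        refine ⟨c + ℓ ^ j, ?_⟩
        have h5 := h3 j y
        rw [map_sub, hc] at h5
        rw [pow_succ, map_mul]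
        change f (φ ^ j) (f φ y) = _
        rw [sub_eq_iff_eq_add.mp h5, add_smul]
        abel
    intro y
    have h5 : ∀ z : Y, f g z = f (φ ^ k) z := by
      intro z
      apply Subtype.ext
      rw [hfa, hfa]
      obtain ⟨x, hx⟩ := Submodule.Quotient.mk_surjective L (z : M ⧸ L)
      rw [← hx, quotAct_mk, quotAct_mk, hg]
    rw [h5, h5]
    obtain ⟨c, hc⟩ := h4 k y
    rw [hc, add_sub_cancel_left, map_nsmul, h3, smul_comm]
    exact hcast (ℓ ^ k) n (by rw [hn, hχg]; push_cast; rfl) _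
  have hfinQ : Finite (M ⧸ L) := Finite.of_surjective _ (Submodule.mkQ_surjective L)
  have hfinY : Finite Y := inferInstance
  obtain ⟨z, hz0, hz⟩ := exists_line' f hqY χ hχ
  let W : AddSubgroup (M ⧸ L) := AddSubgroup.zmultiples (z : M ⧸ L)
  have hzq : q • (z : M ⧸ L) = 0 := congrArg Subtype.val (hqY z)
  let L' : Submodule R M :=
    { W.comap (L.mkQ : M →ₗ[R] M ⧸ L).toAddMonoidHom with
      smul_mem' := by
        intro r x hx
        change L.mkQ (r • x) ∈ W
        have hx' : L.mkQ x ∈ W := hx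
        obtain ⟨m, hm⟩ := AddSubgroup.mem_zmultiples_iff.mp hx'
        obtain ⟨n, hn⟩ := h.int r
        rw [map_smul, ← hm, smul_comm]
        apply W.zsmul_mem
        have h1 := z.2 _ hn
        rw [sub_smul, sub_eq_zero] at h1
        rw [h1]
        change (n : R) • (z : M ⧸ L) ∈ W
        rw [Int.cast_smul_eq_zsmul]
        exact W.zsmul_mem (AddSubgroup.mem_zmultiples _) n }
  have hL'mem : ∀ x, x ∈ L' ↔ L.mkQ x ∈ W := fun x => Iff.rfl
  refine ⟨L', ?_, ?_, ?_⟩
  · intro g x hx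
    rw [hL'mem] at hx ⊢
    obtain ⟨m, hm⟩ := AddSubgroup.mem_zmultiples_iff.mp hx
    obtain ⟨n, hn⟩ := hz g
    have h1 : L.mkQ (g • x) = a g (L.mkQ x) := rfl
    rw [h1, ← hm, map_zsmul]
    apply W.zsmul_mem
    have h2 := congrArg Subtype.val hn
    rw [hfa] at h2
    rw [h2]
    exact W.nsmul_mem (AddSubgroup.mem_zmultiples _) n
  · intro x hx
    rw [hL'mem, Submodule.mkQ_apply, (Submodule.Quotient.mk_eq_zero L).mpr hx]
    exact W.zero_mem
  · have h1 : L.toAddSubgroup = (⊥ : AddSubgroup (M ⧸ L)).comap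
        (L.mkQ : M →ₗ[R] M ⧸ L).toAddMonoidHom := by
      ext x
      rw [AddSubgroup.mem_comap, AddSubgroup.mem_bot]
      exact (Submodule.Quotient.mk_eq_zero L).symm
    have h2 : L'.toAddSubgroup = W.comap (L.mkQ : M →ₗ[R] M ⧸ L).toAddMonoidHom := rfl
    rw [h1, h2, AddSubgroup.relIndex_comap, AddSubgroup.map_comap_eq_self_of_surjective
      (Submodule.mkQ_surjective L), AddSubgroup.relIndex_bot_left, Nat.card_zmultiples]
    exact addOrderOf_eq_prime hzq (fun h0 => hz0 (Subtype.ext h0))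

/-- **Theorem.** every `G`-stable subgroup can be enlarged by a factor `q`. -/
theorem exists_fil {P : Ideal R} {χ : G →* (ZMod q)ˣ} (h : EisAct q G M P χ)
    (N : AddSubgroup M) (hN : ∀ (g : G), ∀ x ∈ N, g • x ∈ N) (hne : N ≠ ⊤) :
    ∃ N' : AddSubgroup M, (∀ (g : G), ∀ x ∈ N', g • x ∈ N') ∧ N ≤ N' ∧ N.relIndex N' = q := by
  classical
  have hqp : q.Prime := Fact.out
  have hfin : Finite (Submodule R M) := inferInstance
  let S : Set (Submodule R M) := {L | (∀ (g : G), ∀ x ∈ L, g • x ∈ L) ∧ L.toAddSubgroup ≤ N}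
  have hSne : S.Nonempty := by
    refine ⟨⊥, ?_, ?_⟩
    · intro g x hx
      rw [Submodule.mem_bot] at hx ⊢
      rw [hx, smul_zero]
    · intro x hx
      have : x = 0 := hx
      rw [this]
      exact N.zero_mem
  obtain ⟨L, hL⟩ := S.toFinite.exists_maximal hSne
  have hLtop : L ≠ ⊤ := by
    intro h0
    apply hne
    rw [eq_top_iff]
    intro x _
    apply hL.prop.2
    rw [h0]
    trivial
  obtain ⟨L', hL', hle, hrel⟩ := exists_step h L hL.prop.1 hLtop
  have hnot : ¬ L'.toAddSubgroup ≤ N := by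
    intro h0
    have h1 : L' ≤ L := hL.2 ⟨hL', h0⟩ hle
    have h2 : L.toAddSubgroup.relIndex L'.toAddSubgroup = 1 := AddSubgroup.relIndex_eq_one.mpr h1
    rw [hrel] at h2
    exact hqp.one_lt.ne' h2
  refine ⟨L'.toAddSubgroup ⊔ N, ?_, le_sup_right, ?_⟩
  · intro g x hx
    obtain ⟨y, hy, z, hz, rfl⟩ := AddSubgroup.mem_sup.mp hx
    rw [smul_add]
    exact AddSubgroup.add_mem_sup (hL' g y hy) (hN g z hz)
  · rw [AddSubgroup.relIndex_sup_right]
    have h1 := AddSubgroup.relIndex_mul_relIndex L.toAddSubgroup (N ⊓ L'.toAddSubgroup)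
      L'.toAddSubgroup (le_inf hL.prop.2 hle) inf_le_right
    rw [hrel, AddSubgroup.inf_relIndex_right] at h1
    have h2 : N.relIndex L'.toAddSubgroup ∣ q := ⟨_, by rw [mul_comm, h1]⟩
    rcases (Nat.dvd_prime hqp).mp h2 with h3 | h3
    · exact absurd (AddSubgroup.relIndex_eq_one.mp h3) hnot
    · exact h3

end Step

end Fermat.Agent.MazurFil
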