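import Fermat.Agent.Mazur.Mult
import Fermat.Agent.Mazur.Fil
import Fermat.Agent.Mazur.Input
import Fermat.Agent.Frob.Density
import Fermat.Agent.S30_Cyclo

/-!
# Inertia acts through the cyclotomic character on the kernel of reduction

The last clause of the field `atq` of `EisInput`, from models of the finite flat group schemes
`J[q^n]` over `ℤ_(q)`.
-/

set_option autoImplicit false

namespace Fermat.Agent.MazurCyc

open Fermat.Agent.FlatGS Fermat.Agent.Mazur Fermat.Agent.MazurMult Fermat.Agent.MazurFil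

/-- the action of the Galois group on `J[m]` -/
noncomputable def torsAct {J : Type} [AddCommGroup J] [DistribMulAction GQ J] (m : ℤ) (σ : GQ)
    (x : Submodule.torsionBy ℤ J m) : Submodule.torsionBy ℤ J m :=
  ⟨σ • (x : J), by
    rw [Submodule.mem_torsionBy_iff]
    have h1 := (Submodule.mem_torsionBy_iff m (x : J)).mp x.2
    rw [← smul_comm σ m (x : J), h1, smul_zero]⟩

/-- a model of `J[m]` in which the elements of `J₀` reduce to zero. -/
def HasModel (q : ℕ) (J : Type) [AddCommGroup J] [DistribMulAction GQ J] (m : ℤ)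
    (A : ValuationSubring Om) (J₀ : AddSubgroup J) : Prop :=
  ∃ B : Subalgebra (Rp q) (Submodule.torsionBy ℤ J m → Om),
    IsModel q (torsAct (J := J) m) B ∧
      ∀ x : Submodule.torsionBy ℤ J m, (x : J) ∈ J₀ → Rel B A x 0

section

variable {q N : ℕ} {R : Type*} {J : Type} [CommRing R] [AddCommGroup J] [Module R J]
  [DistribMulAction GQ J]

/-- the `P`-primary part of `J[q^n]`. -/
def PT (q : ℕ) (P : Ideal R) (J : Type) [AddCommGroup J] [Module R J] (n : ℕ) :
    Submodule R J where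
  carrier := {x | q ^ n • x = 0 ∧ ∃ k : ℕ, ∀ r ∈ P ^ k, r • x = 0}
  zero_mem' := ⟨smul_zero _, 0, fun _ _ => smul_zero _⟩
  add_mem' := by
    rintro x y ⟨hn, k, hk⟩ ⟨hm, l, hl⟩
    refine ⟨by rw [smul_add, hn, hm, add_zero], k + l, fun r hr => ?_⟩
    rw [smul_add, hk r (Ideal.pow_le_pow_right (Nat.le_add_right k l) hr),
      hl r (Ideal.pow_le_pow_right (Nat.le_add_left l k) hr), add_zero]
  smul_mem' := by
    rintro c x ⟨hn, k, hk⟩
    refine ⟨by rw [smul_comm, hn, smul_zero], k, fun r hr => ?_⟩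
    rw [smul_comm, hk r hr, smul_zero]

/-- the Galois action on `PT` -/
@[reducible] noncomputable def ptAct {P : Ideal R} (n : ℕ)
    (comm : ∀ (g : GQ) (r : R) (x : J), g • r • x = r • g • x) :
    DistribMulAction GQ (PT q P J n) where
  smul g x := ⟨g • (x : J), by
    obtain ⟨hn, k, hk⟩ := x.2
    refine ⟨by rw [← smul_comm g (q ^ n) (x : J), hn, smul_zero], k, fun r hr => ?_⟩
    rw [← comm, hk r hr, smul_zero]⟩
  one_smul x := Subtype.ext (one_smul GQ (x : J))
  mul_smul g h x := Subtype.ext (mul_smul g h (x : J))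
  smul_zero g := Subtype.ext (smul_zero g)
  smul_add g x y := Subtype.ext (smul_add g (x : J) y)

theorem cyc_clause (hq : q.Prime) {P : Ideal R} {T : Nat.Primes → R}
    (comm : ∀ (g : GQ) (r : R) (x : J), g • r • x = r • g • x)
    (int : ∀ r : R, ∃ n : ℤ, r - n ∈ P) (q_mem : (q : R) ∈ P)
    (eis : ∀ ℓ : Nat.Primes, (ℓ : ℕ) ≠ q → (ℓ : ℕ) ≠ N → T ℓ - (1 + ((ℓ : ℕ) : R)) ∈ P)
    (finite : ∀ n : ℕ, n ≠ 0 → Finite {x : J // n • x = 0})
    (smooth : ∀ x : J, ∃ U : Subgroup GQ, IsOpen (U : Set GQ) ∧ ∀ σ ∈ U, σ • x = x)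
    (frob : ∀ ℓ : Nat.Primes, (ℓ : ℕ) ≠ q → (ℓ : ℕ) ≠ N →
      ∀ A : ValuationSubring (AlgebraicClosure ℚ), A.LiesOverPrime ℓ →
        ∀ φ : GQ, A.IsFrobeniusAt φ ℓ → ∀ x ∈ PPrim q P J,
          φ • φ • x - T ℓ • φ • x + (ℓ : ℕ) • x = 0)
    {A : ValuationSubring Om} (hA : A.LiesOverPrime q) {J₀ : AddSubgroup J}
    (hmodel : ∀ n : ℕ, HasModel q J ((q : ℤ) ^ n) A J₀) :
    ∀ x ∈ PPrim q P J, x ∈ J₀ → ∀ σ ∈ A.inertiaSubgroupIn ℚ, ∀ n k : ℕ, q ^ n • x = 0 →
      (∀ ζ : AlgebraicClosure ℚ, ζ ^ (q ^ n) = 1 → σ ζ = ζ ^ k) → σ • x = k • x := by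
  classical
  intro x hx hx0 σ hσ n k hnx hk
  have hqF : Fact q.Prime := ⟨hq⟩
  let M := PT q P J n
  let _ : DistribMulAction GQ M := ptAct n comm
  have hcoe : ∀ (g : GQ) (y : M), ((g • y : M) : J) = g • (y : J) := fun g y => rfl
  have hMfin : Finite M := by
    have h1 := finite (q ^ n) (pow_ne_zero _ hq.ne_zero)
    exact Finite.of_injective (fun y : M => (⟨(y : J), y.2.1⟩ : {x : J // q ^ n • x = 0}))
      (fun a b hab => Subtype.ext
        (congrArg (fun z : {x : J // q ^ n • x = 0} => (z : J)) hab))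
  have hMP : ∀ y : M, (y : J) ∈ PPrim q P J := fun y => ⟨⟨n, y.2.1⟩, y.2.2⟩
  -- the cyclotomic character modulo `q`
  have hqne : NeZero ((q : ℕ) : AlgebraicClosure ℚ) := ⟨Nat.cast_ne_zero.mpr hq.ne_zero⟩
  obtain ⟨ζ, hζ⟩ := HasEnoughRootsOfUnity.exists_primitiveRoot (AlgebraicClosure ℚ) q
  let χ : GQ →* (ZMod q)ˣ := hζ.autToPow ℚ
  have hχ : ∀ (g : GQ) (c : ℕ), g ζ = ζ ^ c → (χ g : ZMod q) = (c : ZMod q) := by
    intro g c hg
    have h1 : ζ ^ (χ g : ZMod q).val = g ζ := hζ.autToPow_spec ℚ g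
    have hmod : ∀ c : ℕ, ζ ^ c = ζ ^ (c % q) := by
      intro c
      conv_lhs => rw [← Nat.mod_add_div c q]
      rw [pow_add, pow_mul, hζ.pow_eq_one, one_pow, mul_one]
    rw [hg, hmod c, hmod (χ g : ZMod q).val] at h1
    have h3 := hζ.pow_inj (Nat.mod_lt _ hq.pos) (Nat.mod_lt _ hq.pos) h1
    have h2 := (ZMod.natCast_eq_natCast_iff' _ _ q).mpr h3
    rwa [ZMod.natCast_zmod_val] at h2
  -- a finite level for `M` and `ζ`
  choose U hU hU' using fun y : M => smooth (y : J)
  let V : Subgroup GQ := (⨅ y : M, U y) ⊓ (IntermediateField.adjoin ℚ {ζ}).fixingSubgroup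
  have hVopen : IsOpen (V : Set GQ) := by
    have hfd : FiniteDimensional ℚ (IntermediateField.adjoin ℚ {ζ}) :=
      IntermediateField.adjoin.finiteDimensional (Algebra.IsIntegral.isIntegral ζ)
    have h1 : IsOpen ((⨅ y : M, U y : Subgroup GQ) : Set GQ) := by
      rw [Subgroup.coe_iInf]
      exact isOpen_iInter_of_finite hU
    exact h1.inter (IntermediateField.fixingSubgroup_isOpen _)
  let F : IntermediateField ℚ (AlgebraicClosure ℚ) := IntermediateField.fixedField V
  have hfix : F.fixingSubgroup = V :=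
    InfiniteGalois.fixingSubgroup_fixedField ⟨V, V.isClosed_of_isOpen hVopen⟩
  have hfd : FiniteDimensional ℚ F := by
    rw [← InfiniteGalois.isOpen_iff_finite, hfix]
    exact hVopen
  have hE : EisAct q GQ M P χ := by
    refine ⟨?_, int, q_mem, ?_, ?_⟩
    · intro g r y
      exact Subtype.ext (comm g r (y : J))
    · -- a uniform power of `P`
      choose kk hkk using fun y : M => y.2.2
      cases nonempty_fintype M
      refine ⟨Finset.univ.sup kk, fun r hr y => Subtype.ext ?_⟩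
      exact hkk y r (Ideal.pow_le_pow_right (Finset.le_sup (Finset.mem_univ y)) hr)
    · intro g
      obtain ⟨ℓ, hℓ, hℓS, A', hA', φ, hφ, -, k', -, hk'⟩ :=
        Fermat.Agent.FrobDensity.exists_frobenius_on F g ({q, N} : Set ℕ) (Set.toFinite _)
      have hℓq : ℓ ≠ q := fun h => hℓS (by simp [h])
      have hℓN : ℓ ≠ N := fun h => hℓS (by simp [h])
      have hgφ : (φ ^ k')⁻¹ * g ∈ V := by
        rw [← hfix]
        rintro ⟨y, hy⟩
        change (φ ^ k')⁻¹ (g y) = y
        rw [hk' y hy]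
        exact AlgEquiv.symm_apply_apply (φ ^ k') y
      refine ⟨φ, k', ℓ, T ⟨ℓ, hℓ⟩, eis ⟨ℓ, hℓ⟩ hℓq hℓN, ?_, ?_, ?_⟩
      · intro y
        exact Subtype.ext (frob ⟨ℓ, hℓ⟩ hℓq hℓN A' hA' φ hφ (y : J) (hMP y))
      · intro y
        apply Subtype.ext
        rw [hcoe, hcoe]
        have h1 := hU' y _ (Subgroup.mem_iInf.mp hgφ.1 y)
        rw [mul_smul, inv_smul_eq_iff] at h1
        exact h1
      · rw [← Nat.cast_pow]
        apply hχ
        have h1 : (φ ^ k')⁻¹ (g ζ) = ζ :=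
          hgφ.2 ⟨ζ, IntermediateField.mem_adjoin_simple_self ℚ ζ⟩
        have h2 : g ζ = (φ ^ k') ζ := by
          conv_rhs => rw [← h1]
          exact (AlgEquiv.apply_symm_apply (φ ^ k') _).symm
        rw [h2]
        have h3 : φ ζ = ζ ^ ℓ := Fermat.Agent.GalRep.frobenius_rootOfUnity hA'
          ((Nat.coprime_primes hℓ hq).mpr hℓq) hq.ne_zero hφ hζ.pow_eq_one
        have h4 : ∀ j : ℕ, (φ ^ j) ζ = ζ ^ (ℓ ^ j) := by
          intro j
          induction j with
          | zero => simp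
          | succ j ih =>
            rw [pow_succ', AlgEquiv.mul_apply, ih, map_pow, h3, ← pow_mul, ← pow_succ']
        exact h4 k'
  have hfil : HasFil q (fun (g : GQ) (y : M) => g • y) := fun L hL hne => exists_fil hE L hL hne
  -- the model of `M`
  obtain ⟨B, hB, hBJ⟩ := hmodel n
  let i : M →+ Submodule.torsionBy ℤ J ((q : ℤ) ^ n) :=
    { toFun := fun y => ⟨(y : J), by
        rw [Submodule.mem_torsionBy_iff]
        have h1 := y.2.1
        rw [← natCast_zsmul] at h1
        push_cast at h1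
        exact h1⟩
      map_zero' := rfl
      map_add' := fun _ _ => rfl }
  have hi : Function.Injective i := fun a b hab =>
    Subtype.ext (congrArg (fun z : Submodule.torsionBy ℤ J ((q : ℤ) ^ n) => (z : J)) hab)
  have hiact : ∀ (g : GQ) (y : M), i (g • y) = torsAct ((q : ℤ) ^ n) g (i y) := fun g y => rfl
  have hM : IsModel q (fun (g : GQ) (y : M) => g • y) (B.map (pull q i)) := by
    refine ⟨?_, ?_, ?_, ?_⟩
    · have := hB.fin
      exact Module.Finite.map B.toSubmodule (pull q i).toLinearMap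
    · rintro _ ⟨b, hb, rfl⟩ g m
      change b (i (g • m)) = g (b (i m))
      rw [hiact, hB.equivariant b hb]
    · intro m m' hmm
      apply hi
      apply hB.sep
      intro b hb
      exact hmm _ ⟨b, hb, rfl⟩
    · rintro _ ⟨_, ⟨b, hb, rfl⟩, rfl⟩
      rw [Subalgebra.map_map, Subalgebra.map_map]
      have h1 := hB.comul_pull (fun x : M × M => i x.1) (fun x : M × M => i x.2) hb
      have h2 : (fun x : M × M => b (i x.1 + i x.2)) =
          pull q (fun x : M × M => x.1 + x.2) (pull q i b) := by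
        funext x
        change b (i x.1 + i x.2) = b (i (x.1 + x.2))
        rw [map_add]
      rw [h2] at h1
      exact h1
  let y : M := ⟨x, hnx, hx.2⟩
  have hy : y ∈ conn hM hA := by
    rw [mem_conn]
    rintro _ ⟨b, hb, rfl⟩
    exact hBJ (i y) hx0 b hb
  have hny : (q ^ n) • y = 0 := Subtype.ext hnx
  have hfinal := act_eq_nsmul hM hA hq hfil hσ hk hy hny
  exact congrArg (fun z : M => (z : J)) hfinal

end

end Fermat.Agent.MazurCyc
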