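import Fermat.Agent.Mazur.TRel

/-!
# The relation of Frobenius at `q` on the multiplicative part
-/

set_option autoImplicit false

namespace Fermat.Agent.Mazur

open Fermat.Agent.Frob Fermat.Agent.Tate Fermat.Agent.Minkowski
open scoped Pointwise

lemma IsFrob.mul_inertia {A : ValuationSubring (AlgebraicClosure ℚ)} {ℓ : ℕ} {φ σ : GQ}
    (hφ : A.IsFrobeniusAt φ ℓ) (hσ : σ ∈ A.inertiaSubgroupIn ℚ) : A.IsFrobeniusAt (φ * σ) ℓ := by
  obtain ⟨hφd, hφr⟩ := hφ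
  obtain ⟨σ', hσ', rfl⟩ := hσ
  refine ⟨mul_mem hφd σ'.2, fun x => ?_⟩
  have h1 : (⟨φ * (σ' : GQ), mul_mem hφd σ'.2⟩ : A.decompositionSubgroup ℚ) =
    ⟨φ, hφd⟩ * σ' := rfl
  have h2 : σ' • x = x := by
    have := hσ'
    rw [ValuationSubring.inertiaSubgroup] at this
    have h3 := MonoidHom.mem_ker.mp this
    have h4 := congrArg (fun f => f x) h3
    exact h4
  erw [h1, mul_smul, h2, hφr]

section

variable {q : ℕ} [hqf : Fact q.Prime]

/-- A Frobenius element at `q` acting trivially on the `q ^ m`-th roots of unity. -/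
lemma exists_frob_fix {A : ValuationSubring (AlgebraicClosure ℚ)} (hA : A.LiesOverPrime q)
    (m : ℕ) : ∃ φ : GQ, A.IsFrobeniusAt φ q ∧ ∀ ζ : AlgebraicClosure ℚ, ζ ^ (q ^ m) = 1 →
      φ ζ = ζ := by
  let ψ : GQ →* (ZMod (q ^ m))ˣ :=
    (Units.map (PadicInt.toZModPow (p := q) m : ℤ_[q] →* ZMod (q ^ m))).comp (chiZ q)
  let H : Subgroup GQ := (Subgroup.map ψ (A.inertiaSubgroupIn ℚ)).comap ψ
  have hn : H.Normal := Subgroup.Normal.comap inferInstance ψ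
  have hopen : IsOpen (H : Set GQ) := by
    obtain ⟨U, hU, hUψ⟩ := chiZ_cont (q := q) m
    apply Subgroup.isOpen_mono (H₁ := U) _ hU
    intro σ hσ
    refine ⟨1, Subgroup.one_mem _, ?_⟩
    rw [map_one, eq_comm]
    exact Units.ext (hUψ σ hσ)
  have htop : H = ⊤ := by
    apply eq_top_of_inertia_le H hopen
    intro ℓ hℓ A' hA' σ hσ
    by_cases hℓq : ℓ = q
    · subst hℓq
      obtain ⟨g, hg⟩ := exists_smul_eq hℓ hA hA'
      rw [← hg] at hσ
      have h1 := mem_inertia_smul hσ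
      have h2 : g⁻¹ * σ * g ∈ H := ⟨_, h1, rfl⟩
      have h3 := hn.conj_mem _ h2 g
      have h4 : g * (g⁻¹ * σ * g) * g⁻¹ = σ := by group
      rwa [h4] at h3
    · refine ⟨1, Subgroup.one_mem _, ?_⟩
      rw [map_one, eq_comm]
      apply Units.ext
      change PadicInt.toZModPow m (chiZ q σ : ℤ_[q]) = 1
      rw [chiZ_inertia hℓ hℓq hA' hσ, Units.val_one, map_one]
  obtain ⟨φ₀, hφ₀⟩ := exists_isFrobeniusAt hqf.out hA
  have h1 : φ₀ ∈ H := by rw [htop]; trivial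
  obtain ⟨σ, hσ, hσφ⟩ := h1
  refine ⟨φ₀ * σ⁻¹, IsFrob.mul_inertia hφ₀ (inv_mem hσ), fun ζ hζ => ?_⟩
  have h2 : ψ (φ₀ * σ⁻¹) = 1 := by rw [map_mul, map_inv, hσφ, mul_inv_cancel]
  have h3 : PadicInt.toZModPow m (chiZ q (φ₀ * σ⁻¹) : ℤ_[q]) = 1 := congrArg Units.val h2
  have h4 := chiZ_spec (q := q) (φ₀ * σ⁻¹) m hζ
  rw [h3] at h4
  rcases Nat.eq_zero_or_pos m with rfl | hm
  · rw [pow_zero, pow_one] at hζ
    rw [hζ, map_one]
  · have hlt : 1 < q ^ m := Nat.one_lt_pow hm.ne' hqf.out.one_lt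
    have : Fact (1 < q ^ m) := ⟨hlt⟩
    rw [ZMod.val_one, pow_one] at h4
    exact h4

end

variable {q : ℕ} [hqf : Fact q.Prime] {N : ℕ} {R : Type*} [CommRing R] {P : Ideal R}
    {T : Nat.Primes → R} {M : Type*} [AddCommGroup M] [Module R M] [DistribMulAction GQ M]
    [SMulCommClass GQ R M]

variable {B : ValuationSubring (AlgebraicClosure ℚ)} {φN : GQ} {a : ℕ}
  {A : ValuationSubring (AlgebraicClosure ℚ)} {M₀ : AddSubgroup M}

omit [DistribMulAction GQ M] [SMulCommClass GQ R M] in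
omit [Module R M] in
lemma smul_mem_T0 (c : ℤ_[q]) {t : TMod q M} (ht : t ∈ T0 q M₀) : c • t ∈ T0 q M₀ := by
  intro n
  rw [TMod.smul_apply]
  exact M₀.nsmul_mem (ht n) _

omit [SMulCommClass GQ R M] in
lemma AtQ.rT_frob_T0 (hA : AtQ hqf.out T M A M₀) {φ : GQ} (hφ : A.IsFrobeniusAt φ q)
    {t : TMod q M} (ht : t ∈ T0 q M₀) : rT q M φ t ∈ T0 q M₀ := fun n => hA.stab φ hφ _ (ht n)

lemma rT_rH (g : GQ) (r : R) (t : TMod q M) : rT q M g (rH q M r t) = rH q M r (rT q M g t) := by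
  apply TMod.ext
  intro n
  rw [TMod.rep_apply, rH_apply, rH_apply, TMod.rep_apply, smul_comm]

/-- The relation on the multiplicative part, at the level of Tate modules. -/
theorem MInput.brelT (h : MInput hqf.out N P T M) (hw : WeightAt q N T M) (hB : AtN N M B φN a)
    (hA : AtQ hqf.out T M A M₀) {φ : GQ} (hφ : A.IsFrobeniusAt φ q) {t : TMod q M}
    (ht : t ∈ T0 q M₀) :
    (q : ℤ_[q]) • rT q M φ (rT q M φ t) -
      (chiZ q φ : ℤ_[q]) • rH q M (T ⟨q, hqf.out⟩) (rT q M φ t) +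
        (chiZ q φ : ℤ_[q]) ^ 2 • t = 0 := by
  obtain ⟨σ₀, hσ₀, hχ⟩ := exists_inertia_chiZ_ne_one (q := q) hA.lies
  set c : ℤ_[q] := (chiZ q σ₀ : ℤ_[q]) with hc
  set s : ℤ_[q] := (chiZ q φ : ℤ_[q]) with hs
  have hne : c - 1 ≠ 0 := sub_ne_zero.mpr hχ
  let Tq : R := T ⟨q, hqf.out⟩
  let Z : TMod q M → TMod q M := fun u =>
    ((c - 1) * s) • rH q M Tq u - ((c - 1) * s) • tT q M φ u +
      (s - q) • (tT q M (φ * σ₀) u - tT q M φ u)
  have hZdef : ∀ u, Z u = ((c - 1) * s) • rH q M Tq u - ((c - 1) * s) • tT q M φ u +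
      (s - q) • (tT q M (φ * σ₀) u - tT q M φ u) := fun u => rfl
  have htφσ : ∀ u, tT q M (φ * σ₀) u = rT q M φ (rT q M σ₀ u) +
      (s * c) • rT q M σ₀⁻¹ (rT q M φ⁻¹ u) := by
    intro u
    rw [tT_apply, rT_mul, mul_inv_rev, rT_mul, map_mul, Units.val_mul]
  have htφ : ∀ u, tT q M φ u = rT q M φ u + s • rT q M φ⁻¹ u := fun u => tT_apply φ u
  -- (1) the image of `Z` is in `T0`
  have h1 : ∀ u, Z u ∈ T0 q M₀ := by
    intro u
    have hX : rT q M φ u - rH q M Tq u + (q : ℤ_[q]) • rT q M φ⁻¹ u ∈ T0 q M₀ := by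
      intro n
      have := hA.es φ hφ (φ⁻¹ • u n)
      rw [smul_inv_smul] at this
      rw [TMod.coe_add_apply, TMod.coe_sub_apply, rH_apply, TMod.natCast_smul_apply,
        TMod.rep_apply, TMod.rep_apply]
      exact this
    have hY1 : rT q M φ (rT q M σ₀ u - u) ∈ T0 q M₀ :=
      hA.rT_frob_T0 hφ (hA.sub_mem_T0 hσ₀ u)
    have hY2 : rT q M σ₀⁻¹ (rT q M φ⁻¹ u) - rT q M φ⁻¹ u ∈ T0 q M₀ :=
      hA.sub_mem_T0 (inv_mem hσ₀) _
    have e : Z u = -(((c - 1) * s) • (rT q M φ u - rH q M Tq u + (q : ℤ_[q]) • rT q M φ⁻¹ u)) +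
        (s - q) • (rT q M φ (rT q M σ₀ u - u) +
          (s * c) • (rT q M σ₀⁻¹ (rT q M φ⁻¹ u) - rT q M φ⁻¹ u)) := by
      rw [hZdef, htφσ, htφ, map_sub]
      module
    rw [e]
    exact AddSubgroup.add_mem _ (AddSubgroup.neg_mem _ (smul_mem_T0 _ hX))
      (smul_mem_T0 _ (AddSubgroup.add_mem _ hY1 (smul_mem_T0 _ hY2)))
  -- (2) `Z = 0`
  have hZadd : ∀ u v, Z (u + v) = Z u + Z v := by
    intro u v
    simp only [hZdef, map_add]
    module
  have hZneg : ∀ u, Z (-u) = - Z u := by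
    intro u
    simp only [hZdef, map_neg]
    module
  have hZ0 : Z 0 = 0 := by
    simp only [hZdef, map_zero]
    module
  have hZg : ∀ g u, rT q M g (Z u) = Z (rT q M g u) := by
    intro g u
    rw [hZdef, hZdef, h.tT_comm, h.tT_comm, ← rT_rH]
    simp only [map_add, map_sub, map_smul]
  let S : AddSubgroup (TMod q M) := {
    carrier := Set.range Z
    zero_mem' := ⟨0, hZ0⟩
    add_mem' := by
      rintro _ _ ⟨u, rfl⟩ ⟨v, rfl⟩
      exact ⟨u + v, hZadd u v⟩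
    neg_mem' := by
      rintro _ ⟨u, rfl⟩
      exact ⟨-u, hZneg u⟩ }
  have hZzero : ∀ u, Z u = 0 := by
    intro u
    apply h.h2T hw hB hA hσ₀ hχ S _ _ _ ⟨u, rfl⟩
    · rintro g _ ⟨v, rfl⟩
      exact ⟨rT q M g v, (hZg g v).symm⟩
    · rintro _ ⟨v, rfl⟩
      exact hA.rT_T0 hσ₀ (h1 v)
  -- (3) conclusion
  have h3 := hZzero (rT q M φ t)
  have hσφt : rT q M σ₀ (rT q M φ t) = c • rT q M φ t := hA.rT_T0 hσ₀ (hA.rT_frob_T0 hφ ht)
  have hσt : c • rT q M σ₀⁻¹ t = t := by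
    rw [← map_smul, ← hA.rT_T0 hσ₀ ht]
    exact rT_inv_rT σ₀ t
  rw [hZdef, htφσ, htφ, hσφt, rT_inv_rT, map_smul, mul_smul s c, hσt] at h3
  have h4 : (c - 1) • ((q : ℤ_[q]) • rT q M φ (rT q M φ t) - s • rH q M Tq (rT q M φ t) +
      s ^ 2 • t) = 0 := by
    linear_combination (norm := module) (-(1 : ℤ_[q])) • h3
  exact (smul_eq_zero.mp h4).resolve_left hne

/-- The relation on the multiplicative part, at finite level. -/
theorem MInput.brel (h : MInput hqf.out N P T M) (hw : WeightAt q N T M) (hB : AtN N M B φN a)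
    (hA : AtQ hqf.out T M A M₀) {φ : GQ} (hφ : A.IsFrobeniusAt φ q) {m : ℕ}
    (hφm : ∀ ζ : AlgebraicClosure ℚ, ζ ^ (q ^ m) = 1 → φ ζ = ζ)
    {D : AddSubgroup M} (hD : D ≤ M₀) (hdiv : ∀ x ∈ D, ∃ y ∈ D, q • y = x) {x : M} (hx : x ∈ D)
    (hxm : q ^ m • x = 0) :
    q • φ • φ • x - T ⟨q, hqf.out⟩ • φ • x + x = 0 := by
  obtain ⟨f, hf⟩ := TMod.exists_apply_eq (p := q) (A := D) (by
    rintro y - -
    obtain ⟨z, hz, hzy⟩ := hdiv y y.2
    exact ⟨⟨z, hz⟩, Subtype.ext hzy⟩) (n := m) (x := (⟨x, hx⟩ : D)) (Subtype.ext hxm)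
  have ht : TMod.map D.subtype f ∈ T0 q M₀ := fun n => hD (f n).2
  have h1 := h.brelT hw hB hA hφ ht
  have h2 : (TMod.map D.subtype f) m = x := by
    rw [TMod.map_apply, hf]
    rfl
  have h3 : PadicInt.toZModPow m (chiZ q φ : ℤ_[q]) = ((1 : ℕ) : ZMod (q ^ m)) :=
    toZModPow_chiZ_eq fun ζ hζ => by rw [hφm ζ hζ, pow_one]
  have h4 := congrArg (fun g : TMod q M => g.1 m) h1
  have h5 : ((q : ℤ_[q]) • rT q M φ (rT q M φ (TMod.map D.subtype f)) -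
      (chiZ q φ : ℤ_[q]) • rH q M (T ⟨q, hqf.out⟩) (rT q M φ (TMod.map D.subtype f)) +
        (chiZ q φ : ℤ_[q]) ^ 2 • (TMod.map D.subtype f) : TMod q M) m = 0 := h4
  rw [TMod.coe_add_apply, TMod.coe_sub_apply, TMod.natCast_smul_apply,
    TMod.smul_apply_of_eq _ _ m h3, TMod.smul_apply_of_eq _ _ m (b := 1) (by
      rw [map_pow, h3, Nat.cast_one, one_pow]), rH_apply, TMod.rep_apply, TMod.rep_apply, h2,
      one_smul, one_smul] at h5
  exact h5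

end Fermat.Agent.Mazur
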