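import Fermat.Agent.Mazur.Nu

/-!
# Flatness of (a multiple of) the cocycles
-/

set_option autoImplicit false

namespace Fermat.Agent.Mazur

open scoped Pointwise
open Fermat.Agent.Frob Fermat.Agent.Minkowski Fermat.Agent.Tate

section aux

attribute [local instance 10000] azQ

variable {q : ℕ} [hqf : Fact q.Prime] {N : ℕ} {R : Type*} [CommRing R] {P : Ideal R}
    {T : Nat.Primes → R} {M : Type*} [AddCommGroup M] [Module R M] [DistribMulAction GQ M]
    [SMulCommClass GQ R M]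

variable {B : ValuationSubring (AlgebraicClosure ℚ)} {φN : GQ} {a : ℕ}
  {A : ValuationSubring (AlgebraicClosure ℚ)} {M₀ : AddSubgroup M}

/-- the multiplicative part at finite level -/
def G0 (q : ℕ) {M : Type*} [AddCommGroup M] (M₀ : AddSubgroup M) (m : ℕ) :
    AddSubgroup (Mtor q M m) := M₀.comap (Mtor q M m).subtype

omit hqf [Module R M] [DistribMulAction GQ M] in
lemma mem_G0 {m : ℕ} {x : Mtor q M m} : x ∈ G0 q M₀ m ↔ (x : M) ∈ M₀ := Iff.rfl

omit [SMulCommClass GQ R M] in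
lemma AtQ.equivar (hA : AtQ hqf.out T M A M₀) {m : ℕ} {σ : GQ}
    (hσ : σ ∈ A.inertiaSubgroupIn ℚ) (f : G0 q M₀ m →+ Additive Qbx) (g g' : G0 q M₀ m)
    (hg : ((g' : Mtor q M m) : M) = σ • ((g : Mtor q M m) : M)) :
    (f g').toMul = σ • (f g).toMul := by
  have hne : NeZero (q ^ m) := ⟨pow_ne_zero m hqf.out.ne_zero⟩
  have hgm : q ^ m • ((g : Mtor q M m) : M) = 0 := (g : Mtor q M m).2
  have h1 := hA.cyc _ g.2 σ hσ m _ hgm (fun ζ hζ => chiZ_spec (q := q) σ m hζ)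
  have h2 : g' = (PadicInt.toZModPow m (chiZ q σ : ℤ_[q])).val • g := by
    apply Subtype.ext
    apply Subtype.ext
    rw [hg]
    exact h1
  rw [h2, map_nsmul, toMul_nsmul]
  apply Units.ext
  rw [Units.val_pow_eq_pow_val]
  symm
  apply chiZ_spec
  rw [← Units.val_pow_eq_pow_val, ← toMul_nsmul, ← map_nsmul]
  have h3 : q ^ m • g = 0 := by
    apply Subtype.ext
    apply Subtype.ext
    exact hgm
  rw [h3, map_zero]
  rfl

open Classical in
/-- restrict a function to `G0` -/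
noncomputable def resI (M₀ : AddSubgroup M) {m : ℕ} (c : GQ → Mtor q M m) : GQ → G0 q M₀ m :=
  fun σ => if h : c σ ∈ G0 q M₀ m then ⟨c σ, h⟩ else 0

omit hqf [DistribMulAction GQ M] in
lemma coe_resI {m : ℕ} {c : GQ → Mtor q M m} {σ : GQ} (h : c σ ∈ G0 q M₀ m) :
    (resI M₀ c σ : Mtor q M m) = c σ := by
  rw [resI, dif_pos h]

/-- locally constant cocycles with inertia values in `G0` -/
structure IsCocG (A : ValuationSubring (AlgebraicClosure ℚ)) (M₀ : AddSubgroup M) {m : ℕ}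
    (c : GQ → Mtor q M m) : Prop where
  cocycle : ∀ σ τ : GQ, c (σ * τ) = c σ + σ • c τ
  cont : ∃ U : Subgroup GQ, IsOpen (U : Set GQ) ∧ ∀ σ ∈ U, c σ = 0
  atq : ∀ σ ∈ A.inertiaSubgroupIn ℚ, c σ ∈ G0 q M₀ m

omit [SMulCommClass GQ R M] in
lemma IsCocG.isCoc (hA : AtQ hqf.out T M A M₀) {m : ℕ} {c : GQ → Mtor q M m}
    (hc : IsCocG A M₀ c) : IsCoc A (resI M₀ c) := by
  constructor
  · intro f σ hσ τ hτ
    have h1 : σ • c τ ∈ G0 q M₀ m := by
      have h2 : σ • c τ = c (σ * τ) - c σ := by rw [hc.cocycle]; abel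
      rw [h2]
      exact AddSubgroup.sub_mem _ (hc.atq _ (mul_mem hσ hτ)) (hc.atq _ hσ)
    have h3 : resI M₀ c (σ * τ) = resI M₀ c σ + ⟨σ • c τ, h1⟩ := by
      apply Subtype.ext
      rw [AddSubgroup.coe_add, coe_resI (hc.atq _ (mul_mem hσ hτ)), coe_resI (hc.atq _ hσ),
        hc.cocycle]
    rw [h3, map_add, toMul_add, hA.equivar hσ f (resI M₀ c τ) ⟨σ • c τ, h1⟩ (by
      rw [coe_resI (hc.atq _ hτ)]; rfl)]
  · obtain ⟨U, hU, hcU⟩ := hc.cont
    refine ⟨U, hU, fun σ h1 h2 => ?_⟩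
    apply Subtype.ext
    rw [coe_resI (hc.atq _ h2), hcU σ h1]
    rfl

/-- the coboundary of an element -/
noncomputable def cob {m : ℕ} (g : Mtor q M m) : GQ → Mtor q M m := fun σ => σ • g - g

lemma MInput.isCocG_cob (h : MInput hqf.out N P T M) (hA : AtQ hqf.out T M A M₀) {m : ℕ}
    (g : Mtor q M m) : IsCocG A M₀ (cob g) := by
  refine ⟨fun σ τ => ?_, ?_, fun σ hσ => hA.inertia σ hσ _⟩
  · simp only [cob, mul_smul, smul_sub]; abel
  · obtain ⟨U, hU, hgU⟩ := h.smooth g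
    refine ⟨U, hU, fun σ hσ => ?_⟩
    apply Subtype.ext
    change σ • (g : M) - g = 0
    rw [hgU σ hσ, sub_self]

/-- an operator on `M` preserving `M₀` gives an operator on `G0` -/
def opG0 (q : ℕ) {M : Type*} [AddCommGroup M] (M₀ : AddSubgroup M) (m : ℕ) (r : M →+ M)
    (hr : ∀ x ∈ M₀, r x ∈ M₀) : G0 q M₀ m →+ G0 q M₀ m where
  toFun g := ⟨⟨r (g : Mtor q M m), by
    rw [mem_Mtor, ← map_nsmul]
    have : q ^ m • ((g : Mtor q M m) : M) = 0 := (g : Mtor q M m).2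
    rw [this, map_zero]⟩, hr _ g.2⟩
  map_zero' := Subtype.ext (Subtype.ext (map_zero r))
  map_add' _ _ := Subtype.ext (Subtype.ext (map_add r _ _))

theorem MInput.flat_mul_aux (h : MInput hqf.out N P T M) (hw : WeightAt q N T M)
    (hB : AtN N M B φN a) (hA : AtQ hqf.out T M A M₀)
    (hM₀ : ∀ x ∈ M₀, ∃ y ∈ M₀, q • y = x) {u : R} {n : ℕ}
    (hwq : ∀ x : M, (u * ((T ⟨q, hqf.out⟩) ^ 2 - (1 + (q : R)) ^ 2)) • x = n • x) {m : ℕ}
    {c : GQ → Mtor q M m} (hc : IsCocG A M₀ c) (f : Mtor q M m →+ Additive Qbx) :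
    ∃ x : Qbx, A.valuation (x : AlgebraicClosure ℚ) = 1 ∧ ∀ σ ∈ A.inertiaSubgroupIn ℚ,
      (f ((n ^ 2) • c σ)).toMul = σ • x / x := by
  obtain ⟨φ, hφ, hφm⟩ := exists_frob_fix (q := q) hA.lies m
  have hφA : φ • A = A := hφ.mem_decompositionSubgroup
  set Tq : R := T ⟨q, hqf.out⟩ with hTq
  have hq := hqf.out
  have hAq := hA.lies
  -- operators
  let ΦM : M →+ M := DistribSMul.toAddMonoidHom M φ
  let TM : M →+ M := DistribSMul.toAddMonoidHom M Tq
  let UM : M →+ M := DistribSMul.toAddMonoidHom M u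
  have hΦM : ∀ x ∈ M₀, ΦM x ∈ M₀ := fun x hx => hA.stab φ hφ x hx
  have hTM : ∀ x ∈ M₀, TM x ∈ M₀ := fun x hx => hA.hecke Tq x hx
  have hUM : ∀ x ∈ M₀, UM x ∈ M₀ := fun x hx => hA.hecke u x hx
  let ΦD := opG0 q M₀ m ΦM hΦM
  let TD := opG0 q M₀ m TM hTM
  let UD := opG0 q M₀ m UM hUM
  have hDm : ∀ x : G0 q M₀ m, q ^ m • x = 0 := fun x => Subtype.ext (Subtype.ext x.1.2)
  have hc' := hc.isCoc hA
  have hcob : ∀ g : Mtor q M m, IsCoc A (resI M₀ (cob g)) := fun g => (h.isCocG_cob hA g).isCoc hA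
  have hcobv : ∀ (g : Mtor q M m), ∀ σ ∈ A.inertiaSubgroupIn ℚ,
      (resI M₀ (cob g) σ : Mtor q M m) = σ • g - g :=
    fun g σ hσ => coe_resI ((h.isCocG_cob hA g).atq σ hσ)
  have hconjI : ∀ σ ∈ A.inertiaSubgroupIn ℚ, φ⁻¹ * σ * φ ∈ A.inertiaSubgroupIn ℚ := by
    intro σ hσ
    apply mem_inertia_smul
    rw [hφA]; exact hσ
  -- the pairing with coboundaries is additive
  let dnu : (G0 q M₀ m →+ Additive Qbx) → (Mtor q M m →+ QA A q) := fun f =>
    AddMonoidHom.mk' (fun g => nu hq hAq (hcob g) f) (fun g g' => by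
      apply nu_add hq hAq
      intro σ hσ
      apply Subtype.ext
      rw [AddSubgroup.coe_add, hcobv _ σ hσ, hcobv _ σ hσ, hcobv _ σ hσ, smul_add]
      abel)
  have hdnu : ∀ f g, dnu f g = nu hq hAq (hcob g) f := fun _ _ => rfl
  have hdΦ : ∀ (f : G0 q M₀ m →+ Additive Qbx) (g : Mtor q M m),
      dnu f (φ • g) = dnu (f.comp ΦD) g := by
    intro f g
    refine nu_conj hq hAq hDm hφA hφm (hcob g) (hcob (φ • g)) ΦD ?_ f
    intro σ hσ
    apply Subtype.ext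
    rw [hcobv _ σ hσ]
    apply Subtype.ext
    change σ • φ • (g : M) - φ • (g : M) = φ • ((resI M₀ (cob g) (φ⁻¹ * σ * φ) : Mtor q M m) : M)
    rw [hcobv _ _ (hconjI σ hσ)]
    change _ = φ • ((φ⁻¹ * σ * φ) • (g : M) - g)
    rw [smul_sub, ← mul_smul φ, ← mul_assoc, ← mul_assoc, mul_inv_cancel, one_mul, mul_smul]
  have hdT : ∀ (f : G0 q M₀ m →+ Additive Qbx) (g g' : Mtor q M m), (g' : M) = Tq • (g : M) →
      dnu f g' = dnu (f.comp TD) g := by
    intro f g g' hgg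
    refine nu_comp hq hAq (hcob g) (hcob g') TD ?_ f
    intro σ hσ
    apply Subtype.ext
    rw [hcobv _ σ hσ]
    apply Subtype.ext
    change σ • (g' : M) - (g' : M) = Tq • ((resI M₀ (cob g) σ : Mtor q M m) : M)
    rw [hcobv _ σ hσ]
    change _ = Tq • (σ • (g : M) - (g : M))
    rw [hgg, smul_sub, smul_comm]
  have hdG0 : ∀ (f : G0 q M₀ m →+ Additive Qbx) (g : Mtor q M m), g ∈ G0 q M₀ m →
      dnu f g = 0 := by
    intro f g hg
    apply nu_coboundary hq hAq hDm (hcob g) ⟨g, hg⟩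
    intro f' σ hσ
    have h1 : σ • g ∈ G0 q M₀ m := by
      have h2 := (h.isCocG_cob hA g).atq σ hσ
      have h3 : σ • g = cob g σ + g := by
        change σ • g = (σ • g - g) + g
        abel
      rw [h3]
      exact AddSubgroup.add_mem _ h2 hg
    have h2 : resI M₀ (cob g) σ = ⟨σ • g, h1⟩ - ⟨g, hg⟩ := by
      apply Subtype.ext
      rw [hcobv _ σ hσ]
      rfl
    rw [h2, map_sub, toMul_sub, hA.equivar hσ f' ⟨g, hg⟩ ⟨σ • g, h1⟩ rfl]
  let γ : Mtor q M m := c φ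
  let Φ : (G0 q M₀ m →+ Additive Qbx) → (G0 q M₀ m →+ Additive Qbx) := fun f => f.comp ΦD
  let TT : (G0 q M₀ m →+ Additive Qbx) → (G0 q M₀ m →+ Additive Qbx) := fun f => f.comp TD
  let UU : (G0 q M₀ m →+ Additive Qbx) → (G0 q M₀ m →+ Additive Qbx) := fun f => f.comp UD
  let νc : (G0 q M₀ m →+ Additive Qbx) → QA A q := fun f => nu hq hAq hc' f
  let ν : (G0 q M₀ m →+ Additive Qbx) → QA A q := fun f => nu hq hAq (hcob γ) f
  have hΦTD : ∀ g, ΦD (TD g) = TD (ΦD g) := by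
    intro g
    apply Subtype.ext
    apply Subtype.ext
    exact smul_comm φ Tq _
  have hUTD : ∀ g, UD (TD g) = TD (UD g) := by
    intro g
    apply Subtype.ext
    apply Subtype.ext
    exact smul_comm u Tq _
  have e1 : ∀ f, Φ (TT f) = TT (Φ f) := by
    intro f
    refine AddMonoidHom.ext fun g => ?_
    change f (TD (ΦD g)) = f (ΦD (TD g))
    rw [hΦTD]
  have e2 : ∀ f, TT (UU f) = UU (TT f) := by
    intro f
    refine AddMonoidHom.ext fun g => ?_
    change f (UD (TD g)) = f (TD (UD g))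
    rw [hUTD]
  have e3 : ∀ f, q • Φ (Φ f) - TT (Φ f) + f = 0 := by
    intro f
    refine AddMonoidHom.ext fun g => ?_
    change q • f (ΦD (ΦD g)) - f (ΦD (TD g)) + f g = 0
    have h1 : q • ΦD (ΦD g) - ΦD (TD g) + g = 0 := by
      rw [hΦTD]
      apply Subtype.ext
      apply Subtype.ext
      exact h.brel hw hB hA hφ hφm (D := M₀) le_rfl hM₀ g.2 g.1.2
    have h2 := congrArg f h1
    rwa [map_add, map_sub, map_nsmul, map_zero] at h2
  have e4 : ∀ f, UU (TT (TT f)) - (1 + q) ^ 2 • UU f = n • f := by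
    intro f
    refine AddMonoidHom.ext fun g => ?_
    change f (TD (TD (UD g))) - (1 + q) ^ 2 • f (UD g) = n • f g
    have h1 : TD (TD (UD g)) - (1 + q) ^ 2 • UD g = n • g := by
      apply Subtype.ext
      apply Subtype.ext
      change Tq • Tq • u • ((g : Mtor q M m) : M) - (1 + q) ^ 2 • u • ((g : Mtor q M m) : M) =
        n • ((g : Mtor q M m) : M)
      rw [← hwq, mul_comm u, mul_smul, sub_smul, pow_two Tq, mul_smul, ← Nat.cast_smul_eq_nsmul R]
      push_cast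
      rfl
    have h2 := congrArg f h1
    rwa [map_sub, map_nsmul, map_nsmul] at h2
  have e5 : ∀ f, ν (Φ (Φ f)) - ν (TT (Φ f)) + q • ν f = 0 := by
    intro f
    change dnu ((f.comp ΦD).comp ΦD) γ - dnu ((f.comp ΦD).comp TD) γ + q • dnu f γ = 0
    let γ' : Mtor q M m := ⟨Tq • (γ : M), by
      rw [mem_Mtor, smul_comm]
      have : q ^ m • (γ : M) = 0 := γ.2
      rw [this, smul_zero]⟩
    rw [← hdΦ, ← hdΦ, ← hdT _ γ γ' rfl, ← hdΦ]
    have h1 : dnu f (φ • φ • γ - φ • γ' + q • γ) = 0 := by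
      apply hdG0
      change φ • φ • (γ : M) - φ • Tq • (γ : M) + q • (γ : M) ∈ M₀
      rw [smul_comm φ Tq]
      exact hA.es φ hφ _
    rwa [map_add, map_sub, map_nsmul] at h1
  have e6 : ∀ f, νc (Φ f) = νc f + ν f := by
    intro f
    change nu hq hAq hc' (f.comp ΦD) = nu hq hAq hc' f + nu hq hAq (hcob γ) f
    let v : GQ → Mtor q M m := c + cob γ
    have hv : IsCocG A M₀ v := by
      have h1 := h.isCocG_cob hA γ
      refine ⟨fun σ τ => ?_, ?_, fun σ hσ => AddSubgroup.add_mem _ (hc.atq σ hσ) (h1.atq σ hσ)⟩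
      · change c (σ * τ) + cob γ (σ * τ) = c σ + cob γ σ + σ • (c τ + cob γ τ)
        rw [hc.cocycle, h1.cocycle, smul_add]
        abel
      · obtain ⟨U, hU, hcU⟩ := hc.cont
        obtain ⟨V, hV, hdV⟩ := h1.cont
        refine ⟨U ⊓ V, hU.inter hV, ?_⟩
        rintro σ ⟨h1, h2⟩
        change c σ + cob γ σ = 0
        rw [hcU σ h1, hdV σ h2, add_zero]
    have hvI : ∀ σ ∈ A.inertiaSubgroupIn ℚ, resI M₀ v σ = resI M₀ c σ + resI M₀ (cob γ) σ := by
      intro σ hσ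
      apply Subtype.ext
      rw [AddSubgroup.coe_add, coe_resI (hv.atq σ hσ), coe_resI (hc.atq σ hσ),
        coe_resI ((h.isCocG_cob hA γ).atq σ hσ)]
      rfl
    rw [← nu_add hq hAq hc' (hcob γ) (hv.isCoc hA) hvI f]
    symm
    refine nu_conj hq hAq hDm hφA hφm hc' (hv.isCoc hA) ΦD ?_ f
    intro σ hσ
    apply Subtype.ext
    rw [coe_resI (hv.atq σ hσ)]
    apply Subtype.ext
    change ((c σ + (σ • c φ - c φ) : Mtor q M m) : M) =
      φ • ((resI M₀ c (φ⁻¹ * σ * φ) : Mtor q M m) : M)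
    rw [coe_resI (hc.atq _ (hconjI σ hσ))]
    have h1 := hc.cocycle φ (φ⁻¹ * σ * φ)
    have h2 : φ * (φ⁻¹ * σ * φ) = σ * φ := by group
    rw [h2, hc.cocycle] at h1
    have h3 : φ • c (φ⁻¹ * σ * φ) = c σ + (σ • c φ - c φ) := by
      rw [← add_sub_assoc, h1]; abel
    rw [← h3]
    rfl
  have e7 : ∃ k : ℤ, ∀ f : G0 q M₀ m →+ Additive Qbx, (k * ((q : ℤ) - 1)) • f = f := by
    have hcop : IsCoprime ((q : ℤ) - 1) ((q : ℤ) ^ m) := by
      apply IsCoprime.pow_right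
      exact ⟨-1, 1, by ring⟩
    obtain ⟨k, l, hkl⟩ := hcop
    refine ⟨k, ?_⟩
    intro f
    apply AddMonoidHom.ext
    intro g
    change (k * ((q : ℤ) - 1)) • f g = f g
    rw [← map_zsmul]
    congr 1
    have h1 : (l * (q : ℤ) ^ m) • g = 0 := by
      rw [mul_smul, ← Nat.cast_pow, natCast_zsmul, hDm, smul_zero]
    calc (k * ((q : ℤ) - 1)) • g = (k * ((q : ℤ) - 1)) • g + (l * (q : ℤ) ^ m) • g := by
          rw [h1, add_zero]
      _ = g := by rw [← add_smul, hkl, one_smul]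
  have h5 := flat_core' q Φ TT UU (fun _ _ => rfl) (fun _ _ => rfl) (fun _ _ => rfl) e1 e2 e3 n e4
    ν νc (fun f g => map_add (nu hq hAq (hcob γ)) f g) (fun f g => map_add (nu hq hAq hc') f g)
    e5 e6 e7 (f.comp (G0 q M₀ m).subtype)
  obtain ⟨x, hx1, hx2⟩ := flat_of_nu hq hAq hc' h5
  refine ⟨x, hx1, fun σ hσ => ?_⟩
  rw [← hx2 σ hσ, map_nsmul]
  change _ = ((n ^ 2) • f ((resI M₀ c σ : Mtor q M m))).toMul
  rw [coe_resI (hc.atq σ hσ)]

end aux

variable {q : ℕ} [hqf : Fact q.Prime] {N : ℕ} {R : Type*} [CommRing R] {P : Ideal R}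
    {T : Nat.Primes → R} {M : Type*} [AddCommGroup M] [Module R M] [DistribMulAction GQ M]
    [SMulCommClass GQ R M]
  {B : ValuationSubring (AlgebraicClosure ℚ)} {φN : GQ} {a : ℕ}
  {A : ValuationSubring (AlgebraicClosure ℚ)} {M₀ : AddSubgroup M}

/-- **Flatness**: a fixed multiple of every cocycle is flat at `q`. -/
theorem MInput.flat_mul (h : MInput hqf.out N P T M) (hw : WeightAt q N T M)
    (hB : AtN N M B φN a) (hA : AtQ hqf.out T M A M₀)
    (hM₀ : ∀ x ∈ M₀, ∃ y ∈ M₀, q • y = x) {u : R} {n : ℕ}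
    (hwq : ∀ x : M, (u * ((T ⟨q, hqf.out⟩) ^ 2 - (1 + (q : R)) ^ 2)) • x = n • x) {m : ℕ}
    {c : GQ → Mtor q M m} (hc : IsCocG A M₀ c) (f : Mtor q M m →+ Additive Qbx) :
    ∃ x : Qbx, A.valuation (x : AlgebraicClosure ℚ) = 1 ∧ ∀ σ ∈ A.inertiaSubgroupIn ℚ,
      (f ((n ^ 2) • c σ)).toMul = σ • x / x :=
  h.flat_mul_aux hw hB hA hM₀ hwq hc (AddMonoidHom.mk' (fun g => f g) (fun a b => map_add f a b))

end Fermat.Agent.Mazur
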