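import Fermat.Agent.Mazur.LocN
import Fermat.Agent.Mazur.Flat

/-!
# The bound for the cocycles coming from the descent
-/

set_option autoImplicit false

namespace Fermat.Agent.Mazur

open scoped Pointwise
open Fermat.Agent.Frob Fermat.Agent.Tate Fermat.Agent.Minkowski

section gen

variable {G : Type*} [AddCommGroup G] [DistribMulAction GQ G]

/-- like `IsSel`, with values in `D` on inertia at `N` -/
structure IsY (q N : ℕ) (A B : ValuationSubring (AlgebraicClosure ℚ)) (G₀ D : AddSubgroup G)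
    (c : GQ → G) : Prop where
  cocycle : ∀ σ τ : GQ, c (σ * τ) = c σ + σ • c τ
  cont : ∃ U : Subgroup GQ, IsOpen (U : Set GQ) ∧ ∀ σ ∈ U, c σ = 0
  unram : ∀ ℓ : ℕ, ℓ.Prime → ℓ ≠ q → ℓ ≠ N → ∀ A' : ValuationSubring (AlgebraicClosure ℚ),
    A'.LiesOverPrime ℓ → ∀ σ ∈ A'.inertiaSubgroupIn ℚ, c σ = 0
  atN : ∀ σ ∈ B.inertiaSubgroupIn ℚ, c σ ∈ D
  atq : ∀ σ ∈ A.inertiaSubgroupIn ℚ, c σ ∈ G₀
  flat : ∀ f : G →+ Additive Qbx, ∃ x : Qbx, A.valuation (x : AlgebraicClosure ℚ) = 1 ∧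
    ∀ σ ∈ A.inertiaSubgroupIn ℚ, (f (c σ)).toMul = σ • x / x

/-- The group of the cocycles `IsY`. -/
def YG (q N : ℕ) (A B : ValuationSubring (AlgebraicClosure ℚ)) (G₀ D : AddSubgroup G) :
    AddSubgroup (GQ → G) where
  carrier := {c | IsY q N A B G₀ D c}
  zero_mem' := by
    refine ⟨?_, ⟨⊤, isOpen_univ, fun _ _ => rfl⟩, fun _ _ _ _ _ _ _ _ => rfl, fun _ _ => D.zero_mem,
      fun _ _ => G₀.zero_mem, fun f => ⟨1, by simp, fun σ _ => ?_⟩⟩
    · intro σ τ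
      simp
    · simp
  add_mem' := by
    rintro c d hc hd
    refine ⟨?_, ?_, ?_, ?_, ?_, ?_⟩
    · intro σ τ
      simp only [Pi.add_apply, hc.cocycle, hd.cocycle, smul_add]
      abel
    · obtain ⟨U, hU, hcU⟩ := hc.cont
      obtain ⟨V, hV, hdV⟩ := hd.cont
      refine ⟨U ⊓ V, hU.inter hV, ?_⟩
      rintro σ ⟨h1, h2⟩
      simp only [Pi.add_apply, hcU σ h1, hdV σ h2, add_zero]
    · intro ℓ hℓ hq hN A' hA' σ hσ
      simp only [Pi.add_apply, hc.unram ℓ hℓ hq hN A' hA' σ hσ, hd.unram ℓ hℓ hq hN A' hA' σ hσ,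
        add_zero]
    · intro σ hσ
      exact D.add_mem (hc.atN σ hσ) (hd.atN σ hσ)
    · intro σ hσ
      exact G₀.add_mem (hc.atq σ hσ) (hd.atq σ hσ)
    · intro f
      obtain ⟨x, hx1, hx⟩ := hc.flat f
      obtain ⟨y, hy1, hy⟩ := hd.flat f
      refine ⟨x * y, by rw [Units.val_mul, map_mul, hx1, hy1, mul_one], fun σ hσ => ?_⟩
      rw [Pi.add_apply, map_add, toMul_add, hx σ hσ, hy σ hσ, smul_mul', mul_div_mul_comm]
  neg_mem' := by
    rintro c hc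
    refine ⟨?_, ?_, ?_, ?_, ?_, ?_⟩
    · intro σ τ
      simp only [Pi.neg_apply, hc.cocycle, smul_neg]
      abel
    · obtain ⟨U, hU, hcU⟩ := hc.cont
      refine ⟨U, hU, fun σ hσ => ?_⟩
      simp only [Pi.neg_apply, hcU σ hσ, neg_zero]
    · intro ℓ hℓ hq hN A' hA' σ hσ
      simp only [Pi.neg_apply, hc.unram ℓ hℓ hq hN A' hA' σ hσ, neg_zero]
    · intro σ hσ
      exact D.neg_mem (hc.atN σ hσ)
    · intro σ hσ
      exact G₀.neg_mem (hc.atq σ hσ)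
    · intro f
      obtain ⟨x, hx1, hx⟩ := hc.flat f
      refine ⟨x⁻¹, by rw [Units.val_inv_eq_inv_val, map_inv₀, hx1, inv_one], fun σ hσ => ?_⟩
      rw [Pi.neg_apply, map_neg, toMul_neg, hx σ hσ, smul_inv', inv_div_inv, inv_div]

lemma card_YG_le [Finite G] {q N : ℕ} (hq : q.Prime) (hN : N.Prime)
    {A B : ValuationSubring (AlgebraicClosure ℚ)} (hA : A.LiesOverPrime q)
    (hB : B.LiesOverPrime N) {G₀ D : AddSubgroup G}
    (h0mu : ∀ σ ∈ A.inertiaSubgroupIn ℚ, ∀ f : G →+ Additive Qbx, ∀ g ∈ G₀,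
      (f (σ • g)).toMul = σ • (f g).toMul)
    (hdev : IsDevissable q (⊤ : AddSubgroup G)) (τ₀ : GQ) (hτ₀ : τ₀ ∈ B.inertiaSubgroupIn ℚ)
    (hgen : ∀ c, IsY q N A B G₀ D c → c τ₀ = 0 → ∀ τ ∈ B.inertiaSubgroupIn ℚ, c τ = 0) :
    Finite (YG q N A B G₀ D) ∧
      Nat.card (YG q N A B G₀ D) ≤ Nat.card G₀ * Nat.card D := by
  obtain ⟨hfin, hcard⟩ := card_sel_le (N := N) (B := B) hq hN hA hB h0mu hdev
  let θ : YG q N A B G₀ D →+ G := {
    toFun := fun c => c.1 τ₀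
    map_zero' := rfl
    map_add' := fun _ _ => rfl }
  obtain ⟨h1, h2⟩ := card_le_of_hom (sel q N A B G₀ ⊤) (YG q N A B G₀ D) θ
    (by
      rintro ⟨c, hc⟩ h0
      exact ⟨⟨hc.cocycle, hc.cont, hc.unram, hgen c hc h0, hc.atq, hc.flat⟩, fun _ => trivial⟩)
    (D : Set G) (Set.toFinite _) (fun c => c.2.atN τ₀ hτ₀) hfin
  refine ⟨h1, h2.trans ?_⟩
  have h3 : (D : Set G).ncard = Nat.card D := rfl
  rw [h3]
  apply Nat.mul_le_mul_right
  rwa [top_inf_eq] at hcard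

end gen

section div

variable {M : Type*} [AddCommGroup M] {q : ℕ}

/-- the subgroup `q ^ c M₀` -/
def powSub (q : ℕ) (M₀ : AddSubgroup M) (c : ℕ) : AddSubgroup M where
  carrier := {x | ∃ y ∈ M₀, q ^ c • y = x}
  zero_mem' := ⟨0, M₀.zero_mem, smul_zero _⟩
  add_mem' := by
    rintro _ _ ⟨x, hx, rfl⟩ ⟨y, hy, rfl⟩
    exact ⟨x + y, M₀.add_mem hx hy, smul_add _ _ _⟩
  neg_mem' := by
    rintro _ ⟨x, hx, rfl⟩
    exact ⟨-x, M₀.neg_mem hx, smul_neg _ _⟩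

lemma powSub_le (M₀ : AddSubgroup M) (c : ℕ) : powSub q M₀ c ≤ M₀ := by
  rintro _ ⟨x, hx, rfl⟩
  exact M₀.nsmul_mem hx _

lemma powSub_anti (M₀ : AddSubgroup M) {c c' : ℕ} (h : c ≤ c') :
    powSub q M₀ c' ≤ powSub q M₀ c := by
  rintro _ ⟨x, hx, rfl⟩
  obtain ⟨k, rfl⟩ := Nat.exists_eq_add_of_le h
  exact ⟨q ^ k • x, M₀.nsmul_mem hx _, by rw [← mul_smul, ← pow_add]⟩

/-- `q ^ c M₀` is `q`-divisible for some `c`. -/
lemma exists_powSub_div (hfin : Finite {x : M // q • x = 0}) (htors : ∀ x : M, ∃ n, q ^ n • x = 0)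
    (M₀ : AddSubgroup M) :
    ∃ c, ∀ x ∈ powSub q M₀ c, ∃ y ∈ powSub q M₀ c, q • y = x := by
  classical
  -- stabilisation of the `q`-torsion
  have hstab : ∃ c, ∀ c' ≥ c, ∀ x ∈ powSub q M₀ c, q • x = 0 → x ∈ powSub q M₀ c' := by
    have hone : ∀ x : {x : M // q • x = 0}, ∃ c, ∀ c' ≥ c, x.1 ∈ powSub q M₀ c →
        x.1 ∈ powSub q M₀ c' := by
      intro x
      by_cases hx : ∀ c, x.1 ∈ powSub q M₀ c
      · exact ⟨0, fun c' _ _ => hx c'⟩
      · push Not at hx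
        obtain ⟨c, hc⟩ := hx
        exact ⟨c, fun c' _ h => absurd h hc⟩
    choose c hc using hone
    have := Fintype.ofFinite {x : M // q • x = 0}
    refine ⟨∑ x, c x, fun c' hc' x hx hqx => ?_⟩
    have hle : c ⟨x, hqx⟩ ≤ ∑ x, c x :=
      Finset.single_le_sum (f := c) (fun _ _ => Nat.zero_le _) (Finset.mem_univ _)
    exact hc ⟨x, hqx⟩ c' (hle.trans hc') (powSub_anti M₀ hle hx)
  obtain ⟨c, hc⟩ := hstab
  refine ⟨c, fun x hx => ?_⟩
  obtain ⟨n, hn⟩ := htors x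
  induction n generalizing x with
  | zero =>
    rw [pow_zero, one_smul] at hn
    subst hn
    exact ⟨0, AddSubgroup.zero_mem _, smul_zero _⟩
  | succ n ih =>
    -- `q ^ n x` is in the `q`-torsion
    have h1 : q ^ n • x ∈ powSub q M₀ c := AddSubgroup.nsmul_mem _ hx _
    have h2 : q • q ^ n • x = 0 := by rw [← mul_smul, ← pow_succ', hn]
    obtain ⟨y, hy, hyx⟩ := hc (c + (n + 1)) (Nat.le_add_right _ _) _ h1 h2
    have h3 : q ^ c • y ∈ powSub q M₀ c := ⟨y, hy, rfl⟩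
    have h4 : q ^ n • (x - q • q ^ c • y) = 0 := by
      rw [smul_sub, ← hyx, ← mul_smul, ← mul_smul, ← pow_succ, ← pow_add,
        show n + 1 + c = c + (n + 1) by ring, sub_self]
    obtain ⟨z, hz, hzx⟩ := ih (x - q • q ^ c • y)
      (AddSubgroup.sub_mem _ hx (AddSubgroup.nsmul_mem _ h3 _)) h4
    exact ⟨z + q ^ c • y, AddSubgroup.add_mem _ hz h3, by rw [smul_add, hzx]; abel⟩

end div

section main

variable {q : ℕ} [hqf : Fact q.Prime] {N : ℕ} {R : Type*} [CommRing R] {P : Ideal R}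
    {T : Nat.Primes → R} {M : Type*} [AddCommGroup M] [Module R M] [DistribMulAction GQ M]
    [SMulCommClass GQ R M]
  {B : ValuationSubring (AlgebraicClosure ℚ)} {φN : GQ} {a : ℕ}
  {A : ValuationSubring (AlgebraicClosure ℚ)} {M₀ : AddSubgroup M}

/-- passing to the divisible part -/
lemma MInput.atQ_powSub (h : MInput hqf.out N P T M) (hA : AtQ hqf.out T M A M₀) (c : ℕ) :
    AtQ hqf.out T M A (powSub q M₀ c) := by
  have hdiv : ∀ x : M, ∃ y : M, q ^ c • y = x :=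
    h.div_nat (pow_ne_zero c hqf.out.ne_zero)
  refine ⟨hA.lies, ?_, ?_, ?_, ?_, ?_⟩
  · intro σ hσ x
    obtain ⟨y, rfl⟩ := hdiv x
    exact ⟨σ • y - y, hA.inertia σ hσ y, by rw [smul_sub, smul_comm]⟩
  · rintro φ hφ _ ⟨x, hx, rfl⟩
    exact ⟨φ • x, hA.stab φ hφ x hx, by rw [smul_comm]⟩
  · rintro r _ ⟨x, hx, rfl⟩
    exact ⟨r • x, hA.hecke r x hx, by rw [smul_comm]⟩
  · intro φ hφ x
    obtain ⟨y, rfl⟩ := hdiv x
    refine ⟨_, hA.es φ hφ y, ?_⟩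
    rw [smul_add, smul_sub, smul_comm (q ^ c) φ (φ • y), smul_comm (q ^ c) φ y,
      smul_comm (q ^ c) (T ⟨q, hqf.out⟩) (φ • y), smul_comm (q ^ c) φ y, smul_comm (q ^ c) q y]
  · intro x hx
    exact hA.cyc x (powSub_le _ _ hx)

/-- the conditions satisfied by the cocycles of the descent -/
structure IsGood (q N : ℕ) (A : ValuationSubring (AlgebraicClosure ℚ)) (M₀ : AddSubgroup M) {m : ℕ}
    (c : GQ → Mtor q M m) : Prop where
  cocycle : ∀ σ τ : GQ, c (σ * τ) = c σ + σ • c τ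
  cont : ∃ U : Subgroup GQ, IsOpen (U : Set GQ) ∧ ∀ σ ∈ U, c σ = 0
  unram : ∀ ℓ : ℕ, ℓ.Prime → ℓ ≠ q → ℓ ≠ N → ∀ A' : ValuationSubring (AlgebraicClosure ℚ),
    A'.LiesOverPrime ℓ → ∀ σ ∈ A'.inertiaSubgroupIn ℚ, c σ = 0
  atq : ∀ σ ∈ A.inertiaSubgroupIn ℚ, (c σ : M) ∈ M₀

omit hqf [DistribMulAction GQ M] in
lemma card_comap_eq (D : AddSubgroup M) (m : ℕ) :
    Nat.card (D.comap (Mtor q M m).subtype) = Nat.card {x : D // q ^ m • x = 0} := by
  apply Nat.card_congr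
  exact {
    toFun := fun x => ⟨⟨x.1.1, x.2⟩, Subtype.ext x.1.2⟩
    invFun := fun x => ⟨⟨x.1.1, congrArg Subtype.val x.2⟩, x.1.2⟩
    left_inv := fun _ => rfl
    right_inv := fun _ => rfl }

/-- **The bound.** -/
theorem MInput.exists_bound (h : MInput hqf.out N P T M) (hw : WeightAt q N T M)
    (hB : AtN N M B φN a) (hA : AtQ hqf.out T M A M₀)
    (hwq : ∃ (u : R) (n : ℕ), n ≠ 0 ∧
      ∀ x : M, (u * ((T ⟨q, hqf.out⟩) ^ 2 - (1 + (q : R)) ^ 2)) • x = n • x) :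
    ∃ C : ℕ, C ≠ 0 ∧ ∀ m : ℕ, ∃ Y : AddSubgroup (GQ → Mtor q M m), Finite Y ∧
      Nat.card Y ≤ Nat.card (Mtor q M m) ∧
        ∀ c : GQ → Mtor q M m, IsGood q N A M₀ c → C • c ∈ Y := by
  obtain ⟨u, n, hn, hun⟩ := hwq
  obtain ⟨k, hk⟩ := exists_powSub_div h.fin h.tors M₀
  set D₀ : AddSubgroup M := powSub q M₀ k with hD₀
  have hA' : AtQ hqf.out T M A D₀ := h.atQ_powSub hA k
  have hN2 : N ^ 2 - 1 ≠ 0 := by
    have : 1 < N ^ 2 := Nat.one_lt_pow two_ne_zero h.prime_N.one_lt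
    omega
  refine ⟨n ^ 2 * (q ^ k * (N ^ 2 - 1) ^ a), mul_ne_zero (pow_ne_zero _ hn)
    (mul_ne_zero (pow_ne_zero _ hqf.out.ne_zero) (pow_ne_zero _ hN2)), fun m => ?_⟩
  have hfin := h.finite_Mtor m
  have h0mu : ∀ σ ∈ A.inertiaSubgroupIn ℚ, ∀ f : Mtor q M m →+ Additive Qbx, ∀ g ∈ G0 q D₀ m,
      (f (σ • g)).toMul = σ • (f g).toMul := by
    intro σ hσ f g hg
    have h1 : σ • g ∈ G0 q D₀ m := by
      have h2 : σ • (g : M) - g ∈ D₀ := hA'.inertia σ hσ g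
      have h3 : (σ • (g : M) - g) + g ∈ D₀ := AddSubgroup.add_mem _ h2 hg
      rwa [sub_add_cancel] at h3
    exact hA'.equivar hσ (f.comp (G0 q D₀ m).subtype) ⟨g, hg⟩ ⟨σ • g, h1⟩ rfl
  obtain ⟨τ₀, hτ₀, hgen⟩ := exists_generator h.prime_N hB.lies hqf.out h.ne m
  have hY := card_YG_le (G₀ := G0 q D₀ m) (D := DTm q M φN a m) hqf.out h.prime_N hA.lies hB.lies
    h0mu (h.isDevissable m) τ₀ hτ₀ (by
      intro c hc hc0 τ hτ
      have hhom : IsInertiaHom B c := by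
        refine ⟨fun σ hσ σ' hσ' => ?_, ?_⟩
        · rw [hc.cocycle]
          congr 1
          apply Subtype.ext
          exact h.inertia_DT hB hσ (hc.atN σ' hσ')
        · obtain ⟨U, hU, hcU⟩ := hc.cont
          exact ⟨U, hU, fun σ h1 _ => hcU σ h1⟩
      exact hgen hhom (fun x => Subtype.ext x.2) hc0 τ hτ)
  refine ⟨YG q N A B (G0 q D₀ m) (DTm q M φN a m), hY.1, hY.2.trans ?_, ?_⟩
  · -- coranks
    have hcD₀ : Cofin q D₀ := by
      refine ⟨?_, ?_⟩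
      · have := h.fin
        apply Finite.of_injective (β := {x : M // q • x = 0})
          (fun x : {x : D₀ // q • x = 0} => ⟨x.1.1, congrArg Subtype.val x.2⟩)
        intro x y hxy
        exact Subtype.ext (Subtype.ext (congrArg (fun z : {x : M // q • x = 0} => (z : M)) hxy))
      · rintro x -
        obtain ⟨y, hy, hyx⟩ := hk x x.2
        exact ⟨⟨y, hy⟩, Subtype.ext hyx⟩
    have hcDT : Cofin q (DT M φN a) := by
      refine ⟨?_, ?_⟩
      · have := h.fin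
        apply Finite.of_injective (β := {x : M // q • x = 0})
          (fun x : {x : DT M φN a // q • x = 0} => ⟨x.1.1, congrArg Subtype.val x.2⟩)
        intro x y hxy
        exact Subtype.ext (Subtype.ext (congrArg (fun z : {x : M // q • x = 0} => (z : M)) hxy))
      · rintro ⟨_, y, rfl⟩ -
        obtain ⟨z, rfl⟩ := h.div y
        refine ⟨⟨_, z, rfl⟩, Subtype.ext ?_⟩
        change q • ((gEnd M φN ^ 2 - 1) ^ a : AddMonoid.End M) z =
          ((gEnd M φN ^ 2 - 1) ^ a : AddMonoid.End M) (q • z)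
        rw [map_nsmul]
    have e1 : Nat.card (G0 q D₀ m) = (q ^ m) ^ corank q D₀ := by
      rw [← hcD₀.card m]
      exact card_comap_eq D₀ m
    have e2 : Nat.card (DTm q M φN a m) = (q ^ m) ^ corank q (DT M φN a) := by
      rw [← hcDT.card m]
      exact card_comap_eq (DT M φN a) m
    have e3 : Nat.card (Mtor q M m) = (q ^ m) ^ corank q M := h.cofin.card m
    rw [e1, e2, e3, ← pow_add]
    apply Nat.pow_le_pow_right (Nat.pos_of_ne_zero (pow_ne_zero m hqf.out.ne_zero))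
    have f1 := h.corank_D0 hw hB hA' le_rfl hcD₀
    have f2 := h.corank_DT hw hB hA' hcDT
    omega
  · intro c hc
    -- the cocycle `(q ^ k (N² - 1) ^ a) c`
    set c' : GQ → Mtor q M m := (q ^ k * (N ^ 2 - 1) ^ a) • c with hc'
    have hc'v : ∀ σ, c' σ = (q ^ k * (N ^ 2 - 1) ^ a) • c σ := fun σ => rfl
    have hcoc : IsCocG A D₀ c' := by
      refine ⟨fun σ τ => ?_, ?_, fun σ hσ => ?_⟩
      · rw [hc'v, hc'v, hc'v, hc.cocycle, smul_add, smul_comm σ]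
      · obtain ⟨U, hU, hcU⟩ := hc.cont
        exact ⟨U, hU, fun σ hσ => by rw [hc'v, hcU σ hσ, smul_zero]⟩
      · rw [hc'v]
        change (q ^ k * (N ^ 2 - 1) ^ a) • (c σ : M) ∈ D₀
        rw [mul_comm, mul_smul]
        have h1 : q ^ k • (c σ : M) ∈ D₀ := ⟨_, hc.atq σ hσ, rfl⟩
        exact AddSubgroup.nsmul_mem _ h1 _
    have hfin2 : ∀ σ, ((n ^ 2 * (q ^ k * (N ^ 2 - 1) ^ a)) • c) σ = n ^ 2 • c' σ := by
      intro σ
      rw [hc'v, ← mul_smul]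
      rfl
    refine ⟨fun σ τ => ?_, ?_, ?_, ?_, ?_, ?_⟩
    · rw [hfin2, hfin2, hfin2, hcoc.cocycle, smul_add, smul_comm σ]
    · obtain ⟨U, hU, hcU⟩ := hcoc.cont
      exact ⟨U, hU, fun σ hσ => by rw [hfin2, hcU σ hσ, smul_zero]⟩
    · intro ℓ hℓ hℓq hℓN A' hA'' σ hσ
      rw [hfin2, hc'v, hc.unram ℓ hℓ hℓq hℓN A' hA'' σ hσ, smul_zero, smul_zero]
    · intro σ hσ
      rw [hfin2, hc'v]
      change n ^ 2 • (q ^ k * (N ^ 2 - 1) ^ a) • (c σ : M) ∈ DT M φN a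
      rw [mul_smul]
      exact AddSubgroup.nsmul_mem _ (AddSubgroup.nsmul_mem _
        (h.cocycle_mem_DT hB hc.cocycle hc.cont hσ) _) _
    · intro σ hσ
      rw [hfin2]
      exact AddSubgroup.nsmul_mem _ (hcoc.atq σ hσ) _
    · intro f
      obtain ⟨x, hx1, hx2⟩ := h.flat_mul hw hB hA' hk hun hcoc f
      exact ⟨x, hx1, fun σ hσ => by rw [hfin2]; exact hx2 σ hσ⟩

end main

end Fermat.Agent.Mazur
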