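import Fermat.Agent.Mazur.CuspHecke
import Fermat.Agent.HeckeComm.Commute

/-!
# The cuspidal class of `X₀(p)`

`c` = class of `(0) − (∞)`: `T_r c = (1 + r) c` for `r ≠ p`, `(p − 1) c = 0`, `σ c = c`, and
`c ≠ 0` unless `p ∈ {2, 3, 5, 7, 13}`.
-/

set_option autoImplicit false

noncomputable section

open ModularCurve AlgebraicCurve HahnSeries Fermat.Agent.TEll Fermat.Agent.X0Emb
  Fermat.Agent.Moduli

namespace Fermat.Agent.MazurCusp

local notation "𝕂" => AlgebraicClosure ℚ

variable (p : ℕ) [hp : Fact p.Prime]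

/-- The divisor `(0) − (∞)` of `X₀(p)`. -/
def cuspDiv : Divisor.degZero (K := 𝕂) (F := modularFunctionFieldBar p) :=
  ⟨Finsupp.single (cuspZero p) 1 - Finsupp.single (MW.cuspInf p) 1, by
    rw [Divisor.mem_degZero, map_sub, Divisor.degree_single, Divisor.degree_single,
      FF.deg_eq_one, FF.deg_eq_one, sub_self]⟩

@[simp] theorem coe_cuspDiv : (cuspDiv p : Divisor 𝕂 (modularFunctionFieldBar p)) =
    Finsupp.single (cuspZero p) 1 - Finsupp.single (MW.cuspInf p) 1 := rfl

/-- The cuspidal class. -/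
def cuspClass : JZero p := Pic0.mk (cuspDiv p)

theorem mk_eq_zero_iff {K F : Type*} [Field K] [Field F] [Algebra K F]
    (D : Divisor.degZero (K := K) (F := F)) :
    Pic0.mk D = 0 ↔ (D : Divisor K F).IsPrincipal := by
  unfold Pic0.mk
  rw [QuotientAddGroup.eq_zero_iff]
  rfl

/-- **The Eisenstein property of the cuspidal class.** -/
theorem heckeOperatorBar_cuspClass (r : Nat.Primes) (hr : (r : ℕ) ≠ p) :
    heckeOperatorBar p r (cuspClass p) = (1 + (r : ℤ)) • cuspClass p := by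
  have : NeZero (r : ℕ) := ⟨r.2.ne_zero⟩
  obtain ⟨D', hD', h⟩ := heckeOperatorBar_mk r (cuspDiv p)
  rw [cuspClass, h]
  obtain ⟨h1, h2⟩ := heckeDiv_cusps p r.2 hr
  have e : D' = (1 + (r : ℤ)) • cuspDiv p := by
    apply Subtype.ext
    rw [hD', coe_cuspDiv, map_sub, h1, h2, AddSubgroupClass.coe_zsmul, coe_cuspDiv, smul_sub,
      Finsupp.smul_single, Finsupp.smul_single, smul_eq_mul, mul_one, add_comm]
  rw [e]
  rfl

theorem heckeGen_smul_cuspClass (r : Nat.Primes) (hr : (r : ℕ) ≠ p) :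
    (letI := heckeModuleBar p; heckeGen r • cuspClass p) = (1 + (r : ℤ)) • cuspClass p :=
  (heckeModuleBar_heckeGen_smul (HeckeComm.heckeOperatorsCommuteBar p) r _).trans
    (heckeOperatorBar_cuspClass p r hr)

/-- The cuspidal class is killed by `p − 1`. -/
theorem smul_cuspClass : (p - 1 : ℤ) • cuspClass p = 0 := by
  have e : (p - 1 : ℤ) • cuspClass p = Pic0.mk ((p - 1 : ℤ) • cuspDiv p) := rfl
  rw [e, mk_eq_zero_iff, AddSubgroupClass.coe_zsmul, coe_cuspDiv, ← div_uF]
  exact Deuring.isPrincipal_div (uF_ne_zero p)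

/-- The cuspidal class is rational. -/
theorem galois_smul_cuspClass (σ : 𝕂 ≃ₐ[ℚ] 𝕂) : σ • cuspClass p = cuspClass p := by
  rw [galois_smul_pic0_def, cuspClass, SemilinearAut.pic0_smul_mk]
  congr 1
  apply Subtype.ext
  rw [SemilinearAut.coe_degZeroSMulHom, coe_cuspDiv, smul_sub, SemilinearAut.smul_single,
    SemilinearAut.smul_single, smul_cuspZero, MW.smul_cuspInf]

/-- **The order of the cuspidal class is not one** unless the genus is zero. -/
theorem cuspClass_ne_zero (h : p ∉ ({2, 3, 5, 7, 13} : Finset ℕ)) : cuspClass p ≠ 0 := by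
  intro h0
  rw [cuspClass, mk_eq_zero_iff, Deuring.isPrincipal_iff] at h0
  obtain ⟨f, hf, hD⟩ := h0
  have h1 : (RR.div (f ^ (p - 1)) : Divisor 𝕂 (modularFunctionFieldBar p)) =
      RR.div (uF p) := by
    rw [Deuring.div_pow, ← hD, div_uF, coe_cuspDiv, ← natCast_zsmul,
      Nat.cast_sub hp.out.one_le, Nat.cast_one]
  obtain ⟨κ, hκ, hfu⟩ := Deuring.exists_const_of_div_eq (pow_ne_zero _ hf) (uF_ne_zero p) h1
  have h2 := congrArg (algebraMap (modularFunctionFieldBar p) (LaurentSeries 𝕂)) hfu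
  rw [map_pow, Algebra.smul_def, map_mul] at h2
  have h3 : p - 1 ∣ 24 := dvd_of_pow_eq (f := (f : LaurentSeries 𝕂)) f.2 hκ h2
  have h4 : p - 1 ≤ 24 := Nat.le_of_dvd (by norm_num) h3
  have h5 : p ≤ 25 := by omega
  have h6 := hp.out
  interval_cases p <;> revert h h3 h6 <;> decide

end Fermat.Agent.MazurCusp
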