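import Fermat.Agent.Mazur.CuspClass
import Fermat.Agent.Igusa.Degree
import Fermat.Agent.TEll.Gauss
import Fermat.Agent.EC.RedFrob

/-!
# The cuspidal class of `X₀(p)` in residue characteristic `ℓ ∣ p − 1`

The modular unit `Δ(q)/Δ(q^p)` is not an `ℓ`-th power in characteristic `ℓ ≥ 5`, `ℓ ∣ p − 1`;
hence the reduction of the cuspidal class has order divisible by `ℓ`.
-/

set_option autoImplicit false

noncomputable section

open ModularCurve AlgebraicCurve HahnSeries Fermat.Agent.TEll Fermat.Agent.X0Emb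
  Fermat.Agent.Moduli Fermat.Agent.S28aux

namespace Fermat.Agent.MazurCusp

section Series

variable {k : Type*} [Field k] {ℓ p : ℕ} [hℓ : Fact ℓ.Prime] [CharP k ℓ] [hp : Fact p.Prime]

/-- `Δ(q)/Δ(q^p)` is not an `ℓ`-th power in characteristic `ℓ ≥ 5`, `ℓ ∣ p − 1`. -/
theorem pow_ne_uSer (h5 : 5 ≤ ℓ) (hdvd : ℓ ∣ p - 1) (h : LaurentSeries k) {κ : k} (hκ : κ ≠ 0) :
    h ^ ℓ ≠ algebraMap k (LaurentSeries k) κ * uSer p k := by
  intro e
  have hp2 := hp.out.two_le
  have h1 : (h ^ ℓ).coeff (2 - (p : ℤ)) =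
    (algebraMap k (LaurentSeries k) κ * uSer p k).coeff (2 - (p : ℤ)) := by rw [e]
  rw [← qExpand_coeffMap_frobenius ℓ h, qExpand_coeff_of_not_dvd, uSer_eq,
    algebraMap_laurentSeries_eq_single, ← mul_assoc, HahnSeries.single_mul_single, zero_add,
    mul_one, HahnSeries.coeff_single_mul,
    show (2 - (p : ℤ) - (1 - (p : ℤ))) = ((1 : ℕ) : ℤ) by push_cast; ring,
    HahnSeries.ofPowerSeries_apply_coeff, PowerSeries.coeff_map, coeff_one_uPS p hp2] at h1
  · have h2 : (Int.castRingHom k) (-24) = 0 := by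
      rcases mul_eq_zero.mp h1.symm with h | h
      · exact absurd h hκ
      · exact h
    have h3 : ((24 : ℕ) : k) = 0 := by
      have : ((24 : ℕ) : k) = -((Int.castRingHom k) (-24)) := by simp
      rw [this, h2, neg_zero]
    have h4 : ℓ ∣ 24 := (CharP.cast_eq_zero_iff k ℓ 24).mp h3
    have h5' : ℓ ≤ 24 := Nat.le_of_dvd (by norm_num) h4
    have h6 := hℓ.out
    interval_cases ℓ <;> revert h4 h6 <;> decide
  · intro hd
    obtain ⟨c, hc⟩ := hdvd
    have h2 : ((ℓ : ℕ) : ℤ) ∣ 1 := by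
      have h3 : (p : ℤ) = ℓ * c + 1 := by
        have : p = ℓ * c + 1 := by omega
        exact_mod_cast this
      have h4 : (2 : ℤ) - p = 1 - ℓ * c := by rw [h3]; ring
      rw [h4] at hd
      have := dvd_add hd (Dvd.intro (c : ℤ) rfl)
      simpa using this
    have h3 := Int.le_of_dvd one_pos h2
    omega

end Series

section Field

theorem isFF_full (k : Type*) [Field k] (N : ℕ) [NeZero N] (hN : (N : k) ≠ 0) :
    FF.IsFF k (modularFunctionFieldFullC k N) := by
  have h := Igusa.finrank_full k N hN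
  have hpos := dedekindPsi_pos N
  have hfd : FiniteDimensional (IntermediateField.adjoin k
      {(⟨jqModC k, jqModC_mem_full k N⟩ : modularFunctionFieldFullC k N)})
      (modularFunctionFieldFullC k N) := by
    apply FiniteDimensional.of_finrank_pos
    rw [h]
    exact hpos
  refine FF.IsFF.of_finite (x := (⟨jqModC k, jqModC_mem_full k N⟩ :
    modularFunctionFieldFullC k N)) ?_
  exact Igusa.transcendental_coe _ _ (Igusa.transcendental_jq k)

theorem isPrincipal_of_gcd {k : Type*} [Field k] {F : Type*} [Field F] [Algebra k F]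
    {D : Divisor k F} {a b : ℤ}
    (ha : (a • D).IsPrincipal) (hb : (b • D).IsPrincipal) {c : ℤ} (hc : (Int.gcd a b : ℤ) ∣ c) :
    (c • D).IsPrincipal := by
  have ha' : a • D ∈ Divisor.principal (K := k) (F := F) := ha
  have hb' : b • D ∈ Divisor.principal (K := k) (F := F) := hb
  obtain ⟨d, rfl⟩ := hc
  have h1 : (Int.gcd a b : ℤ) * d = (a.gcdA b * d) * a + (a.gcdB b * d) * b := by
    rw [Int.gcd_eq_gcd_ab]; ring
  change (_ : ℤ) • D ∈ Divisor.principal (K := k) (F := F)
  rw [h1, add_smul, mul_smul _ a, mul_smul _ b]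
  exact add_mem (AddSubgroup.zsmul_mem _ ha' _) (AddSubgroup.zsmul_mem _ hb' _)

variable {k : Type*} [Field k] [IsAlgClosed k] {ℓ p : ℕ} [hℓ : Fact ℓ.Prime] [CharP k ℓ]
  [hp : Fact p.Prime]

/-- If the divisor of `Δ(q)/Δ(q^p)` is `(p − 1) D` in characteristic `ℓ ≥ 5`, `ℓ ∣ p − 1`, then
`n D` is not principal for `n` prime to `ℓ`. -/
theorem not_isPrincipal_of_div (h5 : 5 ≤ ℓ) (hdvd : ℓ ∣ p - 1)
    {F : IntermediateField k (LaurentSeries k)} [FF.IsFF k F] {D : Divisor k F} {u : F}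
    (hu : (u : LaurentSeries k) = uSer p k) (hD : (RR.div u : Divisor k F) = (p - 1 : ℤ) • D)
    {n : ℤ} (hn : ¬ (ℓ : ℤ) ∣ n) : ¬ (n • D).IsPrincipal := by
  intro h
  have hp2 := hp.out.two_le
  have hu0 : u ≠ 0 := by
    rintro rfl
    exact uSer_ne_zero p k (by rw [← hu]; rfl)
  obtain ⟨m, hm⟩ := hdvd
  have hm' : (p - 1 : ℤ) = ℓ * m := by
    have : p = ℓ * m + 1 := by omega
    rw [this]; push_cast; ring
  have h1 : (((p : ℤ) - 1) • D).IsPrincipal := by
    rw [← hD]; exact Deuring.isPrincipal_div hu0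
  have h2 : ((m : ℤ) • D).IsPrincipal := by
    refine isPrincipal_of_gcd h h1 ?_
    rw [hm']
    have hc : IsCoprime (Int.gcd n (ℓ * m) : ℤ) (ℓ : ℤ) := by
      have h3 : IsCoprime n (ℓ : ℤ) := by
        rw [isCoprime_comm]
        exact (Prime.coprime_iff_not_dvd (Nat.prime_iff_prime_int.mp hℓ.out)).mpr hn
      exact h3.of_isCoprime_of_dvd_left (Int.gcd_dvd_left _ _)
    exact hc.dvd_of_dvd_mul_left (Int.gcd_dvd_right _ _)
  obtain ⟨f, hf, hfD⟩ := Deuring.isPrincipal_iff.mp h2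
  have h3 : (RR.div (f ^ ℓ) : Divisor k F) = RR.div u := by
    rw [Deuring.div_pow, ← hfD, hD, hm', ← natCast_zsmul, smul_smul]
  obtain ⟨κ, hκ, hfu⟩ := Deuring.exists_const_of_div_eq (pow_ne_zero _ hf) hu0 h3
  have h4 := congrArg (algebraMap F (LaurentSeries k)) hfu
  rw [map_pow, Algebra.smul_def, map_mul] at h4
  refine pow_ne_uSer (k := k) (p := p) h5 ⟨m, hm⟩ (f : LaurentSeries k) hκ ?_
  rw [← hu]
  exact h4

end Field

section Unit

variable (k : Type*) [Field k] (p : ℕ) [hp : Fact p.Prime]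

/-- `Δ(q)/Δ(q^p)` lies in the function field of `X₀(p)` in characteristic prime to `p`. -/
theorem uSer_mem_full (hpk : (p : k) ≠ 0) : uSer p k ∈ modularFunctionFieldFullC k p := by
  have h := inv_mem (Igusa.deltaRatio_mem k p p dvd_rfl hpk)
  have e : (qExpand k p (deltaC k) * deltaInvC k)⁻¹ = uSer p k := by
    rw [uSer, mul_inv, S28aux.deltaInvC_eq, ← map_inv₀, inv_inv, mul_comm, ← S28aux.deltaInvC_eq]
  rwa [e] at h

end Unit

section Reduction

local notation "𝕂" => AlgebraicClosure ℚ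

variable {p : ℕ} [hp : Fact p.Prime] {A : ValuationSubring (AlgebraicClosure ℚ)}
  {k : Type*} [Field k] {π : A →+* k}

/-- the divisor of `Δ(q)/Δ(q^p)` on the special fibre -/
theorem div_uSer_residue (hpk : (p : k) ≠ 0) [FF.IsFF k (modularFunctionFieldFullC k p)]
    {r : Place 𝕂 (modularFunctionFieldBar p) → Place k (modularFunctionFieldFullC k p)}
    (hr : IsPlaceReductionAlong A π p r) :
    (RR.div (⟨uSer p k, uSer_mem_full k p hpk⟩ : modularFunctionFieldFullC k p) :
        Divisor k (modularFunctionFieldFullC k p)) =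
      (p - 1 : ℤ) • (Finsupp.single (r (cuspZero p)) 1 - Finsupp.single (r (MW.cuspInf p)) 1) := by
  have e1 : coeffMap A.subtype (uSer p A) = uSer p 𝕂 := coeffMap_uSer p A.subtype
  have e2 : coeffMap π (uSer p A) = uSer p k := coeffMap_uSer p _
  have hy : coeffMap A.subtype (uSer p A) ∈ laurentBaseChange 𝕂 (modularFunctionFieldFull p) := by
    rw [e1]; exact uSer_mem p
  have hyk : coeffMap π (uSer p A) ∈ modularFunctionFieldFullC k p := by
    rw [e2]; exact uSer_mem_full _ p hpk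
  have h := hr.2 (uSer p A) hy hyk (by rw [e2]; exact uSer_ne_zero p _) (RR.div (uF p))
    (fun P => by
      rw [RR.div_apply]
      congr 1
      exact Subtype.ext e1.symm)
  ext Q
  rw [RR.div_apply]
  have h2 := h Q
  have e3 : (⟨coeffMap π (uSer p A), hyk⟩ : modularFunctionFieldFullC k p) =
      ⟨uSer p k, uSer_mem_full k p hpk⟩ := Subtype.ext e2
  rw [e3] at h2
  rw [← h2, div_uF, ← Finsupp.mapDomain.addMonoidHom_apply, map_zsmul, map_sub,
    Finsupp.mapDomain.addMonoidHom_apply, Finsupp.mapDomain.addMonoidHom_apply,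
    Finsupp.mapDomain_single, Finsupp.mapDomain_single]

/-- **The cuspidal class modulo `ℓ`**: if `ℓ ≥ 5` divides `p − 1`, multiples of the reduction of
`(0) − (∞)` by integers prime to `ℓ` are not principal. -/
theorem not_isPrincipal_reduction_along [IsAlgClosed k] {ℓ : ℕ} (hℓ : ℓ.Prime) [CharP k ℓ]
    (h5 : 5 ≤ ℓ) (hdvd : ℓ ∣ p - 1)
    {r : Place 𝕂 (modularFunctionFieldBar p) → Place k (modularFunctionFieldFullC k p)}
    (hr : IsPlaceReductionAlong A π p r) {n : ℤ} (hn : ¬ (ℓ : ℤ) ∣ n) :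
    ¬ (n • (Finsupp.single (r (cuspZero p)) 1 - Finsupp.single (r (MW.cuspInf p)) 1 :
      Divisor k (modularFunctionFieldFullC k p))).IsPrincipal := by
  have := Fact.mk hℓ
  have hp2 := hp.out.two_le
  have hpk : (p : k) ≠ 0 := by
    intro h
    have h1 := (CharP.cast_eq_zero_iff k ℓ p).mp h
    have h2 : ℓ ∣ 1 := by
      have : p = (p - 1) + 1 := by omega
      rw [this] at h1
      exact (Nat.dvd_add_right hdvd).mp h1
    exact hℓ.one_lt.ne' (Nat.dvd_one.mp h2)
  have := isFF_full k p hpk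
  exact not_isPrincipal_of_div (p := p) h5 hdvd rfl (div_uSer_residue hpk hr) hn

theorem smul_reductionAlong_cuspClass_ne_zero [IsAlgClosed k] {ℓ : ℕ} (hℓ : ℓ.Prime) [CharP k ℓ]
    (h5 : 5 ≤ ℓ) (hdvd : ℓ ∣ p - 1) (H : ReductionInputsAlong A π p) {n : ℤ}
    (hn : ¬ (ℓ : ℤ) ∣ n) : n • reductionAlong A π p (cuspClass p) ≠ 0 := by
  intro h
  rw [cuspClass, reductionAlong_mk H] at h
  have e : n • Pic0.mk (reductionDegZeroAlong H.choose H.choose_spec.1.1 (cuspDiv p)) =
      Pic0.mk (n • reductionDegZeroAlong H.choose H.choose_spec.1.1 (cuspDiv p)) := rfl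
  rw [e, mk_eq_zero_iff, AddSubgroupClass.coe_zsmul, coe_reductionDegZeroAlong, coe_cuspDiv,
    ← Finsupp.mapDomain.addMonoidHom_apply, map_sub,
    Finsupp.mapDomain.addMonoidHom_apply, Finsupp.mapDomain.addMonoidHom_apply,
    Finsupp.mapDomain_single, Finsupp.mapDomain_single] at h
  exact not_isPrincipal_reduction_along hℓ h5 hdvd H.choose_spec.1 hn h

end Reduction

section ModL

local notation "𝕂" => AlgebraicClosure ℚ

variable {p : ℕ} [hp : Fact p.Prime] {A : ValuationSubring (AlgebraicClosure ℚ)}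

set_option synthInstance.maxHeartbeats 400000 in
/-- **The cuspidal class modulo `ℓ`**: if `ℓ ≥ 5` divides `p − 1`, then the reduction modulo `ℓ`
of the cuspidal class has order divisible by `ℓ`. -/
theorem smul_reductionModL_cuspClass_ne_zero {ℓ : ℕ} (hℓ : ℓ.Prime) (hA : A.LiesOverPrime ℓ)
    (h5 : 5 ≤ ℓ) (hdvd : ℓ ∣ p - 1) (H : ReductionInputsModL A p) {n : ℤ}
    (hn : ¬ (ℓ : ℤ) ∣ n) : n • reductionModL A p (cuspClass p) ≠ 0 := by
  have := Fact.mk hℓ
  have := charP_residueField A ℓ hA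
  exact smul_reductionAlong_cuspClass_ne_zero hℓ h5 hdvd H hn

set_option synthInstance.maxHeartbeats 400000 in
theorem not_isPrincipal_reductionModL {ℓ : ℕ} (hℓ : ℓ.Prime) (hA : A.LiesOverPrime ℓ)
    (h5 : 5 ≤ ℓ) (hdvd : ℓ ∣ p - 1) (H : ReductionInputsModL A p) {n : ℤ}
    (hn : ¬ (ℓ : ℤ) ∣ n) :
    ¬ (n • (Finsupp.single (placeReductionModL H (cuspZero p)) 1 -
      Finsupp.single (placeReductionModL H (MW.cuspInf p)) 1 :
      Divisor (IsLocalRing.ResidueField A)
        (modularFunctionFieldFullC (IsLocalRing.ResidueField A) p))).IsPrincipal := by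
  have := Fact.mk hℓ
  have := charP_residueField A ℓ hA
  exact not_isPrincipal_reduction_along hℓ h5 hdvd
    (isPlaceReductionModL_placeReductionModL H) hn

end ModL

end Fermat.Agent.MazurCusp
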