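import Fermat.Agent.Frob.Exists
import Mathlib.GroupTheory.PGroup
import Mathlib.RingTheory.RootsOfUnity.AlgebraicallyClosed
import Mathlib.GroupTheory.SpecificGroups.Cyclic

/-!
# Simple Eisenstein modules
-/

set_option autoImplicit false

namespace Fermat.Agent.Mazur

open Fermat.Agent.Frob

section roots

variable {q : ℕ}

/-- `g` acts on the `q`-th roots of unity by the exponent `k`. -/
def ActsBy (q : ℕ) (g : GQ) (k : ℕ) : Prop :=
  ∀ ζ : AlgebraicClosure ℚ, ζ ^ q = 1 → g ζ = ζ ^ k

lemma exists_prim (hq : q.Prime) : ∃ ζ : AlgebraicClosure ℚ, IsPrimitiveRoot ζ q := by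
  have hne : NeZero q := ⟨hq.ne_zero⟩
  have hne' : NeZero (q : AlgebraicClosure ℚ) := ⟨by exact_mod_cast hq.ne_zero⟩
  exact HasEnoughRootsOfUnity.exists_primitiveRoot (AlgebraicClosure ℚ) q

lemma ActsBy.mul {g h : GQ} {k l : ℕ} (hg : ActsBy q g k) (hh : ActsBy q h l) :
    ActsBy q (g * h) (k * l) := by
  intro ζ hζ
  change g (h ζ) = _
  rw [hh ζ hζ, map_pow, hg ζ hζ, ← pow_mul]

lemma ActsBy.congr (hq : q.Prime) {g : GQ} {k l : ℕ} (hk : ActsBy q g k) (hl : ActsBy q g l) :
    k ≡ l [MOD q] := by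
  obtain ⟨ζ, hζ⟩ := exists_prim hq
  have h1 : ζ ^ k = ζ ^ l := by rw [← hk ζ hζ.pow_eq_one, ← hl ζ hζ.pow_eq_one]
  let u : (AlgebraicClosure ℚ)ˣ := Units.mk0 ζ (hζ.ne_zero hq.ne_zero)
  have hu : IsPrimitiveRoot u q := IsPrimitiveRoot.coe_units_iff.mp hζ
  have h2 : u ^ k = u ^ l := Units.ext h1
  rw [hu.eq_orderOf]
  exact pow_eq_pow_iff_modEq.mp h2

end roots

section simple

variable {q : ℕ} {Q : Type*} [AddCommGroup Q] [DistribMulAction GQ Q]

omit [DistribMulAction GQ Q] in
lemma nsmul_congr_of_modEq {x : Q} (hx : q • x = 0) {k l : ℕ} (h : k ≡ l [MOD q]) :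
    k • x = l • x :=
  nsmul_eq_nsmul_iff_modEq.mpr (h.of_dvd (addOrderOf_dvd_of_nsmul_eq_zero hx))

/-- A nonzero Galois module killed by `q` without proper stable subgroups on which every `g`
satisfies `(g - 1)(g - χ(g)) = 0` has order `q` and is either trivial or `μ_q`. -/
theorem simple_eisenstein (hq : q.Prime) [Finite Q] [Nontrivial Q]
    (hsimple : ∀ S : AddSubgroup Q, (∀ (g : GQ), ∀ x ∈ S, g • x ∈ S) → S = ⊥ ∨ S = ⊤)
    (hqQ : ∀ x : Q, q • x = 0)
    (hE : ∀ g : GQ, ∃ k : ℕ, ActsBy q g k ∧ ∀ x : Q, g • g • x - (k + 1) • g • x + k • x = 0) :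
    (∃ x₀ : Q, x₀ ≠ 0 ∧ ∀ x : Q, ∃ n : ℕ, x = n • x₀) ∧
      ((∀ (g : GQ) (x : Q), g • x = x) ∨
        (∀ (g : GQ) (k : ℕ), ActsBy q g k → ∀ x : Q, g • x = k • x)) := by
  classical
  choose κ hκ hκE using hE
  -- elements acting trivially on `μ_q` act trivially
  have huni : ∀ g : GQ, ActsBy q g 1 → ∀ x : Q, g • (g • x - x) = g • x - x := by
    intro g hg x
    have h1 := hκE g x
    have h2 : κ g ≡ 1 [MOD q] := (hκ g).congr hq hg
    rw [nsmul_congr_of_modEq (hqQ _) (h2.add_right 1), nsmul_congr_of_modEq (hqQ _) h2] at h1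
    rw [smul_sub, ← sub_eq_zero]
    have h3 : g • g • x - g • x - (g • x - x) = g • g • x - (1 + 1) • g • x + 1 • x := by
      rw [one_smul, add_smul, one_smul]; abel
    rw [h3, h1]
  have hpowq : ∀ g : GQ, ActsBy q g 1 → ∀ x : Q, (g ^ q) • x = x := by
    intro g hg x
    have h1 : ∀ j : ℕ, (g ^ j) • x = x + j • (g • x - x) := by
      intro j
      induction j with
      | zero => simp
      | succ j ih =>
        rw [pow_succ', mul_smul, ih, smul_add, smul_comm g j, huni g hg x, succ_nsmul]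
        abel
    rw [h1, hqQ, add_zero]
  let actHom : GQ →* Equiv.Perm Q := MulAction.toPermHom GQ Q
  let Hχ : Subgroup GQ := {
    carrier := {g | ActsBy q g 1}
    mul_mem' := fun {a b} ha hb => by simpa using ActsBy.mul ha hb
    one_mem' := fun ζ _ => by rw [pow_one]; rfl
    inv_mem' := fun {a} ha ζ hζ => by
      rw [pow_one]
      have := ha ζ hζ
      rw [pow_one] at this
      conv_lhs => rw [← this]
      exact a.symm_apply_apply ζ }
  have hnormal : ∀ g : GQ, ∀ h ∈ Hχ, g⁻¹ * h * g ∈ Hχ := by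
    intro g h hh ζ hζ
    have h1 : (g ζ) ^ q = 1 := by rw [← map_pow, hζ, map_one]
    have h2 := hh (g ζ) h1
    rw [pow_one] at h2 ⊢
    change g⁻¹ (h (g ζ)) = ζ
    rw [h2]
    exact g.symm_apply_apply ζ
  let Hb : Subgroup (Equiv.Perm Q) := Hχ.map actHom
  have hp : IsPGroup q Hb := by
    rintro ⟨h, g, hg, rfl⟩
    refine ⟨1, Subtype.ext ?_⟩
    apply Equiv.ext
    intro x
    rw [pow_one]
    change ((actHom g) ^ q) x = x
    rw [← map_pow]
    exact hpowq g hg x
  obtain ⟨x₁, hx₁⟩ := exists_ne (0 : Q)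
  have hcard : q ∣ Nat.card Q := by
    have h1 : addOrderOf x₁ = q := addOrderOf_eq_prime (hp := ⟨hq⟩) (hqQ x₁) hx₁
    rw [← h1]
    exact addOrderOf_dvd_natCard x₁
  have : Fact q.Prime := ⟨hq⟩
  obtain ⟨b, hb, hb0⟩ := hp.exists_fixed_point_of_prime_dvd_card_of_fixed_point Q hcard
    (a := 0) (by
      rintro ⟨h, g, hg, rfl⟩
      exact smul_zero g)
  let S : AddSubgroup Q := {
    carrier := {x | ∀ h ∈ Hχ, h • x = x}
    add_mem' := fun {a b} ha hb h hh => by rw [smul_add, ha h hh, hb h hh]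
    zero_mem' := fun h _ => smul_zero h
    neg_mem' := fun {a} ha h hh => by rw [smul_neg, ha h hh] }
  have hS : S = ⊤ := by
    rcases hsimple S (by
      intro g x hx h hh
      have h1 := hx _ (hnormal g h hh)
      rw [mul_smul, mul_smul, inv_smul_eq_iff] at h1
      exact h1) with h | h
    · exfalso
      have hbS : b ∈ S := fun h hh => hb ⟨actHom h, ⟨h, hh, rfl⟩⟩
      rw [h, AddSubgroup.mem_bot] at hbS
      exact hb0 hbS.symm
    · exact h
  have htriv : ∀ h ∈ Hχ, ∀ x : Q, h • x = x := by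
    intro h hh x
    have : x ∈ S := by rw [hS]; trivial
    exact this h hh
  have hcomm : ∀ (g h : GQ) (x : Q), g • h • x = h • g • x := by
    intro g h x
    have h1 : (h * g)⁻¹ * (g * h) ∈ Hχ := by
      intro ζ hζ
      rw [pow_one]
      change (h * g)⁻¹ ((g * h) ζ) = ζ
      have h2 : (g * h) ζ = (h * g) ζ := by
        rw [((hκ g).mul (hκ h)) ζ hζ, ((hκ h).mul (hκ g)) ζ hζ, mul_comm]
      rw [h2]
      exact (h * g).symm_apply_apply ζ
    have h3 := htriv _ h1 x
    rw [mul_smul, inv_smul_eq_iff, mul_smul, mul_smul] at h3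
    exact h3
  have hdich : (∀ (g : GQ) (x : Q), g • x = x) ∨
        (∀ (g : GQ) (k : ℕ), ActsBy q g k → ∀ x : Q, g • x = k • x) := by
    by_cases hall : ∀ (g : GQ) (x : Q), g • x = x
    · exact Or.inl hall
    · right
      have hinj : ∀ g : GQ, (∃ x : Q, g • x ≠ x) → ∀ x : Q, g • x = κ g • x := by
        rintro g ⟨y, hy⟩ x
        let F : AddSubgroup Q := {
          carrier := {x | g • x = x}
          add_mem' := fun {a b} ha hb => by
            change g • (a + b) = a + b
            rw [smul_add, ha, hb]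
          zero_mem' := smul_zero g
          neg_mem' := fun {a} ha => by
            change g • (-a) = -a
            rw [smul_neg, ha] }
        have hF : F = ⊥ := by
          rcases hsimple F (by
            intro h x hx
            change g • h • x = h • x
            rw [hcomm g h x]
            exact congrArg (fun z => h • z) hx) with h | h
          · exact h
          · exfalso
            have : y ∈ F := by rw [h]; trivial
            exact hy this
        have h1 : g • x - κ g • x ∈ F := by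
          change g • (g • x - κ g • x) = g • x - κ g • x
          have h2 := hκE g x
          rw [smul_sub, smul_comm g (κ g), ← sub_eq_zero]
          rw [← h2, add_smul, one_smul]; abel
        rw [hF, AddSubgroup.mem_bot, sub_eq_zero] at h1
        exact h1
      push Not at hall
      obtain ⟨g₁, y, hy⟩ := hall
      have hg₁ := hinj g₁ ⟨y, hy⟩
      have hkey : ∀ g : GQ, ∀ x : Q, g • x = κ g • x := by
        intro g x
        by_cases hg : ∃ x : Q, g • x ≠ x
        · exact hinj g hg x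
        · push Not at hg
          have h1 := hinj (g * g₁) ⟨y, by rw [mul_smul, hg]; exact hy⟩ x
          have h2 : κ (g * g₁) ≡ κ g * κ g₁ [MOD q] := (hκ _).congr hq ((hκ g).mul (hκ g₁))
          rw [mul_smul, hg, nsmul_congr_of_modEq (hqQ _) h2, mul_smul, ← hg₁, ← smul_comm g₁,
            smul_left_cancel_iff] at h1
          rw [hg]
          exact h1
      intro g k hk x
      rw [hkey g x]
      exact nsmul_congr_of_modEq (hqQ x) ((hκ g).congr hq hk)
  refine ⟨⟨x₁, hx₁, ?_⟩, hdich⟩
  have hz : AddSubgroup.zmultiples x₁ = ⊤ := by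
    rcases hsimple (AddSubgroup.zmultiples x₁) (by
      rintro g x hx
      rcases hdich with h | h
      · rw [h]; exact hx
      · rw [h g _ (hκ g)]
        exact (AddSubgroup.zmultiples x₁).nsmul_mem hx _) with h | h
    · exfalso
      have : x₁ ∈ AddSubgroup.zmultiples x₁ := AddSubgroup.mem_zmultiples x₁
      rw [h, AddSubgroup.mem_bot] at this
      exact hx₁ this
    · exact h
  intro x
  have hx : x ∈ AddSubgroup.zmultiples x₁ := by rw [hz]; trivial
  rw [← mem_multiples_iff_mem_zmultiples] at hx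
  obtain ⟨n, hn⟩ := hx
  exact ⟨n, hn.symm⟩

end simple

end Fermat.Agent.Mazur
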