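import Fermat.Agent.Mazur.Sel
import Fermat.Agent.Mazur.Simple
import Fermat.Agent.Frob.Density

/-!
# Dévissage of Eisenstein modules
-/

set_option autoImplicit false

namespace Fermat.Agent.Mazur

open Fermat.Agent.Frob

section actions

variable {Γ G : Type*} [Group Γ] [AddCommGroup G] [DistribMulAction Γ G]

/-- the action on a stable subgroup -/
@[reducible] def subAction (W : AddSubgroup G) (hW : ∀ (g : Γ), ∀ x ∈ W, g • x ∈ W) :
    DistribMulAction Γ W where
  smul g w := ⟨g • (w : G), hW g w w.2⟩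
  one_smul w := Subtype.ext (one_smul Γ (w : G))
  mul_smul g h w := Subtype.ext (mul_smul g h (w : G))
  smul_zero g := Subtype.ext (smul_zero g)
  smul_add g v w := Subtype.ext (smul_add g (v : G) (w : G))

/-- the action on a quotient by a stable subgroup -/
@[reducible] def quotAction (K : AddSubgroup G) (hK : ∀ (g : Γ), ∀ x ∈ K, g • x ∈ K) :
    DistribMulAction Γ (G ⧸ K) where
  smul g := QuotientAddGroup.map K K (DistribSMul.toAddMonoidHom G g) (fun x hx => hK g x hx)
  one_smul x := by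
    obtain ⟨x, rfl⟩ := QuotientAddGroup.mk_surjective x
    exact congrArg QuotientAddGroup.mk (one_smul Γ x)
  mul_smul g h x := by
    obtain ⟨x, rfl⟩ := QuotientAddGroup.mk_surjective x
    exact congrArg QuotientAddGroup.mk (mul_smul g h x)
  smul_zero g := map_zero _
  smul_add g x y := map_add _ x y

end actions

variable {G : Type*} [AddCommGroup G] [DistribMulAction GQ G] {q : ℕ}

theorem piece (hq : q.Prime) [Finite G] {K W : AddSubgroup G} (hKW : K < W)
    (hK : ∀ (g : GQ), ∀ x ∈ K, g • x ∈ K) (hW : ∀ (g : GQ), ∀ x ∈ W, g • x ∈ W)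
    (hmin : ∀ S : AddSubgroup G, (∀ (g : GQ), ∀ x ∈ S, g • x ∈ S) → K ≤ S → S ≤ W →
      S = K ∨ S = W)
    (hqW : ∀ x ∈ W, q • x ∈ K)
    (hE : ∀ g : GQ, ∃ k : ℕ, ActsBy q g k ∧
      ∀ x ∈ W, g • g • x - (k + 1) • g • x + k • x ∈ K) :
    IsTrivPiece q K W ∨ IsMuPiece q K W := by
  classical
  let _ : DistribMulAction GQ W := subAction W hW
  let K' : AddSubgroup W := K.addSubgroupOf W
  let _ : DistribMulAction GQ (W ⧸ K') := quotAction K' (fun g x hx => hK g x hx)
  let mk : W →+ W ⧸ K' := QuotientAddGroup.mk' K'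
  have hmk : ∀ w : W, mk w = 0 ↔ (w : G) ∈ K := by
    intro w
    change (QuotientAddGroup.mk' K') w = 0 ↔ _
    rw [QuotientAddGroup.mk'_apply, QuotientAddGroup.eq_zero_iff]
    rfl
  have hsm : ∀ (g : GQ) (w : W), g • mk w = mk (g • w) := fun g w => rfl
  have hsurj : Function.Surjective mk := QuotientAddGroup.mk'_surjective K'
  obtain ⟨w₀, hw₀W, hw₀K⟩ := SetLike.exists_of_lt hKW
  have hnt : Nontrivial (W ⧸ K') := ⟨mk ⟨w₀, hw₀W⟩, 0, by
    rw [Ne, hmk]; exact hw₀K⟩
  obtain ⟨⟨x₀, hx₀, hgen⟩, hdich⟩ := simple_eisenstein (Q := W ⧸ K') hq (by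
    intro S hS
    let S' : AddSubgroup G := (S.comap mk).map W.subtype
    have hS'mem : ∀ w : W, (w : G) ∈ S' ↔ mk w ∈ S := by
      intro w
      constructor
      · rintro ⟨w', hw', h⟩
        have : w' = w := Subtype.ext h
        rw [← this]; exact hw'
      · intro h
        exact ⟨w, h, rfl⟩
    have hS'W : S' ≤ W := by
      rintro _ ⟨w, -, rfl⟩
      exact w.2
    rcases hmin S' (by
      intro g x hx
      have hxW := hS'W hx
      have h1 := (hS'mem ⟨x, hxW⟩).mp hx
      exact (hS'mem (g • (⟨x, hxW⟩ : W))).mpr (hS g _ h1)) (by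
      intro x hx
      have := (hS'mem ⟨x, hKW.le hx⟩).mpr (by
        rw [(hmk _).mpr hx]; exact S.zero_mem)
      exact this) hS'W with h | h
    · left
      rw [eq_bot_iff]
      intro x hx
      obtain ⟨w, rfl⟩ := hsurj x
      rw [AddSubgroup.mem_bot, hmk, ← h]
      exact (hS'mem w).mpr hx
    · right
      rw [eq_top_iff]
      intro x _
      obtain ⟨w, rfl⟩ := hsurj x
      rw [← hS'mem, h]
      exact w.2) (by
    intro x
    obtain ⟨w, rfl⟩ := hsurj x
    rw [← map_nsmul, hmk]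
    exact hqW w w.2) (by
    intro g
    obtain ⟨k, hk, hkx⟩ := hE g
    refine ⟨k, hk, fun x => ?_⟩
    obtain ⟨w, rfl⟩ := hsurj x
    rw [hsm, hsm, ← map_nsmul, ← map_nsmul, ← map_sub, ← map_add, hmk]
    exact hkx w w.2)
  -- the order of `x₀`
  have hqx : ∀ x : W ⧸ K', q • x = 0 := by
    intro x
    obtain ⟨w, rfl⟩ := hsurj x
    rw [← map_nsmul, hmk]
    exact hqW w w.2
  have hord : addOrderOf x₀ = q := addOrderOf_eq_prime (hp := ⟨hq⟩) (hqx x₀) hx₀
  have hne : NeZero q := ⟨hq.ne_zero⟩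
  let e : ZMod q →+ W ⧸ K' := ZMod.lift q ⟨(zmultiplesHom _) x₀, by
    rw [zmultiplesHom_apply, natCast_zsmul]; exact hqx x₀⟩
  have he : ∀ n : ℕ, e (n : ZMod q) = n • x₀ := by
    intro n
    have h : e ((n : ℤ) : ZMod q) = (n : ℤ) • x₀ := by
      simp only [e, ZMod.lift_coe]
      rfl
    rw [Int.cast_natCast, natCast_zsmul] at h
    exact h
  have hebij : Function.Bijective e := by
    constructor
    · rw [injective_iff_map_eq_zero]
      intro a ha
      rw [← ZMod.natCast_zmod_val a, he] at ha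
      have h1 := addOrderOf_dvd_of_nsmul_eq_zero ha
      rw [hord] at h1
      rw [← ZMod.natCast_zmod_val a]
      exact (ZMod.natCast_eq_zero_iff _ _).mpr h1
    · intro x
      obtain ⟨n, rfl⟩ := hgen x
      exact ⟨n, he n⟩
  let E : ZMod q ≃+ W ⧸ K' := AddEquiv.ofBijective e hebij
  rcases hdich with htriv | hmu
  · left
    refine ⟨E.symm.toAddMonoidHom.comp mk, fun g => ?_, fun σ g g' h => ?_⟩
    · change E.symm (mk g) = 0 ↔ _
      rw [EmbeddingLike.map_eq_zero_iff, hmk]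
    · change E.symm (mk g') = E.symm (mk g)
      congr 1
      have : g' = σ • g := Subtype.ext h
      rw [this, ← hsm, htriv]
  · right
    obtain ⟨ζ, hζ⟩ := exists_prim hq
    let z : Qbx := Units.mk0 ζ (hζ.ne_zero hq.ne_zero)
    have hz : IsPrimitiveRoot z q := IsPrimitiveRoot.coe_units_iff.mp hζ
    let f : ZMod q →+ Additive Qbx := ZMod.lift q ⟨(zmultiplesHom _) (Additive.ofMul z), by
      rw [zmultiplesHom_apply, natCast_zsmul]
      change Additive.ofMul (z ^ q) = 0
      rw [hz.pow_eq_one]; rfl⟩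
    have hf : ∀ n : ℕ, f (n : ZMod q) = Additive.ofMul (z ^ n) := by
      intro n
      have h : f ((n : ℤ) : ZMod q) = Additive.ofMul (z ^ (n : ℤ)) := by
        simp only [f, ZMod.lift_coe]
        rfl
      rw [Int.cast_natCast, zpow_natCast] at h
      exact h
    have hf0 : ∀ a, f a = 0 ↔ a = 0 := by
      intro a
      constructor
      · intro h
        rw [← ZMod.natCast_zmod_val a, hf] at h
        have h1 : z ^ a.val = 1 := Additive.ofMul.injective h
        have h2 := hz.dvd_of_pow_eq_one _ h1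
        rw [← ZMod.natCast_zmod_val a]
        exact (ZMod.natCast_eq_zero_iff _ _).mpr h2
      · rintro rfl
        exact map_zero f
    refine ⟨f.comp (E.symm.toAddMonoidHom.comp mk), fun g => ?_, fun g => ?_, fun σ g g' h => ?_⟩
    · change f (E.symm (mk g)) = 0 ↔ _
      rw [hf0, EmbeddingLike.map_eq_zero_iff, hmk]
    · change q • f (E.symm (mk g)) = 0
      rw [← map_nsmul]
      have : q • E.symm (mk g) = 0 := by
        rw [← map_nsmul, hqx, map_zero]
      rw [this, map_zero]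
    · change (f (E.symm (mk g'))).toMul = σ • (f (E.symm (mk g))).toMul
      obtain ⟨k, hk, -⟩ := hE σ
      have h1 : mk g' = k • mk g := by
        have : g' = σ • g := Subtype.ext h
        rw [this, ← hsm, hmu σ k hk]
      obtain ⟨n, hn⟩ : ∃ n : ℕ, E.symm (mk g) = n := ⟨(E.symm (mk g)).val, by
        rw [ZMod.natCast_zmod_val]⟩
      rw [h1, map_nsmul, map_nsmul, toMul_nsmul, hn, hf, toMul_ofMul]
      apply Units.ext
      rw [coe_smul_unit, Units.val_pow_eq_pow_val, Units.val_pow_eq_pow_val]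
      change _ = σ (ζ ^ n)
      rw [hk (ζ ^ n) (by rw [← pow_mul, mul_comm, pow_mul, hζ.pow_eq_one, one_pow])]
      rfl

/-- extension of a dévissage -/
theorem IsDevissable.extend (hq : q.Prime) [Finite G] {H H' : AddSubgroup G}
    (hH : IsDevissable q H) (hHH' : H ≤ H') (hHst : ∀ (g : GQ), ∀ x ∈ H, g • x ∈ H)
    (hst : ∀ (g : GQ), ∀ x ∈ H', g • x ∈ H')
    (hqW : ∀ x ∈ H', q • x ∈ H)
    (hE : ∀ g : GQ, ∃ k : ℕ, ActsBy q g k ∧
      ∀ x ∈ H', g • g • x - (k + 1) • g • x + k • x ∈ H) :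
    IsDevissable q H' := by
  classical
  -- a maximal dévissable subgroup
  let 𝒮 : Set (AddSubgroup G) := {K | H ≤ K ∧ K ≤ H' ∧ (∀ (g : GQ), ∀ x ∈ K, g • x ∈ K) ∧
    IsDevissable q K}
  have hfin : 𝒮.Finite := Set.toFinite _
  obtain ⟨K, hK⟩ := hfin.exists_maximal ⟨H, le_refl H, hHH', hHst, hH⟩
  obtain ⟨⟨hHK, hKH', hKst, hKd⟩, hKmax⟩ := hK
  by_cases hKeq : K = H'
  · rw [← hKeq]; exact hKd
  exfalso
  have hlt : K < H' := lt_of_le_of_ne hKH' hKeq
  let 𝒯 : Set (AddSubgroup G) := {W | K < W ∧ W ≤ H' ∧ (∀ (g : GQ), ∀ x ∈ W, g • x ∈ W)}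
  have hfin' : 𝒯.Finite := Set.toFinite _
  obtain ⟨W, hW⟩ := hfin'.exists_minimal ⟨H', hlt, le_refl H', hst⟩
  obtain ⟨⟨hKW, hWH', hWst⟩, hWmin⟩ := hW
  have hp := piece hq hKW hKst hWst (by
    intro S hS hKS hSW
    by_cases h : S = K
    · exact Or.inl h
    · right
      have hKS' : K < S := lt_of_le_of_ne hKS (Ne.symm h)
      exact le_antisymm hSW (hWmin ⟨hKS', hSW.trans hWH', hS⟩ hSW)) (by
    intro x hx
    exact hHK (hqW x (hWH' hx))) (by
    intro g
    obtain ⟨k, hk, hkx⟩ := hE g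
    exact ⟨k, hk, fun x hx => hHK (hkx x (hWH' hx))⟩)
  have hWd : IsDevissable q W := IsDevissable.cons hKd hKW.le hWst hp
  have := hKmax ⟨hHK.trans hKW.le, hWH', hWst, hWd⟩ hKW.le
  exact absurd this (not_le_of_gt hKW)

end Fermat.Agent.Mazur
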