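import Mathlib

/-!
# Half-dimensionality in quadratic representations

Let `V` be a finite dimensional representation of a group `G` over a field `K` of characteristic
zero, `χ` a character of `G` with values in `Kˣ`, `H` a commutative algebra of endomorphisms of
`V` commuting with `G` such that `g + χ(g) g⁻¹ ∈ H` for all `g ∈ G`. We show that, if an element
`g₀` acts by `χ(g₀) ≠ 1` on `V₀` and trivially on `V / V₀`, then either `dim V = 2 dim V₀` or there
is a character `ψ` of `G` with values in a quotient field of `H` with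
`ψ(g) + χ(g) ψ(g)⁻¹ = g + χ(g) g⁻¹`. Together with information at inertia groups the second
possibility is excluded.
-/

set_option autoImplicit false

namespace Fermat.Agent.MazurDim

universe u v w

variable {K : Type u} {V : Type v} {G : Type w} [Field K] [AddCommGroup V] [Module K V] [Group G]

/-- quadratic representations. -/
structure Quad (ρ : G →* Module.End K V) (χ : G →* Kˣ) (H : Subalgebra K (Module.End K V)) :
    Prop where
  comm : ∀ a ∈ H, ∀ b ∈ H, a * b = b * a
  commG : ∀ a ∈ H, ∀ g, a * ρ g = ρ g * a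
  quad : ∀ g, ρ g + (χ g : K) • ρ g⁻¹ ∈ H

/-- the pair `(g, g^*)`. -/
def til (ρ : G →* Module.End K V) (χ : G →* Kˣ) (g : G) : Module.End K V × Module.End K V :=
  (ρ g, (χ g : K) • ρ g⁻¹)

/-- the algebra of pairs `(x, x^*)`. -/
def pairs (ρ : G →* Module.End K V) (χ : G →* Kˣ) (H : Subalgebra K (Module.End K V)) :
    Submodule K (Module.End K V × Module.End K V) :=
  Submodule.span K {z | ∃ a ∈ H, ∃ g, z = (a * ρ g, a * ((χ g : K) • ρ g⁻¹))}

namespace Quad

variable {ρ : G →* Module.End K V} {χ : G →* Kˣ} {H : Subalgebra K (Module.End K V)}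

lemma gen_mem {a : Module.End K V} (ha : a ∈ H) (g : G) :
    ((a * ρ g, a * ((χ g : K) • ρ g⁻¹)) : Module.End K V × Module.End K V) ∈ pairs ρ χ H :=
  Submodule.subset_span ⟨a, ha, g, rfl⟩

lemma til_mem (g : G) : til ρ χ g ∈ pairs ρ χ H := by
  have := gen_mem (ρ := ρ) (χ := χ) H.one_mem g
  rwa [one_mul, one_mul] at this

lemma const_mem {a : Module.End K V} (ha : a ∈ H) : (a, a) ∈ pairs ρ χ H := by
  have := gen_mem (ρ := ρ) (χ := χ) ha 1
  rwa [map_one, map_one, inv_one, map_one, Units.val_one, one_smul, mul_one] at this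

lemma mul_mem (hQ : Quad ρ χ H) {x y x' y' : Module.End K V} (h : (x, y) ∈ pairs ρ χ H)
    (h' : (x', y') ∈ pairs ρ χ H) : (x * x', y' * y) ∈ pairs ρ χ H := by
  have key : ∀ z ∈ pairs ρ χ H, ∀ z' ∈ pairs ρ χ H,
      (z.1 * z'.1, z'.2 * z.2) ∈ pairs ρ χ H := by
    intro z hz z' hz'
    induction hz using Submodule.span_induction with
    | mem z hz =>
      obtain ⟨a, ha, g, rfl⟩ := hz
      induction hz' using Submodule.span_induction with
      | mem z' hz' =>
        obtain ⟨b, hb, g', rfl⟩ := hz'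
        have h1 := gen_mem (ρ := ρ) (χ := χ) (H.mul_mem ha hb) (g * g')
        convert h1 using 2
        · change a * ρ g * (b * ρ g') = a * b * ρ (g * g')
          rw [map_mul, mul_assoc, ← mul_assoc (ρ g), ← hQ.commG b hb g]
          simp only [mul_assoc]
        · change b * ((χ g' : K) • ρ g'⁻¹) * (a * ((χ g : K) • ρ g⁻¹)) = _
          rw [mul_inv_rev, map_mul, map_mul, Units.val_mul]
          simp only [mul_smul_comm, smul_mul_assoc, smul_smul]
          rw [mul_comm (χ g : K)]
          congr 1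
          rw [mul_assoc, ← mul_assoc (ρ g'⁻¹), ← hQ.commG a ha g'⁻¹, ← mul_assoc, ← mul_assoc,
            hQ.comm b hb a ha]
          simp only [mul_assoc]
      | zero =>
        rw [Prod.fst_zero, Prod.snd_zero, mul_zero, zero_mul]
        exact (pairs ρ χ H).zero_mem
      | add u v _ _ hu hv =>
        rw [Prod.fst_add, Prod.snd_add, mul_add, add_mul]
        exact (pairs ρ χ H).add_mem hu hv
      | smul c u _ hu =>
        rw [Prod.smul_fst, Prod.smul_snd, mul_smul_comm, smul_mul_assoc]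
        exact (pairs ρ χ H).smul_mem c hu
    | zero =>
      rw [Prod.fst_zero, Prod.snd_zero, mul_zero, zero_mul]
      exact (pairs ρ χ H).zero_mem
    | add u v _ _ hu hv =>
      rw [Prod.fst_add, Prod.snd_add, mul_add, add_mul]
      exact (pairs ρ χ H).add_mem hu hv
    | smul c u _ hu =>
      rw [Prod.smul_fst, Prod.smul_snd, mul_smul_comm, smul_mul_assoc]
      exact (pairs ρ χ H).smul_mem c hu
  exact key _ h _ h'

lemma swap_mem {x y : Module.End K V} (h : (x, y) ∈ pairs ρ χ H) : (y, x) ∈ pairs ρ χ H := by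
  have key : ∀ z ∈ pairs ρ χ H, z.swap ∈ pairs ρ χ H := by
    intro z hz
    induction hz using Submodule.span_induction with
    | mem z hz =>
      obtain ⟨a, ha, g, rfl⟩ := hz
      have h1 := gen_mem (ρ := ρ) (χ := χ) (H.smul_mem ha (χ g : K)) g⁻¹
      convert h1 using 2
      · change a * ((χ g : K) • ρ g⁻¹) = _
        simp only [mul_smul_comm, smul_mul_assoc]
      · change a * ρ g = _
        rw [inv_inv]
        simp only [mul_smul_comm, smul_mul_assoc, smul_smul, map_inv]
        simp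
    | zero => simp
    | add u v _ _ hu hv => exact (pairs ρ χ H).add_mem hu hv
    | smul c u _ hu => exact (pairs ρ χ H).smul_mem c hu
  exact key _ h

lemma add_mem (hQ : Quad ρ χ H) {x y : Module.End K V} (h : (x, y) ∈ pairs ρ χ H) :
    x + y ∈ H := by
  have key : ∀ z ∈ pairs ρ χ H, z.1 + z.2 ∈ H := by
    intro z hz
    induction hz using Submodule.span_induction with
    | mem z hz =>
      obtain ⟨a, ha, g, rfl⟩ := hz
      have := H.mul_mem ha (hQ.quad g)
      rwa [mul_add] at this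
    | zero => simp
    | add u v _ _ hu hv =>
      have := H.add_mem hu hv
      rw [Prod.fst_add, Prod.snd_add]
      convert this using 1
      abel
    | smul c u _ hu =>
      have := H.smul_mem hu c
      rwa [smul_add] at this
  exact key _ h

lemma comm_fst (hQ : Quad ρ χ H) {x y a : Module.End K V} (h : (x, y) ∈ pairs ρ χ H)
    (ha : a ∈ H) : a * x = x * a := by
  have key : ∀ z ∈ pairs ρ χ H, a * z.1 = z.1 * a := by
    intro z hz
    induction hz using Submodule.span_induction with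
    | mem z hz =>
      obtain ⟨b, hb, g, rfl⟩ := hz
      change a * (b * ρ g) = b * ρ g * a
      rw [← mul_assoc, hQ.comm a ha b hb, mul_assoc, hQ.commG a ha g, mul_assoc]
    | zero => simp
    | add u v _ _ hu hv => rw [Prod.fst_add, mul_add, add_mul, hu, hv]
    | smul c u _ hu => rw [Prod.smul_fst, mul_smul_comm, smul_mul_assoc, hu]
  exact key _ h

end Quad

section Idem

variable {ρ : G →* Module.End K V} {χ : G →* Kˣ} {H : Subalgebra K (Module.End K V)}

/-- a pair of complementary idempotents exchanged by the involution. -/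
structure Idem (ρ : G →* Module.End K V) (χ : G →* Kˣ) (H : Subalgebra K (Module.End K V))
    (E F : Module.End K V) : Prop where
  sum : E + F = 1
  mul : E * F = 0
  mem : (E, F) ∈ pairs ρ χ H

namespace Idem

variable {E F : Module.End K V}

lemma symm (h : Idem ρ χ H E F) : Idem ρ χ H F E where
  sum := by rw [add_comm, h.sum]
  mul := by
    have h1 : F = 1 - E := (sub_eq_of_eq_add' h.sum.symm).symm
    have h2 := h.mul
    rw [h1] at h2 ⊢
    rw [mul_sub, mul_one] at h2
    rw [sub_mul, one_mul, h2]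
  mem := Quad.swap_mem h.mem

lemma sq (h : Idem ρ χ H E F) : E * E = E := by
  have h1 := congrArg (fun t => E * t) h.sum
  simp only [mul_add, h.mul, add_zero, mul_one] at h1
  exact h1

lemma mul' (h : Idem ρ χ H E F) : F * E = 0 := h.symm.mul

lemma sq' (h : Idem ρ χ H E F) : F * F = F := h.symm.sq

lemma comm_left (hQ : Quad ρ χ H) (h : Idem ρ χ H E F) {a : Module.End K V} (ha : a ∈ H) :
    a * E = E * a := hQ.comm_fst h.mem ha

lemma comm_right (hQ : Quad ρ χ H) (h : Idem ρ χ H E F) {a : Module.End K V} (ha : a ∈ H) :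
    a * F = F * a := hQ.comm_fst h.symm.mem ha

lemma off (hQ : Quad ρ χ H) (h : Idem ρ χ H E F) {x y : Module.End K V}
    (hxy : (x, y) ∈ pairs ρ χ H) : F * y * E = -(F * x * E) := by
  have h1 := hQ.add_mem (hQ.mul_mem (hQ.mul_mem h.symm.mem hxy) h.mem)
  set z := F * x * E + F * (y * E) with hz
  have h2 : z * E = z := by
    rw [hz, add_mul]
    simp only [mul_assoc, h.sq]
  have h3 : E * z = 0 := by
    rw [hz, mul_add]
    simp only [← mul_assoc, h.mul, zero_mul, add_zero]
  have h4 : z = 0 := by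
    rw [← h2, h.comm_left hQ h1, h3]
  rw [hz, ← mul_assoc] at h4
  exact (neg_eq_of_add_eq_zero_right h4).symm

/-- the map `(x, x^*) ↦ F x F + E x^* E`. -/
def zz (E F : Module.End K V) : (Module.End K V × Module.End K V) →ₗ[K] Module.End K V where
  toFun z := F * z.1 * F + E * z.2 * E
  map_add' u v := by
    simp only [Prod.fst_add, Prod.snd_add, mul_add, add_mul]
    abel
  map_smul' c u := by
    simp only [Prod.smul_fst, Prod.smul_snd, mul_smul_comm, smul_mul_assoc, smul_add,
      RingHom.id_apply]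

lemma zz_apply (x y : Module.End K V) : zz E F (x, y) = F * x * F + E * y * E := rfl

lemma zz_mem (hQ : Quad ρ χ H) (h : Idem ρ χ H E F) {u : Module.End K V × Module.End K V}
    (hu : u ∈ pairs ρ χ H) : zz E F u ∈ H := by
  obtain ⟨x, y⟩ := u
  have h1 := hQ.add_mem (hQ.mul_mem (hQ.mul_mem h.symm.mem hu) h.symm.mem)
  rw [zz_apply]
  convert h1 using 2
  rw [mul_assoc]

lemma zz_mul_left (h : Idem ρ χ H E F) (x y : Module.End K V) :
    zz E F (x, y) * E = E * y * E := by
  rw [zz_apply, add_mul]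
  simp only [mul_assoc, h.mul', h.sq, mul_zero, zero_add]

lemma zz_mul_right (h : Idem ρ χ H E F) (x y : Module.End K V) :
    zz E F (x, y) * F = F * x * F := by
  rw [zz_apply, add_mul]
  simp only [mul_assoc, h.mul, h.sq', mul_zero, add_zero]

/-- the off-diagonal products. -/
def offs (ρ : G →* Module.End K V) (χ : G →* Kˣ) (H : Subalgebra K (Module.End K V))
    (E F : Module.End K V) : Submodule K (Module.End K V) :=
  Submodule.span K {i | ∃ u ∈ pairs ρ χ H, ∃ v ∈ pairs ρ χ H,
    i = F * u.1 * E * (E * v.1 * F) + E * v.1 * F * (F * u.1 * E)}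

lemma offs_le (hQ : Quad ρ χ H) (h : Idem ρ χ H E F) {i : Module.End K V}
    (hi : i ∈ offs ρ χ H E F) : i ∈ H := by
  induction hi using Submodule.span_induction with
  | mem i hi =>
    obtain ⟨⟨x, y⟩, hu, ⟨x', y'⟩, hv, rfl⟩ := hi
    have h1 := hQ.mul_mem (hQ.mul_mem h.symm.mem hu) h.mem
    have h2 := hQ.mul_mem (hQ.mul_mem h.mem hv) h.symm.mem
    have h3 := hQ.add_mem (hQ.mul_mem h1 h2)
    rw [← mul_assoc F y, ← mul_assoc E y', h.off hQ hu, h.symm.off hQ hv, neg_mul_neg] at h3
    exact h3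
  | zero => exact H.zero_mem
  | add u v _ _ hu hv => exact H.add_mem hu hv
  | smul c u _ hu => exact H.smul_mem hu c

lemma mul_offs (hQ : Quad ρ χ H) (h : Idem ρ χ H E F) {a : Module.End K V} (ha : a ∈ H)
    {i : Module.End K V} (hi : i ∈ offs ρ χ H E F) : a * i ∈ offs ρ χ H E F := by
  induction hi using Submodule.span_induction with
  | mem i hi =>
    obtain ⟨u, hu, v, hv, rfl⟩ := hi
    refine Submodule.subset_span ⟨(a * u.1, u.2 * a), hQ.mul_mem (Quad.const_mem ha) hu, v, hv, ?_⟩
    have e1 : F * (a * u.1) * E = a * (F * u.1 * E) := by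
      rw [← mul_assoc F, ← h.comm_right hQ ha]
      simp only [mul_assoc]
    have e2 : a * (E * v.1 * F * (F * u.1 * E)) = E * v.1 * F * (a * (F * u.1 * E)) := by
      have e3 : a * (E * v.1 * F) = E * v.1 * F * a := by
        rw [← mul_assoc, ← mul_assoc, h.comm_left hQ ha, mul_assoc E a, hQ.comm_fst hv ha,
          ← mul_assoc, mul_assoc _ a F, h.comm_right hQ ha, ← mul_assoc]
      rw [← mul_assoc, e3, mul_assoc]
    change _ = F * (a * u.1) * E * (E * v.1 * F) + E * v.1 * F * (F * (a * u.1) * E)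
    rw [e1, mul_add, e2, mul_assoc a]
  | zero =>
    rw [mul_zero]
    exact Submodule.zero_mem _
  | add u v _ _ hu hv =>
    rw [mul_add]
    exact Submodule.add_mem _ hu hv
  | smul c u _ hu =>
    rw [mul_smul_comm]
    exact Submodule.smul_mem _ c hu

lemma trace_offs (h : Idem ρ χ H E F) {i : Module.End K V}
    (hi : i ∈ offs ρ χ H E F) :
    LinearMap.trace K V (i * E) = LinearMap.trace K V (i * F) := by
  induction hi using Submodule.span_induction with
  | mem i hi =>
    obtain ⟨u, hu, v, hv, rfl⟩ := hi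
    have e1 : (F * u.1 * E * (E * v.1 * F) + E * v.1 * F * (F * u.1 * E)) * E =
        E * v.1 * F * (F * u.1 * E) := by
      rw [add_mul]
      simp only [mul_assoc, h.mul', h.sq, mul_zero, zero_add]
    have e2 : (F * u.1 * E * (E * v.1 * F) + E * v.1 * F * (F * u.1 * E)) * F =
        F * u.1 * E * (E * v.1 * F) := by
      rw [add_mul]
      simp only [mul_assoc, h.mul, h.sq', mul_zero, add_zero]
    rw [e1, e2, LinearMap.trace_mul_comm]
  | zero => simp
  | add u v _ _ hu hv => rw [add_mul, add_mul, map_add, map_add, hu, hv]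
  | smul c u _ hu => rw [smul_mul_assoc, smul_mul_assoc, map_smul, map_smul, hu]

lemma zz_mul (hQ : Quad ρ χ H) (h : Idem ρ χ H E F) {u v : Module.End K V × Module.End K V}
    (hu : u ∈ pairs ρ χ H) (hv : v ∈ pairs ρ χ H) :
    zz E F (u.1 * v.1, v.2 * u.2) - zz E F u * zz E F v ∈ offs ρ χ H E F := by
  refine Submodule.subset_span ⟨u, hu, v, hv, ?_⟩
  obtain ⟨x, y⟩ := u
  obtain ⟨x', y'⟩ := v
  have h1 : zz E F (x * x', y' * y) * E =
      E * y' * E * (E * y * E) + E * y' * F * (F * y * E) := by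
    rw [h.zz_mul_left]
    have : E * (y' * y) * E = E * (y' * (E + F) * y) * E := by rw [h.sum, mul_one]
    rw [this]
    have e1 : E * y' * E * (E * y * E) = E * y' * E * y * E := by
      rw [← mul_assoc, ← mul_assoc, mul_assoc (E * y') E E, h.sq]
    have e2 : E * y' * F * (F * y * E) = E * y' * F * y * E := by
      rw [← mul_assoc, ← mul_assoc, mul_assoc (E * y') F F, h.sq']
    rw [e1, e2]
    simp only [mul_add, add_mul, mul_assoc]
  have h2 : zz E F (x * x', y' * y) * F =
      F * x * F * (F * x' * F) + F * x * E * (E * x' * F) := by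
    rw [h.zz_mul_right]
    have : F * (x * x') * F = F * (x * (F + E) * x') * F := by
      rw [add_comm F E, h.sum, mul_one]
    rw [this]
    have e1 : F * x * F * (F * x' * F) = F * x * F * x' * F := by
      rw [← mul_assoc, ← mul_assoc, mul_assoc (F * x) F F, h.sq']
    have e2 : F * x * E * (E * x' * F) = F * x * E * x' * F := by
      rw [← mul_assoc, ← mul_assoc, mul_assoc (F * x) E E, h.sq]
    rw [e1, e2]
    simp only [mul_add, add_mul, mul_assoc]
  have h3 : zz E F (x, y) * zz E F (x', y') * E = E * y' * E * (E * y * E) := by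
    rw [hQ.comm _ (h.zz_mem hQ hu) _ (h.zz_mem hQ hv)]
    have : zz E F (x', y') * zz E F (x, y) * E =
        zz E F (x', y') * E * (zz E F (x, y) * E) := by
      rw [h.comm_left hQ (h.zz_mem hQ hu), ← mul_assoc, mul_assoc _ E E, h.sq, mul_assoc,
        h.comm_left hQ (h.zz_mem hQ hu), ← mul_assoc]
    rw [this, h.zz_mul_left, h.zz_mul_left]
  have h4 : zz E F (x, y) * zz E F (x', y') * F = F * x * F * (F * x' * F) := by
    have : zz E F (x, y) * zz E F (x', y') * F =
        zz E F (x, y) * F * (zz E F (x', y') * F) := by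
      rw [h.comm_right hQ (h.zz_mem hQ hv), ← mul_assoc, mul_assoc _ F F, h.sq', mul_assoc,
        h.comm_right hQ (h.zz_mem hQ hv), ← mul_assoc]
    rw [this, h.zz_mul_right, h.zz_mul_right]
  have h5 : ∀ t : Module.End K V, t = t * E + t * F := fun t => by
    rw [← mul_add, h.sum, mul_one]
  rw [h5 (zz E F ((x, y).1 * (x', y').1, (x', y').2 * (x, y).2) - zz E F (x, y) * zz E F (x', y')),
    sub_mul, sub_mul]
  change zz E F (x * x', y' * y) * E - _ + (zz E F (x * x', y' * y) * F - _) = _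
  rw [h1, h2, h3, h4, h.off hQ hu, h.symm.off hQ hv, neg_mul_neg, add_sub_cancel_left,
    add_sub_cancel_left, add_comm]

end Idem

end Idem

section Main

variable {ρ : G →* Module.End K V} {χ : G →* Kˣ} {H : Subalgebra K (Module.End K V)}

lemma til_mul (g h : G) : ((til ρ χ g).1 * (til ρ χ h).1, (til ρ χ h).2 * (til ρ χ g).2) =
    til ρ χ (g * h) := by
  ext1
  · exact (map_mul ρ g h).symm
  · change (χ h : K) • ρ h⁻¹ * ((χ g : K) • ρ g⁻¹) = (χ (g * h) : K) • ρ (g * h)⁻¹
    rw [mul_inv_rev, map_mul, map_mul, Units.val_mul, mul_comm (χ g : K), smul_mul_assoc,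
      mul_smul_comm, smul_smul]

lemma til_one : til ρ χ 1 = (1, 1) := by
  ext1
  · exact map_one ρ
  · change (χ 1 : K) • ρ 1⁻¹ = 1
    rw [inv_one, map_one, map_one, Units.val_one, one_smul]

lemma swap_til (g : G) : (til ρ χ g).swap = (χ g : K) • til ρ χ g⁻¹ := by
  ext1
  · rfl
  · change ρ g = (χ g : K) • ((χ g⁻¹ : K) • ρ g⁻¹⁻¹)
    rw [smul_smul, inv_inv, map_inv, Units.mul_inv, one_smul]

/-- a quadratic relation for `g` gives one for the pair `(g, g^*)`. -/
lemma til_quad {g : G} (hg : (ρ g - 1) * (ρ g - (χ g : K) • 1) = 0) :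
    til ρ χ (g * g) - (1 + (χ g : K)) • til ρ χ g + (χ g : K) • til ρ χ 1 = 0 := by
  have h1 : ρ g * ρ g - (1 + (χ g : K)) • ρ g + (χ g : K) • (1 : Module.End K V) = 0 := by
    rw [← hg, sub_mul, mul_sub, one_mul, mul_smul_comm, mul_one, add_smul, one_smul]
    abel
  have h2 : ρ g⁻¹ * ρ g = 1 := by rw [← map_mul, inv_mul_cancel, map_one]
  have h2' : ρ g * ρ g⁻¹ = 1 := by rw [← map_mul, mul_inv_cancel, map_one]
  ext1
  · change ρ (g * g) - (1 + (χ g : K)) • ρ g + (χ g : K) • ρ 1 = 0
    rw [map_mul, map_one, h1]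
  · change (χ (g * g) : K) • ρ (g * g)⁻¹ - (1 + (χ g : K)) • ((χ g : K) • ρ g⁻¹) +
      (χ g : K) • ((χ 1 : K) • ρ 1⁻¹) = 0
    have h3 := congrArg (fun t => (χ g : K) • (ρ g⁻¹ * ρ g⁻¹ * t)) h1
    simp only [mul_add, mul_sub, mul_smul_comm, mul_one, mul_zero, smul_zero] at h3
    have e1 : ρ g⁻¹ * ρ g⁻¹ * (ρ g * ρ g) = 1 := by
      rw [mul_assoc, ← mul_assoc (ρ g⁻¹) (ρ g), h2, one_mul, h2]
    have e2 : ρ g⁻¹ * ρ g⁻¹ * ρ g = ρ g⁻¹ := by rw [mul_assoc, h2, mul_one]
    rw [e1, e2] at h3
    rw [mul_inv_rev, map_mul, map_mul, Units.val_mul, inv_one, map_one, map_one, Units.val_one,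
      one_smul, ← h3]
    simp only [smul_add, smul_sub, smul_smul]
    rw [mul_comm (χ g : K) (1 + (χ g : K))]
    abel

variable [FiniteDimensional K V]

open Idem

/-- the commutative ring structure on `H`. -/
abbrev Quad.commRing (hQ : Quad ρ χ H) : CommRing H :=
  { (inferInstance : Ring H) with
    mul_comm := fun a b => Subtype.ext (hQ.comm a a.2 b b.2) }

omit [FiniteDimensional K V] in
/-- If the off-diagonal ideal is not everything, there is a multiplicative character. -/
lemma exists_quotient (hQ : Quad ρ χ H) {E F : Module.End K V} (hEF : Idem ρ χ H E F)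
    (h1 : (1 : Module.End K V) ∉ offs ρ χ H E F) :
    ∃ (k : Type v) (_ : Field k) (c : Module.End K V → k) (κ : K →+* k),
      (∀ a ∈ H, ∀ b ∈ H, c (a + b) = c a + c b) ∧
      (∀ a ∈ H, ∀ b ∈ H, c (a * b) = c a * c b) ∧
      (∀ a ∈ H, ∀ r : K, c (r • a) = κ r * c a) ∧ c 1 = 1 ∧
      (∀ a ∈ offs ρ χ H E F, c a = 0) := by
  classical
  let _ := hQ.commRing
  let IH : Ideal H :=
    { carrier := {a | (a : Module.End K V) ∈ offs ρ χ H E F}
      zero_mem' := by
        change ((0 : H) : Module.End K V) ∈ offs ρ χ H E F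
        exact Submodule.zero_mem _
      add_mem' := fun {a b} ha hb => (offs ρ χ H E F).add_mem ha hb
      smul_mem' := fun c a ha => hEF.mul_offs hQ c.2 ha }
  have hIH : IH ≠ ⊤ := by
    intro h2
    have : (1 : H) ∈ IH := by
      rw [h2]
      exact Submodule.mem_top
    exact h1 this
  obtain ⟨m, hm, hle⟩ := Ideal.exists_le_maximal IH hIH
  let _ : Field (H ⧸ m) := Ideal.Quotient.field m
  refine ⟨H ⧸ m, inferInstance, fun a => if ha : a ∈ H then Ideal.Quotient.mk m ⟨a, ha⟩ else 0,
    (Ideal.Quotient.mk m).comp (algebraMap K H), ?_, ?_, ?_, ?_, ?_⟩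
  · intro a ha b hb
    simp only [dif_pos ha, dif_pos hb, dif_pos (H.add_mem ha hb)]
    exact map_add (Ideal.Quotient.mk m) (⟨a, ha⟩ : H) ⟨b, hb⟩
  · intro a ha b hb
    simp only [dif_pos ha, dif_pos hb, dif_pos (H.mul_mem ha hb)]
    exact map_mul (Ideal.Quotient.mk m) (⟨a, ha⟩ : H) ⟨b, hb⟩
  · intro a ha r
    simp only [dif_pos ha, dif_pos (H.smul_mem ha r)]
    rw [RingHom.comp_apply, ← map_mul]
    have h2 : (⟨r • a, H.smul_mem ha r⟩ : H) = algebraMap K H r * ⟨a, ha⟩ := by
      apply Subtype.ext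
      change r • a = (algebraMap K (Module.End K V) r) * a
      rw [Algebra.algebraMap_eq_smul_one, smul_mul_assoc, one_mul]
    rw [h2]
  · simp only [dif_pos H.one_mem]
    exact map_one (Ideal.Quotient.mk m)
  · intro a ha
    have ha' := hEF.offs_le hQ ha
    simp only [dif_pos ha']
    rw [Ideal.Quotient.eq_zero_iff_mem]
    exact hle ha

theorem trace_eq (hQ : Quad ρ χ H) {E F : Module.End K V} (hEF : Idem ρ χ H E F)
    (I : Subgroup G) (hI : ∀ g ∈ I, (ρ g - 1) * (ρ g - (χ g : K) • 1) = 0)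
    (J : Set G) (hJ : ∀ g ∈ J, χ g = 1 ∧ (ρ g - 1) * (ρ g - 1) = 0)
    (hdense : ∀ N : Subgroup G, N.Normal → I ≤ N → J ⊆ N → ∀ g, til ρ χ g - til ρ χ 1 ∈
      Submodule.span K {w | ∃ n ∈ N, w = til ρ χ n - til ρ χ 1})
    (hne : ∃ g, Function.Injective (ρ g + (χ g : K) • ρ g⁻¹ - (1 + (χ g : K)) • 1 :
      Module.End K V)) :
    LinearMap.trace K V E = LinearMap.trace K V F := by
  by_cases h1 : (1 : Module.End K V) ∈ offs ρ χ H E F
  · have := hEF.trace_offs h1
    rwa [one_mul, one_mul] at this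
  exfalso
  obtain ⟨k, _, c, κ, cadd, cmul, csmul, cone, coffs⟩ := exists_quotient hQ hEF h1
  have czero : c 0 = 0 := coffs 0 (Submodule.zero_mem _)
  have cneg : ∀ a ∈ H, c (-a) = -c a := by
    intro a ha
    have := csmul a ha (-1)
    rwa [neg_one_smul, map_neg, map_one, neg_one_mul] at this
  have csub : ∀ a ∈ H, ∀ b ∈ H, c (a - b) = c a - c b := by
    intro a ha b hb
    rw [sub_eq_add_neg, cadd a ha _ (H.neg_mem hb), cneg b hb, sub_eq_add_neg]
  have hz : ∀ {u}, u ∈ pairs ρ χ H → zz E F u ∈ H := fun hu => hEF.zz_mem hQ hu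
  -- multiplicativity on pairs
  have hmul : ∀ u ∈ pairs ρ χ H, ∀ v ∈ pairs ρ χ H,
      c (zz E F (u.1 * v.1, v.2 * u.2)) = c (zz E F u) * c (zz E F v) := by
    intro u hu v hv
    have e1 := coffs _ (hEF.zz_mul hQ hu hv)
    rw [csub _ (hz (hQ.mul_mem hu hv)) _ (H.mul_mem (hz hu) (hz hv)),
      cmul _ (hz hu) _ (hz hv)] at e1
    exact sub_eq_zero.mp e1
  have hone : zz E F (til ρ χ 1) = 1 := by
    rw [til_one, zz_apply, mul_one, mul_one, hEF.sq, hEF.sq', add_comm, hEF.sum]
  -- the two characters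
  let ψ : G →* k :=
    { toFun := fun g => c (zz E F (til ρ χ g))
      map_one' := by rw [hone, cone]
      map_mul' := fun g h => by
        rw [← hmul _ (Quad.til_mem g) _ (Quad.til_mem h), til_mul] }
  have hψ : ∀ g, ψ g = c (zz E F (til ρ χ g)) := fun g => rfl
  let ψ' : G → k := fun g => c (zz E F (til ρ χ g).swap)
  have hψ'0 : ∀ g, ψ' g = c (zz E F (til ρ χ g).swap) := fun g => rfl
  have hψ' : ∀ g, ψ' g = κ (χ g) * ψ g⁻¹ := by
    intro g
    rw [hψ'0, swap_til, map_smul, csmul _ (hz (Quad.til_mem _)), hψ]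
  have hinv : ∀ g, ψ g * ψ g⁻¹ = 1 := fun g => by rw [← map_mul, mul_inv_cancel, map_one]
  have hprod : ∀ g, ψ g * ψ' g = κ (χ g) := by
    intro g
    rw [hψ', mul_left_comm, hinv, mul_one]
  have hsum : ∀ g, ψ g + ψ' g = c (ρ g + (χ g : K) • ρ g⁻¹) := by
    intro g
    have hsw : (til ρ χ g).swap ∈ pairs ρ χ H := Quad.swap_mem (Quad.til_mem g)
    rw [hψ, hψ'0, ← cadd _ (hz (Quad.til_mem _)) _ (hz hsw)]
    congr 1
    change F * ρ g * F + E * ((χ g : K) • ρ g⁻¹) * E + (F * ((χ g : K) • ρ g⁻¹) * F +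
      E * ρ g * E) = _
    have h2 := hQ.quad g
    set t := ρ g + (χ g : K) • ρ g⁻¹ with ht
    have h3 : t = F * t * F + E * t * E := by
      rw [← hEF.comm_right hQ h2, ← hEF.comm_left hQ h2, mul_assoc, mul_assoc, hEF.sq, hEF.sq',
        ← mul_add, add_comm F E, hEF.sum, mul_one]
    rw [h3, ht]
    simp only [mul_add, add_mul]
    abel
  -- quadratic relation
  have hquad : ∀ g, (ρ g - 1) * (ρ g - (χ g : K) • 1) = 0 → ψ g = 1 ∨ ψ g = κ (χ g) := by
    intro g hg
    have h2 := congrArg (fun w => c (zz E F w)) (til_quad (χ := χ) hg)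
    simp only [map_add, map_sub, map_smul, map_zero] at h2
    rw [czero, cadd _ (H.sub_mem (hz (Quad.til_mem _)) (H.smul_mem (hz (Quad.til_mem _)) _)) _
      (H.smul_mem (hz (Quad.til_mem _)) _), csub _ (hz (Quad.til_mem _)) _
      (H.smul_mem (hz (Quad.til_mem _)) _), csmul _ (hz (Quad.til_mem _)),
      csmul _ (hz (Quad.til_mem _)), ← hψ, ← hψ, ← hψ, map_mul, map_one] at h2
    have h3 : (ψ g - 1) * (ψ g - κ (χ g)) = 0 := by
      rw [map_add, map_one] at h2
      linear_combination h2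
    rcases mul_eq_zero.mp h3 with h4 | h4
    · exact Or.inl (sub_eq_zero.mp h4)
    · exact Or.inr (sub_eq_zero.mp h4)
  have hψJ : ∀ g ∈ J, ψ g = 1 ∧ ψ' g = 1 := by
    intro g hg
    obtain ⟨h2, h3⟩ := hJ g hg
    have h4 : ψ g = 1 := by
      rcases hquad g (by rw [h2, Units.val_one, one_smul]; exact h3) with h5 | h5
      · exact h5
      · rw [h5, h2, Units.val_one, map_one]
    refine ⟨h4, ?_⟩
    have h5 := hprod g
    rwa [h4, one_mul, h2, Units.val_one, map_one] at h5
  -- dichotomy on `I`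
  have hdich : (∀ g ∈ I, ψ g = 1) ∨ (∀ g ∈ I, ψ' g = 1) := by
    by_contra hcon
    push Not at hcon
    obtain ⟨⟨a, ha, ha'⟩, b, hb, hb'⟩ := hcon
    have hb'' : ψ b ≠ κ (χ b) := by
      intro h2
      apply hb'
      have h3 := hprod b
      rw [h2] at h3
      have h4 : κ (χ b) ≠ 0 := by
        rw [Ne, map_eq_zero]
        exact (χ b).ne_zero
      exact mul_left_cancel₀ h4 (by rw [h3, mul_one])
    have h2 : ψ a = κ (χ a) := (hquad a (hI a ha)).resolve_left ha'
    have h3 : ψ b = 1 := (hquad b (hI b hb)).resolve_right hb''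
    have h4 := hquad (a * b) (hI _ (I.mul_mem ha hb))
    rw [map_mul, h3, mul_one] at h4
    rcases h4 with h4 | h4
    · exact ha' h4
    · rw [h2, map_mul, Units.val_mul, map_mul] at h4
      apply hb''
      rw [h3]
      have h5 : κ (χ a) ≠ 0 := by
        rw [Ne, map_eq_zero]
        exact (χ a).ne_zero
      exact mul_left_cancel₀ h5 (by rw [mul_one]; exact h4)
  -- density
  have hgen : ∀ (N : Subgroup G) (s : (Module.End K V × Module.End K V) →ₗ[K]
      (Module.End K V × Module.End K V)), (∀ u ∈ pairs ρ χ H, s u ∈ pairs ρ χ H) →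
      (∀ n ∈ N, c (zz E F (s (til ρ χ n))) = c (zz E F (s (til ρ χ 1)))) →
      ∀ w ∈ Submodule.span K {w | ∃ n ∈ N, w = til ρ χ n - til ρ χ 1},
        s w ∈ pairs ρ χ H ∧ c (zz E F (s w)) = 0 := by
    intro N s hs hN w hw
    induction hw using Submodule.span_induction with
    | mem w hw =>
      obtain ⟨n, hn, rfl⟩ := hw
      have h2 := hs _ (Quad.til_mem (χ := χ) (H := H) n)
      have h3 := hs _ (Quad.til_mem (χ := χ) (H := H) (1 : G))
      rw [map_sub, map_sub]
      refine ⟨(pairs ρ χ H).sub_mem h2 h3, ?_⟩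
      rw [csub _ (hz h2) _ (hz h3), hN n hn, sub_self]
    | zero =>
      rw [map_zero, map_zero]
      exact ⟨(pairs ρ χ H).zero_mem, czero⟩
    | add u v _ _ hu hv =>
      rw [map_add, map_add]
      refine ⟨(pairs ρ χ H).add_mem hu.1 hv.1, ?_⟩
      rw [cadd _ (hz hu.1) _ (hz hv.1), hu.2, hv.2, add_zero]
    | smul r u _ hu =>
      rw [map_smul, map_smul]
      refine ⟨(pairs ρ χ H).smul_mem _ hu.1, ?_⟩
      rw [csmul _ (hz hu.1), hu.2, mul_zero]
  have hfin : ∀ g, ψ g + ψ' g = 1 + κ (χ g) := by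
    rcases hdich with hI' | hI'
    · intro g
      have h2 := hgen ψ.ker LinearMap.id (fun u hu => hu) (by
        intro n hn
        have h3 : ψ n = 1 := hn
        rw [hψ] at h3
        rw [LinearMap.id_apply, LinearMap.id_apply, h3, hone, cone]) _
        (hdense ψ.ker inferInstance (fun n hn => hI' n hn) (fun n hn => (hψJ n hn).1) g)
      rw [LinearMap.id_apply, map_sub, csub _ (hz (Quad.til_mem g)) _ (hz (Quad.til_mem 1)), hone,
        cone, ← hψ] at h2
      have h3 : ψ g = 1 := sub_eq_zero.mp h2.2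
      have h4 := hprod g
      rw [h3, one_mul] at h4
      rw [h3, h4]
    · intro g
      let ψ'' : G →* k :=
        { toFun := ψ'
          map_one' := by rw [hψ', inv_one, map_one, map_one, Units.val_one, map_one, mul_one]
          map_mul' := fun a b => by
            rw [hψ', hψ', hψ', mul_inv_rev, map_mul, map_mul, Units.val_mul, map_mul]
            ring }
      have hsw1 : (til ρ χ (1 : G)).swap = (1, 1) := by
        rw [til_one]
        rfl
      have hsw : ∀ g, (til ρ χ g).swap ∈ pairs ρ χ H := fun g => Quad.swap_mem (Quad.til_mem g)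
      have h2 := hgen ψ''.ker (LinearEquiv.prodComm K (Module.End K V) (Module.End K V)).toLinearMap
        (fun u hu => Quad.swap_mem hu) (by
        intro n hn
        have h3 : ψ' n = 1 := hn
        rw [hψ'0] at h3
        change c (zz E F (til ρ χ n).swap) = c (zz E F (til ρ χ 1).swap)
        rw [h3, hsw1, ← til_one (ρ := ρ) (χ := χ), hone, cone]) _
        (hdense ψ''.ker inferInstance (fun n hn => hI' n hn) (fun n hn => (hψJ n hn).2) g)
      have h3 := h2.2
      rw [map_sub, map_sub] at h3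
      change c (zz E F (til ρ χ g).swap - zz E F (til ρ χ 1).swap) = 0 at h3
      rw [csub _ (hz (hsw g)) _ (hz (hsw 1)), hsw1, ← til_one (ρ := ρ) (χ := χ), hone,
        cone, ← hψ'0] at h3
      have h4 : ψ' g = 1 := sub_eq_zero.mp h3
      have h5 := hprod g
      rw [h4, mul_one] at h5
      rw [h4, h5, add_comm]
  -- conclusion
  obtain ⟨g, hg⟩ := hne
  set a := ρ g + (χ g : K) • ρ g⁻¹ - (1 + (χ g : K)) • (1 : Module.End K V) with ha
  have haH : a ∈ H := H.sub_mem (hQ.quad g) (H.smul_mem H.one_mem _)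
  have hca : c a = 0 := by
    rw [ha, csub _ (hQ.quad g) _ (H.smul_mem H.one_mem _), ← hsum, hfin, csmul _ H.one_mem, cone,
      map_add, map_one, mul_one, sub_self]
  have hmulinj : Function.Injective (LinearMap.mulLeft K (⟨a, haH⟩ : H)) := by
    rw [← LinearMap.ker_eq_bot, LinearMap.ker_eq_bot']
    intro b hb
    have hb' : a * (b : Module.End K V) = 0 := congrArg Subtype.val hb
    apply Subtype.ext
    apply LinearMap.ext
    intro v
    apply hg
    have := LinearMap.congr_fun hb' v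
    rw [Module.End.mul_apply] at this
    rw [this]
    simp
  obtain ⟨b, hb⟩ := (LinearMap.injective_iff_surjective.mp hmulinj) 1
  have hb' : a * (b : Module.End K V) = 1 := congrArg Subtype.val hb
  have h2 := cmul a haH b b.2
  rw [hb', cone, hca, zero_mul] at h2
  exact one_ne_zero h2

/-- **Theorem.** Under the hypotheses of `trace_eq`, `dim V = 2 dim V₀` if some `g₀` acts by
`χ(g₀) ≠ 1` on `V₀` and trivially on `V / V₀`. -/
theorem two_mul_finrank_eq [CharZero K] (hQ : Quad ρ χ H)
    (I : Subgroup G) (hI : ∀ g ∈ I, (ρ g - 1) * (ρ g - (χ g : K) • 1) = 0)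
    (J : Set G) (hJ : ∀ g ∈ J, χ g = 1 ∧ (ρ g - 1) * (ρ g - 1) = 0)
    (hdense : ∀ N : Subgroup G, N.Normal → I ≤ N → J ⊆ N → ∀ g, til ρ χ g - til ρ χ 1 ∈
      Submodule.span K {w | ∃ n ∈ N, w = til ρ χ n - til ρ χ 1})
    (hne : ∃ g, Function.Injective (ρ g + (χ g : K) • ρ g⁻¹ - (1 + (χ g : K)) • 1 :
      Module.End K V))
    {g₀ : G} (hχ : (χ g₀ : K) ≠ 1) (V₀ : Submodule K V) (h0 : ∀ x ∈ V₀, ρ g₀ x = (χ g₀ : K) • x)
    (h1 : ∀ x, ρ g₀ x - x ∈ V₀) : 2 * Module.finrank K V₀ = Module.finrank K V := by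
  set u : K := (χ g₀ : K) with hu
  have hu1 : u - 1 ≠ 0 := sub_ne_zero.mpr hχ
  have hu0 : u ≠ 0 := (χ g₀).ne_zero
  set E : Module.End K V := (u - 1)⁻¹ • (ρ g₀ - 1) with hE
  set F : Module.End K V := (u - 1)⁻¹ • (u • ρ g₀⁻¹ - 1) with hF
  have hrel : ρ g₀ * ρ g₀ - (1 + u) • ρ g₀ + u • (1 : Module.End K V) = 0 := by
    apply LinearMap.ext
    intro x
    have h2 := h0 _ (h1 x)
    rw [map_sub, smul_sub] at h2
    simp only [LinearMap.add_apply, LinearMap.sub_apply, Module.End.mul_apply,
      LinearMap.smul_apply, Module.End.one_apply, LinearMap.zero_apply, add_smul, one_smul]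
    rw [sub_eq_iff_eq_add.mp h2]
    abel
  have hinv1 : ρ g₀ * ρ g₀⁻¹ = 1 := by rw [← map_mul, mul_inv_cancel, map_one]
  have hinv2 : ρ g₀⁻¹ * ρ g₀ = 1 := by rw [← map_mul, inv_mul_cancel, map_one]
  have hrel2 : ρ g₀ + u • ρ g₀⁻¹ = (1 + u) • (1 : Module.End K V) := by
    have h2 := congrArg (fun t => ρ g₀⁻¹ * t) hrel
    simp only [mul_add, mul_sub, mul_smul_comm, mul_one, mul_zero, ← mul_assoc, hinv2,
      one_mul] at h2
    rw [sub_add_eq_add_sub] at h2
    exact sub_eq_zero.mp h2
  have hEF : Idem ρ χ H E F := by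
    refine ⟨?_, ?_, ?_⟩
    · rw [hE, hF, ← smul_add]
      have : ρ g₀ - 1 + (u • ρ g₀⁻¹ - 1) = (u - 1) • (1 : Module.End K V) := by
        have h2 : ρ g₀ - 1 + (u • ρ g₀⁻¹ - 1) = (ρ g₀ + u • ρ g₀⁻¹) - 1 - 1 := by abel
        rw [h2, hrel2, add_smul, sub_smul, one_smul]
        abel
      rw [this, smul_smul, inv_mul_cancel₀ hu1, one_smul]
    · rw [hE, hF, smul_mul_smul_comm]
      have : (ρ g₀ - 1) * (u • ρ g₀⁻¹ - 1) = 0 := by
        rw [sub_mul, mul_sub, one_mul, mul_smul_comm, hinv1, mul_one]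
        have h2 : u • (1 : Module.End K V) - ρ g₀ - (u • ρ g₀⁻¹ - 1) =
            u • 1 + 1 - (ρ g₀ + u • ρ g₀⁻¹) := by abel
        rw [h2, hrel2, add_smul, one_smul]
        abel
      rw [this, smul_zero]
    · have h2 := (pairs ρ χ H).smul_mem (u - 1)⁻¹ ((pairs ρ χ H).sub_mem
        (Quad.til_mem (ρ := ρ) (χ := χ) (H := H) g₀) (Quad.const_mem H.one_mem))
      exact h2
  have htr := trace_eq hQ hEF I hI J hJ hdense hne
  have hrange : LinearMap.range E = V₀ := by
    apply le_antisymm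
    · rintro _ ⟨x, rfl⟩
      exact V₀.smul_mem _ (h1 x)
    · intro x hx
      refine ⟨x, ?_⟩
      rw [hE, LinearMap.smul_apply, LinearMap.sub_apply, Module.End.one_apply, h0 x hx]
      have : u • x - x = (u - 1) • x := by rw [sub_smul, one_smul]
      rw [this, smul_smul, inv_mul_cancel₀ hu1, one_smul]
  have hidE : IsIdempotentElem E := hEF.sq
  have htrE : LinearMap.trace K V E = (Module.finrank K V₀ : K) := by
    rw [← hrange]
    exact (LinearMap.IsIdempotentElem.isProj_range E hidE).trace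
  have hsum : LinearMap.trace K V E + LinearMap.trace K V F = (Module.finrank K V : K) := by
    rw [← map_add, hEF.sum, LinearMap.trace_one]
  rw [← htr, htrE] at hsum
  have h3 : ((2 * Module.finrank K V₀ : ℕ) : K) = (Module.finrank K V : K) := by
    rw [← hsum]
    push_cast
    ring
  exact_mod_cast h3

end Main

end Fermat.Agent.MazurDim
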