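import Fermat.Agent.Mazur.CycClause

/-!
# `EisInput` from reduction maps
-/

set_option autoImplicit false

noncomputable section

open Fermat.Agent.FlatGS Fermat.Agent.Mazur Fermat.Agent.MazurCyc

namespace Fermat.Agent.MazurEisGen

section

variable {N q : ℕ} {R : Type*} {J : Type} [CommRing R] [AddCommGroup J] [Module R J]
  [DistribMulAction GQ J] {P : Ideal R} {T : Nat.Primes → R}

/-- reduction maps away from `q` and `N`. -/
def Bare (T : Nat.Primes → R) (J : Type) [AddCommGroup J] [Module R J] [DistribMulAction GQ J]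
    (ℓ : Nat.Primes) (A : ValuationSubring (AlgebraicClosure ℚ)) : Prop :=
  ∃ (B : Type) (_ : AddCommGroup B) (red : J →+ B) (Fr : B →+ B),
    (∀ σ ∈ A.inertiaSubgroupIn ℚ, ∀ x : J, red (σ • x) = red x) ∧
    (∀ σ : GQ, A.IsFrobeniusAt σ ℓ → ∀ x : J, red (σ • x) = Fr (red x)) ∧
    (∀ x : J, Fr (Fr (red x)) - Fr (red (T ℓ • x)) + (ℓ : ℕ) • red x = 0) ∧
    (∀ m : ℕ, ¬ (ℓ : ℕ) ∣ m → ∀ x : J, m • x = 0 → red x = 0 → x = 0)

/-- reduction map at `q`, with finite flat models. -/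
def Model (T : Nat.Primes → R) (J : Type) [AddCommGroup J] [Module R J] [DistribMulAction GQ J]
    (ℓ : Nat.Primes) (A : ValuationSubring (AlgebraicClosure ℚ)) : Prop :=
  ∃ (B : Type) (_ : AddCommGroup B) (red : J →+ B) (Fr : B →+ B),
    (∀ σ ∈ A.inertiaSubgroupIn ℚ, ∀ x : J, red (σ • x) = red x) ∧
    (∀ σ : GQ, A.IsFrobeniusAt σ ℓ → ∀ x : J, red (σ • x) = Fr (red x)) ∧
    (∀ x : J, Fr (Fr (red x)) - Fr (red (T ℓ • x)) + (ℓ : ℕ) • red x = 0) ∧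
    (∀ n : ℕ, HasModel ℓ J (((ℓ : ℕ) : ℤ) ^ n) A red.ker)

theorem eisInput [SMulCommClass GQ R J] (hN : N.Prime) (hq : q.Prime) (hqN : q ≠ N)
    (isMaximal : P.IsMaximal)
    (int : ∀ r : R, ∃ n : ℤ, r - n ∈ P) (q_mem : (q : R) ∈ P)
    (eis : ∀ ℓ : Nat.Primes, (ℓ : ℕ) ≠ q → (ℓ : ℕ) ≠ N → T ℓ - (1 + ((ℓ : ℕ) : R)) ∈ P)
    (divisible : ∀ x : J, ∃ y : J, q • y = x)
    (finite : ∀ n : ℕ, n ≠ 0 → Finite {x : J // n • x = 0})
    (smooth : ∀ x : J, ∃ U : Subgroup GQ, IsOpen (U : Set GQ) ∧ ∀ σ ∈ U, σ • x = x)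
    (bare : ∀ ℓ : Nat.Primes, (ℓ : ℕ) ≠ q → (ℓ : ℕ) ≠ N →
      ∀ A : ValuationSubring (AlgebraicClosure ℚ), A.LiesOverPrime ℓ → Bare T J ℓ A)
    (model : ∃ A : ValuationSubring (AlgebraicClosure ℚ), A.LiesOverPrime q ∧
      Model T J ⟨q, hq⟩ A)
    (weight : ∃ ℓ : Nat.Primes, (ℓ : ℕ) ≠ q ∧ (ℓ : ℕ) ≠ N ∧ ∃ (u : R) (n : ℕ), n ≠ 0 ∧
      ∀ x ∈ PPrim q P J, (u * (T ℓ - (1 + ((ℓ : ℕ) : R)))) • x = n • x)
    (weight_q : ∃ (u : R) (n : ℕ), n ≠ 0 ∧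
      ∀ x ∈ PPrim q P J, (u * ((T ⟨q, hq⟩) ^ 2 - (1 + (q : R)) ^ 2)) • x = n • x)
    (atN : ∃ B : ValuationSubring (AlgebraicClosure ℚ), B.LiesOverPrime N ∧
      (∀ τ ∈ B.inertiaSubgroupIn ℚ, ∀ τ' ∈ B.inertiaSubgroupIn ℚ, ∀ x ∈ PPrim q P J,
        τ • (τ' • x - x) - (τ' • x - x) = 0) ∧
      ∃ φ : GQ, B.IsFrobeniusAt φ N ∧ ∃ a : ℕ, ∀ x ∈ PPrim q P J,
        (((gEnd J φ) ^ 2 - 1) ^ a * ((gEnd J φ) ^ 2 - ((N ^ 2 : ℕ) : AddMonoid.End J)) ^ a :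
          AddMonoid.End J) x = 0) :
    EisInput hq N P T J := by
  have comm : ∀ (g : GQ) (r : R) (x : J), g • r • x = r • g • x := fun g r x => smul_comm g r x
  have hsc : ∀ (g : GQ) (n : ℕ) (x : J), g • n • x = n • g • x := fun g n x => smul_comm g n x
  have hfrob : ∀ ℓ : Nat.Primes, (ℓ : ℕ) ≠ q → (ℓ : ℕ) ≠ N →
      ∀ A : ValuationSubring (AlgebraicClosure ℚ), A.LiesOverPrime ℓ →
        ∀ φ : GQ, A.IsFrobeniusAt φ ℓ → ∀ x ∈ PPrim q P J,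
          φ • φ • x - T ℓ • φ • x + (ℓ : ℕ) • x = 0 := by
    intro ℓ hℓq hℓN A hA φ hφ x hx
    obtain ⟨B, _, red, Fr, h1, h2, h3, h4⟩ := bare ℓ hℓq hℓN A hA
    obtain ⟨⟨n, hn⟩, -⟩ := hx
    have hcop : ¬ (ℓ : ℕ) ∣ q ^ n := fun h =>
      hℓq ((Nat.prime_dvd_prime_iff_eq ℓ.2 hq).mp (ℓ.2.dvd_of_dvd_pow h))
    refine h4 (q ^ n) hcop _ ?_ ?_
    · have h5 : ∀ g : GQ, q ^ n • g • x = 0 := fun g => by
        rw [← hsc, hn, smul_zero]
      rw [smul_add, smul_sub, smul_comm (q ^ n) (ℓ : ℕ) x, hn, smul_zero, add_zero,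
        ← hsc, h5, smul_zero, smul_comm (q ^ n) (T ℓ) (φ • x), h5, smul_zero, sub_zero]
    · rw [← comm, map_add, map_sub, h2 φ hφ, h2 φ hφ, h2 φ hφ, map_nsmul]
      exact h3 x
  refine
    { prime_N := hN
      ne := hqN
      isMaximal := isMaximal
      q_mem := q_mem
      eis := eis
      divisible := divisible
      finite := finite
      smooth := smooth
      unram := ?_
      frob := hfrob
      weight := weight
      weight_q := weight_q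
      atN := atN
      atq := ?_ }
  · intro ℓ hℓq hℓN A hA σ hσ x ⟨n, hn⟩
    obtain ⟨B, _, red, Fr, h1, h2, h3, h4⟩ := bare ℓ hℓq hℓN A hA
    have hcop : ¬ (ℓ : ℕ) ∣ q ^ n := fun h =>
      hℓq ((Nat.prime_dvd_prime_iff_eq ℓ.2 hq).mp (ℓ.2.dvd_of_dvd_pow h))
    exact sub_eq_zero.mp (h4 (q ^ n) hcop _ hn (by rw [map_sub, h1 σ hσ, sub_self]))
  · -- at `q`
    obtain ⟨A, hA, B, _, red, Fr, h1, h2, h3, h4⟩ := model
    let J₀ : AddSubgroup J :=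
      { carrier := {x | ∀ r : R, red (r • x) = 0}
        zero_mem' := fun r => by rw [smul_zero, map_zero]
        add_mem' := fun {x y} hx hy r => by rw [smul_add, map_add, hx r, hy r, add_zero]
        neg_mem' := fun {x} hx r => by rw [smul_neg, map_neg, hx r, neg_zero] }
    refine ⟨A, J₀, hA, ?_, ?_, ?_, ?_, ?_⟩
    · intro σ hσ x r
      rw [smul_sub, map_sub, ← comm, h1 σ hσ, sub_self]
    · intro φ hφ x hx r
      rw [← comm, h2 φ hφ, hx r, map_zero]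
    · intro r x hx s
      rw [← mul_smul]
      exact hx _
    · intro φ hφ x hx r
      have h5 : r • (φ • φ • x - T ⟨q, hq⟩ • φ • x + q • x) =
          φ • φ • r • x - φ • T ⟨q, hq⟩ • r • x + q • r • x := by
        rw [smul_add, smul_sub, ← comm, ← comm, smul_comm r q x, ← comm φ (T ⟨q, hq⟩) x,
          ← comm φ r, ← mul_smul r (T ⟨q, hq⟩) x, mul_comm, mul_smul]
      rw [h5, map_add, map_sub, h2 φ hφ, h2 φ hφ, h2 φ hφ, map_nsmul]
      exact h3 (r • x)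
    · refine cyc_clause hq comm int q_mem eis finite smooth hfrob hA (fun n => ?_)
      obtain ⟨B', hB', hB''⟩ := h4 n
      refine ⟨B', hB', fun x hx => hB'' x ?_⟩
      have h5 := hx 1
      rw [one_smul] at h5
      exact h5

end

end Fermat.Agent.MazurEisGen
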