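import Fermat.Agent.Mazur.HKGen
import Fermat.Agent.S37aux.Final

/-!
# Hecke stability of the kernel of the reduction map of `J₀(N)`
-/

set_option autoImplicit false
set_option synthInstance.maxHeartbeats 400000

noncomputable section

open ModularCurve HahnSeries AlgebraicCurve Module Fermat.Agent.GaussVal Fermat.Agent.Deuring
open Fermat.Agent.FF Fermat.Agent.RR Fermat.Agent.S37aux
open scoped IntermediateField Fermat.Agent.GaussVal

namespace Fermat.Agent.MazurHK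

variable {A : ValuationSubring (AlgebraicClosure ℚ)} {ℓ : ℕ} (hℓ : ℓ.Prime)
  (hA : A.LiesOverPrime ℓ)

section Special

variable (A)

/-- `α` on the special fibre -/
def alphaC (N r : ℕ) [NeZero N] [NeZero r] : FC A N →ₐ[RF A] FC A (N * r) :=
  IntermediateField.inclusion (FC_le A (dvd_mul_right N r))

theorem coe_alphaC {N r : ℕ} [NeZero N] [NeZero r] (x : FC A N) :
    (alphaC A N r x : LaurentSeries (RF A)) = x :=
  IntermediateField.coe_inclusion _ _

/-- `β` on the special fibre -/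
def betaC (N r : ℕ) [NeZero r] : FC A N →ₐ[RF A] FC A (N * r) where
  toFun x := ⟨qExpand (RF A) r x, full_degeneracyC_map_le (RF A) N r ⟨x, x.2, rfl⟩⟩
  map_one' := Subtype.ext (map_one (qExpand (RF A) r))
  map_mul' _ _ := Subtype.ext (map_mul (qExpand (RF A) r) _ _)
  map_zero' := Subtype.ext (map_zero (qExpand (RF A) r))
  map_add' _ _ := Subtype.ext (map_add (qExpand (RF A) r) _ _)
  commutes' a := Subtype.ext ((qExpandAlgHomC (RF A) r).commutes a)

theorem coe_betaC {N r : ℕ} [NeZero r] (x : FC A N) :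
    (betaC A N r x : LaurentSeries (RF A)) = qExpand (RF A) r x := rfl

theorem coe_jC (N : ℕ) : (jC A N : LaurentSeries (RF A)) = jqModC (RF A) :=
  coe_jEl _ _ _ _

theorem alphaC_jC (N r : ℕ) [NeZero N] [NeZero r] : alphaC A N r (jC A N) = jC A (N * r) := by
  apply Subtype.ext
  rw [coe_alphaC, coe_jC, coe_jC]

variable {A}

theorem finrankAlong_alphaC {N r : ℕ} [NeZero N] [NeZero r] (h : DegC A N)
    (h' : DegC A (N * r)) :
    dedekindPsi N * finrankAlong (RF A) (alphaC A N r) = dedekindPsi (N * r) := by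
  have h1 := TEll.finrank_mul_finrankAlong (alphaC A N r) (jC A N)
  rw [alphaC_jC] at h1
  exact (congrArg (· * _) (show finrank (RF A)⟮jC A N⟯ (FC A N) = dedekindPsi N from h)).symm.trans
    (h1.trans h')

theorem finrankAlong_eq {N r : ℕ} [NeZero N] [NeZero r] (h : DegC A N)
    (h' : DegC A (N * r)) :
    finrankAlong (AlgebraicClosure ℚ) (heckeAlphaBar (AlgebraicClosure ℚ) N r) =
      finrankAlong (RF A) (alphaC A N r) :=
  Nat.eq_of_mul_eq_mul_left (TEll.dedekindPsi_pos N)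
    ((TEll.dedekindPsi_mul_finrankAlong N r).trans (finrankAlong_alphaC h h').symm)

theorem finrankAlong_pos {N r : ℕ} [NeZero N] [NeZero r] :
    0 < finrankAlong (AlgebraicClosure ℚ) (heckeAlphaBar (AlgebraicClosure ℚ) N r) := by
  have h := TEll.dedekindPsi_mul_finrankAlong N r
  have : NeZero (N * r) := inferInstance
  have h1 := TEll.dedekindPsi_pos (N * r)
  rw [← h] at h1
  exact Nat.pos_of_mul_pos_left h1

end Special

section Lift

variable {N r : ℕ} [NeZero N] [NeZero r] (h : DegC A N) (h' : DegC A (N * r))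

theorem lifts_alpha : Lifts (gauss hℓ hA N h).O (gauss hℓ hA N h).ρ
    (gauss hℓ hA (N * r) h').O (gauss hℓ hA (N * r) h').ρ
    (heckeAlphaBar (AlgebraicClosure ℚ) N r) (alphaC A N r) := by
  intro x hx
  have h1 : heckeAlphaBar (AlgebraicClosure ℚ) N r x ∈ (gauss hℓ hA (N * r) h').O := by
    rw [mem_gauss_O, coe_heckeAlphaBar]
    exact mem_gauss_O.mp hx
  refine ⟨h1, Subtype.ext ?_⟩
  rw [coe_alphaC, coe_gauss_ρ, coe_gauss_ρ]
  exact congrArg (gaussRed A) (Subtype.ext (coe_heckeAlphaBar N r x))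

theorem lifts_beta : Lifts (gauss hℓ hA N h).O (gauss hℓ hA N h).ρ
    (gauss hℓ hA (N * r) h').O (gauss hℓ hA (N * r) h').ρ
    (heckeBetaBar (AlgebraicClosure ℚ) N r) (betaC A N r) := by
  intro x hx
  have hx' := mem_gauss_O.mp hx
  have h2 := TEll.qExpand_mem_gaussSubring A r hx'
  have h1 : heckeBetaBar (AlgebraicClosure ℚ) N r x ∈ (gauss hℓ hA (N * r) h').O := by
    rw [mem_gauss_O, coe_heckeBetaBar]
    exact h2
  refine ⟨h1, Subtype.ext ?_⟩
  rw [coe_betaC, coe_gauss_ρ, coe_gauss_ρ, ← TEll.gaussRed_qExpand A r ⟨_, hx'⟩]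
  exact congrArg (gaussRed A) (Subtype.ext (coe_heckeBetaBar N r x))

include h' in
/-- the norm along `α` of `β f` reduces to the norm of its reduction. -/
theorem TEll_red (f : modularFunctionFieldBar N) (hf : f ∈ (gauss hℓ hA N h).O) :
    ∃ h1 : TEll.TEll (AlgebraicClosure ℚ) N r f ∈ (gauss hℓ hA N h).O,
      (gauss hℓ hA N h).ρ ⟨_, h1⟩ =
        TEll.normAlong (alphaC A N r) (betaC A N r ((gauss hℓ hA N h).ρ ⟨f, hf⟩)) := by
  obtain ⟨h1, h2⟩ := lifts_beta hℓ hA h h' f hf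
  obtain ⟨h3, h4⟩ := normAlong_red (lifts_alpha hℓ hA h h')
    (fun x hx => ((gauss hℓ hA N h).ρ_eq_zero_iff x).mpr hx) (gauss hℓ hA (N * r) h').ρ_surj
    finrankAlong_pos (finrankAlong_eq h h') _ h1
  exact ⟨h3, h4.trans (congrArg _ h2)⟩

end Lift

section RD

variable {N : ℕ} [NeZero N] (hD : DegC A N) [IsFF (RF A) (FC A N)]

omit [IsFF (RF A) (FC A N)] in
/-- a function with `A`-integral expansion of nonzero reduction. -/
theorem gauss_incl {y : LaurentSeries A}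
    (hy : coeffMap A.subtype y ∈ modularFunctionFieldBar N)
    (hyk : coeffMap (IsLocalRing.residue A) y ∈ FC A N) :
    ∃ h : (⟨coeffMap A.subtype y, hy⟩ : modularFunctionFieldBar N) ∈ (gauss hℓ hA N hD).O,
      (gauss hℓ hA N hD).ρ ⟨_, h⟩ = ⟨coeffMap (IsLocalRing.residue A) y, hyk⟩ := by
  have h : (⟨coeffMap A.subtype y, hy⟩ : modularFunctionFieldBar N) ∈ (gauss hℓ hA N hD).O :=
    mem_gauss_O.mpr (incl_mem y)
  refine ⟨h, Subtype.ext ?_⟩
  rw [coe_gauss_ρ]
  exact gaussRed_incl y (incl_mem y)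

theorem mapDomain_nonneg {X Y : Type*} (r : X → Y) {D : X →₀ ℤ} (h : 0 ≤ D) :
    0 ≤ Finsupp.mapDomain r D := by
  rw [Finsupp.mapDomain, Finsupp.sum]
  exact Finset.sum_nonneg fun v _ => Finsupp.single_nonneg.mpr (h v)

theorem principal_red (h : ReductionInputsModL A N) {D : Divisor (AlgebraicClosure ℚ)
    (modularFunctionFieldBar N)} (hD' : D ∈ Divisor.principal (K := AlgebraicClosure ℚ)
      (F := modularFunctionFieldBar N)) :
    ∃ (g : modularFunctionFieldBar N) (hg : g ∈ (gauss hℓ hA N hD).O),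
      (gauss hℓ hA N hD).ρ ⟨g, hg⟩ ≠ 0 ∧ D = div g ∧
      reductionDivAlong (placeReductionModL h) D = div ((gauss hℓ hA N hD).ρ ⟨g, hg⟩) := by
  have h1 := h.choose_spec.2 hD'
  clear hD'
  induction h1 using AddSubgroup.closure_induction with
  | mem E hE =>
    obtain ⟨y, hy, hyk, hne, hEy⟩ := hE
    obtain ⟨h2, h3⟩ := gauss_incl hℓ hA hD hy hyk
    refine ⟨⟨coeffMap A.subtype y, hy⟩, h2, ?_, ?_, ?_⟩
    · rw [h3]
      exact fun h0 => hne (congrArg Subtype.val h0)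
    · ext v
      rw [div_apply]
      exact hEy v
    · rw [h3]
      ext Q
      rw [div_apply]
      exact (isPlaceReductionModL_placeReductionModL h).2 y hy hyk hne E hEy Q
  | zero =>
    refine ⟨1, (gauss hℓ hA N hD).O.one_mem, ?_, div_one'.symm, ?_⟩
    · rw [show (⟨1, (gauss hℓ hA N hD).O.one_mem⟩ : (gauss hℓ hA N hD).O) = 1 from rfl, map_one]
      exact one_ne_zero
    · rw [map_zero, show (⟨1, (gauss hℓ hA N hD).O.one_mem⟩ : (gauss hℓ hA N hD).O) = 1 from rfl,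
        map_one, div_one']
  | add E E' _ _ hE hE' =>
    obtain ⟨g, hg, h0, h1, h2⟩ := hE
    obtain ⟨g', hg', h0', h1', h2'⟩ := hE'
    have hgg := (gauss hℓ hA N hD).O.mul_mem _ _ hg hg'
    have hmul := (gauss hℓ hA N hD).ρ_mul hg hg' hgg
    have hg0 : g ≠ 0 := by rintro rfl; exact h0 (map_zero _)
    have hg0' : g' ≠ 0 := by rintro rfl; exact h0' (map_zero _)
    refine ⟨g * g', hgg, ?_, ?_, ?_⟩
    · rw [hmul]; exact mul_ne_zero h0 h0'
    · rw [h1, h1', RR.div_mul hg0 hg0']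
    · rw [map_add, h2, h2', hmul, RR.div_mul h0 h0']
  | neg E _ hE =>
    obtain ⟨g, hg, h0, h1, h2⟩ := hE
    refine ⟨g⁻¹, (gauss hℓ hA N hD).inv_mem_of_ρ_ne_zero hg h0, ?_, ?_, ?_⟩
    · rw [(gauss hℓ hA N hD).ρ_inv hg h0]; exact inv_ne_zero h0
    · rw [h1, RR.div_inv]
    · rw [map_neg, h2, (gauss hℓ hA N hD).ρ_inv hg h0, RR.div_inv]

/-- **(RD)** the place reduction of `ReductionInputsModL` computes the divisors of reductions. -/
theorem redDiv (h : ReductionInputsModL A N) :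
    RedDiv (gauss hℓ hA N hD) (reductionDivAlong (placeReductionModL h)) where
  nonneg D h0 := mapDomain_nonneg _ h0
  degree D := degree_mapDomain_of_deg_eq (isPlaceReductionModL_placeReductionModL h).1 D
  r_div f hf h0 := by
    have hf0 : f ≠ 0 := by rintro rfl; exact h0 (map_zero _)
    obtain ⟨g, hg, h1, h2, h3⟩ := principal_red hℓ hA hD h (isPrincipal_div hf0)
    have hg0 : g ≠ 0 := by rintro rfl; exact h1 (map_zero _)
    obtain ⟨c, hc, hfc⟩ := exists_const_of_div_eq hf0 hg0 h2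
    rw [h3]
    -- `c` is a unit of `A`
    set G := gauss hℓ hA N hD with hG
    have hcm : algebraMap (AlgebraicClosure ℚ) (modularFunctionFieldBar N) c ∈ G.O := by
      have h4 := G.O.mul_mem _ _ hf (G.inv_mem_of_ρ_ne_zero hg h1)
      rwa [hfc, Algebra.smul_def, mul_assoc, mul_inv_cancel₀ hg0, mul_one] at h4
    have hcA := (G.mem_O_iff c).mp hcm
    have h5 : G.ρ ⟨f, hf⟩ = G.res ⟨c, hcA⟩ • G.ρ ⟨g, hg⟩ := by
      rw [← G.ρ_smul hcA hg (hfc ▸ hf)]
      congr 1
      exact Subtype.ext hfc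
    have h6 : G.res ⟨c, hcA⟩ ≠ 0 := by
      intro h7
      rw [h7, zero_smul] at h5
      exact h0 h5
    rw [h5, div_smul h6]

end RD

section Final

variable {N : ℕ} [NeZero N]

omit [NeZero N] in
theorem reductionModL_eq_zero_iff (h : ReductionInputsModL A N)
    (D : Divisor.degZero (K := AlgebraicClosure ℚ) (F := modularFunctionFieldBar N)) :
    reductionModL A N (Pic0.mk D) = 0 ↔
      (reductionDivAlong (placeReductionModL h) (D : Divisor _ _)).IsPrincipal := by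
  rw [reductionModL_mk h]
  exact (QuotientAddGroup.eq_zero_iff _).trans AddSubgroup.mem_addSubgroupOf

include hℓ hA in
/-- **(HK)** for `r ≠ ℓ` (`DegC` at the levels `N` and `N r`). -/
theorem reductionModL_hecke_eq_zero (r : Nat.Primes) (hD : DegC A N)
    (hD' : DegC A (N * r)) {z : JZero N} (hz : reductionModL A N z = 0) :
    reductionModL A N (heckeOperatorBar N r z) = 0 := by
  have : NeZero (r : ℕ) := ⟨r.2.ne_zero⟩
  have := hD.isFF
  have := hD'.isFF
  by_cases h : ReductionInputsModL A N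
  swap
  · rw [reductionModL_of_not h]; rfl
  obtain ⟨D, rfl⟩ := Pic0.mk_surjective z
  obtain ⟨D', h1, h2⟩ := TEll.heckeOperatorBar_mk r D
  rw [h2, reductionModL_eq_zero_iff h, h1]
  rw [reductionModL_eq_zero_iff h] at hz
  refine (redDiv hℓ hA hD h).isPrincipal (T := TEll.heckeDiv N r)
    (τ := fun f => TEll.TEll (AlgebraicClosure ℚ) N r f)
    (c := finrankAlong (AlgebraicClosure ℚ) (heckeBetaBar (AlgebraicClosure ℚ) N r))
    ?_ (corr_spec (alphaC A N r) (betaC A N r)) ?_ D.2 hz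
  · exact corr_spec (heckeAlphaBar (AlgebraicClosure ℚ) N r)
      (heckeBetaBar (AlgebraicClosure ℚ) N r)
  · intro f hf _
    exact TEll_red hℓ hA hD hD' f hf

end Final

section ES

variable {N : ℕ} [NeZero N]

/-- the Eichler–Shimura correspondence `Φ + ℓ Φ⁻¹` on the special fibre. -/
theorem corr_ES {k E : Type*} [Field k] [Field E] [Algebra k E] [IsFF k E]
    (Φ : SemilinearAut k E) (ℓ : ℕ) :
    Corr (ℓ • (autHom (K := k) (F := E) Φ⁻¹) + autHom Φ)
      (fun g => (Φ⁻¹ • g) ^ ℓ * (Φ • g)) (ℓ + 1) where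
  nonneg D hD := add_nonneg (nsmul_nonneg (aut_smul_nonneg _ hD) _) (aut_smul_nonneg _ hD)
  degree D := by
    change Divisor.degree (ℓ • (Φ⁻¹ • D) + Φ • D) = _
    rw [map_add, map_nsmul, SemilinearAut.degree_smul, SemilinearAut.degree_smul, nsmul_eq_mul]
    ring
  div g hg := by
    change ℓ • (Φ⁻¹ • (div g : Divisor k E)) + Φ • (div g : Divisor k E) = _
    have hΦ1 : Φ⁻¹ • g ≠ 0 := by
      rw [SemilinearAut.smul_def]
      exact (map_ne_zero_iff _ (SemilinearAut.toRingAut Φ⁻¹).injective).mpr hg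
    have hΦ2 : Φ • g ≠ 0 := by
      rw [SemilinearAut.smul_def]
      exact (map_ne_zero_iff _ (SemilinearAut.toRingAut Φ).injective).mpr hg
    rw [RR.div_mul (pow_ne_zero _ hΦ1) hΦ2, Deuring.div_pow, div_smul_aut, div_smul_aut]
  ne_zero g hg := by
    have hΦ1 : Φ⁻¹ • g ≠ 0 := by
      rw [SemilinearAut.smul_def]
      exact (map_ne_zero_iff _ (SemilinearAut.toRingAut Φ⁻¹).injective).mpr hg
    have hΦ2 : Φ • g ≠ 0 := by
      rw [SemilinearAut.smul_def]
      exact (map_ne_zero_iff _ (SemilinearAut.toRingAut Φ).injective).mpr hg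
    exact mul_ne_zero (pow_ne_zero _ hΦ1) hΦ2

theorem TEll_red_self [Fact ℓ.Prime] [CharP (RF A) ℓ] [PerfectRing (RF A) ℓ] [NeZero ℓ]
    (hN : ¬ ℓ ∣ N) (h : DegC A N)
    (f : modularFunctionFieldBar N) (hf : f ∈ (gauss hℓ hA N h).O) :
    ∃ h1 : TEll.TEll (AlgebraicClosure ℚ) N ℓ f ∈ (gauss hℓ hA N h).O,
      (gauss hℓ hA N h).ρ ⟨_, h1⟩ =
        ((Phi A ℓ N)⁻¹ • (gauss hℓ hA N h).ρ ⟨f, hf⟩) ^ ℓ *
          (Phi A ℓ N • (gauss hℓ hA N h).ρ ⟨f, hf⟩) := by
  have hf1 := mem_gauss_O.mp hf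
  have e1 := TEll.coe_TEll_bar N ℓ hℓ hN f
  have h1 : (TEll.TEll (AlgebraicClosure ℚ) N ℓ f : LaurentSeries (AlgebraicClosure ℚ)) ∈
      gaussSubring A := by
    rw [e1]
    exact TEll.TSer_mem_gaussSubring A ℓ hf1
  refine ⟨mem_gauss_O.mpr h1, ?_⟩
  apply Subtype.ext
  rw [coe_gauss_ρ]
  have h2 : gaussRed A ⟨(TEll.TEll (AlgebraicClosure ℚ) N ℓ f :
      LaurentSeries (AlgebraicClosure ℚ)), h1⟩ =
      gaussRed A ⟨TEll.TSer (AlgebraicClosure ℚ) ℓ f, TEll.TSer_mem_gaussSubring A ℓ hf1⟩ :=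
    congrArg (gaussRed A) (Subtype.ext e1)
  rw [h2]
  refine (TEll.gaussRed_TSer_eq A ℓ ⟨_, hf1⟩).trans ?_
  rw [← coe_gauss_ρ (hℓ := hℓ) (hA := hA) (h := h) hf]
  have h3 := TEll.qExpand_eq_pow ℓ _ _ (coe_frobAut_inv_smul (RF A) ℓ N
    ((gauss hℓ hA N h).ρ ⟨f, hf⟩))
  rw [h3]
  rfl

include hA in
/-- **(HK)** for `r = ℓ`. -/
theorem reductionModL_hecke_self (hN : ¬ ℓ ∣ N) (hD : DegC A N) {z : JZero N}
    (hz : reductionModL A N z = 0) :
    reductionModL A N (heckeOperatorBar N ⟨ℓ, hℓ⟩ z) = 0 := by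
  have : NeZero ℓ := ⟨hℓ.ne_zero⟩
  have := hD.isFF
  have := Fact.mk hℓ
  have := charP_RF hℓ hA
  have : PerfectRing (RF A) ℓ := PerfectField.toPerfectRing ℓ
  by_cases h : ReductionInputsModL A N
  swap
  · rw [reductionModL_of_not h]; rfl
  obtain ⟨D, rfl⟩ := Pic0.mk_surjective z
  obtain ⟨D', h1, h2⟩ := TEll.heckeOperatorBar_mk ⟨ℓ, hℓ⟩ D
  rw [h2, reductionModL_eq_zero_iff h, h1]
  rw [reductionModL_eq_zero_iff h] at hz
  refine (redDiv hℓ hA hD h).isPrincipal (T := TEll.heckeDiv N ℓ)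
    (τ := fun f => TEll.TEll (AlgebraicClosure ℚ) N ℓ f)
    (c := finrankAlong (AlgebraicClosure ℚ) (heckeBetaBar (AlgebraicClosure ℚ) N ℓ))
    ?_ (corr_ES (Phi A ℓ N) ℓ) ?_ D.2 hz
  · exact corr_spec (heckeAlphaBar (AlgebraicClosure ℚ) N ℓ)
      (heckeBetaBar (AlgebraicClosure ℚ) N ℓ)
  · intro f hf _
    exact TEll_red_self hℓ hA hN hD f hf

include hℓ hA in
/-- **(HK)**: the kernel of the reduction map at `ℓ ∤ N` is stable under all `T_r`. -/
theorem reductionModL_hecke (hN : ¬ ℓ ∣ N) (r : Nat.Primes)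
    (hD : ∀ M : ℕ, [NeZero M] → ¬ ℓ ∣ M → DegC A M) {z : JZero N}
    (hz : reductionModL A N z = 0) :
    reductionModL A N (heckeOperatorBar N r z) = 0 := by
  have : NeZero (r : ℕ) := ⟨r.2.ne_zero⟩
  by_cases hr : (r : ℕ) = ℓ
  · obtain ⟨r, hr'⟩ := r
    obtain rfl : r = ℓ := hr
    exact reductionModL_hecke_self hr' hA hN (hD N hN) hz
  · refine reductionModL_hecke_eq_zero hℓ hA r (hD N hN) (hD (N * r) ?_) hz
    intro h
    rcases hℓ.dvd_mul.mp h with h1 | h1
    · exact hN h1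
    · exact hr ((Nat.prime_dvd_prime_iff_eq hℓ r.2).mp h1).symm

end ES

end Fermat.Agent.MazurHK
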