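import Mathlib

/-!
# Norms commute with reduction in an unramified, residually full extension of valuation rings
-/

set_option autoImplicit false

open Module

namespace Fermat.Agent.MazurNR

section

variable {F F₁ κ κ₁ : Type*} [Field F] [Field F₁] [Field κ] [Field κ₁] [Algebra F F₁]
  [Algebra κ κ₁]

/-- compatible reductions of valuation rings `O ⊂ F`, `O₁ ⊂ F₁` onto `κ`, `κ₁`. -/
structure Compat (O : ValuationSubring F) (ρ : O →+* κ) (O₁ : ValuationSubring F₁)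
    (ρ₁ : O₁ →+* κ₁) : Prop where
  surj : Function.Surjective ρ₁
  zero_iff : ∀ x : O, (x : F) ∈ O.nonunits → ρ x = 0
  mem : ∀ x ∈ O, algebraMap F F₁ x ∈ O₁
  comp : ∀ (x : F) (hx : x ∈ O), ρ₁ ⟨algebraMap F F₁ x, mem x hx⟩ = algebraMap κ κ₁ (ρ ⟨x, hx⟩)

variable {O : ValuationSubring F} {ρ : O →+* κ} {O₁ : ValuationSubring F₁} {ρ₁ : O₁ →+* κ₁}

theorem Compat.smul_mem (h : Compat O ρ O₁ ρ₁) {c : F} (hc : c ∈ O) {x : F₁} (hx : x ∈ O₁) :
    c • x ∈ O₁ := by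
  rw [Algebra.smul_def]
  exact O₁.mul_mem _ _ (h.mem c hc) hx

theorem Compat.ρ_smul (h : Compat O ρ O₁ ρ₁) {c : F} (hc : c ∈ O) {x : F₁} (hx : x ∈ O₁)
    (hcx : c • x ∈ O₁) : ρ₁ ⟨c • x, hcx⟩ = ρ ⟨c, hc⟩ • ρ₁ ⟨x, hx⟩ := by
  rw [Algebra.smul_def (ρ ⟨c, hc⟩), ← h.comp c hc, ← map_mul]
  congr 1
  ext
  simp [Algebra.smul_def]

theorem ρ_sum (ρ₁ : O₁ →+* κ₁) {ι : Type*} (s : Finset ι) (f : ι → F₁) (hf : ∀ i, f i ∈ O₁)
    (h : ∑ i ∈ s, f i ∈ O₁) : ρ₁ ⟨∑ i ∈ s, f i, h⟩ = ∑ i ∈ s, ρ₁ ⟨f i, hf i⟩ := by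
  rw [← map_sum]
  congr 1
  ext
  simp

/-- the key estimate. -/
theorem Compat.key (h : Compat O ρ O₁ ρ₁) {ι : Type*} [Fintype ι] {b : ι → F₁}
    (hb : ∀ i, b i ∈ O₁) (hli : LinearIndependent κ (fun i => ρ₁ ⟨b i, hb i⟩)) (c : ι → F)
    (hc : c ≠ 0) : ∃ j, c j ≠ 0 ∧ (∀ i, (c j)⁻¹ * c i ∈ O) ∧
      ∃ hm : (c j)⁻¹ • ∑ i, c i • b i ∈ O₁, ρ₁ ⟨_, hm⟩ ≠ 0 := by
  classical
  obtain ⟨i, hi⟩ : ∃ i, c i ≠ 0 := by
    by_contra hcon
    push Not at hcon
    exact hc (funext hcon)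
  obtain ⟨j, _, hj⟩ := Finset.exists_max_image Finset.univ (fun j => O.valuation (c j))
    ⟨i, Finset.mem_univ i⟩
  have hj0 : c j ≠ 0 := by
    intro h0
    have := hj i (Finset.mem_univ i)
    rw [h0, map_zero] at this
    exact (Valuation.ne_zero_iff _).mpr hi (le_antisymm this zero_le)
  have hquot : ∀ l, (c j)⁻¹ * c l ∈ O := by
    intro l
    rw [← ValuationSubring.valuation_le_one_iff, map_mul, map_inv₀]
    have h1 := hj l (Finset.mem_univ l)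
    have h2 : O.valuation (c j) ≠ 0 := (Valuation.ne_zero_iff _).mpr hj0
    calc (O.valuation (c j))⁻¹ * O.valuation (c l)
        ≤ (O.valuation (c j))⁻¹ * O.valuation (c j) := mul_le_mul_right h1 _
      _ = 1 := inv_mul_cancel₀ h2
  have hsum : (c j)⁻¹ • (∑ l, c l • b l) = ∑ l, ((c j)⁻¹ * c l) • b l := by
    rw [Finset.smul_sum]
    exact Finset.sum_congr rfl fun l _ => by rw [mul_smul]
  have hbmem : ∀ l, ((c j)⁻¹ * c l) • b l ∈ O₁ := fun l => h.smul_mem (hquot l) (hb l)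
  have hm : (c j)⁻¹ • (∑ l, c l • b l) ∈ O₁ := by
    rw [hsum]
    exact sum_mem fun l _ => hbmem l
  refine ⟨j, hj0, hquot, hm, fun h1 => ?_⟩
  have h2 : ∑ l, ρ ⟨(c j)⁻¹ * c l, hquot l⟩ • ρ₁ ⟨b l, hb l⟩ = 0 := by
    rw [← h1]
    have h3 : (⟨(c j)⁻¹ • (∑ l, c l • b l), hm⟩ : O₁) =
        ⟨∑ l, ((c j)⁻¹ * c l) • b l, hsum ▸ hm⟩ := Subtype.ext hsum
    rw [h3, ρ_sum ρ₁ Finset.univ _ hbmem]
    exact Finset.sum_congr rfl fun l _ => (h.ρ_smul (hquot l) (hb l) (hbmem l)).symm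
  have h3 := Fintype.linearIndependent_iff.mp hli _ h2 j
  have h4 : (⟨(c j)⁻¹ * c j, hquot j⟩ : O) = 1 := Subtype.ext (inv_mul_cancel₀ hj0)
  rw [h4, map_one] at h3
  exact one_ne_zero h3

theorem Compat.linearIndependent (h : Compat O ρ O₁ ρ₁) {ι : Type*} [Fintype ι] {b : ι → F₁}
    (hb : ∀ i, b i ∈ O₁) (hli : LinearIndependent κ (fun i => ρ₁ ⟨b i, hb i⟩)) :
    LinearIndependent F b := by
  rw [Fintype.linearIndependent_iff]
  intro c hc
  by_contra hcon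
  push Not at hcon
  obtain ⟨i, hi⟩ := hcon
  obtain ⟨j, hj, _, hm, hne⟩ := h.key hb hli c (fun h0 => hi (congrFun h0 i))
  apply hne
  have : (⟨(c j)⁻¹ • ∑ i, c i • b i, hm⟩ : O₁) = 0 := Subtype.ext (by simp [hc])
  rw [this, map_zero]

theorem Compat.coord_mem (h : Compat O ρ O₁ ρ₁) {ι : Type*} [Fintype ι] {b : ι → F₁}
    (hb : ∀ i, b i ∈ O₁) (hli : LinearIndependent κ (fun i => ρ₁ ⟨b i, hb i⟩)) {c : ι → F}
    (hc : ∑ i, c i • b i ∈ O₁) (i : ι) : c i ∈ O := by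
  by_cases hc0 : c = 0
  · rw [hc0]; exact O.zero_mem
  obtain ⟨j, hj, hq, hm, hne⟩ := h.key hb hli c hc0
  have hjO : c j ∈ O := by
    by_contra hcon
    apply hne
    have hinvA : (c j)⁻¹ ∈ O := (O.mem_or_inv_mem (c j)).resolve_left hcon
    have hnon : (c j)⁻¹ ∈ O.nonunits := by
      rw [ValuationSubring.mem_nonunits_iff, map_inv₀]
      have h2 : 1 < O.valuation (c j) := by
        rw [← not_le, ValuationSubring.valuation_le_one_iff]
        exact hcon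
      exact inv_lt_one_of_one_lt₀ h2
    rw [h.ρ_smul hinvA hc, h.zero_iff _ hnon, zero_smul]
  have h1 : c i = c j * ((c j)⁻¹ * c i) := by rw [mul_inv_cancel_left₀ hj]
  rw [h1]
  exact O.mul_mem _ _ hjO (hq i)

/-- **norms commute with reduction.** -/
theorem Compat.norm_red (h : Compat O ρ O₁ ρ₁) (hpos : 0 < finrank F F₁)
    (hdeg : finrank F F₁ = finrank κ κ₁) {a : F₁} (ha : a ∈ O₁) :
    ∃ hn : Algebra.norm F a ∈ O, ρ ⟨Algebra.norm F a, hn⟩ = Algebra.norm κ (ρ₁ ⟨a, ha⟩) := by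
  classical
  have : FiniteDimensional κ κ₁ := FiniteDimensional.of_finrank_pos (by omega)
  have : FiniteDimensional F F₁ := FiniteDimensional.of_finrank_pos hpos
  let e := Module.finBasis κ κ₁
  choose b hb using fun i => h.surj (e i)
  have hbO : ∀ i, ((b i : O₁) : F₁) ∈ O₁ := fun i => (b i).2
  have hbe : (fun i => ρ₁ ⟨(b i : F₁), hbO i⟩) = e := funext fun i => hb i
  have hli : LinearIndependent κ (fun i => ρ₁ ⟨(b i : F₁), hbO i⟩) := by
    rw [hbe]; exact e.linearIndependent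
  have hliF := h.linearIndependent hbO hli
  let B : Basis (Fin (finrank κ κ₁)) F F₁ :=
    basisOfLinearIndependentOfCardEqFinrank' (fun i => ((b i : O₁) : F₁)) hliF
      (by rw [Fintype.card_fin, hdeg])
  have hB : ∀ i, B i = (b i : F₁) := fun i => by
    simp [B]
  set M := Algebra.leftMulMatrix B a with hM
  have hexp : ∀ j, a * (b j : F₁) = ∑ i, M i j • (b i : F₁) := by
    intro j
    have h1 := B.sum_repr (a * B j)
    rw [hB] at h1
    rw [← h1]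
    refine Finset.sum_congr rfl fun i _ => ?_
    rw [hB, hM, Algebra.leftMulMatrix_eq_repr_mul, hB]
  have hMO : ∀ i j, M i j ∈ O := fun i j =>
    h.coord_mem hbO hli (c := fun i => M i j) (by
      rw [← hexp j]
      exact O₁.mul_mem _ _ ha (hbO j)) i
  let MO : Matrix (Fin (finrank κ κ₁)) (Fin (finrank κ κ₁)) O := fun i j => ⟨M i j, hMO i j⟩
  have hMMO : M = (O.subtype).mapMatrix MO := by
    ext i j
    rfl
  have hred : Algebra.leftMulMatrix e (ρ₁ ⟨a, ha⟩) = ρ.mapMatrix MO := by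
    ext i j
    rw [Algebra.leftMulMatrix_eq_repr_mul]
    have h1 : ρ₁ ⟨a, ha⟩ * e j = ∑ i, ρ (MO i j) • e i := by
      rw [← hb j, ← map_mul]
      have h2 : (⟨a, ha⟩ * b j : O₁) = ⟨∑ i, M i j • (b i : F₁), by
          rw [← hexp j]; exact O₁.mul_mem _ _ ha (hbO j)⟩ := Subtype.ext (hexp j)
      rw [h2, ρ_sum ρ₁ Finset.univ _ (fun i => h.smul_mem (hMO i j) (hbO i))]
      refine Finset.sum_congr rfl fun i _ => ?_
      rw [h.ρ_smul (hMO i j) (hbO i)]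
      congr 1
      exact hb i
    rw [h1, map_sum, Finset.sum_apply']
    simp only [map_smul, Basis.repr_self, Finsupp.smul_single, smul_eq_mul, mul_one,
      Finsupp.single_apply]
    rw [Finset.sum_ite_eq']
    simp [RingHom.mapMatrix_apply]
  have hdet : Algebra.norm F a = ((MO.det : O) : F) := by
    rw [Algebra.norm_eq_matrix_det B a, ← hM, hMMO, ← RingHom.map_det]
    rfl
  refine ⟨hdet ▸ (MO.det).2, ?_⟩
  rw [Algebra.norm_eq_matrix_det e, hred, ← RingHom.map_det]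
  congr 1
  exact Subtype.ext hdet

end

end Fermat.Agent.MazurNR
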