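import Fermat.Agent.Deuring.DivLemmas
import Fermat.Agent.TEll.Along
import Fermat.Agent.Mazur.NormRed
import Fermat.Agent.TEll.HeckeDiv

/-!
# Reduction of divisors and correspondences: abstract comparison
-/

set_option autoImplicit false

noncomputable section

open AlgebraicCurve WithZero Module Polynomial
open scoped IntermediateField
open Fermat.Agent.RR Fermat.Agent.FF Fermat.Agent.Deuring

namespace Fermat.Agent.MazurHK

section Scale

variable {K F k E : Type*} [Field K] [Field F] [Algebra K F] [Field k] [Field E]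
  [Algebra k E] [HasPrincipalDivisors K F] [HasPrincipalDivisors k E]

/-- a reduction of divisors attached to `G`. -/
structure RedDiv (G : GaussData K F k E) (r : Divisor K F →+ Divisor k E) : Prop where
  nonneg : ∀ D, 0 ≤ D → 0 ≤ r D
  degree : ∀ D, Divisor.degree (r D) = Divisor.degree D
  r_div : ∀ (f : F) (hf : f ∈ G.O), G.ρ ⟨f, hf⟩ ≠ 0 → r (div f) = div (G.ρ ⟨f, hf⟩)

end Scale

section Comm

variable {K F k E : Type*} [Field K] [Field F] [Algebra K F] [Field k] [Field E]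
  [Algebra k E] [IsFF K F] [IsFF k E] [IsAlgClosed K] [IsAlgClosed k]
  {G : GaussData K F k E} {r : Divisor K F →+ Divisor k E}

/-- a positive homomorphism on divisors, of bounded degree, given on functions by `τ`. -/
structure Corr (T : Divisor K F →+ Divisor K F) (τ : F → F) (c : ℤ) : Prop where
  nonneg : ∀ D, 0 ≤ D → 0 ≤ T D
  degree : ∀ D, Divisor.degree (T D) = c * Divisor.degree D
  div : ∀ f, f ≠ 0 → T (div f) = div (τ f)
  ne_zero : ∀ f, f ≠ 0 → τ f ≠ 0

/-- **Reduction commutes with correspondences**, in degree zero. -/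
theorem RedDiv.comm (hr : RedDiv G r) {T : Divisor K F →+ Divisor K F} {τ : F → F} {c : ℤ}
    (hT : Corr T τ c) {T' : Divisor k E →+ Divisor k E} {τ' : E → E} {c' : ℤ}
    (hT' : Corr T' τ' c')
    (hττ' : ∀ (f : F) (hf : f ∈ G.O), G.ρ ⟨f, hf⟩ ≠ 0 →
      ∃ h' : τ f ∈ G.O, G.ρ ⟨τ f, h'⟩ = τ' (G.ρ ⟨f, hf⟩))
    {D : Divisor K F} (hD : Divisor.degree D = 0) : r (T D) = T' (r D) := by
  refine eq_of_bounded (r.comp T) (T'.comp r) (|c| + |c'|) ?_ ?_ ?_ ?_ ?_ hD
  · intro v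
    exact hr.nonneg _ (hT.nonneg _ (single_nonneg v))
  · intro v
    exact hT'.nonneg _ (hr.nonneg _ (single_nonneg v))
  · intro v
    rw [AddMonoidHom.comp_apply, hr.degree, hT.degree, degree_single_one, mul_one]
    have := le_abs_self c
    have := abs_nonneg c'
    omega
  · intro v
    rw [AddMonoidHom.comp_apply, hT'.degree, hr.degree, degree_single_one, mul_one]
    have := le_abs_self c'
    have := abs_nonneg c
    omega
  · intro f hf
    rw [AddMonoidHom.comp_apply, AddMonoidHom.comp_apply]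
    obtain ⟨a, ha, h, h0⟩ := G.exists_scale hf
    obtain ⟨h', h1⟩ := hττ' _ h h0
    rw [← div_smul ha, hT.div _ (smul_ne_zero ha hf), hr.r_div _ h h0, hT'.div _ h0,
      hr.r_div _ h' (by rw [h1]; exact hT'.ne_zero _ h0), h1]

theorem RedDiv.isPrincipal (hr : RedDiv G r) {T : Divisor K F →+ Divisor K F} {τ : F → F} {c : ℤ}
    (hT : Corr T τ c) {T' : Divisor k E →+ Divisor k E} {τ' : E → E} {c' : ℤ}
    (hT' : Corr T' τ' c')
    (hττ' : ∀ (f : F) (hf : f ∈ G.O), G.ρ ⟨f, hf⟩ ≠ 0 →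
      ∃ h' : τ f ∈ G.O, G.ρ ⟨τ f, h'⟩ = τ' (G.ρ ⟨f, hf⟩))
    {D : Divisor K F} (hD : Divisor.degree D = 0) (hp : (r D).IsPrincipal) :
    (r (T D)).IsPrincipal := by
  rw [hr.comm hT hT' hττ' hD]
  obtain ⟨g, hg, h⟩ := isPrincipal_iff.mp hp
  rw [h, hT'.div g hg]
  exact isPrincipal_div (hT'.ne_zero g hg)

end Comm

section Push

variable {K F F₁ : Type*} [Field K] [Field F] [Field F₁] [Algebra K F] [Algebra K F₁]
  [IsFF K F] [IsFF K F₁]

/-- the correspondence attached to two embeddings of function fields. -/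
def corr (φ ψ : F →ₐ[K] F₁) : Divisor K F →+ Divisor K F :=
  Divisor.correspondence ψ φ (isIntegralAlong ψ) (isIntegralAlong φ)

theorem corr_spec (φ ψ : F →ₐ[K] F₁) :
    Corr (corr φ ψ) (fun f => TEll.normAlong φ (ψ f)) (finrankAlong K ψ) where
  nonneg D hD := TEll.pushforwardAlong_nonneg _ (isIntegralAlong φ)
    (Deuring.pullbackAlong_nonneg _ _ hD)
  degree D := Divisor.degree_correspondence _ _ _ _ (fundamentalIdentityAlong ψ _) D
  div f hf := by
    ext v
    rw [div_apply]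
    exact TEll.correspondence_eq_ord φ ψ _ _ (finiteAlong φ) (normFormulaAlong φ _) hf
      (fun v => div_apply f v) v
  ne_zero f hf := TEll.normAlong_ne_zero φ (finiteAlong φ)
    ((map_ne_zero_iff (ψ : F →+* F₁) (RingHom.injective _)).mpr hf)

end Push

section Norm

variable {K F F₁ k E E₁ : Type*} [Field K] [Field F] [Field F₁] [Algebra K F] [Algebra K F₁]
  [Field k] [Field E] [Field E₁] [Algebra k E] [Algebra k E₁]
  {O : ValuationSubring F} {ρ : O →+* E} {O₁ : ValuationSubring F₁} {ρ₁ : O₁ →+* E₁}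

/-- `φ` reduces to `φ'`. -/
def Lifts (O : ValuationSubring F) (ρ : O →+* E) (O₁ : ValuationSubring F₁) (ρ₁ : O₁ →+* E₁)
    (φ : F →ₐ[K] F₁) (φ' : E →ₐ[k] E₁) : Prop :=
  ∀ (x : F) (hx : x ∈ O), ∃ h : φ x ∈ O₁, ρ₁ ⟨φ x, h⟩ = φ' (ρ ⟨x, hx⟩)

theorem normAlong_red {φ : F →ₐ[K] F₁} {φ' : E →ₐ[k] E₁} (hφ : Lifts O ρ O₁ ρ₁ φ φ')
    (h0 : ∀ x : O, (x : F) ∈ O.nonunits → ρ x = 0) (hs : Function.Surjective ρ₁)
    (hpos : 0 < finrankAlong K φ) (hdeg : finrankAlong K φ = finrankAlong k φ')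
    (a : F₁) (ha : a ∈ O₁) : ∃ hn : TEll.normAlong φ a ∈ O,
      ρ ⟨TEll.normAlong φ a, hn⟩ = TEll.normAlong φ' (ρ₁ ⟨a, ha⟩) := by
  let _ := algebraAlong φ
  let _ := algebraAlong φ'
  have hc : MazurNR.Compat O ρ O₁ ρ₁ :=
    ⟨hs, h0, fun x hx => (hφ x hx).1, fun x hx => (hφ x hx).2⟩
  exact hc.norm_red hpos hdeg ha

end Norm

end Fermat.Agent.MazurHK
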