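import Fermat.Agent.Mazur.Input
import Fermat.Agent.Mazur.Devissage
import Fermat.Agent.GalRep.PowTrace
import Fermat.Agent.GalRep.Cyclo

/-!
# The `P`-primary divisible module: finite levels
-/

set_option autoImplicit false

namespace Fermat.Agent.Mazur

open Fermat.Agent.Frob

/-- The properties of the `P`-primary divisible Galois module `M`. -/
structure MInput {q : ℕ} (hq : q.Prime) (N : ℕ) {R : Type*} [CommRing R] (P : Ideal R)
    (T : Nat.Primes → R) (M : Type*) [AddCommGroup M] [Module R M] [DistribMulAction GQ M]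
    [SMulCommClass GQ R M] : Prop where
  prime_N : N.Prime
  ne : q ≠ N
  q_mem : (q : R) ∈ P
  eis : ∀ ℓ : Nat.Primes, (ℓ : ℕ) ≠ q → (ℓ : ℕ) ≠ N → T ℓ - (1 + ((ℓ : ℕ) : R)) ∈ P
  tors : ∀ x : M, ∃ n : ℕ, q ^ n • x = 0
  prim : ∀ x : M, ∃ k : ℕ, ∀ r ∈ P ^ k, r • x = 0
  div : ∀ x : M, ∃ y : M, q • y = x
  fin : Finite {x : M // q • x = 0}
  smooth : ∀ x : M, ∃ U : Subgroup GQ, IsOpen (U : Set GQ) ∧ ∀ σ ∈ U, σ • x = x
  unram : ∀ ℓ : Nat.Primes, (ℓ : ℕ) ≠ q → (ℓ : ℕ) ≠ N →
    ∀ A : ValuationSubring (AlgebraicClosure ℚ), A.LiesOverPrime ℓ →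
      ∀ σ ∈ A.inertiaSubgroupIn ℚ, ∀ x : M, σ • x = x
  frob : ∀ ℓ : Nat.Primes, (ℓ : ℕ) ≠ q → (ℓ : ℕ) ≠ N →
    ∀ A : ValuationSubring (AlgebraicClosure ℚ), A.LiesOverPrime ℓ →
      ∀ φ : GQ, A.IsFrobeniusAt φ ℓ → ∀ x : M,
        φ • φ • x - T ℓ • φ • x + (ℓ : ℕ) • x = 0

section

variable {q : ℕ} {hq : q.Prime} {N : ℕ} {R : Type*} [CommRing R] {P : Ideal R}
    {T : Nat.Primes → R} {M : Type*} [AddCommGroup M] [Module R M] [DistribMulAction GQ M]
    [SMulCommClass GQ R M]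

/-- the `q ^ n`-torsion -/
def Mtor (q : ℕ) (M : Type*) [AddCommGroup M] (n : ℕ) : AddSubgroup M where
  carrier := {x | q ^ n • x = 0}
  zero_mem' := smul_zero _
  add_mem' := fun {a b} ha hb => by
    change q ^ n • (a + b) = 0
    rw [smul_add, ha, hb, add_zero]
  neg_mem' := fun {a} ha => by
    change q ^ n • (-a) = 0
    rw [smul_neg, ha, neg_zero]

omit [DistribMulAction GQ M] in
lemma mem_Mtor {n : ℕ} {x : M} : x ∈ Mtor q M n ↔ q ^ n • x = 0 := Iff.rfl

lemma smul_mem_Mtor (n : ℕ) (g : GQ) (x : M) (hx : x ∈ Mtor q M n) : g • x ∈ Mtor q M n := by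
  rw [mem_Mtor] at hx ⊢
  rw [smul_comm, hx, smul_zero]

noncomputable instance (n : ℕ) : DistribMulAction GQ (Mtor q M n) :=
  subAction (Mtor q M n) (smul_mem_Mtor n)

@[simp] lemma coe_smul_Mtor (n : ℕ) (g : GQ) (x : Mtor q M n) :
    ((g • x : Mtor q M n) : M) = g • (x : M) := rfl

namespace MInput

variable (h : MInput hq N P T M)

include h

lemma finite_Mtor (n : ℕ) : Finite (Mtor q M n) := by
  induction n with
  | zero =>
    have : Subsingleton (Mtor q M 0) := by
      refine ⟨fun a b => Subtype.ext ?_⟩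
      have ha := a.2
      have hb := b.2
      rw [mem_Mtor, pow_zero, one_smul] at ha hb
      rw [ha, hb]
    infer_instance
  | succ n ih =>
    have hfin := h.fin
    have hmap : ∀ x : Mtor q M (n + 1), q • (x : M) ∈ Mtor q M n := by
      intro x
      have := x.2
      rw [mem_Mtor, pow_succ, mul_smul] at this
      exact this
    choose d hd using h.div
    let f : Mtor q M (n + 1) → Mtor q M n × {x : M // q • x = 0} := fun x =>
      (⟨q • (x : M), hmap x⟩, ⟨(x : M) - d (q • (x : M)), by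
        rw [smul_sub, hd, sub_self]⟩)
    apply Finite.of_injective f
    intro x y hxy
    have h1 : q • (x : M) = q • (y : M) := congrArg (fun z => ((z.1 : Mtor q M n) : M)) hxy
    have h2 : (x : M) - d (q • (x : M)) = (y : M) - d (q • (y : M)) :=
      congrArg (fun z => (z.2 : M)) hxy
    rw [h1] at h2
    exact Subtype.ext (sub_left_injective h2)

/-- a finite level for the `q ^ n`-torsion, containing the `q ^ n`-th roots of unity -/
lemma exists_level (n : ℕ) : ∃ L : IntermediateField ℚ (AlgebraicClosure ℚ),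
    FiniteDimensional ℚ L ∧ ∀ σ : GQ, (∀ x ∈ L, σ x = x) →
      (∀ x : M, q ^ n • x = 0 → σ • x = x) ∧
        ∀ ζ : AlgebraicClosure ℚ, ζ ^ (q ^ n) = 1 → σ ζ = ζ := by
  have hfin := h.finite_Mtor n
  choose U hU hUx using h.smooth
  let U₁ : Subgroup GQ := ⨅ x : Mtor q M n, U x
  have hU₁ : IsOpen (U₁ : Set GQ) := by
    rw [Subgroup.coe_iInf]
    exact isOpen_iInter_of_finite fun x => hU x
  have hU₁' : (U₁ : Set GQ) ∈ nhds 1 := hU₁.mem_nhds U₁.one_mem
  have hroots : Set.Finite {ζ : AlgebraicClosure ℚ | ζ ^ (q ^ n) = 1} := by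
    have hne : q ^ n ≠ 0 := pow_ne_zero n hq.ne_zero
    have hne' : NeZero (q ^ n) := ⟨hne⟩
    apply (Polynomial.nthRoots (q ^ n) (1 : AlgebraicClosure ℚ)).toFinset.finite_toSet.subset
    intro ζ hζ
    rw [Finset.mem_coe, Multiset.mem_toFinset, Polynomial.mem_nthRoots (Nat.pos_of_ne_zero hne)]
    exact hζ
  let L₂ : IntermediateField ℚ (AlgebraicClosure ℚ) :=
    IntermediateField.adjoin ℚ {ζ : AlgebraicClosure ℚ | ζ ^ (q ^ n) = 1}
  have hL₂ : FiniteDimensional ℚ L₂ := by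
    have : Finite {ζ : AlgebraicClosure ℚ | ζ ^ (q ^ n) = 1} := hroots
    apply IntermediateField.finiteDimensional_adjoin
    intro x _
    exact Algebra.IsIntegral.isIntegral x
  have hU₂ : IsOpen (L₂.fixingSubgroup : Set GQ) := L₂.fixingSubgroup_isOpen
  obtain ⟨L, hfd', hnor', hLU⟩ := (krullTopology_mem_nhds_one_iff_of_normal ℚ (AlgebraicClosure ℚ)
    ((U₁ ⊓ L₂.fixingSubgroup : Subgroup GQ) : Set GQ)).mp
      ((hU₁.inter hU₂).mem_nhds (Subgroup.one_mem (U₁ ⊓ L₂.fixingSubgroup)))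
  have hfd : FiniteDimensional ℚ L := by
    convert hfd'
  refine ⟨L, hfd, fun σ hσ => ?_⟩
  have h1 : σ ∈ (U₁ ⊓ L₂.fixingSubgroup : Subgroup GQ) :=
    hLU ((IntermediateField.mem_fixingSubgroup_iff L σ).mpr hσ)
  obtain ⟨h2, h3⟩ := h1
  constructor
  · intro x hx
    have h4 : σ ∈ U x := (Subgroup.mem_iInf.mp h2) ⟨x, hx⟩
    exact hUx x σ h4
  · intro ζ hζ
    exact (IntermediateField.mem_fixingSubgroup_iff L₂ σ).mp h3 ζ
      (IntermediateField.subset_adjoin ℚ _ hζ)

lemma exists_frob_level (n : ℕ) (g : GQ) :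
    ∃ ℓ : Nat.Primes, (ℓ : ℕ) ≠ q ∧ (ℓ : ℕ) ≠ N ∧
      ∃ A : ValuationSubring (AlgebraicClosure ℚ), A.LiesOverPrime ℓ ∧ ∃ φ : GQ,
        A.IsFrobeniusAt φ ℓ ∧ ∃ k : ℕ, (∀ x : M, q ^ n • x = 0 → g • x = (φ ^ k) • x) ∧
          ∀ ζ : AlgebraicClosure ℚ, ζ ^ (q ^ n) = 1 → g ζ = ζ ^ ((ℓ : ℕ) ^ k) := by
  obtain ⟨L, hL, hLfix⟩ := h.exists_level n
  obtain ⟨ℓ, hℓ, hℓS, A, hA, φ, hφ, -, k, -, hk⟩ :=
    Fermat.Agent.FrobDensity.exists_frobenius_on L g {q, N} (Set.toFinite _)
  simp only [Set.mem_insert_iff, Set.mem_singleton_iff, not_or] at hℓS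
  refine ⟨⟨ℓ, hℓ⟩, hℓS.1, hℓS.2, A, hA, φ, hφ, k, ?_⟩
  have hfix : ∀ x ∈ L, (g⁻¹ * φ ^ k) x = x := by
    intro x hx
    change g⁻¹ ((φ ^ k) x) = x
    rw [← hk x hx]
    exact g.symm_apply_apply x
  obtain ⟨h1, h2⟩ := hLfix _ hfix
  constructor
  · intro x hx
    have := h1 x hx
    rw [mul_smul, inv_smul_eq_iff] at this
    exact this.symm
  · intro ζ hζ
    have h3 : (φ ^ k) ζ = g ζ := by
      have := h2 ζ hζ
      have h4 : g ((g⁻¹ * φ ^ k) ζ) = g ζ := by rw [this]
      rw [← h4]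
      exact (g.apply_symm_apply _).symm
    rw [← h3]
    have hcop : Nat.Coprime ℓ (q ^ n) := by
      apply Nat.Coprime.pow_right
      exact (Nat.coprime_primes hℓ hq).mpr hℓS.1
    have h5 : ∀ j : ℕ, (φ ^ j) ζ = ζ ^ (ℓ ^ j) := by
      intro j
      induction j with
      | zero => simp
      | succ j ih =>
        rw [pow_succ']
        change φ ((φ ^ j) ζ) = _
        rw [ih, map_pow, GalRep.frobenius_rootOfUnity hA hcop (pow_ne_zero n hq.ne_zero) hφ hζ,
          ← pow_mul, ← pow_succ']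
    exact h5 k

omit h in
/-- the Galois action as `R`-linear endomorphisms -/
noncomputable def gLin (R M : Type*) [CommRing R] [AddCommGroup M] [Module R M]
    [DistribMulAction GQ M] [SMulCommClass GQ R M] (g : GQ) : Module.End R M :=
  DistribSMul.toLinearMap R M g

omit h in
@[simp] lemma gLin_apply (g : GQ) (x : M) : gLin R M g x = g • x := rfl

omit h in
lemma gLin_pow_apply (g : GQ) (k : ℕ) (x : M) : ((gLin R M g) ^ k) x = (g ^ k) • x := by
  induction k with
  | zero => simp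
  | succ k ih =>
    rw [pow_succ', pow_succ', mul_smul, Module.End.mul_apply, ih, gLin_apply]

lemma gLin_sq {ℓ : Nat.Primes} (hℓq : (ℓ : ℕ) ≠ q) (hℓN : (ℓ : ℕ) ≠ N)
    {A : ValuationSubring (AlgebraicClosure ℚ)} (hA : A.LiesOverPrime ℓ) {φ : GQ}
    (hφ : A.IsFrobeniusAt φ ℓ) : gLin R M φ * gLin R M φ =
      T ℓ • gLin R M φ - algebraMap R (Module.End R M) ((ℓ : ℕ) : R) := by
  ext x
  have h1 := h.frob ℓ hℓq hℓN A hA φ hφ x
  rw [LinearMap.sub_apply, LinearMap.smul_apply, Module.algebraMap_end_apply, Nat.cast_smul_eq_nsmul]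
  change φ • φ • x = T ℓ • φ • x - (ℓ : ℕ) • x
  rw [← sub_eq_zero, ← h1]
  abel

/-- at finite level the operator `g + χ(g) g⁻¹` is given by an element of `R` -/
lemma exists_tr (n : ℕ) (g : GQ) : ∃ (r : R) (c : ℕ),
    (∀ ζ : AlgebraicClosure ℚ, ζ ^ (q ^ n) = 1 → g ζ = ζ ^ c) ∧
      ∀ x : M, q ^ n • x = 0 → g • x + c • g⁻¹ • x = r • x := by
  obtain ⟨ℓ, hℓq, hℓN, A, hA, φ, hφ, k, h1, h2⟩ := h.exists_frob_level n g
  refine ⟨GalRep.tk (T ℓ) ((ℓ : ℕ) : R) k, (ℓ : ℕ) ^ k, h2, fun x hx => ?_⟩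
  have h3 := GalRep.pow_quadratic (T ℓ) ((ℓ : ℕ) : R) (gLin R M φ) (h.gLin_sq hℓq hℓN hA hφ) k
  have hginv : q ^ n • (g⁻¹ • x) = 0 := by rw [smul_comm, hx, smul_zero]
  have h4 := LinearMap.congr_fun h3 (g⁻¹ • x)
  rw [Module.End.mul_apply, gLin_pow_apply, gLin_pow_apply, ← h1 _ hginv, smul_inv_smul, ← h1 _ hx,
    LinearMap.sub_apply, LinearMap.smul_apply, gLin_pow_apply, ← h1 _ hginv, smul_inv_smul,
    Module.algebraMap_end_apply, ← Nat.cast_pow, Nat.cast_smul_eq_nsmul] at h4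
  rw [h4]
  abel

/-- the Eisenstein relation at finite level -/
lemma exists_eis (n : ℕ) (g : GQ) : ∃ (c : ℕ) (p : R) (Z : Module.End R M), p ∈ P ∧
    (∀ ζ : AlgebraicClosure ℚ, ζ ^ (q ^ n) = 1 → g ζ = ζ ^ c) ∧
      ∀ x : M, q ^ n • x = 0 → g • g • x - (c + 1) • g • x + c • x = p • Z x := by
  obtain ⟨ℓ, hℓq, hℓN, A, hA, φ, hφ, k, h1, h2⟩ := h.exists_frob_level n g
  let F : Module.End R M := gLin R M φ
  let L : Module.End R M := algebraMap R (Module.End R M) ((ℓ : ℕ) : R)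
  have hF2 : F * F = T ℓ • F - L := h.gLin_sq hℓq hℓN hA hφ
  have hFL : Commute F L := (Algebra.commutes _ _).symm
  refine ⟨(ℓ : ℕ) ^ k, T ℓ - (1 + ((ℓ : ℕ) : R)),
    (∑ i ∈ Finset.range k, F ^ i) * ((∑ i ∈ Finset.range k, F ^ i * L ^ (k - 1 - i)) * F),
    h.eis ℓ hℓq hℓN, h2, fun x hx => ?_⟩
  have e1 : (F - 1) * (F - L) = (T ℓ - (1 + ((ℓ : ℕ) : R))) • F := by
    rw [sub_mul, mul_sub, one_mul, hF2, sub_smul, add_smul, one_smul]
    have : ((ℓ : ℕ) : R) • F = F * L := by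
      rw [hFL.eq]
      exact (Algebra.smul_def _ _)
    rw [this]; abel
  have e2 : (∑ i ∈ Finset.range k, F ^ i) * (F - 1) = F ^ k - 1 := geom_sum_mul F k
  have e3 : (∑ i ∈ Finset.range k, F ^ i * L ^ (k - 1 - i)) * (F - L) = F ^ k - L ^ k :=
    hFL.geom_sum₂_mul k
  have c1 : Commute (F - 1) (∑ i ∈ Finset.range k, F ^ i * L ^ (k - 1 - i)) := by
    apply Commute.sub_left
    · apply Commute.sum_right
      intro i _
      exact ((Commute.refl F).pow_right i).mul_right (hFL.pow_right _)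
    · exact Commute.one_left _
  have e4 : (F ^ k - 1) * (F ^ k - L ^ k) = (T ℓ - (1 + ((ℓ : ℕ) : R))) •
      ((∑ i ∈ Finset.range k, F ^ i) *
        ((∑ i ∈ Finset.range k, F ^ i * L ^ (k - 1 - i)) * F)) := by
    rw [← e2, ← e3, mul_assoc, ← mul_assoc (F - 1), c1.eq, mul_assoc _ (F - 1) (F - L), e1,
      mul_smul_comm, mul_smul_comm]
  have hLx : ∀ y : M, (L ^ k) y = (ℓ : ℕ) ^ k • y := by
    intro y
    change ((algebraMap R (Module.End R M) ((ℓ : ℕ) : R)) ^ k) y = _
    rw [← map_pow, Module.algebraMap_end_apply, ← Nat.cast_pow, Nat.cast_smul_eq_nsmul]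
  have hgx : ∀ y : M, q ^ n • y = 0 → (F ^ k) y = g • y := by
    intro y hy
    rw [h1 y hy]
    exact gLin_pow_apply φ k y
  have e5 := LinearMap.congr_fun e4 x
  rw [LinearMap.smul_apply] at e5
  rw [← e5, Module.End.mul_apply, LinearMap.sub_apply, LinearMap.sub_apply, Module.End.one_apply,
    map_sub, hLx, hgx x hx, map_nsmul, hgx x hx, hgx (g • x) (by rw [smul_comm, hx, smul_zero]),
    add_smul, one_smul]
  abel

/-- **Dévissage of the finite levels** -/
theorem isDevissable (n : ℕ) : IsDevissable q (⊤ : AddSubgroup (Mtor q M n)) := by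
  classical
  have hfin := h.finite_Mtor n
  let H : ℕ → AddSubgroup (Mtor q M n) := fun i => {
    carrier := {x | ∀ r ∈ P ^ i, r • (x : M) = 0}
    zero_mem' := fun r _ => smul_zero r
    add_mem' := fun {a b} ha hb r hr => by
      rw [AddSubgroup.coe_add, smul_add, ha r hr, hb r hr, add_zero]
    neg_mem' := fun {a} ha r hr => by
      rw [AddSubgroup.coe_neg, smul_neg, ha r hr, neg_zero] }
  have hst : ∀ (i : ℕ) (g : GQ), ∀ x ∈ H i, g • x ∈ H i := by
    intro i g x hx r hr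
    rw [coe_smul_Mtor, ← smul_comm g r, hx r hr, smul_zero]
  have hmul : ∀ (i : ℕ) (p : R), p ∈ P → ∀ x y : Mtor q M n, (y : M) = p • (x : M) →
      (x ∈ H (i + 1)) → y ∈ H i := by
    intro i p hp x y hy hx r hr
    rw [hy, ← mul_smul]
    apply hx
    rw [pow_succ]
    exact Ideal.mul_mem_mul hr hp
  have hHd : ∀ i, IsDevissable q (H i) := by
    intro i
    induction i with
    | zero =>
      have : H 0 = ⊥ := by
        rw [eq_bot_iff]
        intro x hx
        have := hx (1 : R) (by rw [pow_zero, Ideal.one_eq_top]; trivial)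
        rw [one_smul] at this
        rw [AddSubgroup.mem_bot]
        exact Subtype.ext this
      rw [this]
      exact IsDevissable.bot
    | succ i ih =>
      rcases Nat.eq_zero_or_pos n with hn | hn
      · -- trivial group
        have htriv : ∀ x : Mtor q M n, x = 0 := by
          intro x
          have := x.2
          rw [mem_Mtor] at this
          have h0 : ∀ y : M, q ^ n • y = y := by
            intro y
            rw [hn, pow_zero, one_smul]
          rw [h0] at this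
          exact Subtype.ext this
        have : H (i + 1) = H i := by
          ext x
          rw [htriv x]
          exact ⟨fun _ => (H i).zero_mem, fun _ => (H (i + 1)).zero_mem⟩
        rw [this]
        exact ih
      · have hle : H i ≤ H (i + 1) := fun x hx r hr =>
          hx r (Ideal.pow_le_pow_right (Nat.le_succ i) hr)
        apply IsDevissable.extend hq ih hle (hst i) (hst (i + 1))
        · intro x hx
          apply hmul i (q : R) h.q_mem x _ _ hx
          rw [Nat.cast_smul_eq_nsmul]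
          rfl
        · intro g
          obtain ⟨c, p, Z, hp, hc, hx⟩ := h.exists_eis n g
          refine ⟨c, ?_, fun x hxH => ?_⟩
          · intro ζ hζ
            apply hc
            obtain ⟨m, rfl⟩ : ∃ m, n = m + 1 := ⟨n - 1, by omega⟩
            rw [pow_succ', pow_mul, hζ, one_pow]
          · have hZx : q ^ n • Z (x : M) = 0 := by
              rw [← map_nsmul]
              have := x.2
              rw [mem_Mtor] at this
              rw [this, map_zero]
            apply hmul i p hp ⟨Z (x : M), hZx⟩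
            · exact hx x x.2
            · intro r hr
              change r • Z (x : M) = 0
              rw [← map_smul, hxH r hr, map_zero]
  -- `H i = ⊤` for large `i`
  choose κ hκ using h.prim
  have := Fintype.ofFinite (Mtor q M n)
  let K : ℕ := ∑ x : Mtor q M n, κ x
  have htop : H K = ⊤ := by
    rw [eq_top_iff]
    intro x _ r hr
    apply hκ (x : M) r
    apply Ideal.pow_le_pow_right _ hr
    exact Finset.single_le_sum (f := fun x : Mtor q M n => κ x) (fun _ _ => Nat.zero_le _)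
      (Finset.mem_univ x)
  rw [← htop]
  exact hHd K

end MInput

end

end Fermat.Agent.Mazur
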