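import Fermat.Agent.Mazur.VLevel

/-!
# Local analysis at `N`
-/

set_option autoImplicit false

namespace Fermat.Agent.Mazur

open scoped Pointwise
open Fermat.Agent.Frob Fermat.Agent.Tate Fermat.Agent.Minkowski

lemma exists_bezout_pow {S : Type*} [CommRing S] {x y k : S} (h : x - y = k) (a b : ℕ) :
    ∃ u v : S, u * x ^ a + v * y ^ b = k ^ (a + b) := by
  let I : Ideal S := Ideal.span {x ^ a, y ^ b}
  have hx : (Ideal.Quotient.mk I x) ^ a = 0 := by
    rw [← map_pow, Ideal.Quotient.eq_zero_iff_mem]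
    exact Ideal.subset_span (Set.mem_insert _ _)
  have hy : (-Ideal.Quotient.mk I y) ^ b = 0 := by
    have h0 : Ideal.Quotient.mk I (y ^ b) = 0 := Ideal.Quotient.eq_zero_iff_mem.mpr
      (Ideal.subset_span (Set.mem_insert_of_mem _ rfl))
    rw [neg_pow, ← map_pow, h0, mul_zero]
  have h1 := (Commute.all (Ideal.Quotient.mk I x)
    (-Ideal.Quotient.mk I y)).add_pow_eq_zero_of_add_le_succ_of_pow_eq_zero hx hy
      (k := a + b) (Nat.le_succ _)
  rw [← sub_eq_add_neg, ← map_sub, h, ← map_pow, Ideal.Quotient.eq_zero_iff_mem] at h1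
  exact Ideal.mem_span_pair.mp h1

/-- Bezout relation between powers of `F - α` and `F - β`. -/
lemma exists_bezout_end {M : Type*} [AddCommGroup M] (F : AddMonoid.End M) (α β : ℤ) (a b : ℕ) :
    ∃ U V : AddMonoid.End M, (∀ x : M, ((F - (α : AddMonoid.End M)) ^ a) (U x) =
      U (((F - (α : AddMonoid.End M)) ^ a) x)) ∧
      ∀ x : M, ((F - (α : AddMonoid.End M)) ^ a) (U x) +
        V (((F - (β : AddMonoid.End M)) ^ b) x) = (β - α) ^ (a + b) • x := by
  obtain ⟨u, v, huv⟩ := exists_bezout_pow (S := Polynomial ℤ)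
    (x := Polynomial.X - Polynomial.C α) (y := Polynomial.X - Polynomial.C β)
    (k := Polynomial.C (β - α)) (by rw [Polynomial.C_sub]; ring) a b
  have hα : Polynomial.aeval F (Polynomial.X - Polynomial.C α) =
      F - (α : AddMonoid.End M) := by
    rw [map_sub, Polynomial.aeval_X, Polynomial.aeval_C]
    rfl
  have hβ : Polynomial.aeval F (Polynomial.X - Polynomial.C β) =
      F - (β : AddMonoid.End M) := by
    rw [map_sub, Polynomial.aeval_X, Polynomial.aeval_C]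
    rfl
  have hcomm : (F - (α : AddMonoid.End M)) ^ a * Polynomial.aeval F u =
      Polynomial.aeval F u * (F - (α : AddMonoid.End M)) ^ a := by
    rw [← hα, ← map_pow, ← map_mul, ← map_mul, mul_comm]
  refine ⟨Polynomial.aeval F u, Polynomial.aeval F v, fun x => ?_, fun x => ?_⟩
  · exact DFunLike.congr_fun hcomm x
  · have h1 := congrArg (Polynomial.aeval F) huv
    rw [map_add, map_mul, map_mul, map_pow, map_pow, map_pow, hα, hβ, ← hcomm,
      Polynomial.aeval_C] at h1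
    have h2 := DFunLike.congr_fun h1 x
    rw [← map_pow] at h2
    exact h2

lemma kill_end {M : Type*} [AddCommGroup M] (F : AddMonoid.End M) (α β : ℤ) (a b : ℕ) {z : M}
    (h1 : ((F - (α : AddMonoid.End M)) ^ a) z = 0) (h2 : ((F - (β : AddMonoid.End M)) ^ b) z = 0) :
    (β - α) ^ (a + b) • z = 0 := by
  obtain ⟨U, V, hU, hUV⟩ := exists_bezout_end F α β a b
  rw [← hUV, hU, h1, h2, map_zero, map_zero, add_zero]

section

variable {q : ℕ} [hqf : Fact q.Prime] {N : ℕ} {R : Type*} [CommRing R] {P : Ideal R}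
    {T : Nat.Primes → R} {M : Type*} [AddCommGroup M] [Module R M] [DistribMulAction GQ M]
    [SMulCommClass GQ R M]
  {B : ValuationSubring (AlgebraicClosure ℚ)} {φ : GQ} {a : ℕ}

/-- `M` is divisible -/
lemma MInput.div_nat (h : MInput hqf.out N P T M) {n : ℕ} (hn : n ≠ 0) (x : M) :
    ∃ y : M, n • y = x := by
  obtain ⟨e, n', hn', rfl⟩ := Nat.exists_eq_pow_mul_and_not_dvd hn q hqf.out.ne_one
  have hpow : ∀ e : ℕ, ∀ x : M, ∃ y : M, q ^ e • y = x := by
    intro e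
    induction e with
    | zero => exact fun x => ⟨x, by rw [pow_zero, one_smul]⟩
    | succ e ih =>
      intro x
      obtain ⟨y, hy⟩ := h.div x
      obtain ⟨z, hz⟩ := ih y
      exact ⟨z, by rw [pow_succ', mul_smul, hz, hy]⟩
  obtain ⟨y, hy⟩ := hpow e x
  obtain ⟨k, hk⟩ := h.tors y
  have hcop : Nat.Coprime n' (q ^ k) :=
    (Nat.Coprime.pow_left k ((Nat.Prime.coprime_iff_not_dvd hqf.out).mpr hn')).symm
  have hc2 : IsCoprime (n' : ℤ) ((q ^ k : ℕ) : ℤ) := Nat.isCoprime_iff_coprime.mpr hcop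
  obtain ⟨u, v, huv⟩ := hc2
  refine ⟨u • y, ?_⟩
  rw [mul_smul]
  have h1 : n' • u • y = y := by
    rw [← natCast_zsmul, ← mul_smul, mul_comm]
    have h2 : (v * ((q ^ k : ℕ) : ℤ)) • y = 0 := by
      rw [mul_smul, natCast_zsmul, hk, smul_zero]
    calc (u * (n' : ℤ)) • y = (u * (n' : ℤ)) • y + (v * ((q ^ k : ℕ) : ℤ)) • y := by
          rw [h2, add_zero]
      _ = y := by rw [← add_smul, huv, one_smul]
  rw [h1, hy]

lemma MInput.div_int (h : MInput hqf.out N P T M) {n : ℤ} (hn : n ≠ 0) (x : M) :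
    ∃ y : M, n • y = x := by
  obtain ⟨y, hy⟩ := h.div_nat (Int.natAbs_ne_zero.mpr hn) x
  rcases Int.natAbs_eq n with h1 | h1
  · exact ⟨y, by rw [h1, natCast_zsmul, hy]⟩
  · refine ⟨-y, by rw [h1, neg_smul, smul_neg, neg_neg, natCast_zsmul, hy]⟩

/-- The tame relation on `M`. -/
lemma MInput.tame (h : MInput hqf.out N P T M) (hB : AtN N M B φ a) {τ : GQ}
    (hτ : τ ∈ B.inertiaSubgroupIn ℚ) (x : M) :
    φ • (τ • x - x) = N • (τ • φ • x - φ • x) := by
  have hconj : ∀ y : M, (φ * τ * φ⁻¹) • y - y = N • (τ • y - y) := by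
    intro y
    obtain ⟨m, hm⟩ := h.tors y
    have hfin := h.finite_Mtor m
    let hh : GQ → Mtor q M m := fun σ => σ • (⟨y, hm⟩ : Mtor q M m) - ⟨y, hm⟩
    have hhom : IsInertiaHom B hh := by
      refine ⟨?_, ?_⟩
      · intro σ hσ σ' hσ'
        have h1 : σ • hh σ' = hh σ' := by
          rw [← sub_eq_zero]
          exact Subtype.ext (hB.unip σ hσ σ' hσ' y)
        have h2 : hh (σ * σ') = hh σ + σ • hh σ' := by
          simp only [hh, mul_smul, smul_sub]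
          abel
        rw [h2, h1]
      · obtain ⟨U, hU, hUx⟩ := h.smooth y
        refine ⟨U, hU, fun σ hσ _ => ?_⟩
        apply Subtype.ext
        change σ • y - y = 0
        rw [hUx σ hσ, sub_self]
    have hcop : N.Coprime (q ^ m) := by
      apply Nat.Coprime.pow_right
      exact (Nat.coprime_primes h.prime_N hqf.out).mpr (Ne.symm h.ne)
    have h3 := hhom.conj h.prime_N hB.lies hcop (fun x => Subtype.ext x.2) hB.isFrob hτ
    exact congrArg Subtype.val h3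
  have h1 := hconj (φ • x)
  rw [mul_smul, mul_smul, inv_smul_smul] at h1
  rw [smul_sub, h1]

/-- intertwining powers -/
lemma pow_intertwine {S : Type*} [Ring S] {X Y t : S} {c : ℕ} (h : X * t = (c : S) * (t * Y))
    (a : ℕ) : X ^ a * t = ((c ^ a : ℕ) : S) * (t * Y ^ a) := by
  induction a with
  | zero => simp
  | succ a ih =>
    rw [pow_succ, mul_assoc, h, ← mul_assoc, (Nat.cast_commute c (X ^ a)).symm.eq, mul_assoc,
      ← mul_assoc (X ^ a), ih, mul_assoc _ _ Y, mul_assoc t, ← pow_succ, ← mul_assoc,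
      ← Nat.cast_mul, ← pow_succ']

lemma commute_aux {S : Type*} [Ring S] (E : S) (n : ℕ) (a : ℕ) :
    (E ^ 2 - 1) ^ a * (E ^ 2 - ((n : ℕ) : S)) ^ a = (E ^ 2 - ((n : ℕ) : S)) ^ a * (E ^ 2 - 1) ^ a := by
  apply Commute.pow_pow
  apply Commute.sub_left
  · exact (Commute.refl _).sub_right (Nat.cast_commute _ _).symm
  · exact Commute.one_left _

/-- inertia at `N` is trivial on the toric part -/
theorem MInput.inertia_DT (h : MInput hqf.out N P T M) (hB : AtN N M B φ a) {τ : GQ}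
    (hτ : τ ∈ B.inertiaSubgroupIn ℚ) {x : M} (hx : x ∈ DT M φ a) : τ • x = x := by
  let E : AddMonoid.End M := gEnd M φ
  let t : AddMonoid.End M := gEnd M τ - 1
  have ht : ∀ x, t x = τ • x - x := fun x => rfl
  have hEt : E * t = (N : AddMonoid.End M) * (t * E) := by
    ext y
    change φ • (τ • y - y) = N • (τ • φ • y - φ • y)
    exact h.tame hB hτ y
  have hE2t : E ^ 2 * t = ((N ^ 2 : ℕ) : AddMonoid.End M) * (t * E ^ 2) := pow_intertwine hEt 2
  -- `(E² - N⁴) t = N² t (E² - N²)`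
  have h4 : (E ^ 2 - ((N ^ 4 : ℕ) : AddMonoid.End M)) * t =
      ((N ^ 2 : ℕ) : AddMonoid.End M) * (t * (E ^ 2 - ((N ^ 2 : ℕ) : AddMonoid.End M))) := by
    have h5 : ((N ^ 4 : ℕ) : AddMonoid.End M) * t = ((N ^ 2 : ℕ) : AddMonoid.End M) *
        (t * ((N ^ 2 : ℕ) : AddMonoid.End M)) := by
      rw [(Nat.cast_commute (N ^ 2) t).symm.eq, ← mul_assoc, ← Nat.cast_mul]
      have : N ^ 2 * N ^ 2 = N ^ 4 := by ring
      rw [this]
    rw [sub_mul, hE2t, h5, mul_sub t, mul_sub ((N ^ 2 : ℕ) : AddMonoid.End M)]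
  have h4a := pow_intertwine h4 a
  have hN1 : 1 < N := h.prime_N.one_lt
  -- killing
  have hE : Commute (E ^ 2 - ((N ^ 4 : ℕ) : AddMonoid.End M))
      (E ^ 2 - ((N ^ 2 : ℕ) : AddMonoid.End M)) := by
    apply Commute.sub_left
    · exact (Commute.refl _).sub_right (Nat.cast_commute _ _).symm
    · exact Nat.cast_commute _ _
  have c4 : (((N ^ 4 : ℕ) : ℤ) : AddMonoid.End M) = ((N ^ 4 : ℕ) : AddMonoid.End M) :=
    Int.cast_natCast _
  have c2 : (((N ^ 2 : ℕ) : ℤ) : AddMonoid.End M) = ((N ^ 2 : ℕ) : AddMonoid.End M) :=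
    Int.cast_natCast _
  have hkill : ∀ y : M, ((((N ^ 2 : ℕ) : ℤ) - ((N ^ 4 : ℕ) : ℤ)) ^ (a + a)) •
      ((1 - ((N ^ 4 : ℕ) : ℤ)) ^ (a + a)) • t (((E ^ 2 - 1) ^ a : AddMonoid.End M) y) = 0 := by
    intro y
    set z := t (((E ^ 2 - 1) ^ a : AddMonoid.End M) y) with hz
    have e1 : ((E ^ 2 - ((N ^ 4 : ℕ) : AddMonoid.End M)) ^ a) z = 0 := by
      have h5 := DFunLike.congr_fun h4a (((E ^ 2 - 1) ^ a : AddMonoid.End M) y)
      have h6 : ((E ^ 2 - ((N ^ 2 : ℕ) : AddMonoid.End M)) ^ a)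
          (((E ^ 2 - 1) ^ a : AddMonoid.End M) y) = 0 := by
        have h7 := DFunLike.congr_fun (commute_aux E (N ^ 2) a) y
        exact h7.symm.trans (hB.frobN y)
      change ((E ^ 2 - ((N ^ 4 : ℕ) : AddMonoid.End M)) ^ a) z =
        (((N ^ 2) ^ a : ℕ) : AddMonoid.End M) (t (((E ^ 2 - ((N ^ 2 : ℕ) : AddMonoid.End M)) ^ a)
          (((E ^ 2 - 1) ^ a : AddMonoid.End M) y))) at h5
      rw [h5, h6, map_zero, map_zero]
    have e2 : ((E ^ 2 - 1) ^ a : AddMonoid.End M)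
        (((E ^ 2 - ((N ^ 2 : ℕ) : AddMonoid.End M)) ^ a) z) = 0 := hB.frobN z
    have e3 : ((E ^ 2 - ((N ^ 4 : ℕ) : AddMonoid.End M)) ^ a)
        (((E ^ 2 - ((N ^ 2 : ℕ) : AddMonoid.End M)) ^ a) z) = 0 := by
      have h7 := DFunLike.congr_fun (hE.pow_pow a a).eq z
      refine h7.trans ?_
      change ((E ^ 2 - ((N ^ 2 : ℕ) : AddMonoid.End M)) ^ a)
        (((E ^ 2 - ((N ^ 4 : ℕ) : AddMonoid.End M)) ^ a) z) = 0
      rw [e1, map_zero]
    have e4 := kill_end (E ^ 2) ((N ^ 4 : ℕ) : ℤ) 1 a a (by rw [c4]; exact e3)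
      (by rw [Int.cast_one]; exact e2)
    rw [← map_zsmul] at e4
    have e5 : ((E ^ 2 - ((N ^ 4 : ℕ) : AddMonoid.End M)) ^ a)
        ((1 - ((N ^ 4 : ℕ) : ℤ)) ^ (a + a) • z) = 0 := by
      rw [map_zsmul, e1, smul_zero]
    exact kill_end (E ^ 2) ((N ^ 4 : ℕ) : ℤ) ((N ^ 2 : ℕ) : ℤ) a a (by rw [c4]; exact e5)
      (by rw [c2]; exact e4)
  obtain ⟨y, rfl⟩ := hx
  rw [← sub_eq_zero]
  change t (((E ^ 2 - 1) ^ a : AddMonoid.End M) y) = 0
  have hne1 : (((N ^ 2 : ℕ) : ℤ) - ((N ^ 4 : ℕ) : ℤ)) ^ (a + a) ≠ 0 := by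
    apply pow_ne_zero
    have : N ^ 2 < N ^ 4 := Nat.pow_lt_pow_right hN1 (by norm_num)
    have h' : ((N ^ 2 : ℕ) : ℤ) < ((N ^ 4 : ℕ) : ℤ) := by exact_mod_cast this
    exact (sub_neg.mpr h').ne
  have hne2 : (1 - ((N ^ 4 : ℕ) : ℤ)) ^ (a + a) ≠ 0 := by
    apply pow_ne_zero
    have : 1 < N ^ 4 := Nat.one_lt_pow (by norm_num) hN1
    have h' : (1 : ℤ) < ((N ^ 4 : ℕ) : ℤ) := by exact_mod_cast this
    exact (sub_neg.mpr h').ne
  obtain ⟨y1, hy1⟩ := h.div_int hne1 y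
  obtain ⟨y2, hy2⟩ := h.div_int hne2 y1
  rw [← hy1, ← hy2, map_zsmul, map_zsmul, map_zsmul, map_zsmul]
  exact hkill y2

/-- inertia at `N` maps into the toric part -/
theorem MInput.inertia_sub_mem_DT (h : MInput hqf.out N P T M) (hB : AtN N M B φ a) {τ : GQ}
    (hτ : τ ∈ B.inertiaSubgroupIn ℚ) (x : M) : τ • x - x ∈ DT M φ a := by
  let E : AddMonoid.End M := gEnd M φ
  let t : AddMonoid.End M := gEnd M τ - 1
  have hEt : E * t = (N : AddMonoid.End M) * (t * E) := by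
    ext y
    change φ • (τ • y - y) = N • (τ • φ • y - φ • y)
    exact h.tame hB hτ y
  have hE2t : E ^ 2 * t = ((N ^ 2 : ℕ) : AddMonoid.End M) * (t * E ^ 2) := pow_intertwine hEt 2
  have h2 : (E ^ 2 - ((N ^ 2 : ℕ) : AddMonoid.End M)) * t =
      ((N ^ 2 : ℕ) : AddMonoid.End M) * (t * (E ^ 2 - 1)) := by
    rw [sub_mul, hE2t, ← mul_sub, mul_sub t, mul_one t]
  have h2a := pow_intertwine h2 a
  have hN1 : 1 < N := h.prime_N.one_lt
  have hne1 : (((N ^ 2 : ℕ) : ℤ) - 1) ^ (a + a) ≠ 0 := by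
    apply pow_ne_zero
    have : 1 < N ^ 2 := Nat.one_lt_pow (by norm_num) hN1
    have h' : (1 : ℤ) < ((N ^ 2 : ℕ) : ℤ) := by exact_mod_cast this
    exact (sub_pos.mpr h').ne'
  obtain ⟨y, rfl⟩ := h.div_int hne1 x
  have e1 : ((E ^ 2 - ((N ^ 2 : ℕ) : AddMonoid.End M)) ^ a) (t y) = 0 := by
    have h5 := DFunLike.congr_fun h2a y
    change ((E ^ 2 - ((N ^ 2 : ℕ) : AddMonoid.End M)) ^ a) (t y) =
        (((N ^ 2) ^ a : ℕ) : AddMonoid.End M) (t (((E ^ 2 - 1) ^ a : AddMonoid.End M) y)) at h5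
    have h6 : t (((E ^ 2 - 1) ^ a : AddMonoid.End M) y) = 0 := by
      change τ • (((E ^ 2 - 1) ^ a : AddMonoid.End M) y) - ((E ^ 2 - 1) ^ a : AddMonoid.End M) y = 0
      rw [sub_eq_zero]
      exact h.inertia_DT hB hτ ⟨y, rfl⟩
    rw [h5, h6, map_zero]
  obtain ⟨U, V, -, hUV⟩ := exists_bezout_end (E ^ 2) 1 ((N ^ 2 : ℕ) : ℤ) a a
  have c2 : (((N ^ 2 : ℕ) : ℤ) : AddMonoid.End M) = ((N ^ 2 : ℕ) : AddMonoid.End M) :=
    Int.cast_natCast _
  have h7 := hUV (t y)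
  rw [Int.cast_one, c2, e1, map_zero, add_zero] at h7
  change t ((((N ^ 2 : ℕ) : ℤ) - 1) ^ (a + a) • y) ∈ DT M φ a
  rw [map_zsmul, ← h7]
  exact ⟨_, rfl⟩

omit hqf in
lemma frob_mem_DT {x : M} (hx : x ∈ DT M φ a) : φ • x ∈ DT M φ a := by
  obtain ⟨y, rfl⟩ := hx
  refine ⟨φ • y, ?_⟩
  have : Commute ((gEnd M φ ^ 2 - 1) ^ a) (gEnd M φ) := by
    apply Commute.pow_left
    exact ((Commute.refl (gEnd M φ)).pow_left 2).sub_left (Commute.one_left _)
  exact DFunLike.congr_fun this.eq y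

/-- the toric part at finite level -/
noncomputable def DTm (q : ℕ) (M : Type*) [AddCommGroup M] [DistribMulAction GQ M] (φ : GQ)
    (a m : ℕ) : AddSubgroup (Mtor q M m) := (DT M φ a).comap (Mtor q M m).subtype

/-- **Cocycles at `N`**: `(N² - 1) ^ a` times the value of a cocycle at inertia is in the toric
part. -/
theorem MInput.cocycle_mem_DT (h : MInput hqf.out N P T M) (hB : AtN N M B φ a) {m : ℕ}
    {c : GQ → Mtor q M m} (hc : ∀ σ τ : GQ, c (σ * τ) = c σ + σ • c τ)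
    (hcont : ∃ U : Subgroup GQ, IsOpen (U : Set GQ) ∧ ∀ σ ∈ U, c σ = 0)
    {τ : GQ} (hτ : τ ∈ B.inertiaSubgroupIn ℚ) :
    ((N ^ 2 - 1) ^ a) • (c τ : M) ∈ DT M φ a := by
  have hfin := h.finite_Mtor m
  let D := Mtor q M m ⧸ DTm q M φ a m
  have hfinD : Finite D := Quotient.finite _
  let hh : GQ → D := fun σ => QuotientAddGroup.mk (c σ)
  have hhom : IsInertiaHom B hh := by
    refine ⟨?_, ?_⟩
    · intro σ hσ σ' hσ'
      change ((c (σ * σ') : Mtor q M m) : D) = (c σ : D) + (c σ' : D)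
      rw [← QuotientAddGroup.mk_add, QuotientAddGroup.eq, hc]
      have h1 := h.inertia_sub_mem_DT hB hσ (c σ' : M)
      have h2 : ((-(c σ + σ • c σ') + (c σ + c σ') : Mtor q M m) : M) =
          -(σ • (c σ' : M) - (c σ' : M)) := by
        change -((c σ : M) + σ • (c σ' : M)) + ((c σ : M) + (c σ' : M)) = _
        abel
      change ((-(c σ + σ • c σ') + (c σ + c σ') : Mtor q M m) : M) ∈ DT M φ a
      rw [h2]
      exact AddSubgroup.neg_mem _ h1
    · obtain ⟨U, hU, hcU⟩ := hcont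
      refine ⟨U, hU, fun σ hσ _ => ?_⟩
      change ((c σ : Mtor q M m) : D) = 0
      rw [hcU σ hσ]
      rfl
  have hcop : N.Coprime (q ^ m) := by
    apply Nat.Coprime.pow_right
    exact (Nat.coprime_primes h.prime_N hqf.out).mpr (Ne.symm h.ne)
  have hD : ∀ x : D, q ^ m • x = 0 := by
    intro x
    obtain ⟨y, rfl⟩ := QuotientAddGroup.mk_surjective x
    rw [← QuotientAddGroup.mk_nsmul]
    have : q ^ m • y = 0 := Subtype.ext y.2
    rw [this]
    rfl
  have hconj := hhom.conj h.prime_N hB.lies hcop hD hB.isFrob hτ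
  -- `φ c(τ) - N c(τ) ∈ DT`
  have h1 : φ • (c τ : M) - N • (c τ : M) ∈ DT M φ a := by
    have h2 : (c (φ * τ * φ⁻¹) : M) - N • (c τ : M) ∈ DT M φ a := by
      have h3 : ((c (φ * τ * φ⁻¹) : Mtor q M m) : D) = ((N • c τ : Mtor q M m) : D) := by
        rw [QuotientAddGroup.mk_nsmul]
        exact hconj
      rw [QuotientAddGroup.eq] at h3
      have h4 : ((-c (φ * τ * φ⁻¹) + N • c τ : Mtor q M m) : M) ∈ DT M φ a := h3
      have h5 : (c (φ * τ * φ⁻¹) : M) - N • (c τ : M) =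
          -((-c (φ * τ * φ⁻¹) + N • c τ : Mtor q M m) : M) := by
        change _ = -(-(c (φ * τ * φ⁻¹) : M) + N • (c τ : M))
        abel
      rw [h5]
      exact AddSubgroup.neg_mem _ h4
    have hτ' := frob_conj_mem_inertia hB.isFrob hτ
    have h6 := h.inertia_sub_mem_DT hB hτ' (c φ : M)
    have h7 := hc φ τ
    have h8 : φ * τ = (φ * τ * φ⁻¹) * φ := by group
    rw [h8, hc] at h7
    have h9 := congrArg (fun z : Mtor q M m => (z : M)) h7
    change (c (φ * τ * φ⁻¹) : M) + (φ * τ * φ⁻¹) • (c φ : M) = (c φ : M) + φ • (c τ : M) at h9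
    have h10 : φ • (c τ : M) - N • (c τ : M) = ((c (φ * τ * φ⁻¹) : M) - N • (c τ : M)) +
        ((φ * τ * φ⁻¹) • (c φ : M) - (c φ : M)) := by
      have h11 : φ • (c τ : M) = (c (φ * τ * φ⁻¹) : M) + (φ * τ * φ⁻¹) • (c φ : M) - (c φ : M) := by
        rw [h9]; abel
      rw [h11]; abel
    rw [h10]
    exact AddSubgroup.add_mem _ h2 h6
  -- `(E² - 1) x ≡ (N² - 1) x`
  set x : M := (c τ : M) with hx
  let E : AddMonoid.End M := gEnd M φ
  have h2 : (E ^ 2) x - (N ^ 2) • x ∈ DT M φ a := by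
    have h3 : (E ^ 2) x - (N ^ 2) • x = φ • (φ • x - N • x) + N • (φ • x - N • x) := by
      change φ • φ • x - (N ^ 2) • x = _
      rw [smul_sub, smul_sub, smul_comm φ N x, pow_two, mul_smul]
      abel
    rw [h3]
    exact AddSubgroup.add_mem _ (frob_mem_DT h1) (AddSubgroup.nsmul_mem _ h1 N)
  have hstab : ∀ y ∈ DT M φ a, (E ^ 2 - 1 : AddMonoid.End M) y ∈ DT M φ a := by
    intro y hy
    exact AddSubgroup.sub_mem _ (frob_mem_DT (frob_mem_DT hy)) hy
  have hN2 : 1 ≤ N ^ 2 := Nat.one_le_pow _ _ h.prime_N.pos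
  have h3 : ∀ j : ℕ, ((E ^ 2 - 1) ^ j : AddMonoid.End M) x - ((N ^ 2 - 1) ^ j) • x ∈ DT M φ a := by
    intro j
    induction j with
    | zero =>
      rw [pow_zero, pow_zero, one_smul]
      change x - x ∈ _
      rw [sub_self]
      exact AddSubgroup.zero_mem _
    | succ j ih =>
      have e1 : ((E ^ 2 - 1) ^ (j + 1) : AddMonoid.End M) x =
          (E ^ 2 - 1 : AddMonoid.End M) (((E ^ 2 - 1) ^ j : AddMonoid.End M) x) := by
        rw [pow_succ']; rfl
      have e2 : ((E ^ 2 - 1) ^ (j + 1) : AddMonoid.End M) x - ((N ^ 2 - 1) ^ (j + 1)) • x =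
          (E ^ 2 - 1 : AddMonoid.End M)
            (((E ^ 2 - 1) ^ j : AddMonoid.End M) x - ((N ^ 2 - 1) ^ j) • x) +
            ((N ^ 2 - 1) ^ j) • ((E ^ 2) x - (N ^ 2) • x) := by
        have e3 : (E ^ 2 - 1 : AddMonoid.End M) x = (E ^ 2) x - x := rfl
        have e4 : ((N ^ 2 - 1) ^ (j + 1)) • x = ((N ^ 2 - 1) ^ j) • (N ^ 2 • x - x) := by
          have e5 : N ^ 2 • x - x = (N ^ 2 - 1) • x := by
            rw [sub_eq_iff_eq_add]
            conv_lhs => rw [show N ^ 2 = (N ^ 2 - 1) + 1 from (Nat.sub_add_cancel hN2).symm]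
            rw [add_smul, one_smul]
          rw [e5, pow_succ, mul_smul]
        rw [e1, map_sub, map_nsmul, e3, e4, smul_sub, smul_sub, smul_sub]
        abel
      rw [e2]
      exact AddSubgroup.add_mem _ (hstab _ ih) (AddSubgroup.nsmul_mem _ h2 _)
  have h4 := h3 a
  have h5 : ((E ^ 2 - 1) ^ a : AddMonoid.End M) x ∈ DT M φ a := ⟨x, rfl⟩
  have h6 := AddSubgroup.sub_mem _ h5 h4
  rwa [sub_sub_cancel] at h6

end

end Fermat.Agent.Mazur
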