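import Fermat.Agent.Mazur.Tame
import Fermat.Agent.Mazur.BRel

/-!
# The valuation pairing on inertia cocycles
-/

set_option autoImplicit false

namespace Fermat.Agent.Mazur

open scoped Pointwise
open Fermat.Agent.Frob Fermat.Agent.Minkowski

/-- fixes the additive structure used on `Additive Qbx` -/
noncomputable abbrev azQ : AddZero (Additive Qbx) :=
  ((inferInstance : AddCommGroup
    (Additive Qbx)).toAddGroup.toSubNegMonoid.toAddMonoid.toAddZeroClass).toAddZero

attribute [local instance 10000] azQ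

/-- The algebraic core of the flatness argument. -/
theorem flat_core {F Q : Type*} [AddCommGroup F] [AddCommGroup Q] (q : ℕ) (Φ T U : F →+ F)
    (hΦT : ∀ f, Φ (T f) = T (Φ f)) (hTU : ∀ f, T (U f) = U (T f))
    (h1 : ∀ f, q • Φ (Φ f) - T (Φ f) + f = 0) (n : ℕ)
    (h4 : ∀ f, U (T (T f)) - (1 + q) ^ 2 • U f = n • f)
    (ν νc : F →+ Q) (h2 : ∀ f, ν (Φ (Φ f)) - ν (T (Φ f)) + q • ν f = 0)
    (h3 : ∀ f, νc (Φ f) = νc f + ν f)
    (hdiv : ∃ k : ℤ, ∀ f : F, (k * ((q : ℤ) - 1)) • f = f) (f : F) : (n ^ 2) • νc f = 0 := by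
  obtain ⟨k, hk⟩ := hdiv
  have s1 : ∀ f, ν (Φ (Φ f)) = ν f := by
    intro f
    have e1 := congrArg ν (h1 f)
    rw [map_add, map_sub, map_nsmul, map_zero] at e1
    have e2 := h2 f
    have e3 : ((q : ℤ) - 1) • (ν f - ν (Φ (Φ f))) = 0 := by
      linear_combination (norm := module) e2 - e1
    have e4 : (k * ((q : ℤ) - 1)) • (ν f - ν (Φ (Φ f))) = 0 := by
      rw [mul_smul, e3, smul_zero]
    rw [smul_sub, ← map_zsmul, ← map_zsmul, hk, hk, sub_eq_zero] at e4
    exact e4.symm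
  have s2 : ∀ f, ν (T (Φ f)) = (1 + q) • ν f := by
    intro f
    have e2 := h2 f
    rw [s1] at e2
    rw [add_smul, one_smul]
    linear_combination (norm := module) -e2
  have s3 : ∀ f, ν (T (T f)) = (1 + q) ^ 2 • ν f := by
    intro f
    have e1 := s2 (T (Φ f))
    have e2 : T (Φ (T (Φ f))) = Φ (Φ (T (T f))) := by
      rw [hΦT (T f), hΦT f, hΦT (T (Φ f))]
    rw [e2, s1, s2] at e1
    rw [e1, ← mul_smul, pow_two]
  -- `δ`
  let δ : F →+ F := T.comp T - (1 + q) ^ 2 • AddMonoidHom.id F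
  have hδ : ∀ f, δ f = T (T f) - (1 + q) ^ 2 • f := fun f => rfl
  have s4 : ∀ f, ν (δ f) = 0 := by
    intro f
    rw [hδ, map_sub, map_nsmul, s3, sub_self]
  have cΦδ : ∀ f, Φ (δ f) = δ (Φ f) := by
    intro f
    rw [hδ, hδ, map_sub, map_nsmul, hΦT, hΦT]
  have cTδ : ∀ f, T (δ f) = δ (T f) := by
    intro f
    rw [hδ, hδ, map_sub, map_nsmul]
  have cUδ : ∀ f, U (δ f) = δ (U f) := by
    intro f
    rw [hδ, hδ, map_sub, map_nsmul, hTU, hTU]
  have s5 : ∀ f, νc (Φ (δ f)) = νc (δ f) := by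
    intro f
    rw [h3, s4, add_zero]
  have s6 : ∀ f, νc (δ (T f)) = (1 + q) • νc (δ f) := by
    intro f
    have e1 := congrArg νc (h1 (δ f))
    rw [map_add, map_sub, map_nsmul, map_zero] at e1
    have e2 : νc (Φ (Φ (δ f))) = νc (δ f) := by
      rw [cΦδ, s5, ← cΦδ, s5]
    have e3 : νc (T (Φ (δ f))) = νc (δ (T f)) := by
      rw [← hΦT, cTδ, s5]
    rw [e2, e3] at e1
    rw [add_smul, one_smul]
    linear_combination (norm := module) -e1
  have s7 : ∀ f, νc (δ (δ f)) = 0 := by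
    intro f
    have e1 : νc (δ (T (T f))) = (1 + q) ^ 2 • νc (δ f) := by
      rw [s6, s6, ← mul_smul, pow_two]
    have e2 : δ (δ f) = δ (T (T f)) - (1 + q) ^ 2 • δ f := by
      conv_lhs => rw [hδ f]
      rw [map_sub, map_nsmul]
    rw [e2, map_sub, map_nsmul, e1, sub_self]
  have s8 : ∀ f, U (δ f) = n • f := by
    intro f
    rw [hδ, map_sub, map_nsmul, h4]
  have e : (n ^ 2) • f = δ (δ (U (U f))) := by
    rw [← cUδ (U f), s8, map_nsmul, ← cUδ, s8, ← mul_smul, pow_two]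
  rw [← map_nsmul, e, s7]

section val

variable {A : ValuationSubring (AlgebraicClosure ℚ)}

/-- elements of the decomposition group preserve the valuation. -/
lemma valuation_decomp {φ : GQ} (hφ : φ • A = A) (x : AlgebraicClosure ℚ) :
    A.valuation (φ x) = A.valuation x := by
  have hmono : ∀ y z : AlgebraicClosure ℚ, A.valuation y < A.valuation z →
      A.valuation (φ y) < A.valuation (φ z) := by
    intro y z hyz
    rw [← not_le] at hyz ⊢
    intro hle
    apply hyz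
    by_cases hy : y = 0
    · have hz : φ z = 0 := by
        rw [hy, map_zero, map_zero, le_zero_iff, map_eq_zero] at hle
        exact hle
      have hz' : z = 0 := by
        rwa [map_eq_zero] at hz
      rw [hz', hy]
    · have hφy : A.valuation (φ y) ≠ 0 := by
        rw [ne_eq, map_eq_zero, map_eq_zero]; exact hy
      have hvy : A.valuation y ≠ 0 := by
        rw [ne_eq, map_eq_zero]; exact hy
      rw [← div_le_one₀ (zero_lt_iff.mpr hφy), ← map_div₀, ← map_div₀,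
        A.valuation_le_one_iff] at hle
      rw [← div_le_one₀ (zero_lt_iff.mpr hvy), ← map_div₀, A.valuation_le_one_iff]
      have h1 : φ (z / y) ∈ φ • A := by rw [hφ]; exact hle
      have h2 : φ • (z / y) ∈ φ • A := h1
      rwa [ValuationSubring.smul_mem_pointwise_smul_iff] at h2
  have hiter : ∀ k : ℕ, ∀ y z : AlgebraicClosure ℚ, A.valuation y < A.valuation z →
      A.valuation ((φ ^ k) y) < A.valuation ((φ ^ k) z) := by
    intro k
    induction k with
    | zero => intro y z h; exact h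
    | succ k ih =>
      intro y z h
      rw [pow_succ']
      exact hmono _ _ (ih y z h)
  -- finite orbit
  have hfin : ∃ k : ℕ, 0 < k ∧ (φ ^ k) x = x := by
    have h1 : (Set.range fun k : ℕ => (φ ^ k) x).Finite := by
      have hx : IsIntegral ℚ x := Algebra.IsIntegral.isIntegral x
      apply ((minpoly ℚ x).rootSet_finite (AlgebraicClosure ℚ)).subset
      rintro _ ⟨k, rfl⟩
      rw [Polynomial.mem_rootSet]
      refine ⟨minpoly.ne_zero hx, ?_⟩
      have h2 := Polynomial.aeval_algHom_apply ((φ ^ k : GQ) : AlgebraicClosure ℚ →ₐ[ℚ]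
        AlgebraicClosure ℚ) x (minpoly ℚ x)
      rw [minpoly.aeval, map_zero] at h2
      exact h2
    have h2 : ¬ Function.Injective (fun k : ℕ => (φ ^ k) x) := by
      intro hinj
      exact (Set.infinite_range_of_injective hinj) h1
    rw [Function.Injective] at h2
    push Not at h2
    obtain ⟨i, j, hij, hne⟩ := h2
    wlog hlt : i < j generalizing i j
    · exact this j i hij.symm (Ne.symm hne) (lt_of_le_of_ne (not_lt.mp hlt) (Ne.symm hne))
    refine ⟨j - i, by omega, ?_⟩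
    have h3 : (φ ^ i) ((φ ^ (j - i)) x) = (φ ^ i) x := by
      rw [← AlgEquiv.mul_apply, ← pow_add, Nat.add_sub_cancel' hlt.le]
      exact hij.symm
    exact (φ ^ i).injective h3
  obtain ⟨k, hk, hkx⟩ := hfin
  rcases lt_trichotomy (A.valuation (φ x)) (A.valuation x) with hlt | heq | hgt
  · exfalso
    have h1 : ∀ j : ℕ, A.valuation ((φ ^ (j + 1)) x) < A.valuation x := by
      intro j
      induction j with
      | zero => simpa using hlt
      | succ j ih =>
        have h2 := hiter (j + 1) _ _ hlt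
        have h3 : (φ ^ (j + 1)) (φ x) = (φ ^ (j + 1 + 1)) x := by
          rw [pow_succ φ (j + 1)]; rfl
        rw [h3] at h2
        exact h2.trans ih
    obtain ⟨j, rfl⟩ : ∃ j, k = j + 1 := ⟨k - 1, by omega⟩
    have := h1 j
    rw [hkx] at this
    exact lt_irrefl _ this
  · exact heq
  · exfalso
    have h1 : ∀ j : ℕ, A.valuation x < A.valuation ((φ ^ (j + 1)) x) := by
      intro j
      induction j with
      | zero => simpa using hgt
      | succ j ih =>
        have h2 := hiter (j + 1) _ _ hgt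
        have h3 : (φ ^ (j + 1)) (φ x) = (φ ^ (j + 1 + 1)) x := by
          rw [pow_succ φ (j + 1)]; rfl
        rw [h3] at h2
        exact ih.trans h2
    obtain ⟨j, rfl⟩ : ∃ j, k = j + 1 := ⟨k - 1, by omega⟩
    have := h1 j
    rw [hkx] at this
    exact lt_irrefl _ this

end val

section nu

variable {A : ValuationSubring (AlgebraicClosure ℚ)} {q : ℕ} {D : Type*} [AddCommGroup D]

/-- units at `A` times powers of `q` -/
def SA (A : ValuationSubring (AlgebraicClosure ℚ)) (q : ℕ) : Subgroup Qbx where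
  carrier := {x | ∃ k : ℤ, A.valuation (x : AlgebraicClosure ℚ) =
    A.valuation (q : AlgebraicClosure ℚ) ^ k}
  one_mem' := ⟨0, by simp⟩
  mul_mem' := by
    rintro x y ⟨k, hk⟩ ⟨l, hl⟩
    by_cases hq : A.valuation (q : AlgebraicClosure ℚ) = 0
    · -- degenerate case `q = 0`
      have hx : k = 0 := by
        by_contra h
        rw [hq, zero_zpow k h, map_eq_zero] at hk
        exact x.ne_zero hk
      have hy : l = 0 := by
        by_contra h
        rw [hq, zero_zpow l h, map_eq_zero] at hl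
        exact y.ne_zero hl
      subst hx hy
      exact ⟨0, by rw [Units.val_mul, map_mul, hk, hl]; simp⟩
    · exact ⟨k + l, by rw [Units.val_mul, map_mul, hk, hl, zpow_add₀ hq]⟩
  inv_mem' := by
    rintro x ⟨k, hk⟩
    exact ⟨-k, by rw [Units.val_inv_eq_inv_val, map_inv₀, hk, zpow_neg]⟩

/-- the target of the valuation pairing -/
abbrev QA (A : ValuationSubring (AlgebraicClosure ℚ)) (q : ℕ) : Type := Additive (Qbx ⧸ SA A q)

/-- inertia cocycles, tested against characters -/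
structure IsCoc (A : ValuationSubring (AlgebraicClosure ℚ)) (u : GQ → D) : Prop where
  coc : ∀ f : D →+ Additive Qbx, ∀ σ ∈ A.inertiaSubgroupIn ℚ, ∀ τ ∈ A.inertiaSubgroupIn ℚ,
    (f (u (σ * τ))).toMul = (f (u σ)).toMul * σ • (f (u τ)).toMul
  cont : ∃ U : Subgroup GQ, IsOpen (U : Set GQ) ∧ ∀ σ ∈ U, σ ∈ A.inertiaSubgroupIn ℚ → u σ = 0

/-- `x` trivialises the cocycle `f ∘ u` -/
def Rel (A : ValuationSubring (AlgebraicClosure ℚ)) (u : GQ → D) (f : D →+ Additive Qbx)
    (x : Qbx) : Prop :=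
  ∀ σ ∈ A.inertiaSubgroupIn ℚ, (f (u σ)).toMul = σ • x / x

lemma IsCoc.exists_rel {u : GQ → D} (hu : IsCoc A u) (f : D →+ Additive Qbx) :
    ∃ x, Rel A u f x := by
  obtain ⟨U, hU, hcU⟩ := hu.cont
  exact hilbert90_sub (A.inertiaSubgroupIn ℚ) (fun σ => (f (u σ)).toMul) (hu.coc f) U hU
    (fun σ h1 h2 => by rw [hcU σ h1 h2, map_zero]; rfl)

lemma Rel.mul {u : GQ → D} {f f' : D →+ Additive Qbx} {x x' : Qbx} (h : Rel A u f x)
    (h' : Rel A u f' x') : Rel A u (f + f') (x * x') := by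
  intro σ hσ
  rw [AddMonoidHom.add_apply, toMul_add, h σ hσ, h' σ hσ, smul_mul', mul_div_mul_comm]

lemma Rel.mul' {u u' : GQ → D} {f : D →+ Additive Qbx} {x x' : Qbx} (h : Rel A u f x)
    (h' : Rel A u' f x') : Rel A (u + u') f (x * x') := by
  intro σ hσ
  rw [Pi.add_apply, map_add, toMul_add, h σ hσ, h' σ hσ, smul_mul', mul_div_mul_comm]

lemma Rel.congr {u u' : GQ → D} {f : D →+ Additive Qbx} {x : Qbx} (h : Rel A u f x)
    (huu : ∀ σ ∈ A.inertiaSubgroupIn ℚ, u' σ = u σ) : Rel A u' f x := by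
  intro σ hσ
  rw [huu σ hσ, h σ hσ]

lemma Rel.mk_eq (hq : q.Prime) (hA : A.LiesOverPrime q) {u : GQ → D} {f : D →+ Additive Qbx}
    {x x' : Qbx} (h : Rel A u f x) (h' : Rel A u f x') :
    (x : Qbx ⧸ SA A q) = (x' : Qbx ⧸ SA A q) := by
  rw [QuotientGroup.eq]
  obtain ⟨k, w, hw1, hw2, hw0, hxw⟩ := exists_zpow_of_inertia_fixed hq hA
    (x := ((x⁻¹ * x' : Qbx) : AlgebraicClosure ℚ)) (Units.ne_zero _) (by
      intro σ hσ
      have h1 : σ • x / x = σ • x' / x' := by rw [← h σ hσ, h' σ hσ]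
      have h2 : σ • (x⁻¹ * x') = x⁻¹ * x' := by
        rw [smul_mul', smul_inv']
        rw [div_eq_div_iff_mul_eq_mul] at h1
        calc (σ • x)⁻¹ * σ • x' = (σ • x)⁻¹ * (σ • x' * x) * x⁻¹ := by group
          _ = (σ • x)⁻¹ * (σ • x * x') * x⁻¹ := by rw [h1]
          _ = x' * x⁻¹ := by group
          _ = _ := mul_comm _ _
      exact congrArg Units.val h2)
  refine ⟨k, ?_⟩
  rw [hxw, map_mul, map_zpow₀]
  have h3 : A.valuation w = 1 := by
    apply le_antisymm
    · exact (A.valuation_le_one_iff w).mpr hw1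
    · have h4 := (A.valuation_le_one_iff w⁻¹).mpr hw2
      rw [map_inv₀] at h4
      exact (inv_le_one₀ (zero_lt_iff.mpr (by rwa [ne_eq, map_eq_zero]))).mp h4
  rw [h3, mul_one]

/-- unbundled version of `flat_core` -/
theorem flat_core' {F Q : Type*} [AddCommGroup F] [AddCommGroup Q] (q : ℕ) (Φ T U : F → F)
    (hΦ : ∀ f g, Φ (f + g) = Φ f + Φ g) (hT : ∀ f g, T (f + g) = T f + T g)
    (hU : ∀ f g, U (f + g) = U f + U g)
    (hΦT : ∀ f, Φ (T f) = T (Φ f)) (hTU : ∀ f, T (U f) = U (T f))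
    (h1 : ∀ f, q • Φ (Φ f) - T (Φ f) + f = 0) (n : ℕ)
    (h4 : ∀ f, U (T (T f)) - (1 + q) ^ 2 • U f = n • f)
    (ν νc : F → Q) (hν : ∀ f g, ν (f + g) = ν f + ν g) (hνc : ∀ f g, νc (f + g) = νc f + νc g)
    (h2 : ∀ f, ν (Φ (Φ f)) - ν (T (Φ f)) + q • ν f = 0)
    (h3 : ∀ f, νc (Φ f) = νc f + ν f)
    (hdiv : ∃ k : ℤ, ∀ f : F, (k * ((q : ℤ) - 1)) • f = f) (f : F) : νc ((n ^ 2) • f) = 0 := by
  have h := flat_core q (AddMonoidHom.mk' Φ hΦ) (AddMonoidHom.mk' T hT) (AddMonoidHom.mk' U hU)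
    hΦT hTU h1 n h4 (AddMonoidHom.mk' ν hν) (AddMonoidHom.mk' νc hνc) h2 h3 hdiv f
  rw [← map_nsmul] at h
  exact h

/-- The valuation pairing. -/
noncomputable def nu (hq : q.Prime) (hA : A.LiesOverPrime q) {u : GQ → D} (hu : IsCoc A u) :
    (D →+ Additive Qbx) →+ QA A q :=
  AddMonoidHom.mk' (fun f => Additive.ofMul ((hu.exists_rel f).choose : Qbx ⧸ SA A q)) (by
    intro f f'
    rw [← ofMul_mul]
    congr 1
    exact (hu.exists_rel (f + f')).choose_spec.mk_eq hq hA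
      ((hu.exists_rel f).choose_spec.mul (hu.exists_rel f').choose_spec))

lemma nu_eq (hq : q.Prime) (hA : A.LiesOverPrime q) {u : GQ → D} (hu : IsCoc A u)
    {f : D →+ Additive Qbx} {x : Qbx} (h : Rel A u f x) :
    nu hq hA hu f = Additive.ofMul (x : Qbx ⧸ SA A q) := by
  change Additive.ofMul ((hu.exists_rel f).choose : Qbx ⧸ SA A q) = _
  congr 1
  exact (hu.exists_rel f).choose_spec.mk_eq hq hA h

lemma exists_rel_nu (hq : q.Prime) (hA : A.LiesOverPrime q) {u : GQ → D} (hu : IsCoc A u)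
    (f : D →+ Additive Qbx) :
    ∃ x : Qbx, Rel A u f x ∧ nu hq hA hu f = Additive.ofMul (x : Qbx ⧸ SA A q) :=
  ⟨_, (hu.exists_rel f).choose_spec, rfl⟩

lemma nu_add (hq : q.Prime) (hA : A.LiesOverPrime q) {u u' v : GQ → D} (hu : IsCoc A u)
    (hu' : IsCoc A u') (hv : IsCoc A v) (huv : ∀ σ ∈ A.inertiaSubgroupIn ℚ, v σ = u σ + u' σ)
    (f : D →+ Additive Qbx) : nu hq hA hv f = nu hq hA hu f + nu hq hA hu' f := by
  obtain ⟨x, hx, hx'⟩ := exists_rel_nu hq hA hu f
  obtain ⟨y, hy, hy'⟩ := exists_rel_nu hq hA hu' f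
  rw [hx', hy', nu_eq hq hA hv ((hx.mul' hy).congr huv)]
  rfl

lemma nu_congr (hq : q.Prime) (hA : A.LiesOverPrime q) {u v : GQ → D} (hu : IsCoc A u)
    (hv : IsCoc A v) (huv : ∀ σ ∈ A.inertiaSubgroupIn ℚ, v σ = u σ)
    (f : D →+ Additive Qbx) : nu hq hA hv f = nu hq hA hu f := by
  obtain ⟨x, hx, hx'⟩ := exists_rel_nu hq hA hu f
  rw [hx', nu_eq hq hA hv (hx.congr huv)]

/-- composition with an endomorphism -/
lemma nu_comp (hq : q.Prime) (hA : A.LiesOverPrime q) {u v : GQ → D} (hu : IsCoc A u)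
    (hv : IsCoc A v) (r : D →+ D) (huv : ∀ σ ∈ A.inertiaSubgroupIn ℚ, v σ = r (u σ))
    (f : D →+ Additive Qbx) : nu hq hA hv f = nu hq hA hu (f.comp r) := by
  obtain ⟨x, hx, hx'⟩ := exists_rel_nu hq hA hu (f.comp r)
  rw [hx']
  apply nu_eq hq hA hv
  intro σ hσ
  rw [huv σ hσ]
  exact hx σ hσ

/-- conjugation by a Frobenius element which fixes the relevant roots of unity -/
lemma nu_conj (hq : q.Prime) (hA : A.LiesOverPrime q) {m : ℕ} (hD : ∀ x : D, q ^ m • x = 0)
    {φ : GQ} (hφ : φ • A = A)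
    (hφm : ∀ ζ : AlgebraicClosure ℚ, ζ ^ (q ^ m) = 1 → φ ζ = ζ)
    {u v : GQ → D} (hu : IsCoc A u)
    (hv : IsCoc A v) (r : D →+ D)
    (huv : ∀ σ ∈ A.inertiaSubgroupIn ℚ, v σ = r (u (φ⁻¹ * σ * φ)))
    (f : D →+ Additive Qbx) : nu hq hA hv f = nu hq hA hu (f.comp r) := by
  obtain ⟨x, hx, hx'⟩ := exists_rel_nu hq hA hu (f.comp r)
  have hrel : Rel A v f (φ • x) := by
    intro σ hσ
    have h1 : φ⁻¹ * σ * φ ∈ A.inertiaSubgroupIn ℚ := by
      apply mem_inertia_smul
      rw [hφ]; exact hσ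
    have h2 := hx _ h1
    rw [AddMonoidHom.comp_apply, ← huv σ hσ] at h2
    have h3 : φ • (f (v σ)).toMul = (f (v σ)).toMul := by
      apply Units.ext
      apply hφm
      rw [← Units.val_pow_eq_pow_val, ← toMul_nsmul, ← map_nsmul, hD, map_zero]
      rfl
    rw [← h3, h2, smul_div', ← mul_smul, ← mul_assoc, ← mul_assoc, mul_inv_cancel, one_mul,
      mul_smul]
  rw [hx', nu_eq hq hA hv hrel]
  congr 1
  rw [QuotientGroup.eq]
  refine ⟨0, ?_⟩
  rw [zpow_zero, Units.val_mul, Units.val_inv_eq_inv_val, map_mul, map_inv₀]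
  have h4 : A.valuation ((φ • x : Qbx) : AlgebraicClosure ℚ) =
    A.valuation (x : AlgebraicClosure ℚ) := valuation_decomp hφ _
  rw [h4, inv_mul_cancel₀]
  rw [ne_eq, map_eq_zero]
  exact x.ne_zero

/-- coboundaries of `D` pair trivially. -/
lemma nu_coboundary (hq : q.Prime) (hA : A.LiesOverPrime q) {m : ℕ} (hD : ∀ x : D, q ^ m • x = 0)
    {u : GQ → D} (hu : IsCoc A u) (g : D)
    (hug : ∀ f : D →+ Additive Qbx, ∀ σ ∈ A.inertiaSubgroupIn ℚ,
      (f (u σ)).toMul = σ • (f g).toMul / (f g).toMul)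
    (f : D →+ Additive Qbx) : nu hq hA hu f = 0 := by
  rw [nu_eq hq hA hu (x := (f g).toMul) (fun σ hσ => hug f σ hσ), ← ofMul_one]
  congr 1
  rw [QuotientGroup.eq_one_iff]
  refine ⟨0, ?_⟩
  rw [zpow_zero]
  have h1 : ((f g).toMul : AlgebraicClosure ℚ) ^ (q ^ m) = 1 := by
    rw [← Units.val_pow_eq_pow_val, ← toMul_nsmul, ← map_nsmul, hD, map_zero]
    rfl
  have h2 : A.valuation ((f g).toMul : AlgebraicClosure ℚ) ^ (q ^ m) = 1 := by
    rw [← map_pow, h1, map_one]
  exact (pow_eq_one_iff_of_nonneg zero_le (pow_ne_zero m hq.ne_zero)).mp h2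

/-- `nu = 0` gives flatness -/
lemma flat_of_nu (hq : q.Prime) (hA : A.LiesOverPrime q) {u : GQ → D} (hu : IsCoc A u)
    {f : D →+ Additive Qbx} (h : nu hq hA hu f = 0) :
    ∃ x : Qbx, A.valuation (x : AlgebraicClosure ℚ) = 1 ∧ Rel A u f x := by
  obtain ⟨x, hx, hx'⟩ := exists_rel_nu hq hA hu f
  rw [h, ← ofMul_one] at hx'
  have h1 := Additive.ofMul.injective hx'
  rw [eq_comm, QuotientGroup.eq_one_iff] at h1
  obtain ⟨k, hk⟩ := h1
  have hq0 : (q : AlgebraicClosure ℚ) ≠ 0 := by exact_mod_cast hq.ne_zero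
  let Q : Qbx := Units.mk0 (q : AlgebraicClosure ℚ) hq0
  refine ⟨x * Q ^ (-k), ?_, fun σ hσ => ?_⟩
  · rw [Units.val_mul, map_mul, hk, Units.val_zpow_eq_zpow_val, map_zpow₀]
    change A.valuation (q : AlgebraicClosure ℚ) ^ k * A.valuation (q : AlgebraicClosure ℚ) ^ (-k) = 1
    rw [zpow_neg, mul_inv_cancel₀]
    apply zpow_ne_zero
    rwa [ne_eq, map_eq_zero]
  · have h2 : σ • Q = Q := Units.ext (map_natCast σ q)
    rw [hx σ hσ, smul_mul', smul_zpow', h2, mul_div_mul_right_eq_div]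

end nu

end Fermat.Agent.Mazur
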