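import Fermat.Agent.Mazur.CountY

/-!
# The `P`-primary part of `J`
-/

set_option autoImplicit false

namespace Fermat.Agent.Mazur

open scoped Pointwise
open Fermat.Agent.Frob Fermat.Agent.Tate Fermat.Agent.Minkowski

section idem

variable {R : Type*} [CommRing R] {J : Type*} [AddCommGroup J] [Module R J]

/-- the `n`-torsion as a submodule -/
def torSub (R : Type*) [CommRing R] (J : Type*) [AddCommGroup J] [Module R J] (n : ℕ) :
    Submodule R J where
  carrier := {x | n • x = 0}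
  zero_mem' := smul_zero _
  add_mem' := fun {a b} ha hb => by
    change n • (a + b) = 0
    rw [smul_add, ha, hb, add_zero]
  smul_mem' := fun r x hx => by
    change n • (r • x) = 0
    rw [smul_comm, hx, smul_zero]

/-- Idempotent cutting out the `P`-primary part. -/
lemma exists_idem (q : ℕ) (P : Ideal R) (m : ℕ)
    (hfin : Finite {x : J // q ^ m • x = 0}) :
    ∃ e : R, 1 - e ∈ P ∧ (∀ x : J, q ^ m • x = 0 → e • x ∈ PPrim q P J) ∧
      ∀ x ∈ PPrim q P J, q ^ m • x = 0 → e • x = x := by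
  let X : Submodule R J := torSub R J (q ^ m)
  have hX : Finite X := hfin
  let I : Ideal R := Module.annihilator R X
  have hI : ∀ r : R, r ∈ I ↔ ∀ x : J, q ^ m • x = 0 → r • x = 0 := by
    intro r
    rw [Module.mem_annihilator]
    constructor
    · intro h x hx
      exact congrArg Subtype.val (h ⟨x, hx⟩)
    · rintro h ⟨x, hx⟩
      exact Subtype.ext (h x hx)
  have hS : Finite (R ⧸ I) := by
    let f : (R ⧸ I) → (X → X) := fun s => Quotient.liftOn' s (fun r x => r • x) (by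
      intro a b hab
      funext x
      have h1 : a - b ∈ I := (Submodule.quotientRel_def I).mp hab
      have h2 := (Module.mem_annihilator.mp h1) x
      rw [sub_smul, sub_eq_zero] at h2
      exact h2)
    apply Finite.of_injective f
    intro s t hst
    obtain ⟨a, rfl⟩ := Ideal.Quotient.mk_surjective s
    obtain ⟨b, rfl⟩ := Ideal.Quotient.mk_surjective t
    rw [Ideal.Quotient.eq, Module.mem_annihilator]
    intro x
    have h1 := congrFun hst x
    change a • x = b • x at h1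
    rw [sub_smul, h1, sub_self]
  let Pb : Ideal (R ⧸ I) := P.map (Ideal.Quotient.mk I)
  have hart : IsArtinian (R ⧸ I) (R ⧸ I) := inferInstance
  have hnoeth : IsNoetherian (R ⧸ I) (R ⧸ I) := inferInstance
  obtain ⟨n, hn⟩ := IsArtinian.monotone_stabilizes (R := R ⧸ I) (M := R ⧸ I)
    ⟨fun k => OrderDual.toDual (Pb ^ k), fun a b hab => Ideal.pow_le_pow_right hab⟩
  have hn' : ∀ k, n ≤ k → Pb ^ n = Pb ^ k := fun k hk => hn k hk
  have hidem : IsIdempotentElem (Pb ^ (n + 1)) := by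
    change Pb ^ (n + 1) * Pb ^ (n + 1) = Pb ^ (n + 1)
    rw [← pow_add, ← hn' (n + 1) (by omega), ← hn' (n + 1 + (n + 1)) (by omega)]
  obtain ⟨ε, hε, hspan⟩ := (Ideal.isIdempotentElem_iff_of_fg _
    ((isNoetherian_def.mp hnoeth) _)).mp hidem
  have hεmem : ε ∈ (P ^ (n + 1)).map (Ideal.Quotient.mk I) := by
    rw [Ideal.map_pow]
    change ε ∈ Pb ^ (n + 1)
    rw [hspan]
    exact Submodule.mem_span_singleton_self ε
  obtain ⟨f, hf, hfε⟩ := (Ideal.mem_map_iff_of_surjective _ Ideal.Quotient.mk_surjective).mp hεmem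
  refine ⟨1 - f, ?_, ?_, ?_⟩
  · rw [sub_sub_cancel]
    exact Ideal.pow_le_self (Nat.succ_ne_zero n) hf
  · intro x hx
    refine ⟨⟨m, by rw [smul_comm, hx, smul_zero]⟩, ⟨n + 1, fun r hr => ?_⟩⟩
    rw [← mul_smul]
    have h1 : r * (1 - f) ∈ I := by
      rw [← Ideal.Quotient.eq_zero_iff_mem, map_mul, map_sub, map_one, hfε]
      have h2 : Ideal.Quotient.mk I r ∈ Pb ^ (n + 1) := by
        rw [← Ideal.map_pow]
        exact Ideal.mem_map_of_mem _ hr
      rw [hspan] at h2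
      obtain ⟨s, hs⟩ := Submodule.mem_span_singleton.mp h2
      have h3 : ε * ε = ε := hε
      rw [← hs, smul_eq_mul, mul_sub, mul_one, mul_assoc, h3, sub_self]
    exact (hI _).mp h1 x hx
  · rintro x ⟨-, j, hj⟩ hx
    have h1 : f • x = f ^ (j + 1) • x := by
      have h2 : f - f ^ (j + 1) ∈ I := by
        rw [← Ideal.Quotient.eq_zero_iff_mem, map_sub, map_pow, hfε, hε.pow_succ_eq, sub_self]
      have h3 := (hI _).mp h2 x hx
      rw [sub_smul, sub_eq_zero] at h3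
      exact h3
    have h4 : f ^ (j + 1) • x = 0 := by
      apply hj
      have h5 : f ^ (j + 1) ∈ (P ^ (n + 1)) ^ (j + 1) := Ideal.pow_mem_pow hf _
      rw [← pow_mul] at h5
      apply Ideal.pow_le_pow_right _ h5
      nlinarith
    rw [sub_smul, one_smul, h1, h4, sub_zero]

end idem

variable {q : ℕ} {R : Type*} [CommRing R] {P : Ideal R}
    {J : Type*} [AddCommGroup J] [Module R J] [DistribMulAction GQ J]
    [SMulCommClass GQ R J]

/-- the `P`-primary part as a submodule -/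
def PPS (q : ℕ) {R : Type*} [CommRing R] (P : Ideal R) (J : Type*) [AddCommGroup J]
    [Module R J] : Submodule R J :=
  { PPrim q P J with
    smul_mem' := by
      rintro r x ⟨⟨n, hn⟩, ⟨k, hk⟩⟩
      exact ⟨⟨n, by rw [smul_comm, hn, smul_zero]⟩,
        ⟨k, fun s hs => by rw [smul_comm, hk s hs, smul_zero]⟩⟩ }

omit [DistribMulAction GQ J] [SMulCommClass GQ R J] in
lemma mem_PPS {x : J} : x ∈ PPS q P J ↔ x ∈ PPrim q P J := Iff.rfl

lemma galois_mem_PPS (g : GQ) {x : J} (hx : x ∈ PPS q P J) : g • x ∈ PPS q P J := by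
  obtain ⟨⟨n, hn⟩, ⟨k, hk⟩⟩ := hx
  exact ⟨⟨n, by rw [smul_comm, hn, smul_zero]⟩,
    ⟨k, fun s hs => by rw [← smul_comm g s, hk s hs, smul_zero]⟩⟩

noncomputable instance : DistribMulAction GQ (PPS q P J) where
  smul g x := ⟨g • x.1, galois_mem_PPS g x.2⟩
  one_smul _ := Subtype.ext (one_smul _ _)
  mul_smul _ _ _ := Subtype.ext (mul_smul _ _ _)
  smul_zero g := Subtype.ext (smul_zero g)
  smul_add _ _ _ := Subtype.ext (smul_add _ _ _)

@[simp] lemma coe_smul_PPS (g : GQ) (x : PPS q P J) : ((g • x : PPS q P J) : J) = g • (x : J) := rfl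

instance : SMulCommClass GQ R (PPS q P J) :=
  ⟨fun g r x => Subtype.ext (smul_comm g r (x : J))⟩

section

variable [hqf : Fact q.Prime] {N : ℕ} {T : Nat.Primes → R}

omit hqf in
lemma EisInput.pow_finite {hq : q.Prime} (h : EisInput hq N P T J) (m : ℕ) :
    Finite {x : J // q ^ m • x = 0} := h.finite _ (pow_ne_zero m hq.ne_zero)

theorem EisInput.mInput (h : EisInput hqf.out N P T J) :
    MInput hqf.out N P T (PPS q P J) := by
  refine ⟨h.prime_N, h.ne, h.q_mem, h.eis, ?_, ?_, ?_, ?_, ?_, ?_, ?_⟩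
  · rintro ⟨x, ⟨n, hn⟩, -⟩
    exact ⟨n, Subtype.ext hn⟩
  · rintro ⟨x, -, ⟨k, hk⟩⟩
    exact ⟨k, fun r hr => Subtype.ext (hk r hr)⟩
  · rintro ⟨x, hx⟩
    obtain ⟨m, hm⟩ := hx.1
    obtain ⟨y, hy⟩ := h.divisible x
    obtain ⟨e, -, he1, he2⟩ := exists_idem q P (m + 1) (h.pow_finite (m + 1))
    have hy' : q ^ (m + 1) • y = 0 := by rw [pow_succ, mul_smul, hy, hm]
    refine ⟨⟨e • y, he1 y hy'⟩, Subtype.ext ?_⟩
    change q • e • y = x
    rw [smul_comm, hy]
    apply he2 x hx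
    rw [pow_succ', mul_smul, hm, smul_zero]
  · have := h.finite q hqf.out.ne_zero
    apply Finite.of_injective (β := {x : J // q • x = 0})
      (fun x : {x : PPS q P J // q • x = 0} => ⟨x.1.1, congrArg Subtype.val x.2⟩)
    intro x y hxy
    exact Subtype.ext (Subtype.ext (congrArg (fun z : {x : J // q • x = 0} => (z : J)) hxy))
  · intro x
    obtain ⟨U, hU, hUx⟩ := h.smooth x
    exact ⟨U, hU, fun σ hσ => Subtype.ext (hUx σ hσ)⟩
  · rintro ℓ hℓq hℓN A' hA' σ hσ ⟨x, hx⟩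
    apply Subtype.ext
    apply h.unram ℓ hℓq hℓN A' hA' σ hσ x
    obtain ⟨m, hm⟩ := hx.1
    exact ⟨m, by rw [smul_sub, smul_comm, hm, smul_zero, sub_zero]⟩
  · rintro ℓ hℓq hℓN A' hA' φ hφ ⟨x, hx⟩
    exact Subtype.ext (h.frob ℓ hℓq hℓN A' hA' φ hφ x hx)

theorem EisInput.weightAt (h : EisInput hqf.out N P T J) : WeightAt q N T (PPS q P J) := by
  obtain ⟨ℓ, hℓq, hℓN, u, n, hn, hun⟩ := h.weight
  exact ⟨ℓ, hℓq, hℓN, u, n, hn, fun x => Subtype.ext (hun x x.2)⟩

omit hqf in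
lemma coe_poly (φ : GQ) (n a : ℕ) (x : PPS q P J) :
    ((((gEnd (PPS q P J) φ) ^ 2 - ((n : ℕ) : AddMonoid.End (PPS q P J))) ^ a :
      AddMonoid.End (PPS q P J)) x : J) =
      (((gEnd J φ) ^ 2 - ((n : ℕ) : AddMonoid.End J)) ^ a : AddMonoid.End J) x := by
  induction a generalizing x with
  | zero => rfl
  | succ a ih =>
    rw [pow_succ, pow_succ]
    exact ih _

theorem EisInput.exists_atN (h : EisInput hqf.out N P T J) :
    ∃ (B : ValuationSubring (AlgebraicClosure ℚ)) (φ : GQ) (a : ℕ),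
      AtN N (PPS q P J) B φ a := by
  obtain ⟨B, hB, hunip, φ, hφ, a, ha⟩ := h.atN
  refine ⟨B, φ, a, hB, hφ, ?_, ?_⟩
  · intro τ hτ τ' hτ' x
    exact Subtype.ext (hunip τ hτ τ' hτ' x x.2)
  · intro x
    apply Subtype.ext
    have h1 := ha x x.2
    have e1 : ((((gEnd (PPS q P J) φ) ^ 2 - 1) ^ a *
        ((gEnd (PPS q P J) φ) ^ 2 - ((N ^ 2 : ℕ) : AddMonoid.End (PPS q P J))) ^ a :
        AddMonoid.End (PPS q P J)) x : J) =
      (((gEnd J φ) ^ 2 - ((1 : ℕ) : AddMonoid.End J)) ^ a : AddMonoid.End J)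
        ((((gEnd J φ) ^ 2 - ((N ^ 2 : ℕ) : AddMonoid.End J)) ^ a : AddMonoid.End J) x) := by
      rw [← coe_poly, ← coe_poly, Nat.cast_one]
      rfl
    rw [e1, Nat.cast_one]
    exact h1

theorem EisInput.exists_atQ (h : EisInput hqf.out N P T J) :
    ∃ (A : ValuationSubring (AlgebraicClosure ℚ)) (M₀ : AddSubgroup (PPS q P J)),
      AtQ hqf.out T (PPS q P J) A M₀ ∧ ∀ σ ∈ A.inertiaSubgroupIn ℚ, ∀ y : J, ∀ x : PPS q P J,
        (x : J) = σ • y - y → x ∈ M₀ := by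
  obtain ⟨A, J₀, hA, h1, h2, h3, h4, h5⟩ := h.atq
  refine ⟨A, J₀.comap (PPS q P J).subtype.toAddMonoidHom, ⟨hA, ?_, ?_, ?_, ?_, ?_⟩, ?_⟩
  · intro σ hσ x
    exact h1 σ hσ x
  · intro φ hφ x hx
    exact h2 φ hφ x hx
  · intro r x hx
    exact h3 r x hx
  · intro φ hφ x
    exact h4 φ hφ x x.2
  · intro x hx σ hσ n k hn hk
    exact Subtype.ext (h5 x x.2 hx σ hσ n k (congrArg Subtype.val hn) hk)
  · intro σ hσ y x hx
    change (x : J) ∈ J₀
    rw [hx]
    exact h1 σ hσ y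

theorem EisInput.exists_weight_q (h : EisInput hqf.out N P T J) : ∃ (u : R) (n : ℕ), n ≠ 0 ∧
    ∀ x : PPS q P J, (u * ((T ⟨q, hqf.out⟩) ^ 2 - (1 + (q : R)) ^ 2)) • x = n • x := by
  obtain ⟨u, n, hn, hun⟩ := h.weight_q
  exact ⟨u, n, hn, fun x => Subtype.ext (hun x x.2)⟩

end

end Fermat.Agent.Mazur
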