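import Fermat.Agent.Mazur.Count

/-!
# Mazur's counting argument, in cocycle form: the main bound
-/

set_option autoImplicit false

namespace Fermat.Agent.Mazur

open scoped Pointwise
open Fermat.Agent.Frob Fermat.Agent.Minkowski

variable {G : Type*} [AddCommGroup G] [DistribMulAction GQ G]

/-- Locally constant cocycles `c : G_ℚ → G` which are unramified outside `q, N` and everywhere
over `N` at the chosen place `B`, have values in `G₀` on inertia at the chosen place `A` over `q`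
and are "flat" there: all their pushforwards to `ℚ̄ˣ` are coboundaries of `A`-units. -/
structure IsSel (q N : ℕ) (A B : ValuationSubring (AlgebraicClosure ℚ)) (G₀ : AddSubgroup G)
    (c : GQ → G) : Prop where
  cocycle : ∀ σ τ : GQ, c (σ * τ) = c σ + σ • c τ
  cont : ∃ U : Subgroup GQ, IsOpen (U : Set GQ) ∧ ∀ σ ∈ U, c σ = 0
  unram : ∀ ℓ : ℕ, ℓ.Prime → ℓ ≠ q → ℓ ≠ N → ∀ A' : ValuationSubring (AlgebraicClosure ℚ),
    A'.LiesOverPrime ℓ → ∀ σ ∈ A'.inertiaSubgroupIn ℚ, c σ = 0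
  atN : ∀ σ ∈ B.inertiaSubgroupIn ℚ, c σ = 0
  atq : ∀ σ ∈ A.inertiaSubgroupIn ℚ, c σ ∈ G₀
  flat : ∀ f : G →+ Additive Qbx, ∃ x : Qbx, A.valuation (x : AlgebraicClosure ℚ) = 1 ∧
    ∀ σ ∈ A.inertiaSubgroupIn ℚ, (f (c σ)).toMul = σ • x / x

/-- The group of Selmer cocycles with values in a subgroup `H`. -/
def sel (q N : ℕ) (A B : ValuationSubring (AlgebraicClosure ℚ)) (G₀ H : AddSubgroup G) :
    AddSubgroup (GQ → G) where
  carrier := {c | IsSel q N A B G₀ c ∧ ∀ σ, c σ ∈ H}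
  zero_mem' := by
    refine ⟨⟨?_, ⟨⊤, isOpen_univ, fun _ _ => rfl⟩, fun _ _ _ _ _ _ _ _ => rfl, fun _ _ => rfl,
      fun _ _ => G₀.zero_mem, fun f => ⟨1, by simp, fun σ _ => ?_⟩⟩, fun _ => H.zero_mem⟩
    · intro σ τ
      simp
    · simp
  add_mem' := by
    rintro c d ⟨hc, hcH⟩ ⟨hd, hdH⟩
    refine ⟨⟨?_, ?_, ?_, ?_, ?_, ?_⟩, fun σ => H.add_mem (hcH σ) (hdH σ)⟩
    · intro σ τ
      simp only [Pi.add_apply, hc.cocycle, hd.cocycle, smul_add]
      abel
    · obtain ⟨U, hU, hcU⟩ := hc.cont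
      obtain ⟨V, hV, hdV⟩ := hd.cont
      refine ⟨U ⊓ V, hU.inter hV, ?_⟩
      rintro σ ⟨h1, h2⟩
      simp only [Pi.add_apply, hcU σ h1, hdV σ h2, add_zero]
    · intro ℓ hℓ hq hN A' hA' σ hσ
      simp only [Pi.add_apply, hc.unram ℓ hℓ hq hN A' hA' σ hσ, hd.unram ℓ hℓ hq hN A' hA' σ hσ,
        add_zero]
    · intro σ hσ
      simp only [Pi.add_apply, hc.atN σ hσ, hd.atN σ hσ, add_zero]
    · intro σ hσ
      exact G₀.add_mem (hc.atq σ hσ) (hd.atq σ hσ)
    · intro f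
      obtain ⟨x, hx1, hx⟩ := hc.flat f
      obtain ⟨y, hy1, hy⟩ := hd.flat f
      refine ⟨x * y, by rw [Units.val_mul, map_mul, hx1, hy1, mul_one], fun σ hσ => ?_⟩
      rw [Pi.add_apply, map_add, toMul_add, hx σ hσ, hy σ hσ, smul_mul', mul_div_mul_comm]
  neg_mem' := by
    rintro c ⟨hc, hcH⟩
    refine ⟨⟨?_, ?_, ?_, ?_, ?_, ?_⟩, fun σ => H.neg_mem (hcH σ)⟩
    · intro σ τ
      simp only [Pi.neg_apply, hc.cocycle, smul_neg]
      abel
    · obtain ⟨U, hU, hcU⟩ := hc.cont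
      refine ⟨U, hU, fun σ hσ => ?_⟩
      simp only [Pi.neg_apply, hcU σ hσ, neg_zero]
    · intro ℓ hℓ hq hN A' hA' σ hσ
      simp only [Pi.neg_apply, hc.unram ℓ hℓ hq hN A' hA' σ hσ, neg_zero]
    · intro σ hσ
      simp only [Pi.neg_apply, hc.atN σ hσ, neg_zero]
    · intro σ hσ
      exact G₀.neg_mem (hc.atq σ hσ)
    · intro f
      obtain ⟨x, hx1, hx⟩ := hc.flat f
      refine ⟨x⁻¹, by rw [Units.val_inv_eq_inv_val, map_inv₀, hx1, inv_one], fun σ hσ => ?_⟩
      rw [Pi.neg_apply, map_neg, toMul_neg, hx σ hσ, smul_inv', inv_div_inv, inv_div]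

lemma mem_sel {q N : ℕ} {A B : ValuationSubring (AlgebraicClosure ℚ)} {G₀ H : AddSubgroup G}
    {c : GQ → G} : c ∈ sel q N A B G₀ H ↔ IsSel q N A B G₀ c ∧ ∀ σ, c σ ∈ H := Iff.rfl

/-- `H'/H` embeds in `ℤ/q` with trivial Galois action. -/
def IsTrivPiece (q : ℕ) (H H' : AddSubgroup G) : Prop :=
  ∃ π : H' →+ ZMod q, (∀ g : H', π g = 0 ↔ (g : G) ∈ H) ∧
    ∀ (σ : GQ) (g g' : H'), (g' : G) = σ • (g : G) → π g' = π g

/-- `H'/H` embeds in `μ_q`. -/
def IsMuPiece (q : ℕ) (H H' : AddSubgroup G) : Prop :=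
  ∃ π : H' →+ Additive Qbx, (∀ g : H', π g = 0 ↔ (g : G) ∈ H) ∧ (∀ g, q • π g = 0) ∧
    ∀ (σ : GQ) (g g' : H'), (g' : G) = σ • (g : G) → (π g').toMul = σ • (π g).toMul

/-- `Additive Qbx` is divisible -/
@[implicit_reducible] noncomputable def divisibleQbxNat : DivisibleBy (Additive Qbx) ℕ :=
  divisibleByOfSMulRightSurj (Additive Qbx) ℕ (fun {n} hn x => by
    obtain ⟨z, hz⟩ := IsAlgClosed.exists_pow_nat_eq ((x.toMul : Qbx) : AlgebraicClosure ℚ)
      (Nat.pos_of_ne_zero hn)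
    have hz0 : z ≠ 0 := by
      rintro rfl
      rw [zero_pow hn] at hz
      exact x.toMul.ne_zero hz.symm
    refine ⟨Additive.ofMul (Units.mk0 z hz0), ?_⟩
    change Additive.ofMul ((Units.mk0 z hz0) ^ n) = x
    have : (Units.mk0 z hz0) ^ n = x.toMul := Units.ext hz
    rw [this]
    rfl)

/-- `Additive Qbx` is divisible -/
noncomputable instance divisibleQbx : DivisibleBy (Additive Qbx) ℤ :=
  letI := divisibleQbxNat
  AddGroup.divisibleByIntOfDivisibleByNat (Additive Qbx)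

omit [DistribMulAction GQ G] in
lemma exists_extension (H : AddSubgroup G) (f : H →+ Additive Qbx) :
    ∃ F : G →+ Additive Qbx, ∀ h : H, F h = f h := by
  obtain ⟨F, hF⟩ := (Module.Baer.of_divisible (Additive Qbx)).extension_property_addMonoidHom
    H.subtype (H.subtype_injective) f
  exact ⟨F, fun h => DFunLike.congr_fun hF h⟩

section step

variable {q N : ℕ} {A B : ValuationSubring (AlgebraicClosure ℚ)} {G₀ : AddSubgroup G}

/-- The pushforward of a Selmer cocycle along a `μ_q`-piece lies in `rootSet q`. -/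
lemma push_mem_rootSet (hq : q.Prime) (hN : N.Prime) (hA : A.LiesOverPrime q)
    (hB : B.LiesOverPrime N) {H' : AddSubgroup G}
    (π : H' →+ Additive Qbx) (hπq : ∀ g, q • π g = 0)
    (hπ : ∀ (σ : GQ) (g g' : H'), (g' : G) = σ • (g : G) → (π g').toMul = σ • (π g).toMul)
    (hst : ∀ (σ : GQ), ∀ g ∈ H', σ • g ∈ H')
    {c : GQ → G} (hc : IsSel q N A B G₀ c) (hcH : ∀ σ, c σ ∈ H') :
    (fun σ => (π ⟨c σ, hcH σ⟩).toMul) ∈ rootSet q := by
  obtain ⟨F, hF⟩ := exists_extension H' π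
  have h0 : ∀ σ, c σ = 0 → (π ⟨c σ, hcH σ⟩).toMul = 1 := by
    intro σ h
    have : (⟨c σ, hcH σ⟩ : H') = 0 := Subtype.ext h
    rw [this, map_zero]
    rfl
  obtain ⟨ζ, hζ, hcζ⟩ := radical_of_cocycle hq hA (fun σ => (π ⟨c σ, hcH σ⟩).toMul) (by
    intro σ τ
    have h1 : (⟨c (σ * τ), hcH _⟩ : H') = ⟨c σ, hcH σ⟩ + ⟨σ • c τ, hst σ _ (hcH τ)⟩ :=
      Subtype.ext (hc.cocycle σ τ)
    change (π ⟨c (σ * τ), hcH _⟩).toMul = _
    rw [h1, map_add, toMul_add, hπ σ ⟨c τ, hcH τ⟩ ⟨σ • c τ, hst σ _ (hcH τ)⟩ rfl]) (by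
    obtain ⟨U, hU, hcU⟩ := hc.cont
    exact ⟨U, hU, fun σ hσ => h0 σ (hcU σ hσ)⟩) (by
    intro σ
    have := hπq ⟨c σ, hcH σ⟩
    have h2 := congrArg Additive.toMul this
    rw [toMul_nsmul] at h2
    exact h2) (by
    intro ℓ hℓ hℓq
    by_cases hℓN : ℓ = N
    · subst hℓN
      exact ⟨B, hB, fun σ hσ => h0 σ (hc.atN σ hσ)⟩
    · obtain ⟨A', hA'⟩ := exists_liesOverPrime ℓ hℓ
      exact ⟨A', hA', fun σ hσ => h0 σ (hc.unram ℓ hℓ hℓq hℓN A' hA' σ hσ)⟩) (by
    obtain ⟨x, hx1, hx⟩ := hc.flat F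
    refine ⟨x, hx1, fun σ hσ => ?_⟩
    rw [← hx σ hσ, ← hF ⟨c σ, hcH σ⟩])
  exact ⟨ζ, hζ, funext hcζ⟩

/-- A Selmer cocycle pushed to a trivial piece and trivial on inertia at `q` vanishes. -/
lemma push_triv_eq_zero (hN : N.Prime) (hB : B.LiesOverPrime N) (hA : A.LiesOverPrime q)
    (hq : q.Prime) {H' : AddSubgroup G}
    (π : H' →+ ZMod q)
    (hπ : ∀ (σ : GQ) (g g' : H'), (g' : G) = σ • (g : G) → π g' = π g)
    (hst : ∀ (σ : GQ), ∀ g ∈ H', σ • g ∈ H')
    {c : GQ → G} (hc : IsSel q N A B G₀ c) (hcH : ∀ σ, c σ ∈ H')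
    (hcA : ∀ σ ∈ A.inertiaSubgroupIn ℚ, π ⟨c σ, hcH σ⟩ = 0) (σ : GQ) :
    π ⟨c σ, hcH σ⟩ = 0 := by
  have h0 : ∀ σ, c σ = 0 → π ⟨c σ, hcH σ⟩ = 0 := by
    intro σ h
    have : (⟨c σ, hcH σ⟩ : H') = 0 := Subtype.ext h
    rw [this, map_zero]
  have hmul : ∀ σ τ : GQ, π ⟨c (σ * τ), hcH _⟩ = π ⟨c σ, hcH σ⟩ + π ⟨c τ, hcH τ⟩ := by
    intro σ τ
    have h1 : (⟨c (σ * τ), hcH _⟩ : H') = ⟨c σ, hcH σ⟩ + ⟨σ • c τ, hst σ _ (hcH τ)⟩ :=
      Subtype.ext (hc.cocycle σ τ)
    rw [h1, map_add, hπ σ ⟨c τ, hcH τ⟩ ⟨σ • c τ, hst σ _ (hcH τ)⟩ rfl]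
  let χ : GQ →* Multiplicative (ZMod q) :=
    MonoidHom.mk' (fun σ => Multiplicative.ofAdd (π ⟨c σ, hcH σ⟩)) (by
      intro σ τ
      rw [hmul, ofAdd_add])
  have hχ : ∀ σ, χ σ = Multiplicative.ofAdd (π ⟨c σ, hcH σ⟩) := fun _ => rfl
  have hχ1 : ∀ σ, χ σ = 1 ↔ π ⟨c σ, hcH σ⟩ = 0 := by
    intro σ
    rw [hχ, ofAdd_eq_one]
  have hopen : IsOpen (χ.ker : Set GQ) := by
    obtain ⟨U, hU, hcU⟩ := hc.cont
    apply Subgroup.isOpen_mono (H₁ := U) _ hU
    intro τ hτ
    rw [MonoidHom.mem_ker, hχ1]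
    exact h0 τ (hcU τ hτ)
  -- conjugation invariance
  have hconj : ∀ (ℓ : ℕ) (A₁ A₂ : ValuationSubring (AlgebraicClosure ℚ)), ℓ.Prime →
      A₁.LiesOverPrime ℓ → A₂.LiesOverPrime ℓ → (∀ σ ∈ A₁.inertiaSubgroupIn ℚ, χ σ = 1) →
      ∀ σ ∈ A₂.inertiaSubgroupIn ℚ, χ σ = 1 := by
    intro ℓ A₁ A₂ hℓ h1 h2 h3 σ hσ
    obtain ⟨g, hg⟩ := exists_smul_eq hℓ h1 h2
    rw [← hg] at hσ
    have h4 := h3 _ (mem_inertia_smul hσ)
    rw [map_mul, map_mul, map_inv, mul_comm, mul_inv_cancel_left] at h4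
    exact h4
  rw [← hχ1]
  apply hom_eq_one χ hopen
  intro ℓ hℓ A' hA' τ hτ
  by_cases hℓq : ℓ = q
  · subst hℓq
    exact hconj ℓ A A' hℓ hA hA' (fun σ hσ => (hχ1 σ).mpr (hcA σ hσ)) τ hτ
  · by_cases hℓN : ℓ = N
    · subst hℓN
      exact hconj ℓ B A' hℓ hB hA' (fun σ hσ => (hχ1 σ).mpr (h0 σ (hc.atN σ hσ))) τ hτ
    · exact (hχ1 τ).mpr (h0 τ (hc.unram ℓ hℓ hℓq hℓN A' hA' τ hτ))

omit [DistribMulAction GQ G] in
lemma card_le_of_hom {X T : Type*} [AddCommGroup X] [AddCommGroup T] (S S' : AddSubgroup X)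
    (θ : S' →+ T) (hθ : ∀ s, θ s = 0 → (s : X) ∈ S) (R : Set T) (hR : R.Finite)
    (hθR : ∀ s, θ s ∈ R) (hS : Finite S) :
    Finite S' ∧ Nat.card S' ≤ Nat.card S * R.ncard := by
  classical
  have hRf : Finite R := hR.to_subtype
  let r : T → S' := fun t => if h : ∃ s, θ s = t then h.choose else 0
  have hr : ∀ s, θ (r (θ s)) = θ s := by
    intro s
    have h : ∃ s', θ s' = θ s := ⟨s, rfl⟩
    change θ (if h : ∃ s', θ s' = θ s then h.choose else 0) = θ s
    rw [dif_pos h]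
    exact h.choose_spec
  let f : S' → S × R := fun s => (⟨((s - r (θ s) : S') : X), hθ _ (by
    rw [map_sub, hr, sub_self])⟩, ⟨θ s, hθR s⟩)
  have hf : Function.Injective f := by
    intro s s' h
    have h2 : θ s = θ s' := congrArg (fun z : S × R => (z.2 : T)) h
    have h1 : ((s - r (θ s) : S') : X) = ((s' - r (θ s') : S') : X) :=
      congrArg (fun z : S × R => (z.1 : X)) h
    rw [h2] at h1
    have h3 := Subtype.ext_iff.mpr h1
    exact sub_left_injective h3
  have hfin : Finite S' := Finite.of_injective f hf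
  refine ⟨hfin, ?_⟩
  have := Nat.card_le_card_of_injective f hf
  rw [Nat.card_prod, Nat.card_coe_set_eq] at this
  exact this

omit [DistribMulAction GQ G] in
lemma card_mul_le_of_order {X T : Type*} [AddCommGroup X] [AddCommGroup T] (hq : q.Prime)
    (S S' : AddSubgroup X) (hSS' : S ≤ S')
    (θ : S' →+ T) (hθ : ∀ s, θ s = 0 ↔ (s : X) ∈ S) (s₀ : S') (hs₀ : θ s₀ ≠ 0)
    (hqs : q • θ s₀ = 0) (hS' : Finite S') :
    q * Nat.card S ≤ Nat.card S' := by
  have hord : addOrderOf (θ s₀) = q := addOrderOf_eq_prime (hp := ⟨hq⟩) hqs hs₀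
  let f : Fin q × S → S' := fun z => (z.1 : ℕ) • s₀ + ⟨z.2, hSS' z.2.2⟩
  have hf : Function.Injective f := by
    rintro ⟨k, h⟩ ⟨k', h'⟩ heq
    have h1 := congrArg θ heq
    simp only [f] at h1
    rw [map_add, map_add, map_nsmul, map_nsmul, (hθ ⟨h, hSS' h.2⟩).mpr h.2,
      (hθ ⟨h', hSS' h'.2⟩).mpr h'.2, add_zero, add_zero] at h1
    have h2 : (k : ℕ) = k' := by
      refine nsmul_injOn_Iio_addOrderOf ?_ ?_ h1
      · rw [hord]; exact k.2
      · rw [hord]; exact k'.2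
    have hk : k = k' := Fin.ext h2
    subst hk
    simp only [f, add_right_inj, Subtype.mk.injEq] at heq
    exact Prod.ext rfl (Subtype.ext heq)
  have := Nat.card_le_card_of_injective f hf
  rwa [Nat.card_prod, Nat.card_eq_fintype_card, Fintype.card_fin] at this

/-- One step of the dévissage. -/
theorem step [Finite G] (hq : q.Prime) (hN : N.Prime) (hA : A.LiesOverPrime q)
    (hB : B.LiesOverPrime N)
    (h0mu : ∀ σ ∈ A.inertiaSubgroupIn ℚ, ∀ f : G →+ Additive Qbx, ∀ g ∈ G₀,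
      (f (σ • g)).toMul = σ • (f g).toMul)
    {H H' : AddSubgroup G} (hle : H ≤ H') (hst : ∀ (σ : GQ), ∀ g ∈ H', σ • g ∈ H')
    (hpiece : IsTrivPiece q H H' ∨ IsMuPiece q H H') (hfin : Finite (sel q N A B G₀ H)) :
    Finite (sel q N A B G₀ H') ∧
      Nat.card (sel q N A B G₀ H') * Nat.card (H ⊓ G₀ : AddSubgroup G) ≤
        Nat.card (sel q N A B G₀ H) * Nat.card (H' ⊓ G₀ : AddSubgroup G) := by
  by_cases hP : ∀ g ∈ H', g ∈ G₀ → g ∈ H
  · -- the case `D₀ = 0`
    have hinf : (H' ⊓ G₀ : AddSubgroup G) = H ⊓ G₀ := by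
      apply le_antisymm
      · rintro g ⟨h1, h2⟩
        exact ⟨hP g h1 h2, h2⟩
      · exact inf_le_inf_right _ hle
    have hsel : sel q N A B G₀ H' = sel q N A B G₀ H := by
      apply le_antisymm
      · rintro c ⟨hc, hcH⟩
        refine ⟨hc, fun σ => ?_⟩
        rcases hpiece with ⟨π, hπH, hπ⟩ | ⟨π, hπH, hπq, hπ⟩
        · rw [← hπH ⟨c σ, hcH σ⟩]
          apply push_triv_eq_zero hN hB hA hq π hπ hst hc hcH
          intro τ hτ
          rw [hπH]
          exact hP _ (hcH τ) (hc.atq τ hτ)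
        · have h1 := push_mem_rootSet hq hN hA hB π hπq hπ hst hc hcH
          have h2 := eq_one_of_mem_rootSet hq hA h1 (by
            intro τ hτ
            have : π ⟨c τ, hcH τ⟩ = 0 := by
              rw [hπH]
              exact hP _ (hcH τ) (hc.atq τ hτ)
            rw [this]
            rfl)
          rw [← hπH ⟨c σ, hcH σ⟩]
          have h3 := congrFun h2 σ
          exact h3
      · rintro c ⟨hc, hcH⟩
        exact ⟨hc, fun σ => hle (hcH σ)⟩
    rw [hsel, hinf]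
    exact ⟨hfin, le_refl _⟩
  · push Not at hP
    obtain ⟨g₀, hg₀', hg₀0, hg₀H⟩ := hP
    -- reduce to a `μ`-piece
    have hmu : IsMuPiece q H H' := by
      rcases hpiece with ⟨π, hπH, hπ⟩ | h
      · have hq2 : q = 2 := by
          by_contra hq2
          -- a primitive root
          have hne : NeZero q := ⟨hq.ne_zero⟩
          have hne' : NeZero (q : AlgebraicClosure ℚ) := ⟨by exact_mod_cast hq.ne_zero⟩
          obtain ⟨ζ, hζ⟩ := HasEnoughRootsOfUnity.exists_primitiveRoot (AlgebraicClosure ℚ) q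
          have hζ0 : ζ ≠ 0 := hζ.ne_zero hq.ne_zero
          let z : Qbx := Units.mk0 ζ hζ0
          have hz : IsPrimitiveRoot z q := IsPrimitiveRoot.coe_units_iff.mp hζ
          let e : ZMod q →+ Additive Qbx := ZMod.lift q ⟨(zmultiplesHom _) (Additive.ofMul z), by
            rw [zmultiplesHom_apply, natCast_zsmul]
            change Additive.ofMul (z ^ q) = 0
            rw [hz.pow_eq_one]; rfl⟩
          have he : ∀ k : ℤ, e (k : ZMod q) = Additive.ofMul (z ^ k) := by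
            intro k
            simp only [e, ZMod.lift_coe]
            rfl
          obtain ⟨F, hF⟩ := exists_extension H' (e.comp π)
          have hπ0 : π ⟨g₀, hg₀'⟩ ≠ 0 := by
            intro h
            exact hg₀H ((hπH _).mp h)
          have hfix : ∀ σ ∈ A.inertiaSubgroupIn ℚ, σ • (e (π ⟨g₀, hg₀'⟩)).toMul =
              (e (π ⟨g₀, hg₀'⟩)).toMul := by
            intro σ hσ
            have h1 := h0mu σ hσ F g₀ hg₀0
            rw [hF ⟨g₀, hg₀'⟩] at h1
            have h2 : F (σ • g₀) = e (π ⟨g₀, hg₀'⟩) := by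
              rw [hF ⟨σ • g₀, hst σ g₀ hg₀'⟩]
              change e (π _) = _
              rw [hπ σ ⟨g₀, hg₀'⟩ ⟨σ • g₀, hst σ g₀ hg₀'⟩ rfl]
            rw [h2] at h1
            exact h1.symm
          obtain ⟨k, hk⟩ := ZMod.intCast_surjective (π ⟨g₀, hg₀'⟩)
          rw [← hk, he] at hfix
          have hk0 : ¬ (q : ℤ) ∣ k := by
            intro h
            apply hπ0
            rw [← hk]
            exact (ZMod.intCast_zmod_eq_zero_iff_dvd k q).mpr h
          have hprim : IsPrimitiveRoot ((z ^ k : Qbx) : AlgebraicClosure ℚ) q := by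
            rw [IsPrimitiveRoot.coe_units_iff]
            have hcop : IsCoprime k q := by
              rw [isCoprime_comm]
              exact ((Nat.prime_iff_prime_int.mp hq).irreducible.coprime_iff_not_dvd).mpr hk0
            exact hz.zpow_of_gcd_eq_one k (Int.isCoprime_iff_gcd_eq_one.mp hcop)
          apply not_fixed_of_isPrimitiveRoot hq hq2 hA hprim
          intro σ hσ
          exact congrArg Units.val (hfix σ hσ)
        subst hq2
        let e : ZMod 2 →+ Additive Qbx :=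
          ZMod.lift 2 ⟨(zmultiplesHom _) (Additive.ofMul (-1 : Qbx)), by
            rw [zmultiplesHom_apply, natCast_zsmul]
            change Additive.ofMul ((-1 : Qbx) ^ 2) = 0
            rw [neg_one_sq]; rfl⟩
        have he1 : e 1 = Additive.ofMul (-1 : Qbx) := by
          have h : e ((1 : ℤ) : ZMod 2) = Additive.ofMul ((-1 : Qbx) ^ (1 : ℤ)) := by
            simp only [e, ZMod.lift_coe]
            rfl
          rw [zpow_one, Int.cast_one] at h
          exact h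
        have hcases : ∀ x : ZMod 2, x = 0 ∨ x = 1 := by decide
        have hneg : (-1 : Qbx) ≠ 1 := by
          intro h
          have h1 := congrArg Units.val h
          rw [Units.val_neg, Units.val_one] at h1
          norm_num at h1
        have hfix1 : ∀ σ : GQ, σ • (-1 : Qbx) = -1 := by
          intro σ
          apply Units.ext
          rw [coe_smul_unit, Units.val_neg, Units.val_one, map_neg, map_one]
        have he0 : ∀ x, e x = 0 ↔ x = 0 := by
          intro x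
          rcases hcases x with rfl | rfl
          · simp
          · rw [he1]
            constructor
            · intro h
              exact absurd (Additive.ofMul.injective h) hneg
            · intro h
              exact absurd h (by decide)
        refine ⟨e.comp π, fun g => ?_, fun g => ?_, fun σ g g' h => ?_⟩
        · rw [AddMonoidHom.comp_apply, he0, hπH]
        · have h2 : ∀ x : ZMod 2, 2 • x = 0 := by decide
          rw [AddMonoidHom.comp_apply, ← map_nsmul, h2, map_zero]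
        · change (e (π g')).toMul = σ • (e (π g)).toMul
          rw [hπ σ g g' h]
          rcases hcases (π g) with h1 | h1
          · rw [h1, map_zero, toMul_zero, smul_one]
          · rw [h1, he1, toMul_ofMul, hfix1]
      · exact h
    obtain ⟨π, hπH, hπq, hπ⟩ := hmu
    obtain ⟨hRf, hRq⟩ := finite_rootSet_and_card_le hq
    let θ : sel q N A B G₀ H' →+ Additive (GQ → Qbx) := {
      toFun := fun c => Additive.ofMul (fun σ => (π ⟨(c : GQ → G) σ, c.2.2 σ⟩).toMul)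
      map_zero' := by
        apply congrArg Additive.ofMul
        funext σ
        have : (⟨((0 : sel q N A B G₀ H') : GQ → G) σ, (0 : sel q N A B G₀ H').2.2 σ⟩ : H') = 0 :=
          rfl
        rw [this, map_zero]
        rfl
      map_add' := by
        intro c d
        apply congrArg Additive.ofMul
        funext σ
        have : (⟨((c + d : sel q N A B G₀ H') : GQ → G) σ, (c + d).2.2 σ⟩ : H') =
          ⟨(c : GQ → G) σ, c.2.2 σ⟩ + ⟨(d : GQ → G) σ, d.2.2 σ⟩ := rfl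
        rw [this, map_add]
        rfl }
    have hθ : ∀ c, θ c = 0 → (c : GQ → G) ∈ sel q N A B G₀ H := by
      rintro ⟨c, hc, hcH⟩ h
      refine ⟨hc, fun σ => ?_⟩
      have h1 := congrFun (congrArg Additive.toMul h) σ
      have h2 : π ⟨c σ, hcH σ⟩ = 0 := h1
      exact (hπH _).mp h2
    obtain ⟨hfin', hcard⟩ := card_le_of_hom (sel q N A B G₀ H) (sel q N A B G₀ H') θ hθ
      (Additive.toMul ⁻¹' rootSet q) (hRf.preimage (Additive.toMul.injective.injOn)) (by
        rintro ⟨c, hc, hcH⟩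
        exact push_mem_rootSet hq hN hA hB π hπq hπ hst hc hcH) hfin
    have hRn : (Additive.toMul ⁻¹' rootSet q : Set (Additive (GQ → Qbx))).ncard ≤ q := by
      have himg : (Additive.toMul ⁻¹' rootSet q : Set (Additive (GQ → Qbx))) =
          Additive.ofMul '' rootSet q := by
        ext x
        constructor
        · intro hx
          exact ⟨x.toMul, hx, rfl⟩
        · rintro ⟨y, hy, rfl⟩
          exact hy
      rw [himg]
      exact (Set.ncard_image_le hRf).trans hRq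
    refine ⟨hfin', ?_⟩
    have hlow := card_mul_le_of_order hq (H ⊓ G₀) (H' ⊓ G₀) (inf_le_inf_right _ hle)
      (π.comp (AddSubgroup.inclusion (inf_le_left : H' ⊓ G₀ ≤ H'))) (by
        rintro ⟨g, hg1, hg2⟩
        change π ⟨g, hg1⟩ = 0 ↔ g ∈ H ⊓ G₀
        rw [hπH]
        exact ⟨fun h => ⟨h, hg2⟩, fun h => h.1⟩) ⟨g₀, hg₀', hg₀0⟩ (by
        intro h
        exact hg₀H ((hπH ⟨g₀, hg₀'⟩).mp h)) (hπq _) inferInstance
    calc Nat.card (sel q N A B G₀ H') * Nat.card (H ⊓ G₀ : AddSubgroup G)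
        ≤ (Nat.card (sel q N A B G₀ H) * q) * Nat.card (H ⊓ G₀ : AddSubgroup G) :=
          Nat.mul_le_mul_right _ (hcard.trans (Nat.mul_le_mul_left _ hRn))
      _ = Nat.card (sel q N A B G₀ H) * (q * Nat.card (H ⊓ G₀ : AddSubgroup G)) := by ring
      _ ≤ _ := Nat.mul_le_mul_left _ hlow

end step

/-- `H` has a finite Galois-stable filtration with pieces `ℤ/q` or `μ_q` (or trivial ones). -/
inductive IsDevissable (q : ℕ) : AddSubgroup G → Prop
  | bot : IsDevissable q ⊥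
  | cons {H H' : AddSubgroup G} (hH : IsDevissable q H) (hle : H ≤ H')
      (hst : ∀ (σ : GQ), ∀ g ∈ H', σ • g ∈ H') (hpiece : IsTrivPiece q H H' ∨ IsMuPiece q H H') :
      IsDevissable q H'

/-- **Mazur's counting theorem.** -/
theorem card_sel_le [Finite G] {q N : ℕ} (hq : q.Prime) (hN : N.Prime)
    {A B : ValuationSubring (AlgebraicClosure ℚ)} (hA : A.LiesOverPrime q)
    (hB : B.LiesOverPrime N) {G₀ : AddSubgroup G}
    (h0mu : ∀ σ ∈ A.inertiaSubgroupIn ℚ, ∀ f : G →+ Additive Qbx, ∀ g ∈ G₀,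
      (f (σ • g)).toMul = σ • (f g).toMul)
    {H : AddSubgroup G} (hH : IsDevissable q H) :
    Finite (sel q N A B G₀ H) ∧
      Nat.card (sel q N A B G₀ H) ≤ Nat.card (H ⊓ G₀ : AddSubgroup G) := by
  induction hH with
  | bot =>
    have hsub : Subsingleton (sel q N A B G₀ ⊥) := by
      refine ⟨?_⟩
      rintro ⟨c, hc, hcH⟩ ⟨d, hd, hdH⟩
      apply Subtype.ext
      funext σ
      have h1 : c σ = 0 := hcH σ
      have h2 : d σ = 0 := hdH σ
      change c σ = d σ
      rw [h1, h2]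
    refine ⟨inferInstance, ?_⟩
    exact (Finite.card_le_one_iff_subsingleton.mpr hsub).trans Nat.card_pos
  | @cons H H' hH hle hst hpiece ih =>
    obtain ⟨hfin, hcard⟩ := ih
    obtain ⟨hfin', hcard'⟩ := step hq hN hA hB h0mu hle hst hpiece hfin
    refine ⟨hfin', ?_⟩
    have hpos : 0 < Nat.card (H ⊓ G₀ : AddSubgroup G) := Nat.card_pos
    refine Nat.le_of_mul_le_mul_right ?_ hpos
    calc _ ≤ _ := hcard'
      _ ≤ Nat.card (H ⊓ G₀ : AddSubgroup G) * Nat.card (H' ⊓ G₀ : AddSubgroup G) :=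
        Nat.mul_le_mul_right _ hcard
      _ = _ := mul_comm _ _

end Fermat.Agent.Mazur
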