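import Fermat.Agent.Mazur.Count
import Fermat.Agent.GalRep.Cyclo
import Mathlib.LinearAlgebra.LinearIndependent.Basic
import Mathlib.GroupTheory.FiniteAbelian.Duality

/-!
# Hilbert 90 for subgroups and the tame relation
-/

set_option autoImplicit false

namespace Fermat.Agent.Mazur

open scoped Pointwise
open Fermat.Agent.Frob Fermat.Agent.Minkowski

/-- Hilbert's Theorem 90 for a subgroup of `G_ℚ` and locally constant cocycles. -/
theorem hilbert90_sub (I : Subgroup GQ) (c : GQ → Qbx)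
    (hc : ∀ σ ∈ I, ∀ τ ∈ I, c (σ * τ) = c σ * σ • c τ)
    (U : Subgroup GQ) (hU : IsOpen (U : Set GQ)) (hcU : ∀ σ ∈ U, σ ∈ I → c σ = 1) :
    ∃ x : Qbx, ∀ σ ∈ I, c σ = σ • x / x := by
  classical
  obtain ⟨L, hfd', hnor', hLU⟩ := (krullTopology_mem_nhds_one_iff_of_normal ℚ (AlgebraicClosure ℚ)
    (U : Set GQ)).mp (hU.mem_nhds U.one_mem)
  have hfd : FiniteDimensional ℚ L := by
    convert hfd'
  have hnor : Normal ℚ L := by
    convert hnor'
    exact Subsingleton.elim _ _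
  have hres : ∀ (σ : GQ) (x : L), σ (x : AlgebraicClosure ℚ) =
      ((AlgEquiv.restrictNormalHom L σ x : L) : AlgebraicClosure ℚ) := by
    intro σ x
    exact (AlgEquiv.restrictNormal_commutes σ L x).symm
  -- `c` depends only on the restriction
  have h3 : ∀ σ ∈ I, ∀ τ ∈ I, AlgEquiv.restrictNormalHom L σ = AlgEquiv.restrictNormalHom L τ →
      c σ = c τ := by
    intro σ hσ τ hτ h
    have hmem : τ⁻¹ * σ ∈ L.fixingSubgroup := by
      rw [IntermediateField.mem_fixingSubgroup_iff]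
      intro x hx
      change τ⁻¹ (σ x) = x
      rw [hres σ ⟨x, hx⟩, h, ← hres τ ⟨x, hx⟩]
      exact τ.symm_apply_apply x
    have hI : τ⁻¹ * σ ∈ I := I.mul_mem (I.inv_mem hτ) hσ
    have := hc τ hτ _ hI
    rwa [mul_inv_cancel_left, hcU _ (hLU hmem) hI, smul_one, mul_one] at this
  let Ib : Subgroup (L ≃ₐ[ℚ] L) := I.map (AlgEquiv.restrictNormalHom L)
  have hfin : Fintype Ib := Fintype.ofFinite Ib
  have hlift : ∀ s : Ib, ∃ σ ∈ I, AlgEquiv.restrictNormalHom L σ = s := fun s => s.2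
  choose lift hliftI hlift using hlift
  -- linear independence
  let e : Ib → (L →* AlgebraicClosure ℚ) := fun s =>
    ((algebraMap L (AlgebraicClosure ℚ)).comp ((s : L ≃ₐ[ℚ] L) : L →+* L)).toMonoidHom
  have he : Function.Injective e := by
    intro s t hst
    apply Subtype.ext
    apply AlgEquiv.ext
    intro x
    have := DFunLike.congr_fun hst x
    exact Subtype.ext this
  have hli := (linearIndependent_monoidHom L (AlgebraicClosure ℚ)).comp e he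
  obtain ⟨z, hz⟩ : ∃ z : L, ∑ s : Ib, (c (lift s) : AlgebraicClosure ℚ) *
      (((s : L ≃ₐ[ℚ] L) z : L) : AlgebraicClosure ℚ) ≠ 0 := by
    by_contra hno
    push Not at hno
    have h1 := Fintype.linearIndependent_iff.mp hli (fun s => (c (lift s) : AlgebraicClosure ℚ)) (by
      funext z
      rw [Finset.sum_apply]
      exact hno z) 1
    exact (c (lift 1)).ne_zero h1
  set b : AlgebraicClosure ℚ := ∑ s : Ib, (c (lift s) : AlgebraicClosure ℚ) *
      (((s : L ≃ₐ[ℚ] L) z : L) : AlgebraicClosure ℚ) with hb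
  refine ⟨(Units.mk0 b hz)⁻¹, fun τ hτ => ?_⟩
  have hτb : (c τ : AlgebraicClosure ℚ) * τ b = b := by
    let t : Ib := ⟨AlgEquiv.restrictNormalHom L τ, ⟨τ, hτ, rfl⟩⟩
    rw [hb, map_sum, Finset.mul_sum]
    rw [← Equiv.sum_comp (Equiv.mulLeft t) (fun s : Ib => (c (lift s) : AlgebraicClosure ℚ) *
      (((s : L ≃ₐ[ℚ] L) z : L) : AlgebraicClosure ℚ))]
    apply Finset.sum_congr rfl
    intro s _
    have h4 : c (lift (t * s)) = c τ * τ • c (lift s) := by
      rw [← hc τ hτ _ (hliftI s)]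
      apply h3 _ (hliftI _) _ (I.mul_mem hτ (hliftI s))
      rw [hlift, map_mul, hlift]
      rfl
    rw [Equiv.coe_mulLeft, h4, map_mul, Units.val_mul, coe_smul_unit, mul_assoc]
    congr 2
    exact hres τ ((s : L ≃ₐ[ℚ] L) z)
  rw [smul_inv', inv_div_inv, eq_div_iff_mul_eq']
  apply Units.ext
  rw [Units.val_mul, coe_smul_unit, Units.val_mk0]
  exact hτb

section tame

variable {q N : ℕ} {B : ValuationSubring (AlgebraicClosure ℚ)}

/-- locally constant homomorphisms on the inertia group -/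
structure IsInertiaHom {D : Type*} [AddCommGroup D] (B : ValuationSubring (AlgebraicClosure ℚ))
    (h : GQ → D) : Prop where
  add : ∀ σ ∈ B.inertiaSubgroupIn ℚ, ∀ τ ∈ B.inertiaSubgroupIn ℚ, h (σ * τ) = h σ + h τ
  cont : ∃ U : Subgroup GQ, IsOpen (U : Set GQ) ∧ ∀ σ ∈ U, σ ∈ B.inertiaSubgroupIn ℚ → h σ = 0

lemma tame_fix (hN : N.Prime) (hB : B.LiesOverPrime N) {n : ℕ} (hn : N.Coprime n) {ζ : Qbx}
    (hζ : ζ ^ n = 1) {σ : GQ} (hσ : σ ∈ B.inertiaSubgroupIn ℚ) : σ • ζ = ζ := by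
  have hn0 : n ≠ 0 := by
    rintro rfl
    rw [Nat.coprime_zero_right] at hn
    exact hN.ne_one hn
  apply Units.ext
  rw [coe_smul_unit]
  apply GalRep.inertia_fix_rootOfUnity hB hn hn0 hσ
  rw [← Units.val_pow_eq_pow_val, hζ, Units.val_one]

/-- a unit `y` with `y ^ n` fixed by the inertia group is fixed by the inertia group. -/
lemma tame_fix_unit (hN : N.Prime) (hB : B.LiesOverPrime N) {n : ℕ} (hn : N.Coprime n) {y : Qbx}
    (hy1 : B.valuation (y : AlgebraicClosure ℚ) = 1)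
    {σ : GQ} (hσ : σ ∈ B.inertiaSubgroupIn ℚ) (hy : σ • (y ^ n) = y ^ n) : σ • y = y := by
  have hn0 : n ≠ 0 := by
    rintro rfl
    rw [Nat.coprime_zero_right] at hn
    exact hN.ne_one hn
  have hyB : (y : AlgebraicClosure ℚ) ∈ B := by
    rw [← ValuationSubring.valuation_le_one_iff]; exact hy1.le
  obtain ⟨h1, h2⟩ := sub_mem_nonunits_of_mem_inertia hσ hyB
  have hζ : (σ • y / y) ^ n = 1 := by
    rw [div_pow, ← smul_pow', hy, div_self']
  have hζ' : (σ (y : AlgebraicClosure ℚ) / y) ^ n = 1 := by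
    have := congrArg Units.val hζ
    rw [Units.val_pow_eq_pow_val, Units.val_div_eq_div_val, coe_smul_unit, Units.val_one] at this
    exact this
  have hζB : σ (y : AlgebraicClosure ℚ) / y ∈ B := GalRep.rootOfUnity_mem hn0 hζ'
  have hres : IsLocalRing.residue B ⟨_, hζB⟩ = 1 := by
    rw [← map_one (IsLocalRing.residue B), ← sub_eq_zero, ← map_sub,
      IsLocalRing.residue_eq_zero_iff]
    have h3 : σ (y : AlgebraicClosure ℚ) / y - 1 ∈ B.nonunits := by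
      rw [ValuationSubring.mem_nonunits_iff] at h2 ⊢
      have h4 : σ (y : AlgebraicClosure ℚ) / y - 1 = (σ (y : AlgebraicClosure ℚ) - y) / y := by
        rw [sub_div, div_self y.ne_zero]
      rw [h4, map_div₀, hy1, div_one]
      exact h2
    obtain ⟨h5, h6⟩ := ValuationSubring.mem_nonunits_iff_exists_mem_maximalIdeal.mp h3
    exact h6
  have := GalRep.eq_one_of_residue_eq_one (M := n) hB hn (Subtype.ext hζ') hres
  have h7 := congrArg Subtype.val this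
  apply Units.ext
  rw [coe_smul_unit]
  have h8 : σ (y : AlgebraicClosure ℚ) / y = 1 := h7
  rwa [div_eq_one_iff_eq y.ne_zero] at h8

/-- every character of the tame inertia group of order prime to `N` is a Kummer character. -/
lemma exists_kummer_exponent (hN : N.Prime) (hB : B.LiesOverPrime N) {n : ℕ} (hn : N.Coprime n)
    {ϖ : Qbx} (hϖ : (ϖ : AlgebraicClosure ℚ) ^ n = N)
    (c : GQ → Qbx) (hc : ∀ σ ∈ B.inertiaSubgroupIn ℚ, ∀ τ ∈ B.inertiaSubgroupIn ℚ,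
      c (σ * τ) = c σ * c τ)
    (hcU : ∃ U : Subgroup GQ, IsOpen (U : Set GQ) ∧ ∀ σ ∈ U, σ ∈ B.inertiaSubgroupIn ℚ → c σ = 1)
    (hcn : ∀ σ ∈ B.inertiaSubgroupIn ℚ, c σ ^ n = 1) :
    ∃ k : ℤ, ∀ σ ∈ B.inertiaSubgroupIn ℚ, c σ = (σ • ϖ / ϖ) ^ k := by
  obtain ⟨U, hU, hcU⟩ := hcU
  obtain ⟨x, hx⟩ := hilbert90_sub (B.inertiaSubgroupIn ℚ) c (by
    intro σ hσ τ hτ
    rw [hc σ hσ τ hτ, tame_fix hN hB hn (hcn τ hτ) hσ]) U hU hcU
  have hfix : ∀ σ ∈ B.inertiaSubgroupIn ℚ, σ • (x ^ n) = x ^ n := by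
    intro σ hσ
    have h1 := hcn σ hσ
    rw [hx σ hσ, div_pow, div_eq_one] at h1
    rw [smul_pow', h1]
  obtain ⟨k, hk⟩ := exists_valuation_of_inertia_fixed hN hB (x := ((x ^ n : Qbx) :
    AlgebraicClosure ℚ)) (Units.ne_zero _) (by
      intro σ hσ
      exact congrArg Units.val (hfix σ hσ))
  have hϖn : ∀ σ : GQ, σ • (ϖ ^ n) = ϖ ^ n := by
    intro σ
    apply Units.ext
    rw [coe_smul_unit, Units.val_pow_eq_pow_val, hϖ, map_natCast]
  have hn0 : n ≠ 0 := by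
    rintro rfl
    rw [Nat.coprime_zero_right] at hn
    exact hN.ne_one hn
  have hvϖ : B.valuation (ϖ : AlgebraicClosure ℚ) ^ n =
      B.valuation (N : AlgebraicClosure ℚ) := by rw [← map_pow, hϖ]
  have hy1 : B.valuation ((x / ϖ ^ k : Qbx) : AlgebraicClosure ℚ) = 1 := by
    have h1 : B.valuation ((x / ϖ ^ k : Qbx) : AlgebraicClosure ℚ) ^ n = 1 := by
      rw [← map_pow, ← Units.val_pow_eq_pow_val, div_pow, Units.val_div_eq_div_val, map_div₀, hk,
        ← zpow_natCast, ← zpow_mul, mul_comm k, zpow_mul, zpow_natCast, Units.val_zpow_eq_zpow_val,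
        map_zpow₀, Units.val_pow_eq_pow_val, map_pow, hvϖ, div_self]
      exact zpow_ne_zero _ (valuation_natCast_ne_zero hN)
    exact (pow_eq_one_iff.mp h1).resolve_right hn0
  refine ⟨k, fun σ hσ => ?_⟩
  have h2 : σ • (x / ϖ ^ k) = x / ϖ ^ k := by
    apply tame_fix_unit hN hB hn hy1 hσ
    have h3 : (ϖ ^ k) ^ n = (ϖ ^ n) ^ k := by
      rw [← zpow_natCast, ← zpow_mul, mul_comm k, zpow_mul, zpow_natCast]
    rw [div_pow, smul_div', hfix σ hσ, h3, smul_zpow', hϖn]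
  rw [smul_div', smul_zpow', div_eq_div_iff_div_eq_div] at h2
  rw [hx σ hσ, h2, div_zpow]

/-- the Kummer character of a uniformiser conjugated by Frobenius. -/
lemma kummer_conj (hN : N.Prime) (hB : B.LiesOverPrime N) {n : ℕ} (hn : N.Coprime n)
    {ϖ : Qbx} (hϖ : (ϖ : AlgebraicClosure ℚ) ^ n = N) {φ : GQ} (hφ : B.IsFrobeniusAt φ N)
    {τ : GQ} (hτ : τ ∈ B.inertiaSubgroupIn ℚ) :
    (φ * τ * φ⁻¹) • ϖ / ϖ = (τ • ϖ / ϖ) ^ N := by
  have hn0 : n ≠ 0 := by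
    rintro rfl
    rw [Nat.coprime_zero_right] at hn
    exact hN.ne_one hn
  have hϖn : ∀ σ : GQ, σ • (ϖ ^ n) = ϖ ^ n := by
    intro σ
    apply Units.ext
    rw [coe_smul_unit, Units.val_pow_eq_pow_val, hϖ, map_natCast]
  have hroot : ∀ σ : GQ, (σ • ϖ / ϖ) ^ n = 1 := by
    intro σ
    rw [div_pow, ← smul_pow', hϖn, div_self']
  have h1 : τ • (φ⁻¹ • ϖ / ϖ) = φ⁻¹ • ϖ / ϖ := tame_fix hN hB hn (hroot _) hτ
  rw [smul_div', div_eq_div_iff_div_eq_div] at h1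
  have h2 : φ • (τ • φ⁻¹ • ϖ / φ⁻¹ • ϖ) = (φ * τ * φ⁻¹) • ϖ / ϖ := by
    rw [smul_div', smul_inv_smul, ← mul_smul, ← mul_smul]
  rw [← h2, h1]
  apply Units.ext
  rw [coe_smul_unit, Units.val_pow_eq_pow_val]
  apply GalRep.frobenius_rootOfUnity hB hn hn0 hφ
  rw [← Units.val_pow_eq_pow_val, hroot, Units.val_one]

/-- a tame generator -/
lemma exists_tame_generator (hN : N.Prime) (hB : B.LiesOverPrime N) (hq : q.Prime) (hqN : q ≠ N)
    {m : ℕ} {ϖ : Qbx} (hϖ : (ϖ : AlgebraicClosure ℚ) ^ (q ^ m) = N) :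
    ∃ τ₀ ∈ B.inertiaSubgroupIn ℚ, ∀ τ : GQ, ∃ j : ℕ, τ • ϖ / ϖ = (τ₀ • ϖ / ϖ) ^ j := by
  have hϖn : ∀ σ : GQ, σ • (ϖ ^ (q ^ m)) = ϖ ^ (q ^ m) := by
    intro σ
    apply Units.ext
    rw [coe_smul_unit, Units.val_pow_eq_pow_val, hϖ, map_natCast]
  have hroot : ∀ σ : GQ, (σ • ϖ / ϖ) ^ (q ^ m) = 1 := by
    intro σ
    rw [div_pow, ← smul_pow', hϖn, div_self']
  have hne : NeZero (q ^ m) := ⟨pow_ne_zero _ hq.ne_zero⟩
  rcases Nat.eq_zero_or_pos m with rfl | hm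
  · refine ⟨1, Subgroup.one_mem _, fun τ => ⟨0, ?_⟩⟩
    have := hroot τ
    rw [pow_zero, pow_one] at this
    rw [this, pow_zero]
  obtain ⟨m, rfl⟩ : ∃ m', m = m' + 1 := ⟨m - 1, by omega⟩
  by_contra hno
  push Not at hno
  have hall : ∀ τ ∈ B.inertiaSubgroupIn ℚ, (τ • ϖ / ϖ) ^ (q ^ m) = 1 := by
    intro τ hτ
    by_contra h
    have hprim : IsPrimitiveRoot (τ • ϖ / ϖ) (q ^ (m + 1)) := by
      rw [IsPrimitiveRoot.iff_orderOf]
      have := Fact.mk hq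
      exact orderOf_eq_prime_pow h (hroot τ)
    obtain ⟨τ', hτ'⟩ := hno τ hτ
    have hprim' := IsPrimitiveRoot.coe_units_iff.mpr hprim
    obtain ⟨i, -, hi⟩ := hprim'.eq_pow_of_pow_eq_one (ξ := ((τ' • ϖ / ϖ : Qbx) :
      AlgebraicClosure ℚ)) (by rw [← Units.val_pow_eq_pow_val, hroot τ', Units.val_one])
    apply hτ' i
    apply Units.ext
    rw [Units.val_pow_eq_pow_val]
    exact hi.symm
  obtain ⟨k, hk⟩ := exists_valuation_of_inertia_fixed hN hB (x := ((ϖ ^ (q ^ m) : Qbx) :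
    AlgebraicClosure ℚ)) (Units.ne_zero _) (by
      intro σ hσ
      have h1 := hall σ hσ
      rw [div_pow, div_eq_one, ← smul_pow'] at h1
      exact congrArg Units.val h1)
  have h2 : B.valuation (N : AlgebraicClosure ℚ) ^ (1 : ℤ) =
      B.valuation (N : AlgebraicClosure ℚ) ^ (k * q) := by
    rw [zpow_one, zpow_mul, ← hk, zpow_natCast, ← map_pow, Units.val_pow_eq_pow_val, ← pow_mul,
      ← pow_succ, hϖ]
  have h3 := zpow_valuation_inj hN hB h2
  have h4 : (q : ℤ) ∣ 1 := ⟨k, by rw [h3]; ring⟩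
  have h5 := Int.isUnit_iff.mp (isUnit_of_dvd_one h4)
  have := hq.one_lt
  omega

lemma exists_uniformiser_root (N : ℕ) (hN : N ≠ 0) {n : ℕ} (hn : n ≠ 0) :
    ∃ ϖ : Qbx, (ϖ : AlgebraicClosure ℚ) ^ n = N := by
  obtain ⟨z, hz⟩ := IsAlgClosed.exists_pow_nat_eq (N : AlgebraicClosure ℚ) (Nat.pos_of_ne_zero hn)
  have hz0 : z ≠ 0 := by
    rintro rfl
    rw [zero_pow hn] at hz
    exact hN (by exact_mod_cast hz.symm)
  exact ⟨Units.mk0 z hz0, hz⟩

/-- characters separate points -/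
lemma exists_char_ne_zero {D : Type*} [AddCommGroup D] [Finite D] {x : D} (hx : x ≠ 0) :
    ∃ ψ : D →+ Additive Qbx, ψ x ≠ 0 := by
  have hne : NeZero ((Monoid.exponent (Multiplicative D) : ℕ) : AlgebraicClosure ℚ) := by
    refine ⟨?_⟩
    exact_mod_cast Monoid.exponent_ne_zero_of_finite
  obtain ⟨φ, hφ⟩ := CommGroup.exists_apply_ne_one_of_hasEnoughRootsOfUnity (Multiplicative D)
    (AlgebraicClosure ℚ) (a := Multiplicative.ofAdd x) (by
      intro h
      exact hx (Multiplicative.ofAdd.injective h))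
  refine ⟨AddMonoidHom.mk' (fun d => Additive.ofMul (φ (Multiplicative.ofAdd d))) ?_, ?_⟩
  · intro a b
    rw [ofAdd_add, map_mul, ofMul_mul]
  · intro h
    exact hφ (Additive.ofMul.injective h)

lemma IsInertiaHom.exists_exponent {D : Type*} [AddCommGroup D] {h : GQ → D}
    (hh : IsInertiaHom B h) (hN : N.Prime) (hB : B.LiesOverPrime N) {n : ℕ} (hn : N.Coprime n)
    (hD : ∀ x : D, n • x = 0) {ϖ : Qbx} (hϖ : (ϖ : AlgebraicClosure ℚ) ^ n = N)
    (ψ : D →+ Additive Qbx) :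
    ∃ k : ℤ, ∀ σ ∈ B.inertiaSubgroupIn ℚ, (ψ (h σ)).toMul = (σ • ϖ / ϖ) ^ k := by
  apply exists_kummer_exponent hN hB hn hϖ
  · intro σ hσ τ hτ
    rw [hh.add σ hσ τ hτ, map_add, toMul_add]
  · obtain ⟨U, hU, hcU⟩ := hh.cont
    refine ⟨U, hU, fun σ h1 h2 => ?_⟩
    rw [hcU σ h1 h2, map_zero, toMul_zero]
  · intro σ _
    rw [← toMul_nsmul, ← map_nsmul, hD, map_zero, toMul_zero]

lemma frob_conj_mem_inertia {φ : GQ} (hφ : B.IsFrobeniusAt φ N) {τ : GQ}
    (hτ : τ ∈ B.inertiaSubgroupIn ℚ) : φ * τ * φ⁻¹ ∈ B.inertiaSubgroupIn ℚ := by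
  obtain ⟨hφd, -⟩ := hφ
  have hdec : φ⁻¹ • B = B := by
    have : φ • B = B := hφd
    conv_lhs => rw [← this]
    rw [inv_smul_smul]
  have h1 : τ ∈ (φ⁻¹ • B).inertiaSubgroupIn ℚ := by rw [hdec]; exact hτ
  have h2 := mem_inertia_smul h1
  rwa [inv_inv] at h2

/-- **The tame relation.** -/
theorem IsInertiaHom.conj {D : Type*} [AddCommGroup D] [Finite D] {h : GQ → D}
    (hh : IsInertiaHom B h) (hN : N.Prime) (hB : B.LiesOverPrime N) {n : ℕ} (hn : N.Coprime n)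
    (hD : ∀ x : D, n • x = 0) {φ : GQ} (hφ : B.IsFrobeniusAt φ N)
    {τ : GQ} (hτ : τ ∈ B.inertiaSubgroupIn ℚ) : h (φ * τ * φ⁻¹) = N • h τ := by
  have hn0 : n ≠ 0 := by
    rintro rfl
    rw [Nat.coprime_zero_right] at hn
    exact hN.ne_one hn
  obtain ⟨ϖ, hϖ⟩ := exists_uniformiser_root N hN.ne_zero hn0
  rw [← sub_eq_zero]
  by_contra hne
  obtain ⟨ψ, hψ⟩ := exists_char_ne_zero hne
  obtain ⟨k, hk⟩ := hh.exists_exponent hN hB hn hD hϖ ψ
  apply hψ
  rw [map_sub, sub_eq_zero]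
  apply Additive.toMul.injective
  rw [hk _ (frob_conj_mem_inertia hφ hτ), map_nsmul, toMul_nsmul, hk _ hτ,
    kummer_conj hN hB hn hϖ hφ hτ, ← zpow_natCast, ← zpow_natCast, ← zpow_mul, ← zpow_mul,
    mul_comm]

/-- **Tame generator**: a homomorphism on inertia at `N` with values in `q`-power torsion is
determined by its value at one element. -/
theorem exists_generator (hN : N.Prime) (hB : B.LiesOverPrime N) (hq : q.Prime) (hqN : q ≠ N)
    (m : ℕ) : ∃ τ₀ ∈ B.inertiaSubgroupIn ℚ, ∀ {D : Type*} [AddCommGroup D] [Finite D] {h : GQ → D}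
    (_ : IsInertiaHom B h) (_ : ∀ x : D, q ^ m • x = 0), h τ₀ = 0 →
      ∀ τ ∈ B.inertiaSubgroupIn ℚ, h τ = 0 := by
  have hn : N.Coprime (q ^ m) := by
    apply Nat.Coprime.pow_right
    exact (Nat.coprime_primes hN hq).mpr (Ne.symm hqN)
  obtain ⟨ϖ, hϖ⟩ := exists_uniformiser_root N hN.ne_zero (pow_ne_zero m hq.ne_zero)
  obtain ⟨τ₀, hτ₀, hgen⟩ := exists_tame_generator hN hB hq hqN hϖ
  refine ⟨τ₀, hτ₀, ?_⟩
  intro D _ _ h hh hD h0 τ hτ
  by_contra hne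
  obtain ⟨ψ, hψ⟩ := exists_char_ne_zero hne
  obtain ⟨k, hk⟩ := hh.exists_exponent hN hB hn hD hϖ ψ
  apply hψ
  apply Additive.toMul.injective
  obtain ⟨j, hj⟩ := hgen τ
  have h1 := hk _ hτ₀
  rw [h0, map_zero, toMul_zero] at h1
  rw [hk _ hτ, hj, ← zpow_natCast, ← zpow_mul, mul_comm, zpow_mul, ← h1, one_zpow]
  rfl

end tame

end Fermat.Agent.Mazur
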