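import Fermat.Agent.EC.TateMod
import Fermat.Prelude.Thm_IsAdicComplete_of_module_finite

/-!
# Tate modules of cofinite `p`-divisible groups
-/

set_option autoImplicit false

namespace Fermat.Agent.Mazur

open Fermat.Agent.Tate TensorProduct Module IsLocalRing

variable {p : ℕ} [hp : Fact p.Prime] {A : Type*} [AddCommGroup A]

/-- `A[p]` is finite and the `p`-power torsion of `A` is `p`-divisible -/
structure Cofin (p : ℕ) (A : Type*) [AddCommGroup A] : Prop where
  fin : Finite {x : A // p • x = 0}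
  div : ∀ x : A, (∃ n : ℕ, p ^ n • x = 0) → ∃ y : A, p • y = x

lemma mem_pow_smul_top_iff {n : ℕ} {f : TMod p A} :
    f ∈ ((maximalIdeal ℤ_[p]) ^ n • (⊤ : Submodule ℤ_[p] (TMod p A))) ↔ f n = 0 := by
  rw [PadicInt.maximalIdeal_eq_span_p, Ideal.span_singleton_pow,
    Submodule.ideal_span_singleton_smul, Submodule.mem_smul_pointwise_iff_exists,
    TMod.apply_eq_zero_iff]
  constructor
  · rintro ⟨g, -, rfl⟩
    exact ⟨g, rfl⟩
  · rintro ⟨g, rfl⟩
    exact ⟨g, Submodule.mem_top, rfl⟩

instance : IsHausdorff (maximalIdeal ℤ_[p]) (TMod p A) where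
  haus' x hx := by
    apply TMod.ext
    intro n
    have := hx n
    rw [SModEq.zero] at this
    exact mem_pow_smul_top_iff.mp this

omit hp in
lemma Cofin.exists_apply_eq (h : Cofin p A) {n : ℕ} {x : A} (hx : p ^ n • x = 0) :
    ∃ f : TMod p A, f n = x :=
  TMod.exists_apply_eq (fun x n hx => h.div x ⟨n, hx⟩) hx

theorem Cofin.finite (h : Cofin p A) : Module.Finite ℤ_[p] (TMod p A) := by
  classical
  have hfin := h.fin
  have hch : ∀ x : {x : A // p • x = 0}, ∃ f : TMod p A, f 1 = x := fun x =>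
    h.exists_apply_eq (by rw [pow_one]; exact x.2)
  choose b hb using hch
  have := Fintype.ofFinite {x : A // p • x = 0}
  let f : ({x : A // p • x = 0} → ℤ_[p]) →ₗ[ℤ_[p]] TMod p A := Fintype.linearCombination ℤ_[p] b
  have : IsAdicComplete (maximalIdeal ℤ_[p]) ({x : A // p • x = 0} → ℤ_[p]) :=
    IsAdicComplete.of_module_finite _ _
  apply Module.Finite.of_surjective f
  apply surjective_of_mkQ_comp_surjective (I := maximalIdeal ℤ_[p])
  intro y
  obtain ⟨y, rfl⟩ := Submodule.mkQ_surjective _ y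
  refine ⟨Pi.single ⟨y 1, ?_⟩ 1, ?_⟩
  · have := TMod.pow_smul_apply y 1
    rwa [pow_one] at this
  · rw [LinearMap.comp_apply, ← sub_eq_zero, ← map_sub, Submodule.mkQ_apply,
      Submodule.Quotient.mk_eq_zero]
    have h1 : f (Pi.single ⟨y 1, by
        have := TMod.pow_smul_apply y 1
        rwa [pow_one] at this⟩ 1) = b ⟨y 1, by
        have := TMod.pow_smul_apply y 1
        rwa [pow_one] at this⟩ := by
      rw [Fintype.linearCombination_apply_single, one_smul]
    have h2 := mem_pow_smul_top_iff (p := p) (A := A) (n := 1) (f := f (Pi.single ⟨y 1, by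
        have := TMod.pow_smul_apply y 1
        rwa [pow_one] at this⟩ 1) - y)
    rw [pow_one] at h2
    rw [h2, TMod.coe_sub_apply, h1, hb, sub_self]

instance : Module.IsTorsionFree ℤ_[p] (TMod p A) := by
  apply Module.IsTorsionFree.of_smul_eq_zero
  intro r x hrx
  by_cases hr : r = 0
  · exact Or.inl hr
  · right
    have h1 : r = (PadicInt.unitCoeff hr : ℤ_[p]) * (p : ℤ_[p]) ^ r.valuation :=
      PadicInt.unitCoeff_spec hr
    rw [h1, mul_smul] at hrx
    have h2 := congrArg (fun y => ((PadicInt.unitCoeff hr)⁻¹ : ℤ_[p]ˣ) • y) hrx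
    simp only [Units.smul_def, smul_zero] at h2
    rw [← mul_smul, Units.inv_mul, one_smul] at h2
    exact TMod.eq_zero_of_pow_smul_eq_zero x _ h2

theorem Cofin.free (h : Cofin p A) : Module.Free ℤ_[p] (TMod p A) := by
  have := h.finite
  infer_instance

/-- the corank -/
noncomputable def corank (p : ℕ) [Fact p.Prime] (A : Type*) [AddCommGroup A] : ℕ :=
  Module.finrank ℤ_[p] (TMod p A)

omit hp in
lemma TMod_sum_apply {ι : Type*} (s : Finset ι) (g : ι → TMod p A) (n : ℕ) :
    (∑ i ∈ s, g i : TMod p A) n = ∑ i ∈ s, (g i) n := by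
  classical
  induction s using Finset.induction_on with
  | empty => simp
  | insert i s hi ih => rw [Finset.sum_insert hi, Finset.sum_insert hi, TMod.coe_add_apply, ih]

theorem Cofin.card_of_basis (h : Cofin p A) {ι : Type*} [Fintype ι]
    (b : Basis ι ℤ_[p] (TMod p A)) (m : ℕ) :
    Nat.card {x : A // p ^ m • x = 0} = (p ^ m) ^ Fintype.card ι := by
  classical
  have hne : NeZero (p ^ m) := ⟨pow_ne_zero _ hp.out.ne_zero⟩
  let ψ : (ι → ZMod (p ^ m)) → {x : A // p ^ m • x = 0} := fun c =>
    ⟨∑ i, (c i).val • (b i) m, by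
      rw [Finset.smul_sum]
      apply Finset.sum_eq_zero
      intro i _
      rw [smul_comm, TMod.pow_smul_apply, smul_zero]⟩
  have hψ : Function.Bijective ψ := by
    constructor
    · intro c d hcd
      have h1 : (∑ i, (c i).val • (b i) m : A) = ∑ i, (d i).val • (b i) m :=
        congrArg Subtype.val hcd
      let f : TMod p A := ∑ i, (((c i).val : ℤ_[p]) - ((d i).val : ℤ_[p])) • b i
      have hf : f m = 0 := by
        rw [TMod_sum_apply]
        simp only [sub_smul, TMod.coe_sub_apply, TMod.natCast_smul_apply]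
        rw [Finset.sum_sub_distrib, h1, sub_self]
      obtain ⟨g, hg⟩ := (TMod.apply_eq_zero_iff f m).mp hf
      funext i
      have h2 : b.repr f i = ((c i).val : ℤ_[p]) - ((d i).val : ℤ_[p]) := by
        rw [b.repr_sum_self]
      rw [hg, map_smul, Finsupp.smul_apply, smul_eq_mul] at h2
      have h3 := congrArg (PadicInt.toZModPow m) h2
      have h4 : ((p : ZMod (p ^ m)) ^ m) = 0 := by
        rw [← Nat.cast_pow, ZMod.natCast_self]
      rw [map_mul, map_pow, map_natCast, h4, zero_mul, map_sub, map_natCast, map_natCast,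
        ZMod.natCast_zmod_val, ZMod.natCast_zmod_val, eq_comm, sub_eq_zero] at h3
      exact h3
    · rintro ⟨x, hx⟩
      obtain ⟨f, hf⟩ := h.exists_apply_eq hx
      refine ⟨fun i => PadicInt.toZModPow m (b.repr f i), Subtype.ext ?_⟩
      change ∑ i, (PadicInt.toZModPow m (b.repr f i)).val • (b i) m = x
      have h1 : f m = ∑ i, ((b.repr f i) • b i : TMod p A) m := by
        conv_lhs => rw [← b.sum_repr f, TMod_sum_apply]
      rw [← hf, h1]
      apply Finset.sum_congr rfl
      intro i _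
      rw [TMod.smul_apply_of_eq]
      rw [ZMod.natCast_zmod_val]
  rw [← Nat.card_eq_of_bijective ψ hψ, Nat.card_fun, Nat.card_zmod, Nat.card_eq_fintype_card]

theorem Cofin.card (h : Cofin p A) (m : ℕ) :
    Nat.card {x : A // p ^ m • x = 0} = (p ^ m) ^ corank p A := by
  have hfin := h.finite
  have hfree := h.free
  rw [h.card_of_basis (Module.finBasis ℤ_[p] (TMod p A)), Fintype.card_fin]
  rfl

/-! ### the rational Tate module -/

/-- the rational Tate module -/
abbrev VMod (p : ℕ) [Fact p.Prime] (A : Type*) [AddCommGroup A] : Type _ :=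
  ℚ_[p] ⊗[ℤ_[p]] TMod p A

/-- the inclusion of the Tate module in the rational Tate module -/
noncomputable def iotaV (p : ℕ) [Fact p.Prime] (A : Type*) [AddCommGroup A] :
    TMod p A →ₗ[ℤ_[p]] VMod p A :=
  TensorProduct.mk ℤ_[p] ℚ_[p] (TMod p A) 1

lemma iotaV_injective (h : Cofin p A) : Function.Injective (iotaV p A) := by
  have hfin := h.finite
  have hfree := h.free
  have h1 : Function.Injective (LinearMap.rTensor (TMod p A) (Algebra.linearMap ℤ_[p] ℚ_[p])) :=
    Module.Flat.rTensor_preserves_injective_linearMap _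
      (FaithfulSMul.algebraMap_injective ℤ_[p] ℚ_[p])
  have h2 : ∀ t, iotaV p A t = LinearMap.rTensor (TMod p A) (Algebra.linearMap ℤ_[p] ℚ_[p])
      ((TensorProduct.lid ℤ_[p] (TMod p A)).symm t) := by
    intro t
    rw [TensorProduct.lid_symm_apply, LinearMap.rTensor_tmul, Algebra.linearMap_apply, map_one]
    rfl
  intro s t hst
  rw [h2, h2] at hst
  exact (TensorProduct.lid ℤ_[p] (TMod p A)).symm.injective (h1 hst)

lemma exists_pow_smul_eq_iotaV (v : VMod p A) :
    ∃ (n : ℕ) (t : TMod p A), (p : ℚ_[p]) ^ n • v = iotaV p A t := by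
  induction v using TensorProduct.induction_on with
  | zero => exact ⟨0, 0, by rw [smul_zero, map_zero]⟩
  | tmul a t =>
    obtain ⟨n, z, hz⟩ : ∃ (n : ℕ) (z : ℤ_[p]), algebraMap ℤ_[p] ℚ_[p] z = (p : ℚ_[p]) ^ n * a := by
      obtain ⟨x, y, hy, rfl⟩ := IsFractionRing.div_surjective (A := ℤ_[p]) a
      have hy0 : y ≠ 0 := nonZeroDivisors.ne_zero hy
      refine ⟨y.valuation, x * ((PadicInt.unitCoeff hy0)⁻¹ : ℤ_[p]ˣ), ?_⟩
      have h1 : y = (PadicInt.unitCoeff hy0 : ℤ_[p]) * (p : ℤ_[p]) ^ y.valuation :=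
        PadicInt.unitCoeff_spec hy0
      have hy' : algebraMap ℤ_[p] ℚ_[p] y ≠ 0 := by
        intro h0
        exact hy0 (FaithfulSMul.algebraMap_injective ℤ_[p] ℚ_[p] (by rw [h0, map_zero]))
      rw [← mul_div_assoc, eq_div_iff hy', ← map_mul]
      have h2 : x * ((PadicInt.unitCoeff hy0)⁻¹ : ℤ_[p]ˣ) * y = (p : ℤ_[p]) ^ y.valuation * x := by
        rw [mul_assoc, mul_comm]
        congr 1
        rw [Units.inv_mul_eq_iff_eq_mul]
        exact h1
      rw [h2, map_mul, map_pow, map_natCast]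
    refine ⟨n, z • t, ?_⟩
    rw [TensorProduct.smul_tmul', smul_eq_mul]
    change _ = (1 : ℚ_[p]) ⊗ₜ[ℤ_[p]] (z • t)
    rw [← TensorProduct.smul_tmul, ← hz, Algebra.smul_def, mul_one]
  | add x y hx hy =>
    obtain ⟨n, s, hs⟩ := hx
    obtain ⟨m, t, ht⟩ := hy
    refine ⟨n + m, (p : ℤ_[p]) ^ m • s + (p : ℤ_[p]) ^ n • t, ?_⟩
    have h1 : ∀ (k : ℕ) (r : TMod p A), iotaV p A ((p : ℤ_[p]) ^ k • r) =
        (p : ℚ_[p]) ^ k • iotaV p A r := by
      intro k r
      rw [map_smul, algebra_compatible_smul ℚ_[p] ((p : ℤ_[p]) ^ k), map_pow, map_natCast]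
    rw [map_add, h1, h1, ← hs, ← ht, smul_smul, smul_smul, ← pow_add, ← pow_add, smul_add,
      add_comm m n]

lemma finrank_VMod (h : Cofin p A) : finrank ℚ_[p] (VMod p A) = corank p A := by
  have hfin := h.finite
  have hfree := h.free
  exact Module.finrank_baseChange

lemma Cofin.finiteDimensional (h : Cofin p A) : FiniteDimensional ℚ_[p] (VMod p A) := by
  have hfin := h.finite
  infer_instance

lemma corank_le_finrank (h : Cofin p A) {D : AddSubgroup A} (hD : Cofin p D)
    (W : Submodule ℚ_[p] (VMod p A))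
    (hW : ∀ t : TMod p D, iotaV p A (TMod.map D.subtype t) ∈ W) :
    corank p D ≤ finrank ℚ_[p] W := by
  have hfin := hD.finite
  have hfree := hD.free
  have hfd := h.finiteDimensional
  let b := Module.finBasis ℤ_[p] (TMod p D)
  let v : Fin (finrank ℤ_[p] (TMod p D)) → VMod p A := fun i =>
    iotaV p A (TMod.map D.subtype (b i))
  have hv : LinearIndependent ℤ_[p] v := by
    have h1 : v = ((iotaV p A).comp (TMod.map D.subtype)) ∘ b := rfl
    rw [h1]
    apply b.linearIndependent.map'
    rw [LinearMap.ker_eq_bot]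
    intro s t hst
    have h2 := iotaV_injective h hst
    apply TMod.ext
    intro n
    have h3 := congrArg (fun f : TMod p A => f n) h2
    exact Subtype.ext h3
  have hv' : LinearIndependent ℚ_[p] v := (LinearIndependent.iff_fractionRing ℤ_[p] ℚ_[p]).mp hv
  let w : Fin (finrank ℤ_[p] (TMod p D)) → W := fun i => ⟨v i, hW (b i)⟩
  have hw : LinearIndependent ℚ_[p] w := by
    apply LinearIndependent.of_comp W.subtype
    exact hv'
  have := hw.fintype_card_le_finrank
  rwa [Fintype.card_fin] at this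

end Fermat.Agent.Mazur
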