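import Fermat.Agent.Mazur.Level
import Fermat.Agent.Mazur.Tame
import Fermat.Agent.Mazur.TateV
import Mathlib.NumberTheory.Cyclotomic.CyclotomicCharacter

/-!
# The Tate module of `M` as a Galois module
-/

set_option autoImplicit false

namespace Fermat.Agent.Mazur

open Fermat.Agent.Frob Fermat.Agent.Tate Fermat.Agent.Minkowski

section cyclo

variable {q : ℕ} [hqf : Fact q.Prime]

/-- the `q`-adic cyclotomic character of `G_ℚ` -/
noncomputable def chiZ (q : ℕ) [Fact q.Prime] : GQ →* ℤ_[q]ˣ where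
  toFun g := cyclotomicCharacter (AlgebraicClosure ℚ) q (g : AlgebraicClosure ℚ ≃+* AlgebraicClosure ℚ)
  map_one' := map_one (cyclotomicCharacter (AlgebraicClosure ℚ) q)
  map_mul' g h := map_mul (cyclotomicCharacter (AlgebraicClosure ℚ) q)
    (g : AlgebraicClosure ℚ ≃+* AlgebraicClosure ℚ) (h : AlgebraicClosure ℚ ≃+* AlgebraicClosure ℚ)

lemma exists_primitiveRoot_pow (q : ℕ) [hqf : Fact q.Prime] (n : ℕ) :
    ∃ ζ : AlgebraicClosure ℚ, IsPrimitiveRoot ζ (q ^ n) := by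
  have hne : NeZero (q ^ n) := ⟨pow_ne_zero n hqf.out.ne_zero⟩
  have hne' : NeZero ((q ^ n : ℕ) : AlgebraicClosure ℚ) :=
    ⟨by exact_mod_cast pow_ne_zero n hqf.out.ne_zero⟩
  exact HasEnoughRootsOfUnity.exists_primitiveRoot (AlgebraicClosure ℚ) (q ^ n)

lemma chiZ_spec (g : GQ) (n : ℕ) {ζ : AlgebraicClosure ℚ} (hζ : ζ ^ (q ^ n) = 1) :
    g ζ = ζ ^ (PadicInt.toZModPow n (chiZ q g : ℤ_[q])).val := by
  have : ∀ i, HasEnoughRootsOfUnity (AlgebraicClosure ℚ) (q ^ i) := by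
    intro i
    have hne : NeZero (q ^ i) := ⟨pow_ne_zero i hqf.out.ne_zero⟩
    have hne' : NeZero ((q ^ i : ℕ) : AlgebraicClosure ℚ) :=
      ⟨by exact_mod_cast pow_ne_zero i hqf.out.ne_zero⟩
    infer_instance
  exact cyclotomicCharacter.spec q (g : AlgebraicClosure ℚ ≃+* AlgebraicClosure ℚ) ζ hζ

/-- an exponent computing the Galois action on `μ_{q^n}` is the cyclotomic character mod `q^n`. -/
lemma toZModPow_chiZ_eq {g : GQ} {n c : ℕ}
    (hc : ∀ ζ : AlgebraicClosure ℚ, ζ ^ (q ^ n) = 1 → g ζ = ζ ^ c) :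
    PadicInt.toZModPow n (chiZ q g : ℤ_[q]) = (c : ZMod (q ^ n)) := by
  have hne : NeZero (q ^ n) := ⟨pow_ne_zero n hqf.out.ne_zero⟩
  obtain ⟨ζ, hζ⟩ := exists_primitiveRoot_pow q n
  have h1 : ζ ^ c = ζ ^ (PadicInt.toZModPow n (chiZ q g : ℤ_[q])).val := by
    rw [← hc ζ hζ.pow_eq_one, ← chiZ_spec g n hζ.pow_eq_one]
  let u : (AlgebraicClosure ℚ)ˣ := Units.mk0 ζ (hζ.ne_zero (pow_ne_zero n hqf.out.ne_zero))
  have hu : IsPrimitiveRoot u (q ^ n) := IsPrimitiveRoot.coe_units_iff.mp hζ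
  have h2 : u ^ c = u ^ (PadicInt.toZModPow n (chiZ q g : ℤ_[q])).val := Units.ext h1
  have h3 := pow_eq_pow_iff_modEq.mp h2
  rw [← hu.eq_orderOf, ← ZMod.natCast_eq_natCast_iff, ZMod.natCast_zmod_val] at h3
  exact h3.symm

/-- the cyclotomic character is trivial on inertia outside `q` -/
lemma chiZ_inertia {ℓ : ℕ} (hℓ : ℓ.Prime) (hℓq : ℓ ≠ q)
    {A : ValuationSubring (AlgebraicClosure ℚ)} (hA : A.LiesOverPrime ℓ) {σ : GQ}
    (hσ : σ ∈ A.inertiaSubgroupIn ℚ) : chiZ q σ = 1 := by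
  apply Units.ext
  rw [Units.val_one]
  apply PadicInt.ext_of_toZModPow.mp
  intro n
  rw [map_one, ← Nat.cast_one]
  apply toZModPow_chiZ_eq
  intro ζ hζ
  rw [pow_one]
  have hcop : Nat.Coprime ℓ (q ^ n) := by
    apply Nat.Coprime.pow_right
    exact (Nat.coprime_primes hℓ hqf.out).mpr hℓq
  exact GalRep.inertia_fix_rootOfUnity hA hcop (pow_ne_zero n hqf.out.ne_zero) hσ hζ

/-- the value at a Frobenius -/
lemma chiZ_frob {ℓ : ℕ} (hℓ : ℓ.Prime) (hℓq : ℓ ≠ q)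
    {A : ValuationSubring (AlgebraicClosure ℚ)} (hA : A.LiesOverPrime ℓ) {φ : GQ}
    (hφ : A.IsFrobeniusAt φ ℓ) : (chiZ q φ : ℤ_[q]) = ℓ := by
  apply PadicInt.ext_of_toZModPow.mp
  intro n
  rw [map_natCast]
  apply toZModPow_chiZ_eq
  intro ζ hζ
  have hcop : Nat.Coprime ℓ (q ^ n) := by
    apply Nat.Coprime.pow_right
    exact (Nat.coprime_primes hℓ hqf.out).mpr hℓq
  exact GalRep.frobenius_rootOfUnity hA hcop (pow_ne_zero n hqf.out.ne_zero) hφ hζ

/-- there is an element of inertia at `q` with nontrivial cyclotomic character -/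
lemma exists_inertia_chiZ_ne_one {A : ValuationSubring (AlgebraicClosure ℚ)}
    (hA : A.LiesOverPrime q) : ∃ σ ∈ A.inertiaSubgroupIn ℚ, (chiZ q σ : ℤ_[q]) ≠ 1 := by
  by_contra hno
  push Not at hno
  have hfix : ∀ σ ∈ A.inertiaSubgroupIn ℚ, ∀ (n : ℕ) (ζ : AlgebraicClosure ℚ), ζ ^ (q ^ n) = 1 →
      σ ζ = ζ := by
    intro σ hσ n ζ hζ
    have h1 := chiZ_spec (q := q) σ n hζ
    rw [hno σ hσ, map_one] at h1
    rcases Nat.eq_zero_or_pos n with rfl | hn
    · rw [pow_zero, pow_one] at hζ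
      rw [hζ, map_one]
    · have hlt : 1 < q ^ n := Nat.one_lt_pow hn.ne' hqf.out.one_lt
      have : Fact (1 < q ^ n) := ⟨hlt⟩
      rw [ZMod.val_one, pow_one] at h1
      exact h1
  by_cases hq2 : q = 2
  · subst hq2
    obtain ⟨i, hi⟩ := IsAlgClosed.exists_pow_nat_eq (-1 : AlgebraicClosure ℚ) (n := 2) two_pos
    apply not_fixed_of_sq_eq_neg_one hA hi
    intro σ hσ
    apply hfix σ hσ 2 i
    rw [show (2 ^ 2 : ℕ) = 2 * 2 by norm_num, pow_mul, hi]
    norm_num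
  · obtain ⟨ζ, hζ⟩ := exists_prim hqf.out
    apply not_fixed_of_isPrimitiveRoot hqf.out hq2 hA hζ
    intro σ hσ
    apply hfix σ hσ 1 ζ
    rw [pow_one]
    exact hζ.pow_eq_one

end cyclo

/-- local condition at `N` -/
structure AtN (N : ℕ) (M : Type*) [AddCommGroup M] [DistribMulAction GQ M]
    (B : ValuationSubring (AlgebraicClosure ℚ)) (φ : GQ) (a : ℕ) : Prop where
  lies : B.LiesOverPrime N
  isFrob : B.IsFrobeniusAt φ N
  unip : ∀ τ ∈ B.inertiaSubgroupIn ℚ, ∀ τ' ∈ B.inertiaSubgroupIn ℚ, ∀ x : M,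
      τ • (τ' • x - x) - (τ' • x - x) = 0
  frobN : ∀ x : M,
      (((gEnd M φ) ^ 2 - 1) ^ a * ((gEnd M φ) ^ 2 - ((N ^ 2 : ℕ) : AddMonoid.End M)) ^ a :
        AddMonoid.End M) x = 0

/-- local condition at `q` -/
structure AtQ {q : ℕ} (hq : q.Prime) {R : Type*} [CommRing R] (T : Nat.Primes → R)
    (M : Type*) [AddCommGroup M] [Module R M] [DistribMulAction GQ M]
    (A : ValuationSubring (AlgebraicClosure ℚ)) (M₀ : AddSubgroup M) : Prop where
  lies : A.LiesOverPrime q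
  inertia : ∀ σ ∈ A.inertiaSubgroupIn ℚ, ∀ x : M, σ • x - x ∈ M₀
  stab : ∀ φ : GQ, A.IsFrobeniusAt φ q → ∀ x : M, x ∈ M₀ → φ • x ∈ M₀
  hecke : ∀ (r : R) (x : M), x ∈ M₀ → r • x ∈ M₀
  es : ∀ φ : GQ, A.IsFrobeniusAt φ q → ∀ x : M,
      φ • φ • x - T ⟨q, hq⟩ • φ • x + q • x ∈ M₀
  cyc : ∀ x ∈ M₀, ∀ σ ∈ A.inertiaSubgroupIn ℚ, ∀ n k : ℕ, q ^ n • x = 0 →
      (∀ ζ : AlgebraicClosure ℚ, ζ ^ (q ^ n) = 1 → σ ζ = ζ ^ k) → σ • x = k • x

section tmod

variable {q : ℕ} [hqf : Fact q.Prime] {N : ℕ} {R : Type*} [CommRing R] {P : Ideal R}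
    {T : Nat.Primes → R} {M : Type*} [AddCommGroup M] [Module R M] [DistribMulAction GQ M]
    [SMulCommClass GQ R M]

/-- the Galois action on the Tate module -/
noncomputable abbrev rT (q : ℕ) [Fact q.Prime] (M : Type*) [AddCommGroup M]
    [DistribMulAction GQ M] (g : GQ) : Module.End ℤ_[q] (TMod q M) :=
  TMod.rep q GQ M g

omit hqf in
lemma MInput.cofin {hq : q.Prime} (h : MInput hq N P T M) : Cofin q M :=
  ⟨h.fin, fun x _ => h.div x⟩

lemma MInput.tr_apply (h : MInput hqf.out N P T M) (g : GQ) (n : ℕ) :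
    ∃ r : R, ∀ t : TMod q M,
      (rT q M g t + (chiZ q g : ℤ_[q]) • rT q M g⁻¹ t : TMod q M) n = r • t n := by
  obtain ⟨r, c, hc, hx⟩ := h.exists_tr n g
  refine ⟨r, fun t => ?_⟩
  rw [TMod.coe_add_apply, TMod.rep_apply, TMod.smul_apply_of_eq _ _ n (toZModPow_chiZ_eq hc),
    TMod.rep_apply, hx _ (TMod.pow_smul_apply t n)]

omit [DistribMulAction GQ M] in
lemma TMod_smul_eq_zero {N : ℕ} (hN : N ≠ 0) {t : TMod q M} (ht : N • t = 0) : t = 0 := by
  have h1 : ((N : ℕ) : ℤ_[q]) • t = 0 := by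
    rw [Nat.cast_smul_eq_nsmul]; exact ht
  exact (smul_eq_zero.mp h1).resolve_left (by exact_mod_cast hN)

/-- The key rigidity lemma: a Galois stable subgroup of the Tate module on which Galois acts
through commuting operators and inertia at `q` acts by `ψ` is acted on by `ψ`. -/
theorem MInput.rigid (h : MInput hqf.out N P T M) {B : ValuationSubring (AlgebraicClosure ℚ)}
    {φ : GQ} {a : ℕ} (hB : AtN N M B φ a) {A : ValuationSubring (AlgebraicClosure ℚ)}
    (hA : A.LiesOverPrime q)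
    (ψ : GQ →* ℤ_[q]ˣ)
    (hψ : ∀ ℓ : ℕ, ℓ.Prime → ℓ ≠ q → ∀ A' : ValuationSubring (AlgebraicClosure ℚ),
      A'.LiesOverPrime ℓ → ∀ σ ∈ A'.inertiaSubgroupIn ℚ, ψ σ = 1)
    (hψc : ∀ n : ℕ, ∃ U : Subgroup GQ, IsOpen (U : Set GQ) ∧ ∀ σ ∈ U,
      PadicInt.toZModPow n (ψ σ : ℤ_[q]) = 1)
    (S : AddSubgroup (TMod q M)) (hS : ∀ (g : GQ), ∀ t ∈ S, rT q M g t ∈ S)
    (hcomm : ∀ (g g' : GQ), ∀ t ∈ S, rT q M g (rT q M g' t) = rT q M g' (rT q M g t))
    (hI : ∀ σ ∈ A.inertiaSubgroupIn ℚ, ∀ t ∈ S, rT q M σ t = (ψ σ : ℤ_[q]) • t) :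
    ∀ (g : GQ), ∀ t ∈ S, rT q M g t = (ψ g : ℤ_[q]) • t := by
  have hmul : ∀ (g g' : GQ) (t : TMod q M), rT q M (g * g') t = rT q M g (rT q M g' t) := by
    intro g g' t
    rw [rT, map_mul]
    rfl
  have hone : ∀ t : TMod q M, rT q M 1 t = t := by
    intro t
    rw [rT, map_one]
    rfl
  suffices hall : ∀ (n : ℕ) (g : GQ), ∀ t ∈ S,
      (rT q M g t - (ψ g : ℤ_[q]) • t : TMod q M) n = 0 by
    intro g t ht
    rw [← sub_eq_zero]
    apply TMod.ext
    intro n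
    rw [hall n g t ht]
    rfl
  intro n
  have hker : ∀ (g : GQ) (y : TMod q M), y n = 0 → (rT q M g y) n = 0 := by
    intro g y hy
    rw [TMod.rep_apply, hy, smul_zero]
  have hker' : ∀ (c : ℤ_[q]) (y : TMod q M), y n = 0 → (c • y : TMod q M) n = 0 := by
    intro c y hy
    rw [TMod.smul_apply, hy, smul_zero]
  have hkadd : ∀ (x y : TMod q M), x n = 0 → y n = 0 → (x + y : TMod q M) n = 0 := by
    intro x y hx hy
    rw [TMod.coe_add_apply, hx, hy, add_zero]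
  let H : Subgroup GQ := {
    carrier := {g | ∀ t ∈ S, (rT q M g t - (ψ g : ℤ_[q]) • t : TMod q M) n = 0}
    mul_mem' := by
      intro g g' hg hg' t ht
      have e : rT q M (g * g') t - (ψ (g * g') : ℤ_[q]) • t =
          rT q M g (rT q M g' t - (ψ g' : ℤ_[q]) • t) +
            (ψ g' : ℤ_[q]) • (rT q M g t - (ψ g : ℤ_[q]) • t) := by
        rw [hmul, map_mul, Units.val_mul, map_sub, map_smul, smul_sub, mul_comm, mul_smul]
        abel
      rw [e]
      exact hkadd _ _ (hker g _ (hg' t ht)) (hker' _ _ (hg t ht))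
    one_mem' := by
      intro t _
      rw [hone, map_one, Units.val_one, one_smul, sub_self]
      rfl
    inv_mem' := by
      intro g hg t ht
      have e : rT q M g⁻¹ t - (ψ g⁻¹ : ℤ_[q]) • t = - ((ψ g⁻¹ : ℤ_[q]) •
          (rT q M g⁻¹ (rT q M g t - (ψ g : ℤ_[q]) • t))) := by
        have h1 : (ψ g⁻¹ : ℤ_[q]) * (ψ g : ℤ_[q]) = 1 := by
          rw [← Units.val_mul, ← map_mul, inv_mul_cancel, map_one, Units.val_one]
        rw [map_sub, ← hmul, inv_mul_cancel, hone, map_smul, smul_sub, smul_smul, h1, one_smul]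
        abel
      rw [e, TMod.coe_neg_apply, hker' _ _ (hker g⁻¹ _ (hg t ht)), neg_zero] }
  have hnormal : H.Normal := by
    refine ⟨fun g hg g' t ht => ?_⟩
    have e : rT q M (g' * g * g'⁻¹) t - (ψ (g' * g * g'⁻¹) : ℤ_[q]) • t =
        rT q M g' (rT q M g (rT q M g'⁻¹ t) - (ψ g : ℤ_[q]) • (rT q M g'⁻¹ t)) := by
      have h1 : ψ (g' * g * g'⁻¹) = ψ g := by
        rw [map_mul, map_mul, mul_comm, ← mul_assoc, ← map_mul, inv_mul_cancel, map_one, one_mul]
      rw [hmul, hmul, h1, map_sub, map_smul, ← hmul g' g'⁻¹, mul_inv_cancel, hone]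
    rw [e]
    exact hker _ _ (hg _ (hS _ _ ht))
  have hopen : IsOpen (H : Set GQ) := by
    obtain ⟨U, hU, hUψ⟩ := hψc n
    obtain ⟨L, hL, hLfix⟩ := h.exists_level n
    have hopen' : IsOpen ((U ⊓ L.fixingSubgroup : Subgroup GQ) : Set GQ) :=
      hU.inter L.fixingSubgroup_isOpen
    apply Subgroup.isOpen_mono (H₁ := U ⊓ L.fixingSubgroup) _ hopen'
    rintro g ⟨hg1, hg2⟩ t _
    have h1 := (hLfix g ((IntermediateField.mem_fixingSubgroup_iff L g).mp hg2)).1 (t n)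
      (TMod.pow_smul_apply t n)
    rw [TMod.coe_sub_apply, TMod.rep_apply, h1, TMod.smul_apply_of_eq _ _ n (b := 1) (by
      rw [hUψ g hg1, Nat.cast_one]), one_smul, sub_self]
  -- inertia at `N`
  have hBI : ∀ τ ∈ B.inertiaSubgroupIn ℚ, ∀ t ∈ S, rT q M τ t = t := by
    intro τ hτ t ht
    have hconj : rT q M (φ * τ * φ⁻¹) t - t = N • (rT q M τ t - t) := by
      apply TMod.ext
      intro m
      have hfin := h.finite_Mtor m
      let hh : GQ → Mtor q M m := fun σ => σ • (⟨t m, TMod.pow_smul_apply t m⟩ : Mtor q M m) -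
        ⟨t m, TMod.pow_smul_apply t m⟩
      have hhom : IsInertiaHom B hh := by
        refine ⟨?_, ?_⟩
        · intro σ hσ σ' hσ'
          have h1 : σ • hh σ' = hh σ' := by
            rw [← sub_eq_zero]
            exact Subtype.ext (hB.unip σ hσ σ' hσ' (t m))
          have h2 : hh (σ * σ') = hh σ + σ • hh σ' := by
            simp only [hh, mul_smul, smul_sub]
            abel
          rw [h2, h1]
        · obtain ⟨L, hL, hLfix⟩ := h.exists_level m
          refine ⟨L.fixingSubgroup, L.fixingSubgroup_isOpen, fun σ hσ _ => ?_⟩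
          have h1 := (hLfix σ ((IntermediateField.mem_fixingSubgroup_iff L σ).mp hσ)).1 (t m)
            (TMod.pow_smul_apply t m)
          apply Subtype.ext
          change σ • t m - t m = 0
          rw [h1, sub_self]
      have hcop : N.Coprime (q ^ m) := by
        apply Nat.Coprime.pow_right
        exact (Nat.coprime_primes h.prime_N hqf.out).mpr (Ne.symm h.ne)
      have h3 := hhom.conj h.prime_N hB.lies hcop (fun x => Subtype.ext x.2) hB.isFrob hτ
      exact congrArg Subtype.val h3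
    have hc : rT q M (φ * τ * φ⁻¹) t = rT q M τ t := by
      rw [hmul, hmul, hcomm φ τ _ (hS _ _ ht), ← hmul φ φ⁻¹, mul_inv_cancel, hone]
    rw [hc, ← sub_eq_zero, ← one_smul ℕ (rT q M τ t - t), smul_smul, mul_one, one_smul] at hconj
    have hN1 : N - 1 ≠ 0 := by
      have := h.prime_N.one_lt
      omega
    rw [← sub_eq_zero]
    apply TMod_smul_eq_zero hN1
    obtain ⟨N', rfl⟩ : ∃ N', N = N' + 1 := ⟨N - 1, by have := h.prime_N.one_lt; omega⟩
    rw [Nat.add_sub_cancel]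
    rw [sub_eq_zero, succ_nsmul] at hconj
    have := add_right_cancel (a := (0 : TMod q M)) (b := rT q M τ t - t)
      (c := N' • (rT q M τ t - t)) (by rw [zero_add]; exact hconj)
    exact this.symm
  have htop : H = ⊤ := by
    apply eq_top_of_inertia_le H hopen
    intro ℓ hℓ A' hA' σ hσ
    have hconjmem : ∀ (C : ValuationSubring (AlgebraicClosure ℚ)), C.LiesOverPrime ℓ →
        (∀ σ ∈ C.inertiaSubgroupIn ℚ, σ ∈ H) → σ ∈ H := by
      intro C hC hCH
      obtain ⟨g, hg⟩ := exists_smul_eq hℓ hC hA'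
      rw [← hg] at hσ
      have h1 := hCH _ (mem_inertia_smul hσ)
      have h2 := hnormal.conj_mem _ h1 g
      have h3 : g * (g⁻¹ * σ * g) * g⁻¹ = σ := by group
      rwa [h3] at h2
    by_cases hℓq : ℓ = q
    · subst hℓq
      apply hconjmem A hA
      intro σ hσ t ht
      rw [hI σ hσ t ht, sub_self]
      rfl
    · by_cases hℓN : ℓ = N
      · subst hℓN
        apply hconjmem B hB.lies
        intro τ hτ t ht
        rw [hBI τ hτ t ht, hψ ℓ hℓ hℓq B hB.lies τ hτ, Units.val_one, one_smul, sub_self]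
        rfl
      · intro t _
        rw [hψ ℓ hℓ hℓq A' hA' σ hσ, Units.val_one, one_smul, TMod.coe_sub_apply, TMod.rep_apply,
          h.unram ⟨ℓ, hℓ⟩ hℓq hℓN A' hA' σ hσ, sub_self]
  intro g t ht
  have : g ∈ H := by rw [htop]; trivial
  exact this t ht

end tmod

end Fermat.Agent.Mazur
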