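import Fermat.Agent.Mazur.TLevel

/-!
# Relations on the Tate module
-/

set_option autoImplicit false

namespace Fermat.Agent.Mazur

open Fermat.Agent.Frob Fermat.Agent.Tate

variable {q : ℕ} [hqf : Fact q.Prime] {N : ℕ} {R : Type*} [CommRing R] {P : Ideal R}
    {T : Nat.Primes → R} {M : Type*} [AddCommGroup M] [Module R M] [DistribMulAction GQ M]
    [SMulCommClass GQ R M]

/-- a weight bound at one prime -/
def WeightAt (q N : ℕ) {R : Type*} [CommRing R] (T : Nat.Primes → R) (M : Type*) [AddCommGroup M]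
    [Module R M] : Prop :=
  ∃ ℓ : Nat.Primes, (ℓ : ℕ) ≠ q ∧ (ℓ : ℕ) ≠ N ∧ ∃ (u : R) (n : ℕ), n ≠ 0 ∧
    ∀ x : M, (u * (T ℓ - (1 + ((ℓ : ℕ) : R)))) • x = n • x

/-- the Hecke action on the Tate module -/
noncomputable def rH (q : ℕ) [Fact q.Prime] {R : Type*} [CommRing R] (M : Type*) [AddCommGroup M]
    [Module R M] (r : R) : Module.End ℤ_[q] (TMod q M) :=
  TMod.map (DistribSMul.toAddMonoidHom M r)

omit [DistribMulAction GQ M] [SMulCommClass GQ R M] in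
@[simp] lemma rH_apply (r : R) (t : TMod q M) (n : ℕ) : rH q M r t n = r • t n := rfl

/-- the trace operator on the Tate module -/
noncomputable def tT (q : ℕ) [Fact q.Prime] (M : Type*) [AddCommGroup M]
    [DistribMulAction GQ M] (g : GQ) : Module.End ℤ_[q] (TMod q M) :=
  rT q M g + (chiZ q g : ℤ_[q]) • rT q M g⁻¹

omit [SMulCommClass GQ R M] in
lemma tT_apply (g : GQ) (t : TMod q M) :
    tT q M g t = rT q M g t + (chiZ q g : ℤ_[q]) • rT q M g⁻¹ t := rfl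

lemma rT_mul (g g' : GQ) (t : TMod q M) : rT q M (g * g') t = rT q M g (rT q M g' t) := by
  rw [rT, map_mul]
  rfl

lemma rT_one (t : TMod q M) : rT q M 1 t = t := by
  rw [rT, map_one]
  rfl

lemma rT_inv_rT (g : GQ) (t : TMod q M) : rT q M g⁻¹ (rT q M g t) = t := by
  rw [← rT_mul, inv_mul_cancel, rT_one]

lemma rT_rT_inv (g : GQ) (t : TMod q M) : rT q M g (rT q M g⁻¹ t) = t := by
  rw [← rT_mul, mul_inv_cancel, rT_one]

lemma chiZ_mul_inv (g : GQ) : (chiZ q g : ℤ_[q]) * (chiZ q g⁻¹ : ℤ_[q]) = 1 := by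
  rw [← Units.val_mul, ← map_mul, mul_inv_cancel, map_one, Units.val_one]

lemma chiZ_inv_mul (g : GQ) : (chiZ q g⁻¹ : ℤ_[q]) * (chiZ q g : ℤ_[q]) = 1 := by
  rw [← Units.val_mul, ← map_mul, inv_mul_cancel, map_one, Units.val_one]

lemma MInput.tT_comm (h : MInput hqf.out N P T M) (g g' : GQ) (t : TMod q M) :
    tT q M g (rT q M g' t) = rT q M g' (tT q M g t) := by
  apply TMod.ext
  intro n
  obtain ⟨r, hr⟩ := h.tr_apply g n
  rw [TMod.rep_apply, tT_apply, tT_apply, hr, hr, TMod.rep_apply, smul_comm g' r]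

lemma MInput.tT_comm_rH (h : MInput hqf.out N P T M) (g : GQ) (r' : R) (t : TMod q M) :
    tT q M g (rH q M r' t) = rH q M r' (tT q M g t) := by
  apply TMod.ext
  intro n
  obtain ⟨r, hr⟩ := h.tr_apply g n
  rw [rH_apply, tT_apply, tT_apply, hr, hr, rH_apply, smul_comm]

lemma chiZ_cont (n : ℕ) : ∃ U : Subgroup GQ, IsOpen (U : Set GQ) ∧ ∀ σ ∈ U,
    PadicInt.toZModPow n (chiZ q σ : ℤ_[q]) = 1 := by
  obtain ⟨ζ, hζ⟩ := exists_primitiveRoot_pow q n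
  refine ⟨(IntermediateField.adjoin ℚ {ζ}).fixingSubgroup, ?_, fun σ hσ => ?_⟩
  · have : FiniteDimensional ℚ (IntermediateField.adjoin ℚ {ζ}) :=
      IntermediateField.adjoin.finiteDimensional (Algebra.IsIntegral.isIntegral ζ)
    exact IntermediateField.fixingSubgroup_isOpen _
  · have h1 : σ ζ = ζ := (IntermediateField.mem_fixingSubgroup_iff _ σ).mp hσ ζ
      (IntermediateField.mem_adjoin_simple_self ℚ ζ)
    rw [← Nat.cast_one]
    apply toZModPow_chiZ_eq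
    intro ξ hξ
    have hne : NeZero (q ^ n) := ⟨pow_ne_zero n hqf.out.ne_zero⟩
    obtain ⟨i, -, rfl⟩ := hζ.eq_pow_of_pow_eq_one hξ
    rw [map_pow, h1, pow_one]

lemma MInput.eq_zero_of_psi (h : MInput hqf.out N P T M) (hw : WeightAt q N T M)
    (ψ : GQ →* ℤ_[q]ˣ)
    (hψ : (∀ g, (ψ g : ℤ_[q]) = 1) ∨ (∀ g, (ψ g : ℤ_[q]) = chiZ q g))
    {t : TMod q M} (ht : ∀ g : GQ, rT q M g t = (ψ g : ℤ_[q]) • t) : t = 0 := by
  obtain ⟨ℓ, hℓq, hℓN, u, n, hn, hun⟩ := hw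
  obtain ⟨A', hA', φ, hφ⟩ := exists_frobenius ℓ ℓ.2
  -- T_ℓ acts by `1 + ℓ`
  have key : ∀ m : ℕ, T ℓ • (t m) = (1 + (ℓ : ℕ)) • t m := by
    intro m
    have h1 := h.frob ℓ hℓq hℓN A' hA' φ hφ (t m)
    rcases hψ with hψ | hψ
    · have h2 : ∀ m, φ • t m = t m := by
        intro m
        have h3 : (rT q M φ t) m = t m := by rw [ht φ, hψ, one_smul]
        exact h3
      rw [h2, h2] at h1
      rw [add_smul, one_smul]
      rw [sub_add_eq_add_sub, sub_eq_zero] at h1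
      exact h1.symm
    · have h2 : ∀ m, φ • t m = (ℓ : ℕ) • t m := by
        intro m
        have h3 : (rT q M φ t) m = (ℓ : ℕ) • t m := by
          rw [ht φ, hψ, chiZ_frob ℓ.2 hℓq hA' hφ, TMod.natCast_smul_apply]
        exact h3
      rw [h2, smul_comm φ (ℓ : ℕ), h2, smul_comm (T ℓ) (ℓ : ℕ), ← smul_sub, ← smul_add] at h1
      -- cancel `ℓ`
      have hcop : Nat.Coprime (ℓ : ℕ) (q ^ m) := by
        apply Nat.Coprime.pow_right
        exact (Nat.coprime_primes ℓ.2 hqf.out).mpr hℓq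
      have h3 : ((ℓ : ℕ) • t m - T ℓ • t m + t m) = 0 := by
        have ha : addOrderOf ((ℓ : ℕ) • t m - T ℓ • t m + t m) ∣ (ℓ : ℕ) :=
          addOrderOf_dvd_of_nsmul_eq_zero h1
        have hb : addOrderOf ((ℓ : ℕ) • t m - T ℓ • t m + t m) ∣ q ^ m := by
          apply addOrderOf_dvd_of_nsmul_eq_zero
          rw [smul_add, smul_sub, smul_comm _ (T ℓ), smul_comm _ (ℓ : ℕ), TMod.pow_smul_apply,
            smul_zero, smul_zero, sub_zero, add_zero]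
        have hc := Nat.eq_one_of_dvd_coprimes hcop ha hb
        exact AddMonoid.addOrderOf_eq_one_iff.mp hc
      rw [add_smul, one_smul]
      rw [sub_add_eq_add_sub, sub_eq_zero] at h3
      rw [← h3, add_comm]
  apply TMod_smul_eq_zero hn
  apply TMod.ext
  intro m
  rw [TMod.coe_nsmul_apply, ← hun, mul_smul, sub_smul, key, add_smul, add_smul, one_smul,
    one_smul, Nat.cast_smul_eq_nsmul, sub_self, smul_zero]
  rfl

section atq

variable {B : ValuationSubring (AlgebraicClosure ℚ)} {φN : GQ} {a : ℕ}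
  {A : ValuationSubring (AlgebraicClosure ℚ)} {M₀ : AddSubgroup M}

/-- the Tate vectors with values in `M₀` -/
def T0 (q : ℕ) [Fact q.Prime] (M₀ : AddSubgroup M) : AddSubgroup (TMod q M) where
  carrier := {t | ∀ n, t n ∈ M₀}
  zero_mem' := fun _ => M₀.zero_mem
  add_mem' := fun ha hb n => M₀.add_mem (ha n) (hb n)
  neg_mem' := fun ha n => M₀.neg_mem (ha n)

omit [SMulCommClass GQ R M] in
lemma AtQ.sub_mem_T0 (hA : AtQ hqf.out T M A M₀) {σ : GQ} (hσ : σ ∈ A.inertiaSubgroupIn ℚ)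
    (t : TMod q M) : rT q M σ t - t ∈ T0 q M₀ := fun n => hA.inertia σ hσ (t n)

omit [SMulCommClass GQ R M] in
lemma AtQ.rT_T0 (hA : AtQ hqf.out T M A M₀) {σ : GQ} (hσ : σ ∈ A.inertiaSubgroupIn ℚ)
    {t : TMod q M} (ht : t ∈ T0 q M₀) : rT q M σ t = (chiZ q σ : ℤ_[q]) • t := by
  apply TMod.ext
  intro n
  rw [TMod.rep_apply, TMod.smul_apply_of_eq _ _ n
    (b := (PadicInt.toZModPow n (chiZ q σ : ℤ_[q])).val)]
  · exact hA.cyc (t n) (ht n) σ hσ n _ (TMod.pow_smul_apply t n) (fun ζ hζ => chiZ_spec σ n hζ)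
  · have hne : NeZero (q ^ n) := ⟨pow_ne_zero n hqf.out.ne_zero⟩
    rw [ZMod.natCast_zmod_val]

/-- No nonzero Galois stable subgroup of the Tate module on which `σ₀` is trivial. -/
theorem MInput.h1T (h : MInput hqf.out N P T M) (hw : WeightAt q N T M) (hB : AtN N M B φN a)
    (hA : AtQ hqf.out T M A M₀) {σ₀ : GQ} (hσ₀ : σ₀ ∈ A.inertiaSubgroupIn ℚ)
    (hχ : (chiZ q σ₀ : ℤ_[q]) ≠ 1) (S : AddSubgroup (TMod q M))
    (hS : ∀ (g : GQ), ∀ t ∈ S, rT q M g t ∈ S) (hσ : ∀ t ∈ S, rT q M σ₀ t = t) :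
    ∀ t ∈ S, t = 0 := by
  have hne : (chiZ q σ₀ : ℤ_[q]) - 1 ≠ 0 := sub_ne_zero.mpr hχ
  have hσi : ∀ t ∈ S, rT q M σ₀⁻¹ t = t := by
    intro t ht
    conv_lhs => rw [← hσ t ht]
    exact rT_inv_rT σ₀ t
  have hdiff : ∀ (g : GQ), ∀ t ∈ S, tT q M (g * σ₀) t - tT q M g t =
      (((chiZ q σ₀ : ℤ_[q]) - 1) * (chiZ q g : ℤ_[q])) • rT q M g⁻¹ t := by
    intro g t ht
    rw [tT_apply, tT_apply, rT_mul, hσ t ht, mul_inv_rev, rT_mul, hσi _ (hS _ _ ht), map_mul,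
      Units.val_mul]
    module
  have hcomm : ∀ (g g' : GQ), ∀ t ∈ S, rT q M g (rT q M g' t) = rT q M g' (rT q M g t) := by
    intro g g' t ht
    have h1 := hdiff g⁻¹ _ (hS g' t ht)
    have h2 := congrArg (rT q M g') (hdiff g⁻¹ t ht)
    rw [h.tT_comm, h.tT_comm, ← map_sub, h2, map_smul, inv_inv] at h1
    have h3 : ((chiZ q σ₀ : ℤ_[q]) - 1) * (chiZ q g⁻¹ : ℤ_[q]) ≠ 0 :=
      mul_ne_zero hne (Units.ne_zero _)
    exact (smul_right_injective _ h3 h1).symm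
  have hI : ∀ σ ∈ A.inertiaSubgroupIn ℚ, ∀ t ∈ S,
      rT q M σ t = (((1 : GQ →* ℤ_[q]ˣ) σ : ℤ_[q]ˣ) : ℤ_[q]) • t := by
    intro σ hσ' t ht
    rw [MonoidHom.one_apply, Units.val_one, one_smul, ← sub_eq_zero]
    have h1 := hA.rT_T0 hσ₀ (hA.sub_mem_T0 hσ' t)
    rw [hσ _ (S.sub_mem (hS _ _ ht) ht)] at h1
    have h2 : ((chiZ q σ₀ : ℤ_[q]) - 1) • (rT q M σ t - t) = 0 := by
      rw [sub_smul, ← h1, one_smul, sub_self]
    exact (smul_eq_zero.mp h2).resolve_left hne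
  have hrig := h.rigid hB hA.lies 1 (fun _ _ _ _ _ _ _ => rfl)
    (fun n => ⟨⊤, isOpen_univ, fun σ _ => by
      rw [MonoidHom.one_apply, Units.val_one, map_one]⟩) S hS hcomm hI
  intro t ht
  exact h.eq_zero_of_psi hw 1 (Or.inl fun g => by rw [MonoidHom.one_apply, Units.val_one])
    (fun g => hrig g t ht)

/-- No nonzero Galois stable subgroup of the Tate module on which `σ₀` acts by `χ`. -/
theorem MInput.h2T (h : MInput hqf.out N P T M) (hw : WeightAt q N T M) (hB : AtN N M B φN a)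
    (hA : AtQ hqf.out T M A M₀) {σ₀ : GQ} (hσ₀ : σ₀ ∈ A.inertiaSubgroupIn ℚ)
    (hχ : (chiZ q σ₀ : ℤ_[q]) ≠ 1) (S : AddSubgroup (TMod q M))
    (hS : ∀ (g : GQ), ∀ t ∈ S, rT q M g t ∈ S)
    (hσ : ∀ t ∈ S, rT q M σ₀ t = (chiZ q σ₀ : ℤ_[q]) • t) :
    ∀ t ∈ S, t = 0 := by
  have hne : (chiZ q σ₀ : ℤ_[q]) - 1 ≠ 0 := sub_ne_zero.mpr hχ
  have hσi : ∀ t ∈ S, (chiZ q σ₀ : ℤ_[q]) • rT q M σ₀⁻¹ t = t := by
    intro t ht
    rw [← map_smul, ← hσ t ht]
    exact rT_inv_rT σ₀ t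
  have hdiff : ∀ (g : GQ), ∀ t ∈ S, tT q M (g * σ₀) t - tT q M g t =
      ((chiZ q σ₀ : ℤ_[q]) - 1) • rT q M g t := by
    intro g t ht
    rw [tT_apply, tT_apply, rT_mul, hσ t ht, mul_inv_rev, rT_mul, map_mul,
      Units.val_mul, mul_smul, hσi _ (hS _ _ ht), map_smul]
    module
  have hcomm : ∀ (g g' : GQ), ∀ t ∈ S, rT q M g (rT q M g' t) = rT q M g' (rT q M g t) := by
    intro g g' t ht
    have h1 := hdiff g _ (hS g' t ht)
    have h2 := congrArg (rT q M g') (hdiff g t ht)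
    rw [h.tT_comm, h.tT_comm, ← map_sub, h2, map_smul] at h1
    exact (smul_right_injective _ hne h1).symm
  have hI : ∀ σ ∈ A.inertiaSubgroupIn ℚ, ∀ t ∈ S,
      rT q M σ t = (chiZ q σ : ℤ_[q]) • t := by
    intro σ hσ' t ht
    have h1 := hA.rT_T0 hσ' (hA.sub_mem_T0 hσ₀ t)
    rw [hσ t ht] at h1
    have h2 : ((chiZ q σ₀ : ℤ_[q]) - 1) • (rT q M σ t - (chiZ q σ : ℤ_[q]) • t) = 0 := by
      rw [map_sub, map_smul] at h1
      linear_combination (norm := module) h1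
    rw [← sub_eq_zero]
    exact (smul_eq_zero.mp h2).resolve_left hne
  have hrig := h.rigid hB hA.lies (chiZ q) (fun ℓ hℓ hℓq A' hA' σ hσ =>
    chiZ_inertia hℓ hℓq hA' hσ) chiZ_cont S hS hcomm hI
  intro t ht
  exact h.eq_zero_of_psi hw (chiZ q) (Or.inr fun g => rfl) (fun g => hrig g t ht)

end atq

end Fermat.Agent.Mazur
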