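import Mathlib.RingTheory.Ideal.AssociatedPrime.Localization
import Mathlib.RingTheory.Artinian.Module
import Mathlib.LinearAlgebra.Trace
import Mathlib.LinearAlgebra.FiniteDimensional.Basic

/-!
# A trace identity for representations satisfying a quadratic relation

If `ρ g + χ g ρ g⁻¹` is central for all `g`, then (under a mild irreducibility type condition)
`ρ g` and `χ g ρ g⁻¹` have the same trace, and more generally `x` and `x*` for all `x` in the
enveloping algebra.
-/

set_option autoImplicit false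

namespace Fermat.Agent.Mazur.Tr

variable {k : Type*} [Field k] {V : Type*} [AddCommGroup V] [Module k V]

section annihilator

variable [FiniteDimensional k V]

lemma one_mem_of_forall (K : Subalgebra k (Module.End k V))
    (hcomm : ∀ a ∈ K, ∀ b ∈ K, a * b = b * a) (I : Submodule k (Module.End k V))
    (hI : ∀ x ∈ I, x ∈ K) (hmul : ∀ c ∈ K, ∀ x ∈ I, c * x ∈ I)
    (h0 : ∀ v : V, (∀ x ∈ I, x v = 0) → v = 0) : (1 : Module.End k V) ∈ I := by
  let _ : CommRing K := { (inferInstance : Ring K) with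
    mul_comm := fun a b => Subtype.ext (hcomm a a.2 b b.2) }
  by_contra h1
  let J : Ideal K := {
    carrier := {x | (x : Module.End k V) ∈ I}
    add_mem' := fun {a b} ha hb => I.add_mem ha hb
    zero_mem' := I.zero_mem
    smul_mem' := fun c x hx => hmul c c.2 x hx }
  have hJ : J ≠ ⊤ := by
    intro h
    exact h1 ((Ideal.eq_top_iff_one J).mp h)
  obtain ⟨m, hm, hJm⟩ := Ideal.exists_le_maximal J hJ
  have : Module.Finite k K := inferInstance
  have : IsArtinianRing K := IsArtinianRing.of_finite k K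
  have : Module.Finite K V := by
    have : IsScalarTower k K V := ⟨fun a x v => by
      change (a • (x : Module.End k V)) v = a • ((x : Module.End k V) v)
      rfl⟩
    exact Module.Finite.of_restrictScalars_finite k K V
  have hann : Module.annihilator K V = ⊥ := by
    rw [eq_bot_iff]
    intro x hx
    rw [Module.mem_annihilator] at hx
    have : (x : Module.End k V) = 0 := LinearMap.ext fun v => hx v
    exact Subtype.ext this
  have hmin : m ∈ (Module.annihilator K V).minimalPrimes := by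
    rw [hann]
    have := hm.isPrime
    refine ⟨⟨hm.isPrime, bot_le⟩, ?_⟩
    rintro p ⟨hp, -⟩ hpm
    have := hp
    exact ((IsArtinianRing.isMaximal_of_isPrime p).eq_of_le hm.ne_top hpm).ge
  have : IsNoetherianRing K := IsNoetherianRing.of_finite k K
  have hass := Module.associatedPrimes.minimalPrimes_annihilator_subset_associatedPrimes K V hmin
  obtain ⟨-, v, hv⟩ := isAssociatedPrime_iff.mp hass
  have hv0 : v = 0 := by
    apply h0
    intro x hx
    have hxm : (⟨x, hI x hx⟩ : K) ∈ m := hJm hx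
    rw [hv, Submodule.mem_colon_singleton, Submodule.mem_bot] at hxm
    exact hxm
  apply hm.ne_top
  rw [Ideal.eq_top_iff_one, hv, Submodule.mem_colon_singleton, Submodule.mem_bot, hv0, smul_zero]

end annihilator

section pairs

variable {Γ : Type*} [Group Γ]

/-- `ρ g + χ g ρ g⁻¹` is central, with values in the commutative algebra `K`. -/
structure CT (ρ : Γ →* Module.End k V) (χ : Γ →* k) (K : Subalgebra k (Module.End k V)) :
    Prop where
  comm : ∀ a ∈ K, ∀ b ∈ K, a * b = b * a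
  commΓ : ∀ a ∈ K, ∀ g, a * ρ g = ρ g * a
  tr : ∀ g, ρ g + χ g • ρ g⁻¹ ∈ K

/-- the pairs `(x, x*)` -/
def pairs (ρ : Γ →* Module.End k V) (χ : Γ →* k) (K : Subalgebra k (Module.End k V)) :
    Submodule k (Module.End k V × Module.End k V) :=
  Submodule.span k {z | ∃ c ∈ K, ∃ g, z = (c * ρ g, c * (χ g • ρ g⁻¹))}

variable {ρ : Γ →* Module.End k V} {χ : Γ →* k} {K : Subalgebra k (Module.End k V)}

lemma mk_mem_pairs {c : Module.End k V} (hc : c ∈ K) (g : Γ) :
    (c * ρ g, c * (χ g • ρ g⁻¹)) ∈ pairs ρ χ K :=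
  Submodule.subset_span ⟨c, hc, g, rfl⟩

lemma gen_mem_pairs (g : Γ) : (ρ g, χ g • ρ g⁻¹) ∈ pairs ρ χ K := by
  have := mk_mem_pairs (ρ := ρ) (χ := χ) (one_mem K) g
  rwa [one_mul, one_mul] at this

lemma K_mem_pairs {c : Module.End k V} (hc : c ∈ K) : (c, c) ∈ pairs ρ χ K := by
  have := mk_mem_pairs (ρ := ρ) (χ := χ) hc 1
  rwa [inv_one, map_one, map_one, one_smul, mul_one] at this

lemma add_mem_of_pairs (h : CT ρ χ K) {z : Module.End k V × Module.End k V}
    (hz : z ∈ pairs ρ χ K) : z.1 + z.2 ∈ K := by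
  induction hz using Submodule.span_induction with
  | mem z hz =>
    obtain ⟨c, hc, g, rfl⟩ := hz
    rw [← mul_add]
    exact mul_mem hc (h.tr g)
  | zero => simp
  | add x y _ _ hx hy =>
    have : (x + y).1 + (x + y).2 = (x.1 + x.2) + (y.1 + y.2) := by
      rw [Prod.fst_add, Prod.snd_add]; abel
    rw [this]
    exact add_mem hx hy
  | smul a x _ hx =>
    rw [Prod.smul_fst, Prod.smul_snd, ← smul_add]
    exact K.smul_mem hx a

lemma comm_of_pairs (h : CT ρ χ K) {z : Module.End k V × Module.End k V}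
    (hz : z ∈ pairs ρ χ K) {c : Module.End k V} (hc : c ∈ K) :
    c * z.1 = z.1 * c ∧ c * z.2 = z.2 * c := by
  induction hz using Submodule.span_induction with
  | mem z hz =>
    obtain ⟨c', hc', g, rfl⟩ := hz
    constructor
    · change c * (c' * ρ g) = c' * ρ g * c
      rw [← mul_assoc, h.comm c hc c' hc', mul_assoc, h.commΓ c hc, mul_assoc]
    · change c * (c' * (χ g • ρ g⁻¹)) = c' * (χ g • ρ g⁻¹) * c
      rw [← mul_assoc, h.comm c hc c' hc', mul_assoc, mul_smul_comm, h.commΓ c hc, mul_assoc,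
        smul_mul_assoc]
  | zero => simp
  | add x y _ _ hx hy =>
    rw [Prod.fst_add, Prod.snd_add, mul_add, mul_add, add_mul, add_mul, hx.1, hx.2, hy.1, hy.2]
    exact ⟨rfl, rfl⟩
  | smul a x _ hx =>
    rw [Prod.smul_fst, Prod.smul_snd, mul_smul_comm, mul_smul_comm, hx.1, hx.2, smul_mul_assoc,
      smul_mul_assoc]
    exact ⟨rfl, rfl⟩

lemma swap_mem_pairs {z : Module.End k V × Module.End k V}
    (hz : z ∈ pairs ρ χ K) : (z.2, z.1) ∈ pairs ρ χ K := by
  induction hz using Submodule.span_induction with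
  | mem z hz =>
    obtain ⟨c', hc', g, rfl⟩ := hz
    have hχ : χ g * χ g⁻¹ = 1 := by rw [← map_mul, mul_inv_cancel, map_one]
    have h1 := (pairs ρ χ K).smul_mem (χ g) (mk_mem_pairs (ρ := ρ) (χ := χ) hc' g⁻¹)
    rw [Prod.smul_mk, inv_inv, ← mul_smul_comm, ← mul_smul_comm, smul_smul, hχ, one_smul] at h1
    exact h1
  | zero => exact (pairs ρ χ K).zero_mem
  | add x y _ _ hx hy => exact (pairs ρ χ K).add_mem hx hy
  | smul a x _ hx => exact (pairs ρ χ K).smul_mem a hx

lemma mul_mem_pairs (h : CT ρ χ K) {z z' : Module.End k V × Module.End k V}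
    (hz : z ∈ pairs ρ χ K) (hz' : z' ∈ pairs ρ χ K) :
    (z.1 * z'.1, z'.2 * z.2) ∈ pairs ρ χ K := by
  induction hz using Submodule.span_induction with
  | mem z hz =>
    obtain ⟨c, hc, g, rfl⟩ := hz
    induction hz' using Submodule.span_induction with
    | mem z' hz' =>
      obtain ⟨c', hc', g', rfl⟩ := hz'
      have h1 := mk_mem_pairs (ρ := ρ) (χ := χ) (mul_mem hc hc') (g * g')
      have e1 : c * ρ g * (c' * ρ g') = c * c' * ρ (g * g') := by
        rw [mul_assoc, ← mul_assoc (ρ g), ← h.commΓ c' hc', map_mul]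
        simp only [mul_assoc]
      have e2 : c' * (χ g' • ρ g'⁻¹) * (c * (χ g • ρ g⁻¹)) =
          c * c' * (χ (g * g') • ρ (g * g')⁻¹) := by
        rw [mul_inv_rev, map_mul, map_mul, mul_assoc, ← mul_assoc (χ g' • ρ g'⁻¹), smul_mul_assoc,
          ← h.commΓ c hc, smul_mul_assoc, mul_smul_comm, mul_smul_comm, mul_smul_comm,
          mul_smul_comm, smul_smul, mul_comm (χ g'), ← mul_assoc, ← mul_assoc,
          h.comm c' hc' c hc]
        simp only [mul_assoc]
      change (c * ρ g * (c' * ρ g'), c' * (χ g' • ρ g'⁻¹) * (c * (χ g • ρ g⁻¹))) ∈ pairs ρ χ K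
      rw [e1, e2]
      exact h1
    | zero =>
      simp only [Prod.fst_zero, Prod.snd_zero, mul_zero, zero_mul]
      exact (pairs ρ χ K).zero_mem
    | add x y _ _ hx hy =>
      rw [Prod.fst_add, Prod.snd_add, mul_add, add_mul]
      exact (pairs ρ χ K).add_mem hx hy
    | smul a x _ hx =>
      rw [Prod.smul_fst, Prod.smul_snd, mul_smul_comm, smul_mul_assoc]
      exact (pairs ρ χ K).smul_mem a hx
  | zero =>
    simp only [Prod.fst_zero, Prod.snd_zero, mul_zero, zero_mul]
    exact (pairs ρ χ K).zero_mem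
  | add x y _ _ hx hy =>
    rw [Prod.fst_add, Prod.snd_add, mul_add, add_mul]
    exact (pairs ρ χ K).add_mem hx hy
  | smul a x _ hx =>
    rw [Prod.smul_fst, Prod.smul_snd, mul_smul_comm, smul_mul_assoc]
    exact (pairs ρ χ K).smul_mem a hx

end pairs

section main

variable {Γ : Type*} [Group Γ] {ρ : Γ →* Module.End k V} {χ : Γ →* k}
  {K : Subalgebra k (Module.End k V)}

/-- A pair of complementary idempotents exchanged by the involution. -/
structure Idem (ρ : Γ →* Module.End k V) (χ : Γ →* k) (K : Subalgebra k (Module.End k V))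
    (e₁ e₂ : Module.End k V) : Prop where
  add : e₁ + e₂ = 1
  mul₁ : e₁ * e₁ = e₁
  mul₂ : e₂ * e₂ = e₂
  mul₁₂ : e₁ * e₂ = 0
  mul₂₁ : e₂ * e₁ = 0
  mem : (e₁, e₂) ∈ pairs ρ χ K

lemma Idem.swap {e₁ e₂ : Module.End k V} (he : Idem ρ χ K e₁ e₂) : Idem ρ χ K e₂ e₁ where
  add := by rw [add_comm]; exact he.add
  mul₁ := he.mul₂
  mul₂ := he.mul₁
  mul₁₂ := he.mul₂₁
  mul₂₁ := he.mul₁₂
  mem := swap_mem_pairs he.mem

/-- `(e₁ a e₂, -(e₁ a e₂))` is a pair. -/
lemma Idem.offdiag (h : CT ρ χ K) {e₁ e₂ : Module.End k V} (he : Idem ρ χ K e₁ e₂)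
    {z : Module.End k V × Module.End k V} (hz : z ∈ pairs ρ χ K) :
    (e₁ * z.1 * e₂, -(e₁ * z.1 * e₂)) ∈ pairs ρ χ K := by
  have h1 : (e₁ * z.1 * e₂, e₁ * (z.2 * e₂)) ∈ pairs ρ χ K :=
    mul_mem_pairs h (mul_mem_pairs h he.mem hz) he.swap.mem
  have h2 := add_mem_of_pairs h h1
  simp only at h2
  have h3 : e₁ * z.1 * e₂ + e₁ * (z.2 * e₂) = 0 := by
    have h4 := (comm_of_pairs h he.mem h2).1
    simp only at h4
    have h5 : e₁ * (e₁ * z.1 * e₂ + e₁ * (z.2 * e₂)) = e₁ * z.1 * e₂ + e₁ * (z.2 * e₂) := by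
      rw [mul_add, ← mul_assoc, ← mul_assoc, he.mul₁, ← mul_assoc, he.mul₁]
    rw [← h5, ← h4, add_mul]
    simp only [mul_assoc, he.mul₂₁, mul_zero, add_zero]
  rw [← eq_neg_of_add_eq_zero_right h3]
  exact h1

/-- `e₁ a e₁ = c e₁` with `c ∈ K`. -/
lemma Idem.diag_mem (h : CT ρ χ K) {e₁ e₂ : Module.End k V} (he : Idem ρ χ K e₁ e₂)
    {z : Module.End k V × Module.End k V} (hz : z ∈ pairs ρ χ K) :
    e₁ * z.1 * e₁ + e₂ * z.2 * e₂ ∈ K := by
  have h1 : (e₁ * z.1 * e₁, e₂ * (z.2 * e₂)) ∈ pairs ρ χ K :=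
    mul_mem_pairs h (mul_mem_pairs h he.mem hz) he.mem
  have h2 := add_mem_of_pairs h h1
  simpa only [mul_assoc] using h2

lemma Idem.diag_mul (e₁ e₂ : Module.End k V) (he : Idem ρ χ K e₁ e₂)
    (z : Module.End k V × Module.End k V) :
    (e₁ * z.1 * e₁ + e₂ * z.2 * e₂) * e₁ = e₁ * z.1 * e₁ ∧
    (e₁ * z.1 * e₁ + e₂ * z.2 * e₂) * e₂ = e₂ * z.2 * e₂ := by
  constructor
  · rw [add_mul, mul_assoc _ e₁ e₁, he.mul₁, mul_assoc _ e₂ e₁, he.mul₂₁, mul_zero, add_zero]
  · rw [add_mul, mul_assoc _ e₁ e₂, he.mul₁₂, mul_zero, zero_add, mul_assoc _ e₂ e₂, he.mul₂]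

/-- stability under `Γ` and `K` -/
structure Stable (ρ : Γ →* Module.End k V) (K : Subalgebra k (Module.End k V))
    (W : Submodule k V) : Prop where
  gal : ∀ g, ∀ w ∈ W, ρ g w ∈ W
  cen : ∀ c ∈ K, ∀ w ∈ W, c w ∈ W

/-- The main trace identity. -/
theorem trace_fst_eq_snd [FiniteDimensional k V] (h : CT ρ χ K) {e₁ e₂ : Module.End k V}
    (he : Idem ρ χ K e₁ e₂)
    (H1 : ∀ W : Submodule k V, Stable ρ K W → (∀ w ∈ W, e₂ w = 0) → W = ⊥)
    (H2 : ∀ W : Submodule k V, Stable ρ K W → (∀ w ∈ W, e₁ w = 0) → W = ⊥)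
    {z : Module.End k V × Module.End k V} (hz : z ∈ pairs ρ χ K) :
    LinearMap.trace k V z.1 = LinearMap.trace k V z.2 := by
  -- the ideal
  let I : Submodule k (Module.End k V) := Submodule.span k
    {x | ∃ z ∈ pairs ρ χ K, ∃ z' ∈ pairs ρ χ K,
      x = (e₁ * z.1 * e₂) * (e₂ * z'.1 * e₁) + (e₂ * z'.1 * e₁) * (e₁ * z.1 * e₂)}
  have hIK : ∀ x ∈ I, x ∈ K := by
    intro x hx
    induction hx using Submodule.span_induction with
    | mem x hx =>
      obtain ⟨z, hz, z', hz', rfl⟩ := hx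
      have h1 := mul_mem_pairs h (he.offdiag h hz) (he.swap.offdiag h hz')
      have h2 := add_mem_of_pairs h h1
      simpa only [neg_mul_neg] using h2
    | zero => exact zero_mem K
    | add x y _ _ hx hy => exact add_mem hx hy
    | smul a x _ hx => exact K.smul_mem hx a
  have hcz : ∀ c ∈ K, ∀ z ∈ pairs ρ χ K, (c * z.1, c * z.2) ∈ pairs ρ χ K := by
    intro c hc z hz
    have h1 := mul_mem_pairs h (K_mem_pairs hc) hz
    rwa [← (comm_of_pairs h hz hc).2] at h1
  have hce₁ : ∀ c ∈ K, c * e₁ = e₁ * c := fun c hc => (comm_of_pairs h he.mem hc).1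
  have hce₂ : ∀ c ∈ K, c * e₂ = e₂ * c := fun c hc => (comm_of_pairs h he.mem hc).2
  have hcz1 : ∀ c ∈ K, ∀ z ∈ pairs ρ χ K, c * z.1 = z.1 * c :=
    fun c hc z hz => (comm_of_pairs h hz hc).1
  have hmul : ∀ c ∈ K, ∀ x ∈ I, c * x ∈ I := by
    intro c hc x hx
    induction hx using Submodule.span_induction with
    | mem x hx =>
      obtain ⟨z, hz, z', hz', rfl⟩ := hx
      apply Submodule.subset_span
      refine ⟨_, hcz c hc z hz, z', hz', ?_⟩
      have e1 : e₁ * (c * z.1) * e₂ = c * (e₁ * z.1 * e₂) := by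
        rw [← mul_assoc e₁ c, ← hce₁ c hc]
        simp only [mul_assoc]
      have e2 : (e₂ * z'.1 * e₁) * c = c * (e₂ * z'.1 * e₁) := by
        rw [mul_assoc, ← hce₁ c hc, ← mul_assoc, mul_assoc e₂ z'.1 c, ← hcz1 c hc z' hz',
          ← mul_assoc e₂ c, ← hce₂ c hc]
        simp only [mul_assoc]
      simp only
      rw [e1, mul_add, ← mul_assoc, ← mul_assoc (e₂ * z'.1 * e₁) c, e2]
      simp only [mul_assoc]
    | zero => rw [mul_zero]; exact I.zero_mem
    | add x y _ _ hx hy => rw [mul_add]; exact I.add_mem hx hy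
    | smul a x _ hx => rw [mul_smul_comm]; exact I.smul_mem a hx
  -- the annihilated subspace
  let U : Submodule k V := {
    carrier := {v | ∀ x ∈ I, x v = 0}
    add_mem' := fun {a b} ha hb x hx => by rw [map_add, ha x hx, hb x hx, add_zero]
    zero_mem' := fun x _ => map_zero x
    smul_mem' := fun c v hv x hx => by rw [map_smul, hv x hx, smul_zero] }
  have hUpair : ∀ z ∈ pairs ρ χ K, ∀ v ∈ U, z.1 v ∈ U := by
    intro z hz v hv x hx
    have h1 := hcz1 x (hIK x hx) z hz
    have h2 : x (z.1 v) = (x * z.1) v := rfl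
    rw [h2, h1, Module.End.mul_apply, hv x hx, map_zero]
  have hUe₁ : ∀ v ∈ U, e₁ v ∈ U := hUpair _ he.mem
  have hUe₂ : ∀ v ∈ U, e₂ v ∈ U := hUpair _ he.swap.mem
  have hUst : Stable ρ K U := by
    refine ⟨fun g v hv => hUpair _ (gen_mem_pairs g) v hv, fun c hc v hv => ?_⟩
    exact hUpair _ (K_mem_pairs hc) v hv
  have hkey : ∀ z ∈ pairs ρ χ K, ∀ z' ∈ pairs ρ χ K, ∀ w ∈ U,
      (e₂ * z'.1 * e₁) ((e₁ * z.1 * e₂) w) = 0 := by
    intro z hz z' hz' w hw
    have h1 := hw _ (Submodule.subset_span ⟨z, hz, z', hz', rfl⟩)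
    have h2 : e₂ (((e₁ * z.1 * e₂) * (e₂ * z'.1 * e₁) +
      (e₂ * z'.1 * e₁) * (e₁ * z.1 * e₂)) w) = (e₂ * z'.1 * e₁) ((e₁ * z.1 * e₂) w) := by
      have h3 : e₂ * ((e₁ * z.1 * e₂) * (e₂ * z'.1 * e₁) +
          (e₂ * z'.1 * e₁) * (e₁ * z.1 * e₂)) = (e₂ * z'.1 * e₁) * (e₁ * z.1 * e₂) := by
        rw [mul_add]
        simp only [← mul_assoc]
        rw [he.mul₂₁, he.mul₂]
        simp
      exact LinearMap.congr_fun h3 w
    rw [← h2, h1, map_zero]
  -- the subspace W
  let W : Submodule k V := Submodule.span k {x | ∃ z ∈ pairs ρ χ K, ∃ w ∈ U,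
    x = (e₁ * z.1 * e₂) w}
  have hW1 : ∀ w ∈ W, e₂ w = 0 := by
    intro w hw
    induction hw using Submodule.span_induction with
    | mem x hx =>
      obtain ⟨z, hz, w, hw, rfl⟩ := hx
      have : e₂ * (e₁ * z.1 * e₂) = 0 := by
        rw [← mul_assoc, ← mul_assoc, he.mul₂₁]; simp
      exact LinearMap.congr_fun this w
    | zero => exact map_zero _
    | add x y _ _ hx hy => rw [map_add, hx, hy, add_zero]
    | smul a x _ hx => rw [map_smul, hx, smul_zero]
  have hWcen : ∀ c ∈ K, ∀ w ∈ W, c w ∈ W := by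
    intro c hc w hw
    induction hw using Submodule.span_induction with
    | mem x hx =>
      obtain ⟨z, hz, w, hw, rfl⟩ := hx
      apply Submodule.subset_span
      refine ⟨_, hcz c hc z hz, w, hw, ?_⟩
      have e1 : c * (e₁ * z.1 * e₂) = e₁ * (c * z.1) * e₂ := by
        rw [← mul_assoc e₁ c, ← hce₁ c hc]
        simp only [mul_assoc]
      exact LinearMap.congr_fun e1 w
    | zero => rw [map_zero]; exact W.zero_mem
    | add x y _ _ hx hy => rw [map_add]; exact W.add_mem hx hy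
    | smul a x _ hx => rw [map_smul]; exact W.smul_mem a hx
  have hWst : Stable ρ K W := by
    refine ⟨fun g w hw => ?_, hWcen⟩
    induction hw using Submodule.span_induction with
    | mem x hx =>
      obtain ⟨z, hz, w, hw, rfl⟩ := hx
      have h1 : ρ g ((e₁ * z.1 * e₂) w) = (e₁ * ρ g * e₁ + e₂ * (χ g • ρ g⁻¹) * e₂)
          ((e₁ * z.1 * e₂) w) + (e₂ * ρ g * e₁) ((e₁ * z.1 * e₂) w) := by
        have h2 : ρ g * (e₁ * z.1 * e₂) = (e₁ * ρ g * e₁ + e₂ * (χ g • ρ g⁻¹) * e₂) *
            (e₁ * z.1 * e₂) + (e₂ * ρ g * e₁) * (e₁ * z.1 * e₂) := by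
          have h3 : ρ g = e₁ * ρ g + e₂ * ρ g := by rw [← add_mul, he.add, one_mul]
          have h4 : ∀ y, e₂ * (χ g • ρ g⁻¹) * e₂ * (e₁ * y) = 0 := by
            intro y
            rw [← mul_assoc, mul_assoc _ e₂ e₁, he.mul₂₁, mul_zero, zero_mul]
          have h5 : ∀ x y : Module.End k V, x * e₁ * (e₁ * y) = x * (e₁ * y) := by
            intro x y
            rw [← mul_assoc (x * e₁) e₁, mul_assoc x, he.mul₁, mul_assoc]
          calc ρ g * (e₁ * z.1 * e₂) = (e₁ * ρ g + e₂ * ρ g) * (e₁ * z.1 * e₂) := by rw [← h3]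
            _ = _ := by
              rw [add_mul, add_mul, mul_assoc e₁ z.1 e₂, h4, h5, h5, add_zero]
        exact LinearMap.congr_fun h2 w
      rw [h1, hkey z hz _ (gen_mem_pairs g) w hw, add_zero]
      exact hWcen _ (he.diag_mem h (gen_mem_pairs g)) _ (Submodule.subset_span ⟨z, hz, w, hw, rfl⟩)
    | zero => rw [map_zero]; exact W.zero_mem
    | add x y _ _ hx hy => rw [map_add]; exact W.add_mem hx hy
    | smul a x _ hx => rw [map_smul]; exact W.smul_mem a hx
  have hW : W = ⊥ := H1 W hWst hW1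
  have hu0 : ∀ z ∈ pairs ρ χ K, ∀ w ∈ U, (e₁ * z.1 * e₂) w = 0 := by
    intro z hz w hw
    have : (e₁ * z.1 * e₂) w ∈ W := Submodule.subset_span ⟨z, hz, w, hw, rfl⟩
    rwa [hW, Submodule.mem_bot] at this
  have hadd : ∀ v, e₁ v + e₂ v = v := by
    intro v
    have := LinearMap.congr_fun he.add v
    exact this
  have hU2 : ∀ w ∈ U, e₂ w = 0 := by
    have h1 : Submodule.map e₂ U = ⊥ := by
      apply H2
      · refine ⟨?_, ?_⟩
        · rintro g _ ⟨w, hw, rfl⟩
          refine ⟨ρ g (e₂ w), hUst.gal g _ (hUe₂ w hw), ?_⟩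
          have h2 := hadd (ρ g (e₂ w))
          have h3 : e₁ (ρ g (e₂ w)) = 0 := hu0 _ (gen_mem_pairs g) w hw
          rw [h3, zero_add] at h2
          exact h2
        · rintro c hc _ ⟨w, hw, rfl⟩
          refine ⟨c w, hUst.cen c hc w hw, ?_⟩
          exact (LinearMap.congr_fun (hce₂ c hc) w).symm
      · rintro _ ⟨w, hw, rfl⟩
        exact LinearMap.congr_fun he.mul₁₂ w
    intro w hw
    have : e₂ w ∈ Submodule.map e₂ U := ⟨w, hw, rfl⟩
    rwa [h1, Submodule.mem_bot] at this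
  have hU : U = ⊥ := H1 U hUst hU2
  have h1I : (1 : Module.End k V) ∈ I := by
    apply one_mem_of_forall K h.comm I hIK hmul
    intro v hv
    have : v ∈ U := hv
    rwa [hU, Submodule.mem_bot] at this
  -- traces of central elements
  have htr : ∀ c ∈ K, LinearMap.trace k V (c * e₁) = LinearMap.trace k V (c * e₂) := by
    intro c hc
    have key : ∀ x ∈ I, LinearMap.trace k V (c * x * e₁) = LinearMap.trace k V (c * x * e₂) := by
      intro x hx
      induction hx using Submodule.span_induction with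
      | mem x hx =>
        obtain ⟨z, hz, z', hz', rfl⟩ := hx
        set u := e₁ * z.1 * e₂ with hu
        set v := e₂ * z'.1 * e₁ with hv
        have hue₁ : u * e₁ = 0 := by rw [hu, mul_assoc, he.mul₂₁, mul_zero]
        have hue₂ : u * e₂ = u := by rw [hu, mul_assoc, he.mul₂]
        have hve₁ : v * e₁ = v := by rw [hv, mul_assoc, he.mul₁]
        have hve₂ : v * e₂ = 0 := by rw [hv, mul_assoc, he.mul₁₂, mul_zero]
        have hcu : c * v = v * c := by
          have := (comm_of_pairs h (he.swap.offdiag h hz') hc).1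
          exact this
        clear_value u v
        have e1 : c * (u * v + v * u) * e₁ = c * u * v := by
          rw [mul_assoc, add_mul, mul_assoc u, hve₁, mul_assoc v, hue₁, mul_zero, add_zero,
            mul_assoc]
        have e2 : c * (u * v + v * u) * e₂ = v * (c * u) := by
          rw [mul_assoc, add_mul, mul_assoc u, hve₂, mul_zero, zero_add, mul_assoc v, hue₂,
            ← mul_assoc, hcu, mul_assoc]
        rw [e1, e2, LinearMap.trace_mul_comm]
      | zero => simp
      | add x y _ _ hx hy =>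
        rw [mul_add, add_mul, add_mul, map_add, map_add, hx, hy]
      | smul a x _ hx =>
        rw [mul_smul_comm, smul_mul_assoc, smul_mul_assoc, map_smul, map_smul, hx]
    have := key 1 h1I
    rwa [mul_one] at this
  have hsplit : ∀ x : Module.End k V, LinearMap.trace k V x =
      LinearMap.trace k V (e₁ * x * e₁) + LinearMap.trace k V (e₂ * x * e₂) := by
    intro x
    have e1 : LinearMap.trace k V (e₁ * x * e₁) = LinearMap.trace k V (x * e₁) := by
      rw [LinearMap.trace_mul_comm, ← mul_assoc, he.mul₁, LinearMap.trace_mul_comm]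
    have e2 : LinearMap.trace k V (e₂ * x * e₂) = LinearMap.trace k V (x * e₂) := by
      rw [LinearMap.trace_mul_comm, ← mul_assoc, he.mul₂, LinearMap.trace_mul_comm]
    rw [e1, e2, ← map_add, ← mul_add, he.add, mul_one]
  have d1 := Idem.diag_mul e₁ e₂ he z
  have d2 := Idem.diag_mul e₁ e₂ he (z.2, z.1)
  have m1 := he.diag_mem h hz
  have m2 := he.diag_mem h (swap_mem_pairs hz)
  have t1 := htr _ m1
  have t2 := htr _ m2
  rw [d1.1, d1.2] at t1
  rw [d2.1, d2.2] at t2
  simp only at t2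
  rw [hsplit z.1, hsplit z.2, t1, ← t2, add_comm]

end main

end Fermat.Agent.Mazur.Tr
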