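import Fermat.Agent.Mazur.Trace
import Mathlib.Algebra.Polynomial.Expand
import Mathlib.RingTheory.Polynomial.Basic

/-!
# Dimensions of eigenspaces from the trace identity
-/

set_option autoImplicit false

namespace Fermat.Agent.Mazur.Tr

open Polynomial Module

variable {k : Type*} [Field k] {V : Type*} [AddCommGroup V] [Module k V]

variable {Γ : Type*} [Group Γ] {ρ : Γ →* Module.End k V} {χ : Γ →* k}
  {K : Subalgebra k (Module.End k V)}

lemma chi_mul_inv (σ : Γ) : χ σ * χ σ⁻¹ = 1 := by rw [← map_mul, mul_inv_cancel, map_one]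

lemma chi_ne_zero (σ : Γ) : χ σ ≠ 0 := by
  intro h
  have := chi_mul_inv (χ := χ) σ
  rw [h, zero_mul] at this
  exact zero_ne_one this

lemma rho_mul_inv (σ : Γ) : ρ σ * ρ σ⁻¹ = 1 := by rw [← map_mul, mul_inv_cancel, map_one]

lemma rho_inv_mul (σ : Γ) : ρ σ⁻¹ * ρ σ = 1 := by rw [← map_mul, inv_mul_cancel, map_one]

/-- The idempotents attached to an element `σ` with eigenvalues `1` and `χ σ ≠ 1`. -/
theorem idem_of_quadratic (σ : Γ) (hσ : (ρ σ - 1) * (ρ σ - χ σ • (1 : Module.End k V)) = 0)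
    (hχ : χ σ ≠ 1) :
    Idem ρ χ K (1 - (χ σ - 1)⁻¹ • (ρ σ - 1)) ((χ σ - 1)⁻¹ • (ρ σ - 1)) := by
  have hne : χ σ - 1 ≠ 0 := sub_ne_zero.mpr hχ
  have hsq : (ρ σ - 1) * (ρ σ - 1) = (χ σ - 1) • (ρ σ - 1) := by
    have h1 : (ρ σ - 1) = (ρ σ - χ σ • (1 : Module.End k V)) + (χ σ - 1) • 1 := by
      rw [sub_smul, one_smul]; abel
    calc (ρ σ - 1) * (ρ σ - 1) = (ρ σ - 1) * ((ρ σ - χ σ • (1 : Module.End k V)) +
          (χ σ - 1) • 1) := by rw [← h1]
      _ = _ := by rw [mul_add, hσ, zero_add, mul_smul_comm, mul_one]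
  have h22 : ((χ σ - 1)⁻¹ • (ρ σ - 1)) * ((χ σ - 1)⁻¹ • (ρ σ - 1)) =
      (χ σ - 1)⁻¹ • (ρ σ - 1) := by
    rw [smul_mul_assoc, mul_smul_comm, hsq, smul_smul (χ σ - 1)⁻¹ (χ σ - 1),
      inv_mul_cancel₀ hne, one_smul]
  set e₂ : Module.End k V := (χ σ - 1)⁻¹ • (ρ σ - 1) with he₂
  have hstar : (χ σ - 1)⁻¹ • (χ σ • ρ σ⁻¹ - 1) = 1 - e₂ := by
    have h1 : χ σ • ρ σ⁻¹ + ρ σ = (χ σ + 1) • (1 : Module.End k V) := by
      have h2 : ρ σ * ρ σ = (χ σ + 1) • ρ σ - χ σ • (1 : Module.End k V) := by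
        simp only [sub_mul, mul_sub, one_mul, mul_one] at hsq
        linear_combination (norm := module) hsq
      have h3 := congrArg (fun x => ρ σ⁻¹ * x) h2
      simp only [mul_sub, mul_smul_comm, mul_one] at h3
      rw [← mul_assoc, rho_inv_mul, one_mul] at h3
      rw [h3]; abel
    have h2 : χ σ • ρ σ⁻¹ - 1 = (χ σ - 1) • (1 : Module.End k V) - (ρ σ - 1) := by
      rw [eq_sub_iff_add_eq.mpr h1, add_smul, sub_smul, one_smul]; abel
    rw [h2, smul_sub, smul_smul, inv_mul_cancel₀ hne, one_smul]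
  refine ⟨sub_add_cancel _ _, ?_, h22, ?_, ?_, ?_⟩
  · rw [sub_mul, mul_sub, mul_sub, h22]; simp
  · rw [sub_mul, h22]; simp
  · rw [mul_sub, h22]; simp
  · have h1 := (pairs ρ χ K).smul_mem (χ σ - 1)⁻¹
      ((pairs ρ χ K).sub_mem (gen_mem_pairs σ) (K_mem_pairs (one_mem K)))
    apply swap_mem_pairs (z := (e₂, 1 - e₂))
    rw [← hstar]
    exact h1


lemma e₂_apply_eq_zero {σ : Γ} (hχ : χ σ ≠ 1) {v : V} :
    ((χ σ - 1)⁻¹ • (ρ σ - 1)) v = 0 ↔ ρ σ v = v := by
  have hne : χ σ - 1 ≠ 0 := sub_ne_zero.mpr hχ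
  rw [LinearMap.smul_apply, smul_eq_zero_iff_right (inv_ne_zero hne), LinearMap.sub_apply,
    sub_eq_zero]
  rfl

lemma e₁_apply_eq_zero {σ : Γ} (hχ : χ σ ≠ 1) {v : V} :
    (1 - (χ σ - 1)⁻¹ • (ρ σ - 1)) v = 0 ↔ ρ σ v = χ σ • v := by
  have hne : χ σ - 1 ≠ 0 := sub_ne_zero.mpr hχ
  have h1 : (1 - (χ σ - 1)⁻¹ • (ρ σ - 1)) v = v - (χ σ - 1)⁻¹ • (ρ σ v - v) := rfl
  rw [h1, sub_eq_zero, eq_comm, inv_smul_eq_iff₀ hne, sub_smul, one_smul, sub_left_inj]

/-- The first dimension formula. -/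
theorem two_mul_finrank_ker [FiniteDimensional k V] [CharZero k] (h : CT ρ χ K)
    {e₁ e₂ : Module.End k V}
    (he : Idem ρ χ K e₁ e₂)
    (H1 : ∀ W : Submodule k V, Stable ρ K W → (∀ w ∈ W, e₂ w = 0) → W = ⊥)
    (H2 : ∀ W : Submodule k V, Stable ρ K W → (∀ w ∈ W, e₁ w = 0) → W = ⊥) :
    2 * finrank k (LinearMap.ker e₁) = finrank k V := by
  have h1 := trace_fst_eq_snd h he H1 H2 he.mem
  have h2 : LinearMap.IsProj (LinearMap.ker e₁) e₂ := by
    refine ⟨fun x => ?_, fun x hx => ?_⟩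
    · rw [LinearMap.mem_ker]
      exact LinearMap.congr_fun he.mul₁₂ x
    · have := LinearMap.congr_fun he.add x
      change e₁ x + e₂ x = x at this
      rwa [LinearMap.mem_ker.mp hx, zero_add] at this
  have h3 := h2.trace
  have h4 : LinearMap.trace k V e₁ + LinearMap.trace k V e₂ = finrank k V := by
    rw [← map_add, he.add, LinearMap.trace_one]
  simp only at h1
  rw [h1, h3] at h4
  have h5 : ((2 * finrank k (LinearMap.ker e₁) : ℕ) : k) = (finrank k V : ℕ) := by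
    push_cast
    rw [← h4]; ring
  exact Nat.cast_injective h5

lemma pow_mem_pairs (h : CT ρ χ K) {z : Module.End k V × Module.End k V}
    (hz : z ∈ pairs ρ χ K) (n : ℕ) : (z.1 ^ n, z.2 ^ n) ∈ pairs ρ χ K := by
  induction n with
  | zero => simpa using K_mem_pairs (one_mem K)
  | succ n ih =>
    have := mul_mem_pairs h ih hz
    rw [pow_succ, pow_succ']
    exact this

lemma aeval_mem_pairs (h : CT ρ χ K) {z : Module.End k V × Module.End k V}
    (hz : z ∈ pairs ρ χ K) (p : k[X]) : (aeval z.1 p, aeval z.2 p) ∈ pairs ρ χ K := by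
  induction p using Polynomial.induction_on' with
  | add p q hp hq =>
    rw [map_add, map_add]
    exact (pairs ρ χ K).add_mem hp hq
  | monomial n a =>
    rw [aeval_monomial, aeval_monomial, ← Algebra.smul_def, ← Algebra.smul_def]
    exact (pairs ρ χ K).smul_mem a (pow_mem_pairs h hz n)

/-- the projection onto a generalised eigenspace -/
lemma isProj_aeval {F : Module.End k V} {P Q U W : k[X]} (hPQ : aeval F (P * Q) = 0)
    (hUW : U * P + W * Q = 1) : LinearMap.IsProj (LinearMap.ker (aeval F Q)) (aeval F (U * P)) := by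
  refine ⟨fun x => ?_, fun x hx => ?_⟩
  · rw [LinearMap.mem_ker]
    have : aeval F Q * aeval F (U * P) = 0 := by
      rw [← map_mul, show Q * (U * P) = U * (P * Q) by ring, map_mul, hPQ, mul_zero]
    exact LinearMap.congr_fun this x
  · have h1 : aeval F (U * P) + aeval F W * aeval F Q = 1 := by
      rw [← map_mul, ← map_add, hUW, map_one]
    have h2 := LinearMap.congr_fun h1 x
    change aeval F (U * P) x + aeval F W (aeval F Q x) = x at h2
    rwa [LinearMap.mem_ker.mp hx, map_zero, add_zero] at h2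

/-- The second dimension formula. -/
theorem two_mul_finrank_ker_pow [FiniteDimensional k V] [CharZero k] (h : CT ρ χ K)
    {e₁ e₂ : Module.End k V}
    (he : Idem ρ χ K e₁ e₂)
    (H1 : ∀ W : Submodule k V, Stable ρ K W → (∀ w ∈ W, e₂ w = 0) → W = ⊥)
    (H2 : ∀ W : Submodule k V, Stable ρ K W → (∀ w ∈ W, e₁ w = 0) → W = ⊥)
    {g : Γ} {c : k} (hc : χ g = c) (hc2 : c ^ 2 ≠ 1) {a : ℕ}
    (hg : ((ρ g) ^ 2 - 1) ^ a * ((ρ g) ^ 2 - c ^ 2 • (1 : Module.End k V)) ^ a = 0) :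
    2 * finrank k (LinearMap.ker (((ρ g) ^ 2 - c ^ 2 • (1 : Module.End k V)) ^ a)) =
      finrank k V := by
  have hc0 : c ≠ 0 := by rw [← hc]; exact chi_ne_zero g
  let P : k[X] := (X ^ 2 - 1) ^ a
  let Q : k[X] := (X ^ 2 - C (c ^ 2)) ^ a
  have hcop : IsCoprime P Q := by
    apply IsCoprime.pow
    refine ⟨C ((c ^ 2 - 1)⁻¹), - C ((c ^ 2 - 1)⁻¹), ?_⟩
    have h1 : (c ^ 2 - 1)⁻¹ * (c ^ 2 - 1) = 1 := inv_mul_cancel₀ (sub_ne_zero.mpr hc2)
    have h2 : C ((c ^ 2 - 1)⁻¹) * (C (c ^ 2) - 1) = (1 : k[X]) := by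
      rw [← C_1, ← C_sub, ← C_mul, h1]
    linear_combination h2
  obtain ⟨U, W, hUW⟩ := hcop
  set F : Module.End k V := ρ g with hF
  set F' : Module.End k V := χ g • ρ g⁻¹ with hF'
  have hFF' : F * F' = c • 1 := by rw [hF', mul_smul_comm, rho_mul_inv, hc]
  have hF'F : F' * F = c • 1 := by rw [hF', smul_mul_assoc, rho_inv_mul, hc]
  have haP : aeval F P = (F ^ 2 - 1) ^ a := by simp [P]
  have haQ : aeval F Q = (F ^ 2 - c ^ 2 • (1 : Module.End k V)) ^ a := by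
    simp [Q, Algebra.algebraMap_eq_smul_one, smul_pow]
  have haP' : aeval F' P = (F' ^ 2 - 1) ^ a := by simp [P]
  have haQ' : aeval F' Q = (F' ^ 2 - c ^ 2 • (1 : Module.End k V)) ^ a := by
    simp [Q, Algebra.algebraMap_eq_smul_one, smul_pow]
  have hPQ : aeval F (P * Q) = 0 := by rw [map_mul, haP, haQ, hg]
  -- the same for `F'`
  have hcomm : Commute F' F := by rw [Commute, SemiconjBy, hFF', hF'F]
  have h22 : F' ^ 2 * F ^ 2 = c ^ 2 • (1 : Module.End k V) := by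
    rw [← hcomm.mul_pow, hF'F, smul_pow, one_pow]
  have hc1 : Commute (F' ^ 2) (F ^ 2 - c ^ 2 • (1 : Module.End k V)) :=
    (hcomm.pow_pow 2 2).sub_right ((Commute.one_right _).smul_right _)
  have hc2' : Commute (F' ^ 2) (F ^ 2 - 1) := (hcomm.pow_pow 2 2).sub_right (Commute.one_right _)
  have e1 : F' ^ 2 - 1 = (-(c ^ 2)⁻¹) • (F' ^ 2 * (F ^ 2 - c ^ 2 • (1 : Module.End k V))) := by
    rw [mul_sub, h22, mul_smul_comm, mul_one, smul_sub, smul_smul, smul_smul, neg_mul,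
      inv_mul_cancel₀ (pow_ne_zero 2 hc0), neg_smul, neg_smul, one_smul, one_smul]
    abel
  have e2 : F' ^ 2 - c ^ 2 • (1 : Module.End k V) = (-1 : k) • (F' ^ 2 * (F ^ 2 - 1)) := by
    rw [mul_sub, h22, mul_one, neg_smul, one_smul]
    abel
  have hP' : aeval F' P = ((-(c ^ 2)⁻¹) ^ a) • ((F' ^ 2) ^ a * aeval F Q) := by
    rw [haP', haQ, e1, smul_pow, hc1.mul_pow]
  have hQ' : aeval F' Q = ((-1 : k) ^ a) • ((F' ^ 2) ^ a * aeval F P) := by
    rw [haQ', haP, e2, smul_pow, hc2'.mul_pow]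
  have hPQ' : aeval F' (P * Q) = 0 := by
    rw [map_mul, hP', hQ', smul_mul_assoc, mul_smul_comm]
    have : (F' ^ 2) ^ a * aeval F Q * ((F' ^ 2) ^ a * aeval F P) =
        (F' ^ 2) ^ a * (F' ^ 2) ^ a * aeval F (P * Q) := by
      have h3 : Commute (aeval F Q) ((F' ^ 2) ^ a) := by
        rw [haQ]
        exact (hc1.pow_pow a a).symm
      rw [mul_assoc, ← mul_assoc (aeval F Q), h3.eq, mul_comm P Q, map_mul]
      simp only [mul_assoc]
    rw [this, hPQ, mul_zero, smul_zero, smul_zero]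
  have hF'inj : ∀ v : V, ((F' ^ 2) ^ a) v = 0 → v = 0 := by
    intro v hv
    have h3 : (F ^ 2) ^ a * (F' ^ 2) ^ a = ((c ^ 2) ^ a) • (1 : Module.End k V) := by
      rw [← pow_mul, ← pow_mul, ← hcomm.symm.mul_pow, hFF', smul_pow, one_pow, pow_mul]
    have h4 := LinearMap.congr_fun h3 v
    change ((F ^ 2) ^ a) (((F' ^ 2) ^ a) v) = (c ^ 2) ^ a • v at h4
    rw [hv, map_zero, eq_comm] at h4
    exact (smul_eq_zero.mp h4).resolve_left (pow_ne_zero a (pow_ne_zero 2 hc0))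
  have hker : LinearMap.ker (aeval F' Q) = LinearMap.ker (aeval F P) := by
    ext v
    rw [LinearMap.mem_ker, LinearMap.mem_ker, hQ', LinearMap.smul_apply,
      smul_eq_zero_iff_right (pow_ne_zero a (neg_ne_zero.mpr one_ne_zero))]
    constructor
    · intro h3
      exact hF'inj _ h3
    · intro h3
      change ((F' ^ 2) ^ a) (aeval F P v) = 0
      rw [h3, map_zero]
  have t1 := (isProj_aeval hPQ hUW).trace
  have t2 := (isProj_aeval hPQ' hUW).trace
  have t3 := (isProj_aeval (P := Q) (Q := P) (U := W) (W := U) (by rw [mul_comm, hPQ])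
    (by rw [add_comm, hUW])).trace
  have t4 : LinearMap.trace k V (aeval F (U * P)) + LinearMap.trace k V (aeval F (W * Q)) =
      finrank k V := by
    rw [← map_add, ← map_add, hUW, map_one, LinearMap.trace_one]
  have t5 := trace_fst_eq_snd h he H1 H2 (aeval_mem_pairs h (gen_mem_pairs g) (U * P))
  change LinearMap.trace k V (aeval F (U * P)) = LinearMap.trace k V (aeval F' (U * P)) at t5
  rw [hker] at t2
  rw [t5, t2] at t1
  rw [t5, t2, t3, t1] at t4
  rw [← haQ]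
  have h5 : ((2 * finrank k (LinearMap.ker (aeval F Q)) : ℕ) : k) = (finrank k V : ℕ) := by
    push_cast
    rw [← t4]; ring
  exact Nat.cast_injective h5

end Fermat.Agent.Mazur.Tr
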