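import Fermat.Agent.Mazur.BRel
import Fermat.Agent.Mazur.TraceDim

/-!
# The rational Tate module and the coranks of the local pieces
-/

set_option autoImplicit false

namespace Fermat.Agent.Mazur

open Fermat.Agent.Frob Fermat.Agent.Tate Fermat.Agent.Minkowski Module Tr
open scoped Pointwise

section defs

variable (q : ℕ) [hqf : Fact q.Prime] (M : Type*) [AddCommGroup M] [DistribMulAction GQ M]

/-- base change of endomorphisms to the rational Tate module -/
noncomputable abbrev bcV (M : Type*) [AddCommGroup M] :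
    Module.End ℤ_[q] (TMod q M) →ₐ[ℤ_[q]] Module.End ℚ_[q] (VMod q M) :=
  Module.End.baseChangeHom ℤ_[q] ℚ_[q] (TMod q M)

/-- the Galois representation on the rational Tate module -/
noncomputable def rV : GQ →* Module.End ℚ_[q] (VMod q M) :=
  (bcV q M : Module.End ℤ_[q] (TMod q M) →* Module.End ℚ_[q] (VMod q M)).comp (TMod.rep q GQ M)

/-- the cyclotomic character with values in `ℚ_[q]` -/
noncomputable def chiV : GQ →* ℚ_[q] :=
  (algebraMap ℤ_[q] ℚ_[q] : ℤ_[q] →* ℚ_[q]).comp ((Units.coeHom ℤ_[q]).comp (chiZ q))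

/-- the trace algebra -/
noncomputable def KV : Subalgebra ℚ_[q] (Module.End ℚ_[q] (VMod q M)) :=
  Algebra.adjoin ℚ_[q] (Set.range fun g => rV q M g + chiV q g • rV q M g⁻¹)

/-- functoriality of the Tate module as a ring homomorphism -/
noncomputable def mapHom (M : Type*) [AddCommGroup M] :
    AddMonoid.End M →+* Module.End ℤ_[q] (TMod q M) where
  toFun f := TMod.map f
  map_one' := rfl
  map_mul' _ _ := rfl
  map_zero' := rfl
  map_add' _ _ := rfl

end defs

variable {q : ℕ} [hqf : Fact q.Prime] {N : ℕ} {R : Type*} [CommRing R] {P : Ideal R}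
    {T : Nat.Primes → R} {M : Type*} [AddCommGroup M] [Module R M] [DistribMulAction GQ M]
    [SMulCommClass GQ R M]

lemma chiV_apply (g : GQ) : chiV q g = algebraMap ℤ_[q] ℚ_[q] (chiZ q g : ℤ_[q]) := rfl

omit [DistribMulAction GQ M] in
omit [Module R M] in
lemma bcV_iotaV (f : Module.End ℤ_[q] (TMod q M)) (t : TMod q M) :
    bcV q M f (iotaV q M t) = iotaV q M (f t) := rfl

omit [Module R M] in
lemma rV_apply (g : GQ) : rV q M g = bcV q M (rT q M g) := rfl

lemma rV_iotaV (g : GQ) (t : TMod q M) : rV q M g (iotaV q M t) = iotaV q M (rT q M g t) := rfl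

omit [DistribMulAction GQ M] in
lemma bcV_smul (c : ℤ_[q]) (f : Module.End ℤ_[q] (TMod q M)) :
    bcV q M (c • f) = algebraMap ℤ_[q] ℚ_[q] c • bcV q M f := by
  rw [map_smul, algebraMap_smul]

lemma bcV_tT (g : GQ) : bcV q M (tT q M g) = rV q M g + chiV q g • rV q M g⁻¹ := by
  rw [tT, map_add, bcV_smul, chiV_apply]
  rfl

theorem MInput.ct (h : MInput hqf.out N P T M) : CT (rV q M) (chiV q) (KV q M) := by
  have h1 : ∀ g g', (rV q M g + chiV q g • rV q M g⁻¹) * rV q M g' =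
      rV q M g' * (rV q M g + chiV q g • rV q M g⁻¹) := by
    intro g g'
    rw [← bcV_tT, rV_apply, ← map_mul, ← map_mul]
    congr 1
    ext1 t
    exact h.tT_comm g g' t
  have h2 : ∀ a ∈ KV q M, ∀ g, a * rV q M g = rV q M g * a := by
    intro a ha g
    induction ha using Algebra.adjoin_induction with
    | mem x hx =>
      obtain ⟨g', rfl⟩ := hx
      exact h1 g' g
    | algebraMap r => exact Algebra.commutes r _
    | add x y _ _ hx hy => rw [add_mul, mul_add, hx, hy]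
    | mul x y _ _ hx hy => rw [mul_assoc, hy, ← mul_assoc, hx, mul_assoc]
  refine ⟨?_, h2, fun g => Algebra.subset_adjoin ⟨g, rfl⟩⟩
  intro a ha b hb
  induction hb using Algebra.adjoin_induction with
  | mem x hx =>
    obtain ⟨g', rfl⟩ := hx
    simp only
    rw [mul_add, add_mul, mul_smul_comm, h2 a ha, h2 a ha, smul_mul_assoc]
  | algebraMap r => exact (Algebra.commutes r _).symm
  | add x y _ _ hx hy => rw [mul_add, add_mul, hx, hy]
  | mul x y _ _ hx hy => rw [← mul_assoc, hx, mul_assoc, hy, mul_assoc]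

section atq

variable {B : ValuationSubring (AlgebraicClosure ℚ)} {φN : GQ} {a : ℕ}
  {A : ValuationSubring (AlgebraicClosure ℚ)} {M₀ : AddSubgroup M}

/-- pull back a subspace to the Tate module -/
def pullT (W : Submodule ℚ_[q] (VMod q M)) : AddSubgroup (TMod q M) where
  carrier := {t | iotaV q M t ∈ W}
  zero_mem' := by
    change iotaV q M 0 ∈ W
    rw [map_zero]; exact W.zero_mem
  add_mem' := fun {a b} ha hb => by
    change iotaV q M (a + b) ∈ W
    rw [map_add]; exact W.add_mem ha hb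
  neg_mem' := fun {a} ha => by
    change iotaV q M (-a) ∈ W
    rw [map_neg]; exact W.neg_mem ha

omit [DistribMulAction GQ M] in
lemma eq_bot_of_pullT (W : Submodule ℚ_[q] (VMod q M)) (hW : ∀ t ∈ pullT W, t = 0) : W = ⊥ := by
  rw [eq_bot_iff]
  intro w hw
  obtain ⟨n, t, ht⟩ := exists_pow_smul_eq_iotaV w
  have h1 : t ∈ pullT W := by
    change iotaV q M t ∈ W
    rw [← ht]
    exact W.smul_mem _ hw
  rw [hW t h1, map_zero] at ht
  have h2 : (q : ℚ_[q]) ^ n ≠ 0 := pow_ne_zero _ (by exact_mod_cast hqf.out.ne_zero)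
  exact (smul_eq_zero.mp ht).resolve_left h2

theorem MInput.h1V (h : MInput hqf.out N P T M) (hw : WeightAt q N T M) (hB : AtN N M B φN a)
    (hA : AtQ hqf.out T M A M₀) {σ₀ : GQ} (hσ₀ : σ₀ ∈ A.inertiaSubgroupIn ℚ)
    (hχ : (chiZ q σ₀ : ℤ_[q]) ≠ 1) (W : Submodule ℚ_[q] (VMod q M))
    (hW : Stable (rV q M) (KV q M) W) (hσ : ∀ w ∈ W, rV q M σ₀ w = w) : W = ⊥ := by
  apply eq_bot_of_pullT
  apply h.h1T hw hB hA hσ₀ hχ
  · intro g t ht
    exact hW.gal g _ ht
  · intro t ht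
    apply iotaV_injective h.cofin
    exact hσ _ ht

theorem MInput.h2V (h : MInput hqf.out N P T M) (hw : WeightAt q N T M) (hB : AtN N M B φN a)
    (hA : AtQ hqf.out T M A M₀) {σ₀ : GQ} (hσ₀ : σ₀ ∈ A.inertiaSubgroupIn ℚ)
    (hχ : (chiZ q σ₀ : ℤ_[q]) ≠ 1) (W : Submodule ℚ_[q] (VMod q M))
    (hW : Stable (rV q M) (KV q M) W) (hσ : ∀ w ∈ W, rV q M σ₀ w = chiV q σ₀ • w) : W = ⊥ := by
  apply eq_bot_of_pullT
  apply h.h2T hw hB hA hσ₀ hχ
  · intro g t ht
    exact hW.gal g _ ht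
  · intro t ht
    apply iotaV_injective h.cofin
    rw [map_smul, ← algebraMap_smul ℚ_[q]]
    exact hσ _ ht

lemma MInput.quadV (_h : MInput hqf.out N P T M) (hA : AtQ hqf.out T M A M₀) {σ₀ : GQ}
    (hσ₀ : σ₀ ∈ A.inertiaSubgroupIn ℚ) :
    (rV q M σ₀ - 1) * (rV q M σ₀ - chiV q σ₀ • (1 : Module.End ℚ_[q] (VMod q M))) = 0 := by
  have h1 : (rT q M σ₀ - 1) * (rT q M σ₀ - (chiZ q σ₀ : ℤ_[q]) • (1 : Module.End ℤ_[q] (TMod q M)))
      = 0 := by
    ext1 t
    change rT q M σ₀ (rT q M σ₀ t - (chiZ q σ₀ : ℤ_[q]) • t) -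
      (rT q M σ₀ t - (chiZ q σ₀ : ℤ_[q]) • t) = 0
    have h2 := hA.rT_T0 hσ₀ (hA.sub_mem_T0 hσ₀ t)
    rw [map_sub] at h2
    rw [map_sub, map_smul]
    linear_combination (norm := module) h2
  have h2 := congrArg (bcV q M) h1
  rw [map_mul, map_sub, map_sub, bcV_smul, map_one, map_zero] at h2
  exact h2

/-- The corank of the multiplicative part at `q`. -/
theorem MInput.corank_D0 (h : MInput hqf.out N P T M) (hw : WeightAt q N T M)
    (hB : AtN N M B φN a) (hA : AtQ hqf.out T M A M₀) {D : AddSubgroup M} (hD : D ≤ M₀)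
    (hcD : Cofin q D) : 2 * corank q D ≤ corank q M := by
  obtain ⟨σ₀, hσ₀, hχ⟩ := exists_inertia_chiZ_ne_one (q := q) hA.lies
  have hχV : chiV q σ₀ ≠ 1 := by
    intro h0
    rw [chiV_apply, ← map_one (algebraMap ℤ_[q] ℚ_[q])] at h0
    exact hχ (FaithfulSMul.algebraMap_injective ℤ_[q] ℚ_[q] h0)
  have hfd := h.cofin.finiteDimensional
  have hidem := idem_of_quadratic (K := KV q M) σ₀ (h.quadV hA hσ₀) hχV
  have h1 := two_mul_finrank_ker h.ct hidem
    (fun W hW hW2 => h.h1V hw hB hA hσ₀ hχ W hW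
      (fun w hw' => (e₂_apply_eq_zero hχV).mp (hW2 w hw')))
    (fun W hW hW1 => h.h2V hw hB hA hσ₀ hχ W hW
      (fun w hw' => (e₁_apply_eq_zero hχV).mp (hW1 w hw')))
  rw [← finrank_VMod h.cofin, ← h1]
  apply Nat.mul_le_mul_left
  apply corank_le_finrank h.cofin hcD
  intro t
  rw [LinearMap.mem_ker, e₁_apply_eq_zero hχV, rV_iotaV]
  have h2 : TMod.map D.subtype t ∈ T0 q M₀ := fun n => hD (t n).2
  rw [hA.rT_T0 hσ₀ h2, map_smul, ← algebraMap_smul ℚ_[q]]
  rfl

/-- the toric part at `N` -/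
noncomputable def DT (M : Type*) [AddCommGroup M] [DistribMulAction GQ M] (φ : GQ) (a : ℕ) :
    AddSubgroup M :=
  AddMonoidHom.range (((gEnd M φ) ^ 2 - 1) ^ a : AddMonoid.End M)

/-- The corank of the toric part at `N`. -/
theorem MInput.corank_DT (h : MInput hqf.out N P T M) (hw : WeightAt q N T M)
    (hB : AtN N M B φN a) (hA : AtQ hqf.out T M A M₀) (hcD : Cofin q (DT M φN a)) :
    2 * corank q (DT M φN a) ≤ corank q M := by
  obtain ⟨σ₀, hσ₀, hχ⟩ := exists_inertia_chiZ_ne_one (q := q) hA.lies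
  have hχV : chiV q σ₀ ≠ 1 := by
    intro h0
    rw [chiV_apply, ← map_one (algebraMap ℤ_[q] ℚ_[q])] at h0
    exact hχ (FaithfulSMul.algebraMap_injective ℤ_[q] ℚ_[q] h0)
  have hfd := h.cofin.finiteDimensional
  have hidem := idem_of_quadratic (K := KV q M) σ₀ (h.quadV hA hσ₀) hχV
  have hcN : chiV q φN = (N : ℚ_[q]) := by
    rw [chiV_apply, chiZ_frob h.prime_N (Ne.symm h.ne) hB.lies hB.isFrob, map_natCast]
  have hN1 : (1 : ℕ) < N ^ 2 := Nat.one_lt_pow two_ne_zero h.prime_N.one_lt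
  have hc2 : (N : ℚ_[q]) ^ 2 ≠ 1 := by
    exact_mod_cast hN1.ne'
  let E : AddMonoid.End M := gEnd M φN
  have hmapE : bcV q M (mapHom q M E) = rV q M φN := rfl
  have hNsq : ((N ^ 2 : ℕ) : Module.End ℚ_[q] (VMod q M)) =
      (N : ℚ_[q]) ^ 2 • (1 : Module.End ℚ_[q] (VMod q M)) := by
    rw [← Nat.cast_pow, Nat.cast_smul_eq_nsmul, nsmul_one]
  have hrel0 : (E ^ 2 - 1) ^ a * (E ^ 2 - ((N ^ 2 : ℕ) : AddMonoid.End M)) ^ a = 0 := by
    ext x
    exact hB.frobN x
  have hrel : ((rV q M φN) ^ 2 - 1) ^ a *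
      ((rV q M φN) ^ 2 - (N : ℚ_[q]) ^ 2 • (1 : Module.End ℚ_[q] (VMod q M))) ^ a = 0 := by
    have h1 := congrArg (fun f => bcV q M (mapHom q M f)) hrel0
    simp only [map_mul, map_pow, map_sub, map_one, map_natCast, map_zero] at h1
    rw [hmapE, hNsq] at h1
    exact h1
  have h1 := two_mul_finrank_ker_pow h.ct hidem
    (fun W hW hW2 => h.h1V hw hB hA hσ₀ hχ W hW
      (fun w hw' => (e₂_apply_eq_zero hχV).mp (hW2 w hw')))
    (fun W hW hW1 => h.h2V hw hB hA hσ₀ hχ W hW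
      (fun w hw' => (e₁_apply_eq_zero hχV).mp (hW1 w hw'))) hcN hc2 hrel
  rw [← finrank_VMod h.cofin, ← h1]
  apply Nat.mul_le_mul_left
  apply corank_le_finrank h.cofin hcD
  intro t
  have h2 : ((rV q M φN) ^ 2 - (N : ℚ_[q]) ^ 2 • (1 : Module.End ℚ_[q] (VMod q M))) ^ a =
      bcV q M (mapHom q M ((E ^ 2 - ((N ^ 2 : ℕ) : AddMonoid.End M)) ^ a)) := by
    simp only [map_pow, map_sub, map_natCast]
    rw [hmapE, hNsq]
  rw [LinearMap.mem_ker, h2, bcV_iotaV]
  have h3 : mapHom q M ((E ^ 2 - ((N ^ 2 : ℕ) : AddMonoid.End M)) ^ a)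
      (TMod.map (DT M φN a).subtype t) = 0 := by
    apply TMod.ext
    intro n
    change ((E ^ 2 - ((N ^ 2 : ℕ) : AddMonoid.End M)) ^ a) ((t n : DT M φN a) : M) = 0
    obtain ⟨y, hy⟩ := (t n).2
    rw [← hy]
    have hcomm : (E ^ 2 - ((N ^ 2 : ℕ) : AddMonoid.End M)) ^ a * (E ^ 2 - 1) ^ a = 0 := by
      rw [← hrel0]
      apply Commute.pow_pow
      apply Commute.sub_left
      · exact (Commute.refl _).sub_right (Commute.one_right _)
      · exact (Nat.cast_commute _ _)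
    exact congrArg (fun f : AddMonoid.End M => f y) hcomm
  rw [h3, map_zero]

end atq

end Fermat.Agent.Mazur
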